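import Fermat.Agent.TWPrimes.SymSquare
import Mathlib.LinearAlgebra.Matrix.ToLinearEquiv
import Mathlib.LinearAlgebra.Matrix.Charpoly.Coeff

/-!
# No stable line of trace zero matrices

For `NoInducedLine r` (split eigenvalues, no subgroup of index at most two fixes a line): no line
of trace zero matrices is stable under the twisted adjoint action (`no_stable_matrix_line`).
Used by `Detection` and `Frame`.
-/

set_option autoImplicit false

open Matrix

noncomputable section

namespace FLTAgent.TWPrimes

variable {k : Type} [Field k] {Γ : Type} [Group Γ] (r : Γ →* GL (Fin 2) k)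

/-- The matrix of `r g`. -/
abbrev mat (g : Γ) : Matrix (Fin 2) (Fin 2) k := ((r g : GL (Fin 2) k) : Matrix (Fin 2) (Fin 2) k)

/-- The subgroup has index at most two. -/
def IndexLeTwo (H : Subgroup Γ) : Prop := ∀ a b : Γ, a ∉ H → b ∉ H → a * b ∈ H

/-- The running hypothesis: split eigenvalues, and no line is fixed by a subgroup of index at most
two. -/
structure NoInducedLine : Prop where
  split : ∀ g, ∃ a : k, (mat r g - a • 1).det = 0
  no_line : ∀ H : Subgroup Γ, IndexLeTwo H → ∀ v : Fin 2 → k, v ≠ 0 →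
    ∃ g ∈ H, ∀ a : k, mat r g *ᵥ v ≠ a • v

variable {r}

theorem mat_mul (g h : Γ) : mat r (g * h) = mat r g * mat r h := by
  simp [mat, Units.val_mul]

theorem mat_one : mat r 1 = 1 := by simp [mat]

theorem mat_inv_mul (g : Γ) : mat r g⁻¹ * mat r g = 1 := by
  rw [← mat_mul, inv_mul_cancel, mat_one]

theorem mat_mul_inv (g : Γ) : mat r g * mat r g⁻¹ = 1 := by
  rw [← mat_mul, mul_inv_cancel, mat_one]

theorem det_mat_ne_zero (g : Γ) : (mat r g).det ≠ 0 := (r g).det_ne_zero

/-- The kernel of a nonzero singular `2 × 2` matrix is a line. -/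
theorem exists_smul_of_mulVec_eq_zero {Z : Matrix (Fin 2) (Fin 2) k} {v w : Fin 2 → k}
    (hZ : Z ≠ 0) (hv : v ≠ 0) (hZv : Z *ᵥ v = 0) (hZw : Z *ᵥ w = 0) : ∃ b : k, w = b • v := by
  by_contra hcon
  push Not at hcon
  set P : Matrix (Fin 2) (Fin 2) k := Matrix.of fun i j => ![v i, w i] j with hP
  have hZP : Z * P = 0 := by
    ext i j
    have e1 := congr_fun hZv i; have e2 := congr_fun hZw i
    simp only [Matrix.mulVec, dotProduct, Fin.sum_univ_two, Pi.zero_apply] at e1 e2
    fin_cases j <;> simp [hP, Matrix.mul_apply, Fin.sum_univ_two, e1, e2]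
  have hdet : P.det ≠ 0 := by
    intro h0
    obtain ⟨x, hx0, hx⟩ := Matrix.exists_mulVec_eq_zero_iff.mpr h0
    have hcomb : x 0 • v + x 1 • w = 0 := by
      rw [← hx]; ext i
      simp [hP, Matrix.mulVec, dotProduct, Fin.sum_univ_two, mul_comm]
    by_cases h1 : x 1 = 0
    · rw [h1, zero_smul, add_zero, smul_eq_zero] at hcomb
      refine hx0 (funext fun i => ?_)
      fin_cases i
      · exact hcomb.resolve_right hv
      · exact h1
    · refine hcon (-(x 0) / x 1) ?_
      rw [div_eq_inv_mul, ← smul_smul, eq_inv_smul_iff₀ h1, neg_smul]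
      exact eq_neg_of_add_eq_zero_right hcomb
  refine hZ ?_
  have : Z * P * P⁻¹ = 0 := by rw [hZP, zero_mul]
  rwa [mul_assoc, Matrix.mul_nonsing_inv P (isUnit_iff_ne_zero.mpr hdet), mul_one] at this

/-- A non-scalar matrix with an eigenvector commutes only with matrices fixing that eigenline. -/
theorem exists_eigen_of_commute {X Y : Matrix (Fin 2) (Fin 2) k} {v : Fin 2 → k} {a : k}
    (hv : v ≠ 0) (hX : ∀ b : k, X ≠ b • 1) (hXv : X *ᵥ v = a • v) (hXY : X * Y = Y * X) :
    ∃ b : k, Y *ᵥ v = b • v := by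
  set Z := X - a • (1 : Matrix (Fin 2) (Fin 2) k) with hZ
  refine exists_smul_of_mulVec_eq_zero (Z := Z) (fun h0 => hX a (sub_eq_zero.mp h0)) hv ?_ ?_
  · rw [hZ, Matrix.sub_mulVec, Matrix.smul_mulVec, Matrix.one_mulVec, hXv, sub_self]
  · rw [hZ, Matrix.sub_mulVec, Matrix.smul_mulVec, Matrix.one_mulVec, Matrix.mulVec_mulVec, hXY,
      ← Matrix.mulVec_mulVec, hXv, Matrix.mulVec_smul, sub_self]

variable (h : NoInducedLine r)

include h

theorem NoInducedLine.exists_eigenvector (g : Γ) : ∃ v : Fin 2 → k, v ≠ 0 ∧ ∃ a : k,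
    mat r g *ᵥ v = a • v := by
  obtain ⟨a, ha⟩ := h.split g
  obtain ⟨v, hv, hv'⟩ := Matrix.exists_mulVec_eq_zero_iff.mpr ha
  refine ⟨v, hv, a, ?_⟩
  rw [Matrix.sub_mulVec, Matrix.smul_mulVec, Matrix.one_mulVec, sub_eq_zero] at hv'
  exact hv'

theorem NoInducedLine.fixesNoLine {v : Fin 2 → k} (hv : v ≠ 0) :
    ∃ g, ∀ a : k, mat r g *ᵥ v ≠ a • v := by
  obtain ⟨g, -, hg⟩ := h.no_line ⊤ (fun a b ha => absurd (Subgroup.mem_top a) ha) v hv
  exact ⟨g, hg⟩

theorem NoInducedLine.exists_nonscalar : ∃ g, ∀ a : k, mat r g ≠ a • 1 := by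
  by_contra hcon
  push Not at hcon
  obtain ⟨g, hg⟩ := h.fixesNoLine (v := ![1, 0]) (fun h0 => by simpa using congr_fun h0 0)
  obtain ⟨a, ha⟩ := hcon g
  exact hg a (by rw [ha, Matrix.smul_mulVec, Matrix.one_mulVec])

/-- The image is not abelian up to sign. -/
theorem NoInducedLine.not_projectively_commutative :
    ¬ ∀ g g', mat r g * mat r g' = mat r g' * mat r g ∨
      mat r g * mat r g' = -(mat r g' * mat r g) := by
  intro hab
  obtain ⟨g, hg⟩ := h.exists_nonscalar
  obtain ⟨v, hv, a, hva⟩ := h.exists_eigenvector g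
  let H : Subgroup Γ :=
    { carrier := {x | mat r g * mat r x = mat r x * mat r g}
      one_mem' := by simp [mat_one]
      mul_mem' := fun {x y} hx hy => by
        show mat r g * mat r (x * y) = mat r (x * y) * mat r g
        rw [mat_mul, ← mul_assoc, show mat r g * mat r x = mat r x * mat r g from hx, mul_assoc,
          show mat r g * mat r y = mat r y * mat r g from hy, mul_assoc]
      inv_mem' := fun {x} hx => by
        show mat r g * mat r x⁻¹ = mat r x⁻¹ * mat r g
        calc mat r g * mat r x⁻¹ = mat r x⁻¹ * (mat r x * mat r g) * mat r x⁻¹ := by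
              rw [← mul_assoc (mat r x⁻¹), mat_inv_mul, one_mul]
          _ = mat r x⁻¹ * mat r g * (mat r x * mat r x⁻¹) := by
              rw [← show mat r g * mat r x = mat r x * mat r g from hx]; simp [mul_assoc]
          _ = mat r x⁻¹ * mat r g := by rw [mat_mul_inv, mul_one] }
  have hH : IndexLeTwo H := by
    intro x y hx hy
    show mat r g * mat r (x * y) = mat r (x * y) * mat r g
    have hx' := (hab g x).resolve_left hx
    have hy' := (hab g y).resolve_left hy
    rw [mat_mul, ← mul_assoc, hx', neg_mul, mul_assoc, hy', mul_neg, neg_neg, mul_assoc]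
  obtain ⟨x, hx, hx'⟩ := h.no_line H hH v hv
  obtain ⟨b, hb⟩ := exists_eigen_of_commute hv hg hva hx
  exact hx' b hb

/-- No line of trace zero matrices is stable under the twisted adjoint action. -/
theorem NoInducedLine.no_stable_matrix_line [NeZero (2 : k)] {m : Matrix (Fin 2) (Fin 2) k}
    (hm : m.trace = 0) (hm0 : m ≠ 0) : ∃ g, ∀ a : k, symAct (mat r g) m ≠ a • m := by
  by_contra hcon
  push Not at hcon
  choose l hl using hcon
  -- in terms of products
  have hprod : ∀ g, mat r g * m = (l g / (mat r g).det) • (m * mat r g) := by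
    intro g
    have h1 := congrArg (· * mat r g) (hl g)
    simp only [symAct, mul_assoc, Matrix.adjugate_mul, mul_smul_comm, mul_one, smul_mul_assoc] at h1
    rw [div_eq_inv_mul, ← smul_smul, eq_inv_smul_iff₀ (det_mat_ne_zero g), ← h1]
  have hns : ∀ b : k, m ≠ b • 1 := by
    intro b hb
    rw [hb, Matrix.trace_smul, Matrix.trace_one, smul_eq_mul] at hm
    simp at hm
    rcases hm with h1 | h1
    · exact hm0 (by rw [hb, h1, zero_smul])
    · exact two_ne_zero h1
  by_cases hdet : m.det = 0
  · -- a nilpotent line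
    obtain ⟨v, hv, hv'⟩ := Matrix.exists_mulVec_eq_zero_iff.mpr hdet
    obtain ⟨g, hg⟩ := h.fixesNoLine hv
    have hcond : m *ᵥ (mat r g *ᵥ v) = 0 := by
      by_cases hl0 : l g / (mat r g).det = 0
      · exfalso
        have h1 := hprod g
        rw [hl0, zero_smul] at h1
        have := congrArg (mat r g⁻¹ * ·) h1
        simp only [← mul_assoc, mat_inv_mul, one_mul, mul_zero] at this
        exact hm0 this
      · have h1 := congrArg (fun M => M *ᵥ v) (hprod g)
        simp only [← Matrix.mulVec_mulVec, hv', Matrix.mulVec_zero, Matrix.smul_mulVec] at h1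
        exact (smul_eq_zero.mp h1.symm).resolve_left hl0
    obtain ⟨b, hb⟩ := exists_smul_of_mulVec_eq_zero hm0 hv hv' hcond
    exact hg b hb
  -- the semisimple case: `g m g⁻¹ = ± m`
  have hpm : ∀ g, mat r g * m = m * mat r g ∨ mat r g * m = -(m * mat r g) := by
    intro g
    have h1 := congrArg Matrix.det (hprod g)
    rw [Matrix.det_smul, Matrix.det_mul, Matrix.det_mul, Fintype.card_fin] at h1
    have h2 : (l g / (mat r g).det) ^ 2 = 1 := by
      refine mul_right_cancel₀ (mul_ne_zero hdet (det_mat_ne_zero (r := r) g)) ?_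
      rw [← h1]; ring
    rcases sq_eq_one_iff.mp h2 with h3 | h3
    · left; rw [hprod g, h3, one_smul]
    · right; rw [hprod g, h3, neg_one_smul]
  let H : Subgroup Γ :=
    { carrier := {x | mat r x * m = m * mat r x}
      one_mem' := by simp [mat_one]
      mul_mem' := fun {x y} hx hy => by
        show mat r (x * y) * m = m * mat r (x * y)
        rw [mat_mul, mul_assoc, show mat r y * m = m * mat r y from hy, ← mul_assoc,
          show mat r x * m = m * mat r x from hx, mul_assoc]
      inv_mem' := fun {x} hx => by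
        show mat r x⁻¹ * m = m * mat r x⁻¹
        calc mat r x⁻¹ * m = mat r x⁻¹ * (m * mat r x) * mat r x⁻¹ := by
              rw [mul_assoc, mul_assoc, mat_mul_inv, mul_one]
          _ = mat r x⁻¹ * mat r x * m * mat r x⁻¹ := by
              rw [← show mat r x * m = m * mat r x from hx]; simp [mul_assoc]
          _ = m * mat r x⁻¹ := by rw [mat_inv_mul, one_mul] }
  have hH : IndexLeTwo H := by
    intro x y hx hy
    show mat r (x * y) * m = m * mat r (x * y)
    have hx' := (hpm x).resolve_left hx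
    have hy' := (hpm y).resolve_left hy
    rw [mat_mul, mul_assoc, hy', mul_neg, ← mul_assoc, hx', neg_mul, neg_neg, mul_assoc]
  by_cases hsc : ∀ x ∈ H, ∃ a : k, mat r x = a • 1
  · -- then the image is abelian
    refine h.not_projectively_commutative fun g g' => Or.inl ?_
    by_cases hg : g ∈ H
    · obtain ⟨a, ha⟩ := hsc g hg
      rw [ha]; simp
    by_cases hg' : g' ∈ H
    · obtain ⟨a, ha⟩ := hsc g' hg'
      rw [ha]; simp
    obtain ⟨a, ha⟩ := hsc (g' * g) (hH g' g hg' hg)
    obtain ⟨b, hb⟩ := hsc (g * g) (hH g g hg hg)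
    rw [mat_mul] at ha hb
    have hb0 : b ≠ 0 := by
      intro h0
      rw [h0, zero_smul] at hb
      have := congrArg Matrix.det hb
      rw [Matrix.det_mul, Matrix.det_zero] at this
      exact det_mat_ne_zero g (mul_self_eq_zero.mp this)
    have hG : mat r g' = (a / b) • mat r g := by
      have h1 := congrArg (· * mat r g) ha
      simp only [mul_assoc, hb, mul_smul_comm, mul_one, smul_mul_assoc, one_mul] at h1
      rw [div_eq_inv_mul, ← smul_smul, eq_inv_smul_iff₀ hb0, h1]
    rw [hG]; simp
  · push Not at hsc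
    obtain ⟨x, hx, hx'⟩ := hsc
    obtain ⟨v, hv, a, hva⟩ := h.exists_eigenvector x
    obtain ⟨b, hb⟩ := exists_eigen_of_commute hv hx' hva hx
    obtain ⟨g, hgH, hg⟩ := h.no_line H hH v hv
    obtain ⟨c, hc⟩ := exists_eigen_of_commute hv hns hb
      (show m * mat r g = mat r g * m from (show mat r g * m = m * mat r g from hgH).symm)
    exact hg c hc

end FLTAgent.TWPrimes
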