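import Fermat.Prelude.Def_GaloisRep_LocalConditions
import Fermat.Prelude.Def_ExtCitation_KummerBridge
import Fermat.Agent.Density.Cyclotomic
import Fermat.Agent.DefRing.Setup
import Fermat.Agent.TWPrimes.Adjoint

/-!
# The residual frame

The matrix form `glHom` of a residual representation, the cyclotomic characters `cyclo m`, and the
translation of the hypotheses of the Taylor–Wiles prime theorem into matrix language
(`det_glHom`, `noInducedLine`).
-/

set_option autoImplicit false

open Matrix Polynomial IsLocalRing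

noncomputable section

namespace FLTAgent.TWPrimes

open FLTAgent.Density

section Cyclotomic

variable (m : ℕ) [NeZero m]

/-- The mod `m` cyclotomic character. -/
def cyclo : GalQ →* (ZMod m)ˣ :=
  (modularCyclotomicCharacter Qbar (card_rootsOfUnity_qbar m)).comp galToRingAut

/-- The finite cyclotomic character on roots of unity. -/
theorem cyclo_spec (σ : GalQ) {t : Qbar} (ht : t ^ m = 1) :
    σ t = t ^ ((cyclo m σ : (ZMod m)ˣ) : ZMod m).val := by
  have ht0 : t ≠ 0 := fun h0 => by
    rw [h0, zero_pow (NeZero.ne m)] at ht; exact zero_ne_one ht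
  let u : Qbarˣ := Units.mk0 t ht0
  have hu : u ∈ rootsOfUnity m Qbar := (mem_rootsOfUnity _ _).mpr
    (Units.ext (by simpa [u] using ht))
  exact modularCyclotomicCharacter.spec _ _ (galToRingAut σ) hu

/-- The cyclotomic character of a Frobenius element. -/
theorem cyclo_of_isFrobeniusAt {q : ℕ} (hq : q.Prime) (hqm : ¬ q ∣ m)
    {P : ValuationSubring Qbar} (hP : P.LiesOverPrime q) {φ : GalQ} (hφ : P.IsFrobeniusAt φ q) :
    (cyclo m φ : ZMod m) = (q : ZMod m) := by
  refine (modularCyclotomicCharacter.unique _ _ _ fun t ht => ?_).symm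
  have ht' : (t : Qbar) ^ m = 1 := by
    rw [← Units.val_pow_eq_pow_val, (mem_rootsOfUnity _ _).mp ht, Units.val_one]
  change φ (t : Qbar) = _
  rw [isFrobeniusAt_apply_of_pow_eq_one hq hP hφ hqm ht', ZMod.val_natCast]
  exact pow_eq_pow_mod _ ht'

theorem cyclo_surjective : Function.Surjective (cyclo m) := by
  intro a
  obtain ⟨q, hqm, hq, hqa⟩ := Nat.forall_exists_prime_gt_and_eq_mod a.isUnit m
  refine ⟨frob ⟨q, hq⟩, Units.ext ?_⟩
  rw [cyclo_of_isFrobeniusAt m hq (fun h => absurd (Nat.le_of_dvd (NeZero.pos m) h) (by omega))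
    (frobPlace_liesOverPrime ⟨q, hq⟩) (isFrobeniusAt_frob ⟨q, hq⟩), ← hqa]

theorem cyclo_factorsThroughFiniteLevel : GaloisFactorsThroughFiniteLevel (cyclo m) := by
  have : NeZero (m : Qbar) := ⟨Nat.cast_ne_zero.mpr (NeZero.ne m)⟩
  obtain ⟨ζ, hζ⟩ := (inferInstance : HasEnoughRootsOfUnity Qbar m).prim
  refine ⟨IntermediateField.adjoin ℚ {ζ},
    IntermediateField.adjoin.finiteDimensional (Algebra.IsIntegral.isIntegral ζ), fun σ hσ => ?_⟩
  refine Units.ext (modularCyclotomicCharacter.unique _ _ _ fun t ht => ?_).symm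
  have ht' : (t : Qbar) ^ m = 1 := by
    rw [← Units.val_pow_eq_pow_val, (mem_rootsOfUnity _ _).mp ht, Units.val_one]
  obtain ⟨i, -, hi⟩ := hζ.eq_pow_of_pow_eq_one ht'
  change σ (t : Qbar) = _
  have hfix : σ (t : Qbar) = t := by
    rw [← hi]
    exact hσ _ (pow_mem (IntermediateField.mem_adjoin_simple_self ℚ ζ) i)
  rw [hfix]
  rcases eq_or_ne m 1 with rfl | hm
  · simp only [pow_one] at ht'
    rw [ht', one_pow]
  · have : Fact (1 < m) := ⟨by have := NeZero.ne m; omega⟩
    rw [Units.val_one, ZMod.val_one, pow_one]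

theorem cyclo_eq_cycloChar (p : ℕ) [Fact p.Prime] (σ : GalQ) :
    cyclo p σ = ExtCitation.cycloChar p σ := rfl

theorem cyclo_eq_one_of_dvd {p : ℕ} [NeZero p] (h : p ∣ m) {σ : GalQ} (hσ : cyclo m σ = 1) :
    cyclo p σ = 1 := by
  refine Units.ext (modularCyclotomicCharacter.unique _ _ _ fun t ht => ?_).symm
  have ht' : (t : Qbar) ^ p = 1 := by
    rw [← Units.val_pow_eq_pow_val, (mem_rootsOfUnity _ _).mp ht, Units.val_one]
  have htm : (t : Qbar) ^ m = 1 := by
    obtain ⟨d, rfl⟩ := h; rw [pow_mul, ht', one_pow]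
  change σ (t : Qbar) = _
  rw [cyclo_spec m σ htm, hσ]
  rcases eq_or_ne m 1 with rfl | hm
  · obtain rfl := Nat.dvd_one.mp h
    simp only [pow_one] at ht'
    rw [ht', one_pow]
  · have : Fact (1 < m) := ⟨by have := NeZero.ne m; omega⟩
    rw [Units.val_one, Units.val_one, ZMod.val_one, pow_one]
    rcases eq_or_ne p 1 with rfl | hp
    · simp only [pow_one] at ht'
      rw [ht', one_pow]
    · have : Fact (1 < p) := ⟨by have := NeZero.ne p; omega⟩
      rw [ZMod.val_one, pow_one]

end Cyclotomic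

variable {k : Type} [Field k] (ρbar : ResidualGaloisRep k) (b : Module.Basis (Fin 2) k ρbar.V)

/-- The matrices of a residual representation. -/
def matHom : GalQ →* Matrix (Fin 2) (Fin 2) k :=
  (LinearMap.toMatrixAlgEquiv b).toAlgHom.toMonoidHom.comp ρbar.ρ

/-- The residual representation into `GL₂(k)`. -/
def glHom : GalQ →* GL (Fin 2) k := (matHom ρbar b).toHomUnits

theorem mat_glHom (σ : GalQ) :
    mat (glHom ρbar b) σ = LinearMap.toMatrix b b (ρbar.ρ σ) := rfl

theorem charpoly_glHom (σ : GalQ) :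
    (mat (glHom ρbar b) σ).charpoly = LinearMap.charpoly (ρbar.ρ σ) := by
  rw [mat_glHom, LinearMap.charpoly_toMatrix]

theorem glHom_factorsThroughFiniteLevel :
    GaloisFactorsThroughFiniteLevel (glHom ρbar b) := by
  obtain ⟨L, hL, h⟩ := ρbar.factorsThroughFiniteLevel
  refine ⟨L, hL, fun σ hσ => Units.ext ?_⟩
  show mat (glHom ρbar b) σ = 1
  rw [mat_glHom, h σ hσ, Module.End.one_eq_id, LinearMap.toMatrix_id]

theorem charP_of_detIsCyclotomic {p : ℕ} [Fact p.Prime]
    (hdet : (GaloisRepAdic.ofResidualGaloisRep ρbar).DetIsCyclotomic p) : CharP k p := by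
  have h0 : (p : k) = 0 := by
    have := hdet.1
    rwa [IsLocalRing.maximalIdeal_eq_bot, Ideal.mem_bot] at this
  exact CharP.ringChar_of_prime_eq_zero Fact.out h0 ▸ ringChar.charP k

theorem det_glHom {p : ℕ} [Fact p.Prime] [CharP k p]
    (hdet : (GaloisRepAdic.ofResidualGaloisRep ρbar).DetIsCyclotomic p) (σ : GalQ) :
    (mat (glHom ρbar b) σ).det =
      ZMod.castHom (dvd_refl p) k (ExtCitation.cycloChar p σ : ZMod p) := by
  have : NeZero p := ⟨(Fact.out : p.Prime).ne_zero⟩
  have h := hdet.2 1 σ ((cyclo p σ : (ZMod p)ˣ) : ZMod p).val (fun μ hμ =>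
    cyclo_spec p σ (by rwa [pow_one] at hμ))
  rw [pow_one, CharP.cast_eq_zero k p, Ideal.span_singleton_eq_bot.mpr rfl, Ideal.mem_bot,
    sub_eq_zero] at h
  rw [mat_glHom, LinearMap.det_toMatrix, ← cyclo_eq_cycloChar, ZMod.castHom_apply,
    ZMod.cast_eq_val]
  exact h

/-- The hypotheses of the theorem give the running hypothesis. -/
theorem noInducedLine (habs : ρbar.IsAbsolutelyIrreducible)
    (hsplit : ∀ σ, ∃ α β : k, LinearMap.charpoly (ρbar.ρ σ) = (X - C α) * (X - C β))
    (hTW : ∀ (K : Type) [Field K] [Algebra k K]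
      (G : Subgroup (AlgebraicClosure ℚ ≃ₐ[ℚ] AlgebraicClosure ℚ)), G.index = 2 →
      ∀ V : Submodule K (ρbar.baseChange K).V,
        (∀ σ ∈ G, ∀ x ∈ V, (ρbar.baseChange K).ρ σ x ∈ V) → V = ⊥ ∨ V = ⊤) :
    NoInducedLine (glHom ρbar b) := by
  refine ⟨fun σ => ?_, fun H hH v hv => ?_⟩
  · obtain ⟨α, β, h⟩ := hsplit σ
    refine ⟨α, ?_⟩
    have h1 := congrArg (Polynomial.eval α) (charpoly_glHom ρbar b σ)
    rw [h, Matrix.eval_charpoly] at h1
    simp only [eval_mul, eval_sub, eval_X, eval_C, sub_self, zero_mul] at h1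
    rw [← neg_sub, Matrix.det_neg, show Matrix.scalar (Fin 2) α = α • 1 by
      rw [Matrix.smul_one_eq_diagonal]; rfl] at h1
    simpa using h1
  by_contra hcon
  push Not at hcon
  by_cases htop : ∀ g, g ∈ H
  · -- contradicts absolute irreducibility
    exact DefRing.no_common_eigenvector ρbar habs b v hv fun g => hcon g (htop g)
  push Not at htop
  obtain ⟨a, ha⟩ := htop
  have hidx : H.index = 2 := Subgroup.index_eq_two_iff.mpr ⟨a, fun g => by
    by_cases hg : g ∈ H
    · exact Or.inr ⟨hg, fun h => ha (by simpa using H.mul_mem (H.inv_mem hg) h)⟩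
    · exact Or.inl ⟨hH g a hg ha, hg⟩⟩
  let b' : Module.Basis (Fin 2) k (ρbar.baseChange k).V := Algebra.TensorProduct.basis k b
  let w := b'.equivFun.symm v
  have hw : ∀ σ ∈ H, ∃ c : k, (ρbar.baseChange k).ρ σ w = c • w := by
    intro σ hσ
    obtain ⟨c, hc⟩ := hcon σ hσ
    refine ⟨c, b'.equivFun.injective ?_⟩
    rw [map_smul, show b'.equivFun w = v from b'.equivFun.apply_symm_apply v, ← hc]
    have h1 : LinearMap.toMatrix b' b' ((ρbar.baseChange k).ρ σ) = mat (glHom ρbar b) σ := by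
      rw [mat_glHom]
      exact (LinearMap.toMatrix_baseChange k (ρbar.ρ σ) b b).trans (by ext i j; simp)
    rw [← h1]
    have h2 : ⇑(b'.repr w) = v := b'.equivFun.apply_symm_apply v
    rw [← h2, LinearMap.toMatrix_mulVec_repr]
    rfl
  have hw0 : w ≠ 0 := fun h => hv (by
    have h3 := congr_arg b'.equivFun h
    rw [LinearEquiv.apply_symm_apply, map_zero] at h3
    exact h3)
  rcases hTW k H hidx (Submodule.span k {w}) (fun σ hσ x hx => by
    obtain ⟨c, rfl⟩ := Submodule.mem_span_singleton.mp hx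
    obtain ⟨d, hd⟩ := hw σ hσ
    rw [map_smul, hd, smul_smul]
    exact Submodule.smul_mem _ _ (Submodule.mem_span_singleton_self w)) with h | h
  · exact hw0 (Submodule.span_singleton_eq_bot.mp h)
  · have h1 := finrank_span_singleton (K := k) hw0
    rw [h, finrank_top, (ρbar.baseChange k).finrank_eq] at h1
    omega

end FLTAgent.TWPrimes
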