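import Fermat.Agent.LocalDuality.Fields
import Fermat.Agent.Density.Inertia
import Fermat.Prelude.Def_FLTPrelim_Ramification

/-!
# Decomposition group elements are local at every finite level

An element of the decomposition group of `padicPlace q` agrees on any finite level with the image
of a local Galois element (`exists_toGlobal_eq`). Used by `LocalPlace` and `Flat.Kills`.
-/

set_option autoImplicit false

open Polynomial

noncomputable section

namespace FLTAgent.TWPrimes

open FLTAgent.LocalDuality FLTAgent.Density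

variable (q : ℕ) [Fact q.Prime]

theorem norm_padicEmbedding_natCast :
    ‖padicEmbedding q (q : Qbar)‖ = (q : ℝ)⁻¹ := by
  rw [map_natCast, ← map_natCast (algebraMap ℚ_[q] (PadicAlgCl q)), norm_algebraMap', Padic.norm_p]

/-- The chosen place lies over `q`. -/
theorem padicPlace_liesOverPrime : (padicPlace q).LiesOverPrime q := by
  have hq : q.Prime := Fact.out
  rw [ValuationSubring.LiesOverPrime, ValuationSubring.mem_nonunits_iff]
  have h0 : (q : Qbar) ≠ 0 := Nat.cast_ne_zero.mpr hq.ne_zero
  refine lt_of_le_of_ne ?_ fun h1 => ?_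
  · rw [(padicPlace q).valuation_le_one_iff, mem_padicPlace_iff, ← NNReal.coe_le_coe, coe_nnnorm,
      NNReal.coe_one, norm_padicEmbedding_natCast]
    exact inv_le_one_of_one_le₀ (by exact_mod_cast hq.one_le)
  · have hinv : ((q : Qbar))⁻¹ ∈ padicPlace q := by
      rw [← (padicPlace q).valuation_le_one_iff, map_inv₀, h1, inv_one]
    rw [mem_padicPlace_iff, ← NNReal.coe_le_coe, coe_nnnorm, NNReal.coe_one, map_inv₀, norm_inv,
      norm_padicEmbedding_natCast, inv_inv] at hinv
    exact absurd hinv (not_le.mpr (by exact_mod_cast hq.one_lt))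

variable {q}

/-- Decomposition group elements preserve the norm. -/
theorem norm_padicEmbedding_apply {σ : GalQ} (hσ : σ ∈ (padicPlace q).decompositionSubgroup ℚ)
    (x : Qbar) : ‖padicEmbedding q (σ x)‖ = ‖padicEmbedding q x‖ := by
  have hq : q.Prime := Fact.out
  by_cases hx : x = 0
  · simp [hx]
  have hpos : ∀ y : Qbar, y ≠ 0 → 0 < ‖padicEmbedding q y‖ := fun y hy =>
    norm_pos_iff.mpr (by simpa using hy)
  have hmono : ∀ y z : Qbar, z ≠ 0 → (‖padicEmbedding q (σ y)‖ ≤ ‖padicEmbedding q (σ z)‖ ↔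
      ‖padicEmbedding q y‖ ≤ ‖padicEmbedding q z‖) := by
    intro y z hz
    have h := apply_mem_iff hσ (y / z)
    rw [mem_padicPlace_iff, mem_padicPlace_iff, ← NNReal.coe_le_coe, ← NNReal.coe_le_coe,
      coe_nnnorm, coe_nnnorm, NNReal.coe_one, map_div₀, map_div₀, map_div₀, norm_div, norm_div,
      div_le_one (hpos _ (by simpa using hz)), div_le_one (hpos _ hz)] at h
    exact h
  set a := ‖padicEmbedding q x‖ with ha
  set b := ‖padicEmbedding q (σ x)‖ with hb
  have ha0 : 0 < a := hpos x hx
  have hb0 : 0 < b := hpos _ (by simpa using hx)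
  -- powers of `a` and `b` sit in the same gaps of the powers of `q`
  have key : ∀ (n : ℕ) (r : ℤ), a ^ n ≤ (q : ℝ) ^ r ↔ b ^ n ≤ (q : ℝ) ^ r := by
    intro n r
    have hz : ((q : Qbar)⁻¹) ^ r ≠ 0 :=
      zpow_ne_zero _ (inv_ne_zero (Nat.cast_ne_zero.mpr hq.ne_zero))
    have hnorm : ∀ τ : Qbar, τ = ((q : Qbar)⁻¹) ^ r → ‖padicEmbedding q τ‖ = (q : ℝ) ^ r := by
      rintro τ rfl
      rw [map_zpow₀, map_inv₀, norm_zpow, norm_inv, norm_padicEmbedding_natCast, inv_inv]
    have h := hmono (x ^ n) _ hz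
    rw [map_pow, map_pow, map_pow, norm_pow, norm_pow, hnorm _ rfl,
      hnorm (σ (((q : Qbar)⁻¹) ^ r)) (by rw [map_zpow₀, map_inv₀, map_natCast]), ← ha, ← hb] at h
    exact h.symm
  by_contra hne
  have hq1 : (1 : ℝ) < q := by exact_mod_cast hq.one_lt
  rcases lt_or_gt_of_ne hne with hlt | hlt
  all_goals
    obtain ⟨n, hn⟩ := pow_unbounded_of_one_lt (q : ℝ) ((one_lt_div (by assumption)).mpr hlt)
    rw [div_pow, lt_div_iff₀ (by positivity)] at hn
  · obtain ⟨r, hr1, hr2⟩ := exists_mem_Ico_zpow (pow_pos ha0 n) hq1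
    have h := (key n r).not
    rw [not_le, not_le] at h
    rcases eq_or_lt_of_le hr1 with heq | hlt'
    · have : b ^ n ≤ (q : ℝ) ^ (r - 1) := by
        rw [zpow_sub_one₀ (by positivity), heq]
        rw [le_mul_inv_iff₀ (by positivity), mul_comm]
        exact hn.le
      have h2 := (key n (r - 1)).mpr this
      rw [← heq] at h2
      exact absurd h2 (not_le.mpr (zpow_lt_zpow_right₀ hq1 (by omega)))
    · have h2 := h.mp hlt'
      have : (q : ℝ) ^ r * q < a ^ n := lt_of_lt_of_le (by
        rw [mul_comm]; exact mul_lt_mul_of_pos_left h2 (by positivity)) hn.le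
      rw [← zpow_add_one₀ (by positivity)] at this
      exact absurd hr2 (not_lt.mpr this.le)
  · obtain ⟨r, hr1, hr2⟩ := exists_mem_Ico_zpow (pow_pos hb0 n) hq1
    have h := (key n r).not
    rw [not_le, not_le] at h
    rcases eq_or_lt_of_le hr1 with heq | hlt'
    · have : a ^ n ≤ (q : ℝ) ^ (r - 1) := by
        rw [zpow_sub_one₀ (by positivity), heq]
        rw [le_mul_inv_iff₀ (by positivity), mul_comm]
        exact hn.le
      have h2 := (key n (r - 1)).mp this
      rw [← heq] at h2
      exact absurd h2 (not_le.mpr (zpow_lt_zpow_right₀ hq1 (by omega)))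
    · have h2 := h.mpr hlt'
      have : (q : ℝ) ^ r * q < b ^ n := lt_of_lt_of_le (by
        rw [mul_comm]; exact mul_lt_mul_of_pos_left h2 (by positivity)) hn.le
      rw [← zpow_add_one₀ (by positivity)] at this
      exact absurd hr2 (not_lt.mpr this.le)

/-- **Local lift.** -/
theorem exists_toGlobal_eq {σ : GalQ} (hσ : σ ∈ (padicPlace q).decompositionSubgroup ℚ)
    (F : IntermediateField ℚ Qbar) [FiniteDimensional ℚ F] :
    ∃ τ : LocalGal q, ∀ x ∈ F, toGlobal q τ x = σ x := by
  obtain ⟨a, ha⟩ := Field.exists_primitive_element ℚ F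
  set x : PadicAlgCl q := padicEmbedding q (a : Qbar)
  set y : PadicAlgCl q := padicEmbedding q (σ (a : Qbar))
  set g := minpoly ℚ_[q] x with hg
  -- polynomials have values of the same norm at `x` and at `y`
  let ev : PadicAlgCl q → (Fin (g.natDegree + 1) → ℚ_[q]) → ℝ := fun z c =>
    ‖∑ i, algebraMap ℚ_[q] (PadicAlgCl q) (c i) * z ^ (i : ℕ)‖
  have hev : ev x = ev y := by
    have hcont : ∀ z, Continuous (ev z) := fun z => by
      refine continuous_norm.comp (continuous_finsetSum _ fun i _ => ?_)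
      exact ((continuous_algebraMap _ _).comp (continuous_apply i)).mul continuous_const
    refine DenseRange.equalizer
      (DenseRange.piMap (fun _ : Fin (g.natDegree + 1) => Padic.denseRange_ratCast q))
      (hcont x) (hcont y) (funext fun c => ?_)
    show ev x (fun i => ((c i : ℚ) : ℚ_[q])) = ev y (fun i => ((c i : ℚ) : ℚ_[q]))
    have e : ∀ b : Qbar, ev (padicEmbedding q b) (fun i => ((c i : ℚ) : ℚ_[q])) =
        ‖padicEmbedding q (∑ i, algebraMap ℚ Qbar (c i) * b ^ (i : ℕ))‖ := fun b => by
      simp [ev, map_sum]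
    rw [e, e, ← norm_padicEmbedding_apply hσ, map_sum]
    simp
  have hgy : Polynomial.aeval y g = 0 := by
    have h := congr_fun hev (fun i => g.coeff i)
    simp only [ev, Fin.sum_univ_eq_sum_range (fun i => algebraMap ℚ_[q] (PadicAlgCl q) (g.coeff i) *
      x ^ i), Fin.sum_univ_eq_sum_range (fun i => algebraMap ℚ_[q] (PadicAlgCl q) (g.coeff i) *
      y ^ i)] at h
    simp only [← Algebra.smul_def, ← aeval_eq_sum_range] at h
    rw [hg, minpoly.aeval, norm_zero] at h
    exact norm_eq_zero.mp h.symm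
  obtain ⟨τ, hτ⟩ := minpoly.exists_algEquiv_of_root (Algebra.IsAlgebraic.isAlgebraic x) hgy
  replace hτ : τ.symm x = y := by rw [← hτ, AlgEquiv.symm_apply_apply]
  refine ⟨τ.symm, fun z hz => ?_⟩
  have hτa : toGlobal q τ.symm (a : Qbar) = σ (a : Qbar) := by
    refine (padicEmbedding q).toRingHom.injective ?_
    show padicEmbedding q _ = padicEmbedding q _
    rw [padicEmbedding_localGaloisToGlobal]
    exact hτ
  have key : ∀ w : F, w ∈ (⊤ : IntermediateField ℚ F) →
      toGlobal q τ.symm (w : Qbar) = σ (w : Qbar) := by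
    rw [← ha]
    intro w hw
    induction hw using IntermediateField.adjoin_induction with
    | mem x hx => rw [Set.mem_singleton_iff.mp hx, hτa]
    | algebraMap r => rw [eq_ratCast, SubfieldClass.coe_ratCast, map_ratCast, map_ratCast]
    | add x y _ _ hx hy =>
      change toGlobal q τ.symm ((x : Qbar) + y) = σ ((x : Qbar) + y)
      rw [map_add, map_add, hx, hy]
    | inv x _ hx =>
      change toGlobal q τ.symm (x : Qbar)⁻¹ = σ (x : Qbar)⁻¹
      rw [map_inv₀, map_inv₀, hx]
    | mul x y _ _ hx hy =>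
      change toGlobal q τ.symm ((x : Qbar) * y) = σ ((x : Qbar) * y)
      rw [map_mul, map_mul, hx, hy]
  exact key ⟨z, hz⟩ IntermediateField.mem_top

end FLTAgent.TWPrimes
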