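import Mathlib.Topology.Compactification.OnePoint.ProjectiveLine
import Mathlib.GroupTheory.GroupAction.Quotient
import Mathlib.GroupTheory.Index
import Mathlib.FieldTheory.IsAlgClosed.Basic
import Mathlib.Tactic.LinearCombination

/-!
# Orbit counting for finite subgroups of `SL₂`

With `z` scalars, `z (q - 1)` nonscalar parabolics fixing `∞` and an orbit of `∞` of more than `q`
points, the stabiliser of `∞` has order `m` with `z (q + 1) (q - 2) < 2 m`, that is about
`z q (q - 1) / 2` at least (`stabilizer_infty_large`). Used by `SymSquareTorus`.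
-/

set_option autoImplicit false
set_option linter.unusedSectionVars false

open Matrix OnePoint

noncomputable section

namespace FLTAgent.TWPrimes

variable {K : Type} [Field K] [DecidableEq K] [IsAlgClosed K] [NeZero (2 : K)]

/-- A scalar element of `GL₂`. -/
def IsScalarGL (g : GL (Fin 2) K) : Prop := g 1 0 = 0 ∧ g 0 1 = 0 ∧ g 0 0 = g 1 1

/-- Scalars act trivially on the projective line. -/
theorem IsScalarGL.smul_eq {g : GL (Fin 2) K} (h : IsScalarGL g) (x : OnePoint K) : g • x = x := by
  obtain ⟨h1, h2, h3⟩ := h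
  have hne : g 1 1 ≠ 0 := fun h0 => g.det_ne_zero (by simp [Matrix.det_fin_two, h1, h3, h0])
  cases x with
  | infty => exact smul_infty_eq_self_iff.mpr h1
  | coe c => simp [smul_some_eq_ite, h1, h2, h3, hne]

/-- The fixed-point equation of a finite point. -/
theorem some_mem_fixed_iff {g : GL (Fin 2) K} {c : K} :
    g • (c : OnePoint K) = c ↔ g 1 0 * (c * c) + (g 1 1 - g 0 0) * c + -g 0 1 = 0 := by
  rw [← GeneralLinearGroup.fixpointPolynomial_aeval_eq_zero_iff]
  simp only [GeneralLinearGroup.fixpointPolynomial, map_sub, map_mul, map_add,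
    Polynomial.aeval_C, Polynomial.aeval_X_pow, Polynomial.aeval_X, Algebra.algebraMap_self_apply]
  constructor <;> intro h <;> linear_combination h

/-- The number of fixed points of a non-scalar element of determinant one. -/
theorem exists_fixed_finset {g : GL (Fin 2) K} (hdet : g 0 0 * g 1 1 - g 0 1 * g 1 0 = 1)
    (hs : ¬ IsScalarGL g) :
    ∃ F : Finset (OnePoint K), (∀ x, x ∈ F ↔ g • x = x) ∧
      F.card = if (g 0 0 + g 1 1) ^ 2 = 4 then 1 else 2 := by
  classical
  obtain ⟨s, hs'⟩ := IsAlgClosed.exists_eq_mul_self ((g 0 0 + g 1 1) ^ 2 - 4)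
  by_cases hc : g 1 0 = 0
  · by_cases had : g 0 0 = g 1 1
    · have hb : g 0 1 ≠ 0 := fun h => hs ⟨hc, h, had⟩
      refine ⟨{∞}, fun x => ?_, ?_⟩
      · cases x with
        | infty => simp [smul_infty_eq_self_iff, hc]
        | coe c => simp [some_mem_fixed_iff, hc, had, hb]
      · rw [hc, had] at hdet
        rw [if_pos (by rw [had]; linear_combination 4 * hdet)]
        rfl
    · refine ⟨{∞, ((g 0 1 / (g 1 1 - g 0 0) : K) : OnePoint K)}, fun x => ?_, ?_⟩
      · cases x with
        | infty => simp [smul_infty_eq_self_iff, hc]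
        | coe c =>
          have hne : g 1 1 - g 0 0 ≠ 0 := sub_ne_zero.mpr (Ne.symm had)
          simp only [Finset.mem_insert, Finset.mem_singleton, coe_ne_infty, false_or, coe_eq_coe,
            some_mem_fixed_iff, hc, eq_div_iff hne]
          constructor <;> intro h <;> linear_combination h
      · rw [if_neg, Finset.card_pair (infty_ne_coe _)]
        intro h
        apply had
        rw [hc, mul_zero, sub_zero] at hdet
        have : (g 0 0 - g 1 1) ^ 2 = 0 := by linear_combination h - 4 * hdet
        exact sub_eq_zero.mp (pow_eq_zero_iff two_ne_zero |>.mp this)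
  · have hd : discrim (g 1 0) (g 1 1 - g 0 0) (-g 0 1) = s * s := by
      rw [discrim, ← hs']; linear_combination -4 * hdet
    refine ⟨{(((-(g 1 1 - g 0 0) + s) / (2 * g 1 0) : K) : OnePoint K),
      (((-(g 1 1 - g 0 0) - s) / (2 * g 1 0) : K) : OnePoint K)}, fun x => ?_, ?_⟩
    · cases x with
      | infty => simp [smul_infty_eq_self_iff, hc, infty_ne_coe]
      | coe c =>
        simp only [Finset.mem_insert, Finset.mem_singleton, coe_eq_coe, some_mem_fixed_iff,
          quadratic_eq_zero_iff hc hd c]
    · by_cases h4 : (g 0 0 + g 1 1) ^ 2 = 4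
      · have hs0 : s = 0 := by
          have : s * s = 0 := by rw [← hs', h4, sub_self]
          exact mul_self_eq_zero.mp this
        simp [hs0, h4]
      · rw [if_neg h4, Finset.card_pair]
        intro h
        rw [coe_eq_coe, div_left_inj' (mul_ne_zero two_ne_zero hc)] at h
        have hs2 : 2 * s = 0 := by linear_combination h
        rw [(mul_eq_zero.mp hs2).resolve_left two_ne_zero] at hs'
        exact h4 (by linear_combination hs')

/-- The matrix of a product is the product of the matrices. -/
theorem entries_mul (g h : GL (Fin 2) K) :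
    (↑(g * h) : Matrix (Fin 2) (Fin 2) K) = (g : Matrix (Fin 2) (Fin 2) K) * h := rfl

/-- The trace is invariant under conjugation. -/
theorem trace_conj (g h : GL (Fin 2) K) :
    (↑(h * g * h⁻¹) : Matrix (Fin 2) (Fin 2) K).trace = (g : Matrix (Fin 2) (Fin 2) K).trace := by
  rw [entries_mul, entries_mul, Matrix.trace_mul_cycle, ← entries_mul, inv_mul_cancel]
  simp

/-- Scalar elements are the multiples of the identity matrix. -/
theorem isScalarGL_iff_center {g : GL (Fin 2) K} :
    IsScalarGL g ↔ (g : Matrix (Fin 2) (Fin 2) K) = g 0 0 • (1 : Matrix (Fin 2) (Fin 2) K) := by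
  constructor
  · rintro ⟨h1, h2, h3⟩
    ext i j; fin_cases i <;> fin_cases j <;> simp [h1, h2, h3]
  · intro h
    refine ⟨?_, ?_, ?_⟩ <;> rw [h] <;> simp

/-- Scalar elements are central. -/
theorem isScalarGL_conj {g h : GL (Fin 2) K} (hg : IsScalarGL g) : h * g * h⁻¹ = g := by
  rw [mul_inv_eq_iff_eq_mul]
  refine Units.ext ?_
  rw [entries_mul, entries_mul, isScalarGL_iff_center.mp hg]
  simp

/-- Conjugation does not change whether an element is scalar. -/
theorem isScalarGL_conj_iff {g h : GL (Fin 2) K} : IsScalarGL (h * g * h⁻¹) ↔ IsScalarGL g := by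
  refine ⟨fun hsc => ?_, fun hg => by rwa [isScalarGL_conj hg]⟩
  have := isScalarGL_conj (h := h⁻¹) hsc
  rw [show h⁻¹ * (h * g * h⁻¹) * h⁻¹⁻¹ = g by group] at this
  exact this ▸ hsc

variable (A : Subgroup (GL (Fin 2) K)) [Fintype A]

section Count

open scoped Classical

/-- The scalar elements of `A`. -/
def scalarPart : Finset A := Finset.univ.filter fun g : A => IsScalarGL (g : GL (Fin 2) K)

/-- The non-scalar elements of `A`. -/
def movingPart : Finset A := Finset.univ.filter fun g : A => ¬ IsScalarGL (g : GL (Fin 2) K)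

/-- The elements of `A` fixing a point. -/
def fixPart (x : OnePoint K) : Finset A := Finset.univ.filter fun g => g.1 • x = x

/-- The non-scalar elements of `A` fixing a point. -/
def movingFixPart (x : OnePoint K) : Finset A := (movingPart A).filter fun g => g.1 • x = x

/-- The orbit of a point under `A`. -/
def orbitPart (x : OnePoint K) : Finset (OnePoint K) := Finset.univ.image fun g : A => g.1 • x

/-- The non-scalar elements of trace `±2`. -/
def parabolicPart : Finset A := (movingPart A).filter fun g => (g.1 0 0 + g.1 1 1) ^ 2 = 4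

/-- Scalars fix every point. -/
theorem card_movingFixPart_add (x : OnePoint K) :
    (movingFixPart A x).card + (scalarPart A).card = (fixPart A x).card := by
  have : fixPart A x = movingFixPart A x ∪ scalarPart A := by
    ext g
    simp only [fixPart, movingFixPart, movingPart, scalarPart, Finset.mem_union, Finset.mem_filter,
      Finset.mem_univ, true_and]
    constructor
    · intro h
      by_cases hg : IsScalarGL (g : GL (Fin 2) K)
      · exact Or.inr hg
      · exact Or.inl ⟨hg, h⟩
    · rintro (⟨-, h⟩ | h)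
      · exact h
      · exact h.smul_eq x
  rw [this, Finset.card_union_of_disjoint]
  rw [Finset.disjoint_left]
  intro g hg hg'
  simp only [movingFixPart, movingPart, scalarPart, Finset.mem_filter, Finset.mem_univ,
    true_and] at hg hg'
  exact hg.1 hg'

/-- The orbit-stabiliser equation. -/
theorem card_orbitPart_mul (x : OnePoint K) :
    (orbitPart A x).card * (fixPart A x).card = Fintype.card A := by
  let _ : Fintype (MulAction.orbit A x) := (Set.finite_range fun g : A => g • x).fintype
  have h := MulAction.card_orbit_mul_card_stabilizer_eq_card_group A x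
  have e1 : Fintype.card (MulAction.orbit A x) = (orbitPart A x).card := by
    refine Fintype.card_of_finset' _ fun y => ?_
    simp [orbitPart, MulAction.orbit, Subgroup.smul_def]
  have e2 : Fintype.card (MulAction.stabilizer A x) = (fixPart A x).card := by
    refine Fintype.card_of_subtype _ fun g => ?_
    simp [fixPart, MulAction.mem_stabilizer_iff, Subgroup.smul_def]
  rwa [e1, e2] at h

/-- Points of one orbit have stabilisers of one order. -/
theorem card_fixPart_smul (x : OnePoint K) (g : A) :
    (fixPart A (g.1 • x)).card = (fixPart A x).card := by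
  refine Finset.card_nbij' (fun h => g⁻¹ * h * g) (fun h => g * h * g⁻¹) ?_ ?_ ?_ ?_
  · intro h hh
    simp [fixPart, mul_smul] at hh ⊢
    rw [hh, inv_smul_smul]
  · intro h hh
    simp [fixPart, mul_smul] at hh ⊢
    rw [hh]
  · intro h _; simp [mul_assoc]
  · intro h _; simp [mul_assoc]

/-- The non-scalar stabilisers over one orbit sum to `#A` minus the scalar contribution. -/
theorem sum_movingFixPart_orbit (x : OnePoint K) :
    ∑ y ∈ orbitPart A x, (movingFixPart A y).card + (orbitPart A x).card * (scalarPart A).card =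
      Fintype.card A := by
  rw [← card_orbitPart_mul A x]
  have : ∀ y ∈ orbitPart A x,
      (movingFixPart A y).card + (scalarPart A).card = (fixPart A x).card := by
    intro y hy
    obtain ⟨g, -, rfl⟩ := Finset.mem_image.mp hy
    rw [card_movingFixPart_add, card_fixPart_smul]
  rw [← Finset.sum_const_nat (m := (scalarPart A).card) (fun _ _ => rfl), ← Finset.sum_add_distrib,
    Finset.sum_congr rfl this, Finset.sum_const, smul_eq_mul]

/-- The order of the scalars divides the order of each point stabiliser. -/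
theorem card_scalarPart_dvd (x : OnePoint K) : (scalarPart A).card ∣ (fixPart A x).card := by
  let ZG : Subgroup A :=
    { carrier := {g | IsScalarGL (g : GL (Fin 2) K)}
      one_mem' := by simp [IsScalarGL]
      mul_mem' := fun {a b} ha hb => by
        rw [Set.mem_ofPred_eq, isScalarGL_iff_center] at ha hb ⊢
        rw [Subgroup.coe_mul, entries_mul, ha, hb]
        ext i j; fin_cases i <;> fin_cases j <;> simp [Matrix.mul_apply]
      inv_mem' := fun {a} ha => by
        have h1 : (a.1)⁻¹ * a.1 = 1 := inv_mul_cancel _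
        have h2 := congrArg (Units.val : GL (Fin 2) K → Matrix (Fin 2) (Fin 2) K) h1
        rw [entries_mul, isScalarGL_iff_center.mp ha, Units.val_one] at h2
        have hne : a.1 0 0 ≠ 0 := by
          intro h0; rw [h0, zero_smul, mul_zero] at h2
          simpa using congr_fun (congr_fun h2 0) 0
        rw [Set.mem_ofPred_eq, isScalarGL_iff_center]
        rw [mul_smul_comm, mul_one] at h2
        have h3 : (↑(a.1)⁻¹ : Matrix (Fin 2) (Fin 2) K) = (a.1 0 0)⁻¹ • 1 := by
          rw [← h2, smul_smul, inv_mul_cancel₀ hne, one_smul]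
        rw [Subgroup.coe_inv, h3]
        simp }
  have hle : ZG ≤ MulAction.stabilizer A x := fun g hg => hg.smul_eq x
  have hdvd := Subgroup.card_dvd_of_le hle
  have e1 : Nat.card (MulAction.stabilizer A x) = (fixPart A x).card := by
    rw [Nat.card_eq_fintype_card]
    refine Fintype.card_of_subtype _ fun g => ?_
    simp [fixPart, MulAction.mem_stabilizer_iff, Subgroup.smul_def]
  have e2 : Nat.card ZG = (scalarPart A).card := by
    rw [Nat.card_eq_fintype_card]
    refine Fintype.card_of_subtype _ fun g => ?_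
    rw [scalarPart, Finset.mem_filter]
    exact ⟨fun h => h.2, fun h => ⟨Finset.mem_univ _, h⟩⟩
  rwa [e1, e2] at hdvd

/-- There is a scalar, and in determinant one there are at most two. -/
theorem card_scalarPart_bounds (hdet : ∀ g ∈ A, g 0 0 * g 1 1 - g 0 1 * g 1 0 = 1) :
    1 ≤ (scalarPart A).card ∧ (scalarPart A).card ≤ 2 := by
  refine ⟨Finset.card_pos.mpr ⟨1, Finset.mem_filter.mpr
    ⟨Finset.mem_univ _, by simp [IsScalarGL]⟩⟩, ?_⟩
  let f : A → K := fun g => g.1 0 0
  have : (scalarPart A).image f ⊆ {1, -1} := by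
    intro a ha
    obtain ⟨g, hg, rfl⟩ := Finset.mem_image.mp ha
    simp only [scalarPart, Finset.mem_filter, Finset.mem_univ, true_and] at hg
    have h := hdet g g.2
    rw [hg.1, hg.2.1, ← hg.2.2] at h
    have : (f g - 1) * (f g + 1) = 0 := by linear_combination h
    rcases mul_eq_zero.mp this with h1 | h1
    · simp [sub_eq_zero.mp h1]
    · simp [eq_neg_of_add_eq_zero_left h1]
  refine le_trans (le_of_eq (Finset.card_image_of_injOn ?_).symm)
    ((Finset.card_le_card this).trans Finset.card_le_two)
  intro g hg g' hg' e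
  simp only [Finset.mem_coe, scalarPart, Finset.mem_filter, Finset.mem_univ, true_and] at hg hg'
  refine Subtype.ext (Units.ext ?_)
  rw [isScalarGL_iff_center.mp hg, isScalarGL_iff_center.mp hg', show g.1 0 0 = g'.1 0 0 from e]

/-- Double counting of pairs of a non-scalar element and a fixed point, on a finite set of points
containing all of them and the orbit of `∞`. -/
theorem exists_fixedPoints_count (hdet : ∀ g ∈ A, g 0 0 * g 1 1 - g 0 1 * g 1 0 = 1) :
    ∃ X : Finset (OnePoint K), orbitPart A ∞ ⊆ X ∧
      (∀ g ∈ movingPart A, ∀ x : OnePoint K, g.1 • x = x → x ∈ X) ∧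
      ∑ x ∈ X, (movingFixPart A x).card + (parabolicPart A).card = 2 * (movingPart A).card := by
  have hfix : ∀ g : A, ∃ F : Finset (OnePoint K), g ∈ movingPart A →
      (∀ x, x ∈ F ↔ g.1 • x = x) ∧ F.card = if (g.1 0 0 + g.1 1 1) ^ 2 = 4 then 1 else 2 := by
    intro g
    by_cases h : IsScalarGL (g : GL (Fin 2) K)
    · exact ⟨∅, fun h' => absurd h (Finset.mem_filter.mp h').2⟩
    · obtain ⟨F, hF⟩ := exists_fixed_finset (hdet g g.2) h
      exact ⟨F, fun _ => hF⟩
  choose Fx hFx using hfix
  refine ⟨(movingPart A).biUnion Fx ∪ orbitPart A ∞, Finset.subset_union_right, fun g hg x hx =>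
    Finset.mem_union_left _ (Finset.mem_biUnion.mpr ⟨g, hg, ((hFx g hg).1 x).mpr hx⟩), ?_⟩
  set X := (movingPart A).biUnion Fx ∪ orbitPart A ∞
  have e : ∀ g ∈ movingPart A, (X.filter fun x => g.1 • x = x).card = (Fx g).card := by
    intro g hg
    congr 1
    ext x
    simp only [Finset.mem_filter, X, Finset.mem_union, Finset.mem_biUnion]
    exact ⟨fun h => ((hFx g hg).1 x).mpr h.2,
      fun h => ⟨Or.inl ⟨g, hg, h⟩, ((hFx g hg).1 x).mp h⟩⟩
  have : ∑ x ∈ X, (movingFixPart A x).card = ∑ g ∈ movingPart A, (Fx g).card := by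
    simp only [movingFixPart, Finset.card_filter]
    rw [Finset.sum_comm]
    refine Finset.sum_congr rfl fun g hg => ?_
    rw [← e g hg, Finset.card_filter]
  rw [this, Finset.sum_congr rfl fun g hg => (hFx g hg).2, parabolicPart, Finset.card_filter,
    ← Finset.sum_add_distrib,
    Finset.sum_congr rfl (g := fun _ => 2) (fun g _ => by split <;> rfl), Finset.sum_const,
    smul_eq_mul, mul_comm]

/-- The parabolic elements fixing a point of the orbit of `∞` are conjugate to those fixing `∞`. -/
theorem card_parabolicPart_fix (h : A) :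
    ((parabolicPart A).filter fun g => g.1 • h.1 • (∞ : OnePoint K) = h.1 • ∞).card =
      (Finset.univ.filter fun g : A => g.1 1 0 = 0 ∧
        ¬ IsScalarGL (g : GL (Fin 2) K) ∧ (g.1 0 0 + g.1 1 1) ^ 2 = 4).card := by
  refine Finset.card_nbij' (fun g => h⁻¹ * g * h) (fun g => h * g * h⁻¹) ?_ ?_ ?_ ?_
  · intro g hg
    simp only [Finset.mem_coe, Finset.mem_filter, Finset.mem_univ, true_and,
      Subgroup.coe_mul, Subgroup.coe_inv, parabolicPart, movingPart] at hg ⊢
    refine ⟨smul_infty_eq_self_iff.mp ?_, fun hsc => hg.1.1 ?_, ?_⟩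
    · rw [mul_smul, mul_smul, hg.2, inv_smul_smul]
    · rwa [show h.1⁻¹ * g.1 * h.1 = h.1⁻¹ * g.1 * h.1⁻¹⁻¹ by rw [inv_inv], isScalarGL_conj_iff]
        at hsc
    · have := trace_conj g.1 (h.1⁻¹)
      rw [inv_inv, Matrix.trace_fin_two, Matrix.trace_fin_two] at this
      rw [← hg.1.2, ← this]
  · intro g hg
    simp only [Finset.mem_coe, Finset.mem_filter, Finset.mem_univ, true_and,
      Subgroup.coe_mul, Subgroup.coe_inv, parabolicPart, movingPart] at hg ⊢
    refine ⟨⟨fun hsc => hg.2.1 (isScalarGL_conj_iff.mp hsc), ?_⟩, ?_⟩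
    · have := trace_conj g.1 h.1
      rw [Matrix.trace_fin_two, Matrix.trace_fin_two] at this
      rw [← hg.2.2, ← this]
    · rw [mul_smul, mul_smul, inv_smul_smul, smul_infty_eq_self_iff.mpr hg.1]
  · intro g _; simp [mul_assoc]
  · intro g _; simp [mul_assoc]

/-- When every parabolic element fixes a point in the orbit of `∞`, there are
`#orbit * #(parabolic elements fixing ∞)` of them. -/
theorem card_parabolicPart (hdet : ∀ g ∈ A, g 0 0 * g 1 1 - g 0 1 * g 1 0 = 1)
    (hunip : ∀ g ∈ A, ¬ IsScalarGL g → (g 0 0 + g 1 1) ^ 2 = 4 →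
      ∀ x : OnePoint K, g • x = x → ∃ h ∈ A, h • (∞ : OnePoint K) = x) :
    (parabolicPart A).card = (orbitPart A ∞).card * (Finset.univ.filter fun g : A => g.1 1 0 = 0 ∧
      ¬ IsScalarGL (g : GL (Fin 2) K) ∧ (g.1 0 0 + g.1 1 1) ^ 2 = 4).card := by
  have hone : ∀ g ∈ parabolicPart A,
      ((orbitPart A ∞).filter fun x => g.1 • x = x).card = 1 := by
    intro g hg
    obtain ⟨hgm, h4⟩ := Finset.mem_filter.mp hg
    have hns := (Finset.mem_filter.mp hgm).2
    obtain ⟨F, hF, hFc⟩ := exists_fixed_finset (hdet g g.2) hns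
    obtain ⟨x0, hx0⟩ := Finset.card_eq_one.mp (hFc.trans (if_pos h4))
    have hiff : ∀ x, g.1 • x = x ↔ x = x0 := fun x => by rw [← hF, hx0, Finset.mem_singleton]
    obtain ⟨h, hh, hhx⟩ := hunip g g.2 hns h4 x0 ((hiff x0).mpr rfl)
    rw [Finset.card_eq_one]
    refine ⟨x0, ?_⟩
    ext x
    rw [Finset.mem_filter, Finset.mem_singleton, hiff]
    exact ⟨fun h' => h'.2,
      fun h' => ⟨h' ▸ Finset.mem_image.mpr ⟨⟨h, hh⟩, Finset.mem_univ _, hhx⟩, h'⟩⟩
  have hconst : ∀ x ∈ orbitPart A ∞, ((parabolicPart A).filter fun g => g.1 • x = x).card =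
      (Finset.univ.filter fun g : A => g.1 1 0 = 0 ∧
        ¬ IsScalarGL (g : GL (Fin 2) K) ∧ (g.1 0 0 + g.1 1 1) ^ 2 = 4).card := by
    intro x hx
    obtain ⟨h, -, rfl⟩ := Finset.mem_image.mp hx
    exact card_parabolicPart_fix A h
  have : ∑ g ∈ parabolicPart A, ((orbitPart A ∞).filter fun x => g.1 • x = x).card =
      ∑ x ∈ orbitPart A ∞, ((parabolicPart A).filter fun g => g.1 • x = x).card := by
    simp only [Finset.card_filter]
    rw [Finset.sum_comm]
  rwa [Finset.sum_congr rfl hone, Finset.sum_congr rfl hconst, Finset.sum_const, smul_eq_mul,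
    Finset.sum_const, smul_eq_mul, mul_one] at this

/-- A point fixed by a non-scalar element has an orbit of at most half the largest size. -/
theorem two_mul_card_orbitPart_le {x : OnePoint K} (hpos : 0 < (movingFixPart A x).card) :
    2 * ((orbitPart A x).card * (scalarPart A).card) ≤ Fintype.card A := by
  obtain ⟨c, hc⟩ := card_scalarPart_dvd A x
  have h1 := card_movingFixPart_add A x
  have h2 : 2 ≤ c := by
    by_contra hlt
    interval_cases c <;> omega
  calc 2 * ((orbitPart A x).card * (scalarPart A).card)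
      = (orbitPart A x).card * ((scalarPart A).card * 2) := by ring
    _ ≤ (orbitPart A x).card * ((scalarPart A).card * c) :=
        Nat.mul_le_mul_left _ (Nat.mul_le_mul_left _ h2)
    _ = Fintype.card A := by rw [← hc, card_orbitPart_mul]

/-- The exceptional points form a single orbit when their weight is small. -/
theorem exists_single_orbit {X : Finset (OnePoint K)}
    (hX : ∀ g ∈ movingPart A, ∀ x : OnePoint K, g.1 • x = x → x ∈ X)
    (hR : 0 < ∑ x ∈ X \ orbitPart A ∞, (movingFixPart A x).card)
    (hsmall : ∑ x ∈ X \ orbitPart A ∞, (movingFixPart A x).card < Fintype.card A) :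
    ∃ x, 0 < (movingFixPart A x).card ∧
      ∑ y ∈ X \ orbitPart A ∞, (movingFixPart A y).card =
        ∑ y ∈ orbitPart A x, (movingFixPart A y).card := by
  have hsub : ∀ x ∈ X \ orbitPart A ∞, 0 < (movingFixPart A x).card →
      orbitPart A x ⊆ X \ orbitPart A ∞ := by
    intro x hx hpos y hy
    obtain ⟨g, -, rfl⟩ := Finset.mem_image.mp hy
    refine Finset.mem_sdiff.mpr ⟨?_, fun hy' => ?_⟩
    · have h1 := card_movingFixPart_add A (g.1 • x)
      rw [card_fixPart_smul, ← card_movingFixPart_add A x] at h1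
      obtain ⟨t, ht⟩ := Finset.card_pos.mp (show 0 < (movingFixPart A (g.1 • x)).card by omega)
      exact hX t (Finset.mem_filter.mp ht).1 _ (Finset.mem_filter.mp ht).2
    · obtain ⟨g', -, hg'⟩ := Finset.mem_image.mp hy'
      refine (Finset.mem_sdiff.mp hx).2 (Finset.mem_image.mpr ⟨g⁻¹ * g', Finset.mem_univ _, ?_⟩)
      simp [mul_smul, hg']
  obtain ⟨x, hx, hxT⟩ := Finset.exists_ne_zero_of_sum_ne_zero hR.ne'
  replace hxT := Nat.pos_of_ne_zero hxT
  refine ⟨x, hxT, (Finset.sum_subset (hsub x hx hxT) fun y hy hy' => ?_).symm⟩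
  by_contra hne
  have hdis : Disjoint (orbitPart A x) (orbitPart A y) := by
    rw [Finset.disjoint_left]
    intro w hw hw'
    obtain ⟨g, -, rfl⟩ := Finset.mem_image.mp hw
    obtain ⟨g', -, hg'⟩ := Finset.mem_image.mp hw'
    refine hy' (Finset.mem_image.mpr ⟨g'⁻¹ * g, Finset.mem_univ _, ?_⟩)
    simp [mul_smul, ← hg']
  have hle := Finset.sum_le_sum_of_subset (f := fun w => (movingFixPart A w).card)
    (Finset.union_subset (hsub x hx hxT) (hsub y hy (Nat.pos_of_ne_zero hne)))
  rw [Finset.sum_union hdis] at hle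
  have a1 := sum_movingFixPart_orbit A x
  have a2 := sum_movingFixPart_orbit A y
  have b1 := two_mul_card_orbitPart_le A hxT
  have b2 := two_mul_card_orbitPart_le A (Nat.pos_of_ne_zero hne)
  omega

end Count

/-- The class equation leaves a positive exceptional weight. -/
theorem exceptional_weight_ne_zero {z q m n R : ℕ} (hz1 : 1 ≤ z) (hz2 : z ≤ 2) (hq5 : 4 ≤ q)
    (hnq : q + 1 ≤ n)
    (key : R + n * (z * (q - 1)) + n * m + 2 * z = 2 * (n * m) + n * z) : R ≠ 0 := by
  rintro rfl
  -- then `n * (m + 2 z - z q) = 2 z`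
  have hzq : z ≤ z * q := Nat.le_mul_of_pos_right _ (by omega)
  rw [show z * (q - 1) = z * q - z by rw [Nat.mul_sub, mul_one], Nat.mul_sub] at key
  have hle' : n * z ≤ n * (z * q) := Nat.mul_le_mul_left _ hzq
  have h1 : n * (m + 2 * z) = 2 * z + n * (z * q) := by
    rw [mul_add, show n * (2 * z) = 2 * (n * z) by ring]; omega
  have hlt : z * q < m + 2 * z := by
    by_contra hcon
    push Not at hcon
    have := Nat.mul_le_mul_left n hcon
    omega
  have h2 : n * (z * q + 1) ≤ n * (m + 2 * z) := Nat.mul_le_mul_left _ hlt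
  rw [mul_add, mul_one] at h2
  omega

/-- The arithmetic of the class equation with one exceptional orbit, of size `o` and stabilisers
of order `z * s`. -/
theorem torus_bound_of_class_equation {z q m n R o s : ℕ} (hz1 : 1 ≤ z)
    (hq5 : 4 ≤ q) (hnq : q + 1 ≤ n)
    (key : R + n * (z * (q - 1)) + n * m + 2 * z = 2 * (n * m) + n * z)
    (ho : R + o * z = n * m) (hos : o * (z * s) = n * m) (hspos : 0 < s) (hdvd : z ∣ m) :
    z * ((q + 1) * (q - 2)) < 2 * m := by
  have hzq : z ≤ z * q := Nat.le_mul_of_pos_right _ (by omega)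
  rw [show z * (q - 1) = z * q - z by rw [Nat.mul_sub, mul_one], Nat.mul_sub] at key
  have hle' : n * z ≤ n * (z * q) := Nat.mul_le_mul_left _ hzq
  have e : o * z + 2 * (n * z) = 2 * z + n * (z * q) := by omega
  have e' : z * (o + 2 * n) = z * (2 + n * q) := by
    rw [mul_add, mul_add, show z * (2 * n) = 2 * (n * z) by ring, mul_comm z, mul_comm z 2,
      show z * (n * q) = n * (z * q) by ring]
    exact e
  have e'' := Nat.eq_of_mul_eq_mul_left hz1 e'
  have hqe : n * q = n * (q - 2) + 2 * n := by
    obtain ⟨q', rfl⟩ : ∃ q', q = q' + 2 := ⟨q - 2, by omega⟩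
    simp; ring
  obtain rfl : o = 2 + n * (q - 2) := by omega
  -- `n m = z s (2 + n (q - 2))`
  have hexp : n * m = z * s * 2 + n * (z * s * (q - 2)) := by rw [← hos]; ring
  have hlt : z * s * (q - 2) < m := by
    by_contra hcon
    push Not at hcon
    have := Nat.mul_le_mul_left n hcon
    have : 0 < z * s * 2 := by positivity
    omega
  have hn2' : n ≤ 2 * s := by
    have hnm : n * (m - z * s * (q - 2)) = 2 * (z * s) := by rw [Nat.mul_sub]; omega
    obtain ⟨d, hd⟩ := Nat.dvd_sub hdvd (⟨s * (q - 2), by ring⟩ : z ∣ z * s * (q - 2))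
    rw [hd] at hnm
    have hnd : n * d = 2 * s := by
      refine Nat.eq_of_mul_eq_mul_left hz1 ?_
      rw [show z * (n * d) = n * (z * d) by ring, hnm]; ring
    rw [← hnd]
    refine Nat.le_mul_of_pos_right n (Nat.pos_of_ne_zero fun h0 => ?_)
    rw [h0, mul_zero] at hnd; omega
  calc z * ((q + 1) * (q - 2)) ≤ z * (2 * s * (q - 2)) :=
        Nat.mul_le_mul_left _ (Nat.mul_le_mul_right _ (by omega))
    _ = 2 * (z * s * (q - 2)) := by ring
    _ < 2 * m := by omega

open Classical in
/-- The torus bound. -/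
theorem stabilizer_infty_large (hdet : ∀ g ∈ A, g 0 0 * g 1 1 - g 0 1 * g 1 0 = 1)
    (z q m n : ℕ)
    (hz : z = (Finset.univ.filter fun g : A => IsScalarGL (g : GL (Fin 2) K)).card)
    (hm : m = (Finset.univ.filter fun g : A => g.1 1 0 = 0).card)
    (hn : n = (Finset.univ.image fun g : A => g.1 • (∞ : OnePoint K)).card)
    (hq : z * (q - 1) = (Finset.univ.filter fun g : A => g.1 1 0 = 0 ∧
      ¬ IsScalarGL (g : GL (Fin 2) K) ∧ (g.1 0 0 + g.1 1 1) ^ 2 = 4).card)
    (hq5 : 4 ≤ q) (hnq : q + 1 ≤ n)
    (hunip : ∀ g ∈ A, ¬ IsScalarGL g → (g 0 0 + g 1 1) ^ 2 = 4 →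
      ∀ x : OnePoint K, g • x = x → ∃ h ∈ A, h • (∞ : OnePoint K) = x) :
    z * ((q + 1) * (q - 2)) < 2 * m := by
  have hStinf : (fixPart A ∞).card = m := by
    rw [hm]; congr 1; ext g; simp [fixPart, smul_infty_eq_self_iff]
  have hn' : (orbitPart A ∞).card = n := hn.symm
  have hz' : (scalarPart A).card = z := hz.symm
  have hA : Fintype.card A = n * m := by rw [← card_orbitPart_mul A ∞, hStinf, hn']
  obtain ⟨hz1, hz2⟩ := card_scalarPart_bounds A hdet
  rw [hz'] at hz1 hz2
  have hzcard : z + (movingPart A).card = n * m := by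
    rw [← hz', ← hA, scalarPart, movingPart, Finset.card_filter_add_card_filter_not,
      Finset.card_univ]
  obtain ⟨X, hXO, hX, hdouble⟩ := exists_fixedPoints_count A hdet
  rw [card_parabolicPart A hdet hunip, ← hq, hn'] at hdouble
  have hinf := sum_movingFixPart_orbit A ∞
  rw [hn', hz', hA] at hinf
  have hsplit := Finset.sum_sdiff (f := fun x => (movingFixPart A x).card) hXO
  set R := ∑ x ∈ X \ orbitPart A ∞, (movingFixPart A x).card with hR
  have key : R + n * (z * (q - 1)) + n * m + 2 * z = 2 * (n * m) + n * z := by omega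
  have hR0 := exceptional_weight_ne_zero hz1 hz2 hq5 hnq key
  have hRlt : R < n * m := by
    have h1 : n * z * 2 ≤ n * (z * (q - 1)) := by
      rw [mul_assoc]
      exact Nat.mul_le_mul_left _ (Nat.mul_le_mul_left _ (by omega))
    have h2 : 1 * 1 ≤ n * z := Nat.mul_le_mul (by omega) hz1
    omega
  obtain ⟨x, hxT, hsum⟩ := exists_single_orbit A hX (Nat.pos_of_ne_zero hR0) (hA ▸ hRlt)
  have ho := sum_movingFixPart_orbit A x
  rw [← hsum, ← hR, hz', hA] at ho
  obtain ⟨s, hs⟩ := card_scalarPart_dvd A x
  rw [hz'] at hs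
  have hspos : 0 < s := by
    rcases Nat.eq_zero_or_pos s with rfl | h
    · have := card_movingFixPart_add A x; omega
    · exact h
  exact torus_bound_of_class_equation hz1 hq5 hnq key ho
    (by rw [← hs, card_orbitPart_mul, hA]) hspos (hStinf ▸ hz' ▸ card_scalarPart_dvd A ∞)

end FLTAgent.TWPrimes
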