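import Mathlib.LinearAlgebra.Matrix.GeneralLinearGroup.FinTwo
import Mathlib.LinearAlgebra.Matrix.Adjugate
import Mathlib.Tactic.LinearCombination
import Mathlib.GroupTheory.Index
import Mathlib.Algebra.BigOperators.Group.Finset.Basic

/-!
# The symmetric square action `g • m = g m adj(g)` and its cocycles

`symAct`, `IsSymCocycle`, `IsSymCoboundary` on `2 × 2` matrices; a cocycle vanishing on a
subgroup of index prime to the characteristic is a coboundary (`isSymCoboundary_of_index`).
-/

set_option autoImplicit false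

open Matrix

noncomputable section

namespace FLTAgent.TWPrimes

variable {k : Type} [Field k]

/-- The twisted adjoint action `g m adj(g) = det g • g m g⁻¹`. -/
def symAct (g : Matrix (Fin 2) (Fin 2) k) (m : Matrix (Fin 2) (Fin 2) k) :
    Matrix (Fin 2) (Fin 2) k :=
  g * m * g.adjugate

theorem symAct_one (m : Matrix (Fin 2) (Fin 2) k) : symAct 1 m = m := by
  simp [symAct]

theorem symAct_mul (g h m : Matrix (Fin 2) (Fin 2) k) :
    symAct (g * h) m = symAct g (symAct h m) := by
  simp [symAct, Matrix.adjugate_mul_distrib, mul_assoc]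

theorem symAct_add (g m m' : Matrix (Fin 2) (Fin 2) k) :
    symAct g (m + m') = symAct g m + symAct g m' := by
  simp [symAct, mul_add, add_mul]

theorem symAct_sub (g m m' : Matrix (Fin 2) (Fin 2) k) :
    symAct g (m - m') = symAct g m - symAct g m' := by
  simp [symAct, mul_sub, sub_mul]

theorem symAct_zero (g : Matrix (Fin 2) (Fin 2) k) : symAct g 0 = 0 := by
  simp [symAct]

theorem symAct_smul (g m : Matrix (Fin 2) (Fin 2) k) (a : k) :
    symAct g (a • m) = a • symAct g m := by
  simp [symAct]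

theorem symAct_sum {ι : Type} (g : Matrix (Fin 2) (Fin 2) k) (s : Finset ι)
    (f : ι → Matrix (Fin 2) (Fin 2) k) : symAct g (∑ i ∈ s, f i) = ∑ i ∈ s, symAct g (f i) := by
  simp [symAct, Finset.mul_sum, Finset.sum_mul]

theorem trace_symAct (g m : Matrix (Fin 2) (Fin 2) k) :
    (symAct g m).trace = g.det * m.trace := by
  rw [symAct, Matrix.trace_mul_cycle, Matrix.adjugate_mul, smul_mul_assoc, one_mul,
    Matrix.trace_smul, smul_eq_mul]

/-- Entries of the action of an upper triangular element on a trace zero matrix. -/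
theorem symAct_upper (g m : Matrix (Fin 2) (Fin 2) k) (hg : g 1 0 = 0) (hm : m 1 1 = -m 0 0) :
    symAct g m 1 0 = g 1 1 ^ 2 * m 1 0 ∧
    symAct g m 0 0 = g 0 0 * g 1 1 * m 0 0 + g 0 1 * g 1 1 * m 1 0 ∧
    symAct g m 0 1 =
      g 0 0 ^ 2 * m 0 1 - 2 * g 0 0 * g 0 1 * m 0 0 - g 0 1 ^ 2 * m 1 0 := by
  refine ⟨?_, ?_, ?_⟩ <;>
    simp [symAct, Matrix.mul_apply, Fin.sum_univ_two, Matrix.adjugate_fin_two, hg, hm] <;> ring

theorem apply_one_one_of_trace_eq_zero {m : Matrix (Fin 2) (Fin 2) k} (h : m.trace = 0) :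
    m 1 1 = -m 0 0 := by
  rw [Matrix.trace_fin_two] at h
  linear_combination h

/-- Cocycles for the twisted adjoint action, with values in trace zero matrices. -/
def IsSymCocycle (G : Subgroup (GL (Fin 2) k)) (c : G → Matrix (Fin 2) (Fin 2) k) : Prop :=
  (∀ g, (c g).trace = 0) ∧
    ∀ g h : G, c (g * h) = c g + symAct (g.1 : Matrix (Fin 2) (Fin 2) k) (c h)

/-- The cocycle `c` is a coboundary. -/
def IsSymCoboundary (G : Subgroup (GL (Fin 2) k)) (c : G → Matrix (Fin 2) (Fin 2) k) : Prop :=
  ∃ m : Matrix (Fin 2) (Fin 2) k, m.trace = 0 ∧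
    ∀ g : G, c g = symAct (g.1 : Matrix (Fin 2) (Fin 2) k) m - m

variable {G : Subgroup (GL (Fin 2) k)} {c : G → Matrix (Fin 2) (Fin 2) k}

theorem IsSymCocycle.one (h : IsSymCocycle G c) : c 1 = 0 := by
  have := h.2 1 1
  rw [mul_one, OneMemClass.coe_one, Units.val_one, symAct_one] at this
  simpa using this

theorem IsSymCocycle.sub_coboundary (h : IsSymCocycle G c) (m : Matrix (Fin 2) (Fin 2) k)
    (hm : m.trace = 0) :
    IsSymCocycle G (fun g => c g - (symAct (g.1 : Matrix (Fin 2) (Fin 2) k) m - m)) := by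
  refine ⟨fun g => by simp [trace_symAct, h.1, hm], fun g h' => ?_⟩
  show c (g * h') - _ = _
  rw [h.2, Subgroup.coe_mul, Units.val_mul, symAct_mul, symAct_sub]
  show _ = (c g - _) + (symAct _ (c h') - symAct _ (symAct _ m - m))
  rw [symAct_sub]
  abel

theorem IsSymCoboundary.of_sub (m : Matrix (Fin 2) (Fin 2) k) (hm : m.trace = 0)
    (h : IsSymCoboundary G (fun g => c g - (symAct (g.1 : Matrix (Fin 2) (Fin 2) k) m - m))) :
    IsSymCoboundary G c := by
  obtain ⟨m', hm', h'⟩ := h
  refine ⟨m + m', by simp [hm, hm'], fun g => ?_⟩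
  have := h' g
  rw [sub_eq_iff_eq_add] at this
  rw [this, symAct_add]
  abel

/-- A cocycle vanishing on a subgroup of index prime to the characteristic is a coboundary. -/
theorem IsSymCocycle.isSymCoboundary_of_index [Finite G] (h : IsSymCocycle G c) (Q : Subgroup G)
    (hQ : ∀ x ∈ Q, c x = 0) (hindex : (Q.index : k) ≠ 0) : IsSymCoboundary G c := by
  classical
  have : Fintype (G ⧸ Q) := Fintype.ofFinite _
  let f : G ⧸ Q → Matrix (Fin 2) (Fin 2) k := Quotient.lift c fun a b hab => by
    have hmem : a⁻¹ * b ∈ Q := QuotientGroup.leftRel_apply.mp hab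
    have := h.2 a (a⁻¹ * b)
    rw [mul_inv_cancel_left, hQ _ hmem, symAct_zero, add_zero] at this
    exact this.symm
  have hf : ∀ g : G, f g = c g := fun g => rfl
  let S := ∑ q : G ⧸ Q, f q
  have key : ∀ g : G, (Q.index : k) • c g + symAct (g.1 : Matrix (Fin 2) (Fin 2) k) S = S := by
    intro g
    have hstep : ∀ q : G ⧸ Q, f (g • q) = c g + symAct (g.1 : Matrix (Fin 2) (Fin 2) k) (f q) := by
      intro q
      induction q using QuotientGroup.induction_on with
      | H x => rw [MulAction.Quotient.smul_coe, smul_eq_mul, hf, hf, h.2]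
    have := Fintype.sum_equiv (MulAction.toPerm g) (fun q => f (g • q)) f (fun q => rfl)
    simp only [hstep, Finset.sum_add_distrib, Finset.sum_const, ← symAct_sum] at this
    rw [Subgroup.index_eq_card, Nat.card_eq_fintype_card, Nat.cast_smul_eq_nsmul k]
    exact this
  refine ⟨-((Q.index : k)⁻¹ • S), ?_, fun g => ?_⟩
  · have hS : S.trace = 0 := by
      rw [Matrix.trace_sum]
      exact Finset.sum_eq_zero fun q _ => by
        induction q using QuotientGroup.induction_on with
        | H x => rw [hf]; exact h.1 x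
    simp [hS]
  · have hk := congrArg (fun M => (Q.index : k)⁻¹ • M) (key g)
    simp only [smul_add, smul_smul, inv_mul_cancel₀ hindex, one_smul] at hk
    rw [← neg_smul, symAct_smul, neg_smul, neg_smul, sub_neg_eq_add, neg_add_eq_sub,
      eq_sub_iff_add_eq]
    exact hk

end FLTAgent.TWPrimes
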