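import Mathlib.GroupTheory.Sylow
import Mathlib.LinearAlgebra.Matrix.CharP
import Fermat.Agent.TWPrimes.SymSquare

/-!
# Unipotent elements of finite subgroups of `GL₂(k)` in characteristic `p`

`uGL a`, the subgroup `upperP` of upper unipotents (a Sylow subgroup, `upperSylow`), conjugation
into it, and determinants realised by upper triangular elements. Used by `SymSquareTorus`.
-/

set_option autoImplicit false

open Matrix
open scoped Pointwise

noncomputable section

namespace FLTAgent.TWPrimes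

variable {k : Type} [Field k]

/-- Upper unipotent element. -/
def uGL (a : k) : GL (Fin 2) k :=
  ⟨!![1, a; 0, 1], !![1, -a; 0, 1],
    by ext i j; fin_cases i <;> fin_cases j <;> simp,
    by ext i j; fin_cases i <;> fin_cases j <;> simp⟩

theorem uGL_val (a : k) : (uGL a : Matrix (Fin 2) (Fin 2) k) = !![1, a; 0, 1] := rfl

theorem uGL_mul (a b : k) : uGL a * uGL b = uGL (a + b) := by
  refine Units.ext ?_
  ext i j; fin_cases i <;> fin_cases j <;> simp [uGL_val, add_comm]

theorem uGL_zero : uGL (0 : k) = 1 := by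
  refine Units.ext ?_
  ext i j; fin_cases i <;> fin_cases j <;> simp [uGL_val]

theorem uGL_inv (a : k) : (uGL a)⁻¹ = uGL (-a) := by
  rw [inv_eq_iff_mul_eq_one, uGL_mul, add_neg_cancel, uGL_zero]

theorem uGL_pow (a : k) (n : ℕ) : uGL a ^ n = uGL ((n : k) * a) := by
  induction n with
  | zero => simp [uGL_zero]
  | succ n ih => rw [pow_succ, ih, uGL_mul]; congr 1; push_cast; ring

theorem eq_uGL {g : GL (Fin 2) k} (h1 : g 1 0 = 0) (h2 : g 0 0 = 1) (h3 : g 1 1 = 1) :
    g = uGL (g 0 1) := by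
  refine Units.ext ?_
  ext i j; fin_cases i <;> fin_cases j <;> simp [uGL_val, h1, h2, h3]

theorem det_eq (g : GL (Fin 2) k) :
    (g : Matrix (Fin 2) (Fin 2) k).det = g 0 0 * g 1 1 - g 0 1 * g 1 0 := Matrix.det_fin_two _

theorem upper_diag_ne_zero {g : GL (Fin 2) k} (h : g 1 0 = 0) : g 0 0 ≠ 0 ∧ g 1 1 ≠ 0 := by
  constructor <;> intro h0 <;> exact g.det_ne_zero (by simp [Matrix.det_fin_two, h, h0])

/-- Conjugating an upper unipotent by an upper triangular element. -/
theorem upper_mul_uGL {g : GL (Fin 2) k} (h : g 1 0 = 0) (a : k) :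
    g * uGL a = uGL (g 0 0 / g 1 1 * a) * g := by
  have h11 := (upper_diag_ne_zero h).2
  refine Units.ext ?_
  ext s t
  fin_cases s <;> fin_cases t <;> simp [Matrix.mul_apply, Fin.sum_univ_two, uGL_val, h]
  field_simp
  ring

/-- If a conjugate of a nontrivial upper unipotent by `g` is upper triangular then so is `g`. -/
theorem upper_of_conj (g : GL (Fin 2) k) (x : k) (hx : x ≠ 0)
    (h : (↑(g * uGL x * g⁻¹) : Matrix (Fin 2) (Fin 2) k) 1 0 = 0) : g 1 0 = 0 := by
  set w := g * uGL x * g⁻¹ with hw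
  have e : (w : Matrix (Fin 2) (Fin 2) k) * g = (g : Matrix (Fin 2) (Fin 2) k) * uGL x := by
    rw [← Units.val_mul, ← Units.val_mul, hw, inv_mul_cancel_right]
  have e10 := congr_fun (congr_fun e 1) 0
  have e11 := congr_fun (congr_fun e 1) 1
  simp [Matrix.mul_apply, Fin.sum_univ_two, uGL_val, h] at e10 e11
  by_contra hg
  have hw11 : (w : Matrix (Fin 2) (Fin 2) k) 1 1 = 1 := by
    have : ((w : Matrix (Fin 2) (Fin 2) k) 1 1 - 1) * g 1 0 = 0 := by linear_combination e10
    exact sub_eq_zero.mp ((mul_eq_zero.mp this).resolve_right hg)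
  rw [hw11, one_mul] at e11
  have : g 1 0 * x = 0 := by linear_combination -e11
  exact mul_ne_zero hg hx this

section Unipotent

variable (p : ℕ) [Fact p.Prime] [CharP k p]

include p in
/-- Elements of `p`-power order are unipotent. -/
theorem sub_one_sq_eq_zero {g : GL (Fin 2) k} {j : ℕ} (h : g ^ p ^ j = 1) :
    ((g : Matrix (Fin 2) (Fin 2) k) - 1) ^ 2 = 0 := by
  have : CharP (Matrix (Fin 2) (Fin 2) k) p := inferInstance
  have h1 : ((g : Matrix (Fin 2) (Fin 2) k) - 1) ^ p ^ j = 0 := by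
    rw [sub_pow_char_pow_of_commute (p := p) (n := j) (h := Commute.one_right _), one_pow,
      ← Units.val_pow_eq_pow_val, h, Units.val_one, sub_self]
  have h2 : IsNilpotent ((g : Matrix (Fin 2) (Fin 2) k) - 1) := ⟨_, h1⟩
  have h3 := Matrix.isNilpotent_charpoly_sub_pow_of_isNilpotent h2
  rw [isNilpotent_iff_eq_zero, sub_eq_zero, Fintype.card_fin] at h3
  have h4 := Matrix.aeval_self_charpoly ((g : Matrix (Fin 2) (Fin 2) k) - 1)
  rw [h3] at h4
  simpa using h4

end Unipotent

/-- The key entries of a unipotent element. -/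
theorem unipotent_entries {g : GL (Fin 2) k}
    (h : ((g : Matrix (Fin 2) (Fin 2) k) - 1) ^ 2 = 0) :
    g 0 0 + g 1 1 = 2 ∧ g 0 0 * g 1 1 - g 0 1 * g 1 0 = 1 := by
  have hN : IsNilpotent ((g : Matrix (Fin 2) (Fin 2) k) - 1) := ⟨2, h⟩
  have ht := Matrix.isNilpotent_trace_of_isNilpotent hN
  rw [isNilpotent_iff_eq_zero, Matrix.trace_sub, Matrix.trace_one, sub_eq_zero,
    Matrix.trace_fin_two] at ht
  refine ⟨by simpa using ht, ?_⟩
  have hd : ((g : Matrix (Fin 2) (Fin 2) k) - 1).det = 0 := by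
    have := congrArg Matrix.det h
    rw [Matrix.det_pow, Matrix.det_zero] at this
    exact pow_eq_zero_iff two_ne_zero |>.mp this
  rw [Matrix.det_fin_two] at hd
  simp at hd ht
  linear_combination hd + ht

variable (G : Subgroup (GL (Fin 2) k))

/-- The determinant one part. -/
def detOne : Subgroup G :=
  ((Matrix.GeneralLinearGroup.det).comp G.subtype).ker

theorem mem_detOne {g : G} : g ∈ detOne G ↔ (g.1 : Matrix (Fin 2) (Fin 2) k).det = 1 := by
  simp [detOne, MonoidHom.mem_ker, Units.ext_iff]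

instance detOne_normal : (detOne G).Normal :=
  MonoidHom.normal_ker _

/-- Upper unipotent elements of `G`. -/
def upperP : Subgroup G where
  carrier := {g | g.1 1 0 = 0 ∧ g.1 0 0 = 1 ∧ g.1 1 1 = 1}
  one_mem' := by simp
  mul_mem' := by
    rintro a b ⟨a1, a2, a3⟩ ⟨b1, b2, b3⟩
    simp [Matrix.mul_apply, Fin.sum_univ_two, a1, a2, a3, b1, b2, b3]
  inv_mem' := by
    rintro a ⟨a1, a2, a3⟩
    show (a⁻¹ : G).1 1 0 = 0 ∧ _
    rw [Subgroup.coe_inv, eq_uGL a1 a2 a3, uGL_inv]
    simp [uGL_val]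

theorem mem_upperP {g : G} : g ∈ upperP G ↔ g.1 1 0 = 0 ∧ g.1 0 0 = 1 ∧ g.1 1 1 = 1 := Iff.rfl

theorem upperP_le_detOne : upperP G ≤ detOne G := by
  intro g hg
  rw [mem_detOne, det_eq, hg.1, hg.2.1, hg.2.2]
  ring

/-- The set of `a` with `uGL a ∈ G`. -/
def unipSet : AddSubgroup k where
  carrier := {a | uGL a ∈ G}
  zero_mem' := by simp [uGL_zero]
  add_mem' := fun {a b} ha hb => by
    show uGL (a + b) ∈ G; rw [← uGL_mul]; exact G.mul_mem ha hb
  neg_mem' := fun {a} ha => by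
    show uGL (-a) ∈ G; rw [← uGL_inv]; exact G.inv_mem ha

theorem mem_unipSet {a : k} : a ∈ unipSet G ↔ uGL a ∈ G := Iff.rfl

/-- The upper unipotent of `G` with parameter `a`. -/
def uElem (a : unipSet G) : G := ⟨uGL a.1, a.2⟩

theorem uElem_add (a b : unipSet G) : uElem G (a + b) = uElem G a * uElem G b :=
  Subtype.ext (uGL_mul _ _).symm

theorem uElem_zero : uElem G 0 = 1 := Subtype.ext uGL_zero

theorem uElem_mem_upperP (a : unipSet G) : uElem G a ∈ upperP G := by
  simp [uElem, mem_upperP, uGL_val]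

theorem eq_uElem_of_mem_upperP {x : G} (hx : x ∈ upperP G) : ∃ a, x = uElem G a :=
  ⟨⟨x.1 0 1, by rw [mem_unipSet, ← eq_uGL hx.1 hx.2.1 hx.2.2]; exact x.2⟩,
    Subtype.ext (eq_uGL hx.1 hx.2.1 hx.2.2)⟩

theorem uElem_injective : Function.Injective (uElem G) := by
  intro a b h
  refine Subtype.ext ?_
  have := congrArg (fun g : G => g.1 0 1) h
  simpa [uElem, uGL_val] using this

/-- Upper triangular elements of `G` act on `unipSet G` through the ratio of diagonal entries. -/
theorem unipSet_ratio (g : G) (hg : g.1 1 0 = 0) (a : unipSet G) :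
    ∃ h : g.1 0 0 / g.1 1 1 * a.1 ∈ unipSet G, g * uElem G a = uElem G ⟨_, h⟩ * g := by
  have e := upper_mul_uGL hg a.1
  refine ⟨?_, Subtype.ext e⟩
  rw [mem_unipSet, eq_mul_inv_of_mul_eq e.symm]
  exact G.mul_mem (G.mul_mem g.2 a.2) (G.inv_mem g.2)

variable (p : ℕ) [Fact p.Prime] [CharP k p]

omit [Fact (Nat.Prime p)] in
include p in
theorem isPGroup_upperP : IsPGroup p (upperP G) := by
  intro g
  refine ⟨1, Subtype.ext (Subtype.ext ?_)⟩
  obtain ⟨g, h1, h2, h3⟩ := g
  simp only [pow_one, SubmonoidClass.coe_pow, OneMemClass.coe_one]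
  rw [eq_uGL h1 h2 h3, uGL_pow, CharP.cast_eq_zero, zero_mul, uGL_zero]

variable {G}

include p in
/-- If `uGL 1 ∈ G`, the upper unipotents form a maximal `p`-subgroup. -/
theorem upperP_maximal (hu : uGL (1 : k) ∈ G) {Q : Subgroup G} (hQ : IsPGroup p Q)
    (hle : upperP G ≤ Q) : Q = upperP G := by
  refine le_antisymm (fun g hg => ?_) hle
  have hunip : ∀ x ∈ Q, x.1 0 0 + x.1 1 1 = 2 ∧ x.1 0 0 * x.1 1 1 - x.1 0 1 * x.1 1 0 = 1 := by
    intro x hx
    obtain ⟨j, hj⟩ := hQ ⟨x, hx⟩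
    refine unipotent_entries (sub_one_sq_eq_zero p (j := j) ?_)
    have := congrArg (fun y : Q => ((y : G) : GL (Fin 2) k)) hj
    simpa using this
  have h1 := hunip g hg
  have h2 := (hunip (g * ⟨uGL 1, hu⟩) (Q.mul_mem hg (hle (by simp [mem_upperP, uGL_val])))).1
  simp [Matrix.mul_apply, Fin.sum_univ_two, uGL_val] at h2
  have h10 : g.1 1 0 = 0 := by linear_combination h2 - h1.1
  have h00 : g.1 0 0 = 1 := by
    have h3 := h1.2
    rw [h10] at h3
    have : (g.1 0 0 - 1) ^ 2 = 0 := by linear_combination g.1 0 0 * h1.1 - h3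
    exact sub_eq_zero.mp (pow_eq_zero_iff two_ne_zero |>.mp this)
  exact ⟨h10, h00, by linear_combination h1.1 - h00⟩

variable [Finite k]

/-- The upper unipotents as a Sylow subgroup. -/
def upperSylow (hu : uGL (1 : k) ∈ G) : Sylow p G where
  toSubgroup := upperP G
  isPGroup' := isPGroup_upperP G p
  is_maximal' := fun hQ hle => upperP_maximal p hu hQ hle

include p in
theorem index_upperP_ne_zero (hu : uGL (1 : k) ∈ G) : ((upperP G).index : k) ≠ 0 := by
  intro h0
  exact (upperSylow p hu).not_dvd_index' (Subgroup.index_ne_zero_of_finite)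
    ((CharP.cast_eq_zero_iff k p _).mp h0)

include p in
/-- Every element of `p`-power order in the determinant one part is conjugate, by an element of
that part, into the upper unipotents. -/
theorem exists_conj_mem_upperP (hu : uGL (1 : k) ∈ G) (g : G) (j : ℕ) (hg : g ^ p ^ j = 1) :
    ∃ h ∈ detOne G, h⁻¹ * g * h ∈ upperP G := by
  classical
  have hgA : g ∈ detOne G := by
    rw [mem_detOne, det_eq]
    refine (unipotent_entries (sub_one_sq_eq_zero p (j := j) ?_)).2
    rw [← SubgroupClass.coe_pow, hg]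
    rfl
  let P : Sylow p (detOne G) := (upperSylow p hu).subtype (upperP_le_detOne G)
  have hz : IsPGroup p (Subgroup.zpowers (⟨g, hgA⟩ : detOne G)) := by
    intro x
    obtain ⟨x, n, rfl⟩ := x
    refine ⟨j, Subtype.ext ?_⟩
    have : (⟨g, hgA⟩ : detOne G) ^ p ^ j = 1 := Subtype.ext hg
    show ((⟨g, hgA⟩ : detOne G) ^ n) ^ p ^ j = 1
    rw [← zpow_natCast, ← _root_.zpow_mul, mul_comm, _root_.zpow_mul, zpow_natCast, this, one_zpow]
  obtain ⟨Q, hQ⟩ := hz.exists_le_sylow
  obtain ⟨h, hh⟩ := MulAction.exists_smul_eq (detOne G) P Q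
  refine ⟨h.1, h.2, ?_⟩
  have hmem : (⟨g, hgA⟩ : detOne G) ∈ (h • P : Sylow p (detOne G)) := by
    rw [hh]; exact hQ (Subgroup.mem_zpowers _)
  replace hmem : (⟨g, hgA⟩ : detOne G) ∈ MulAut.conj h • (P : Subgroup (detOne G)) := hmem
  rw [Subgroup.mem_pointwise_smul_iff_inv_smul_mem] at hmem
  simp [P, MulAut.inv_def] at hmem
  exact hmem

include p in
/-- Frattini: every coset of the determinant one part contains an upper triangular element. -/
theorem exists_upper_det_eq (hu : uGL (1 : k) ∈ G) (g : G) :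
    ∃ b : G, b.1 1 0 = 0 ∧
      (b.1 : Matrix (Fin 2) (Fin 2) k).det = (g.1 : Matrix (Fin 2) (Fin 2) k).det := by
  have hpow : (g * ⟨uGL 1, hu⟩ * g⁻¹) ^ p ^ 1 = 1 := by
    rw [conj_pow, pow_one, show (⟨uGL 1, hu⟩ : G) ^ p = 1 from Subtype.ext (by
      rw [SubgroupClass.coe_pow]; simp [uGL_pow, CharP.cast_eq_zero, uGL_zero])]
    group
  obtain ⟨h, hh, hmem⟩ := exists_conj_mem_upperP p hu _ 1 hpow
  refine ⟨h⁻¹ * g, upper_of_conj _ 1 one_ne_zero ?_, ?_⟩
  · have e : h⁻¹ * (g * ⟨uGL 1, hu⟩ * g⁻¹) * h = (h⁻¹ * g) * ⟨uGL 1, hu⟩ * (h⁻¹ * g)⁻¹ := by group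
    have := hmem.1
    rw [e] at this
    exact this
  · have : (h⁻¹ : G) ∈ detOne G := inv_mem hh
    rw [mem_detOne] at this
    rw [Subgroup.coe_mul, Units.val_mul, Matrix.det_mul, this, one_mul]

end FLTAgent.TWPrimes
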