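import Mathlib.FieldTheory.IsAlgClosed.AlgebraicClosure
import Fermat.Agent.TWPrimes.UnipotentGL
import Fermat.Agent.TWPrimes.OrbitCount

/-!
# The torus normalising the unipotents of a finite subgroup of `GL₂(k)`

If `uGL 1 ∈ G`, `G` is irreducible and its upper unipotents have order `q ≥ 5`, the determinant
one upper triangular elements act on them through at least `(q - 1) / 2` ratios
(`exists_torus_ratios`); this is `stabilizer_infty_large` over an algebraic closure.
-/

set_option autoImplicit false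

open Matrix OnePoint

noncomputable section

namespace FLTAgent.TWPrimes

variable {k : Type} [Field k]

/-- The map of `GL₂(k)` into `GL₂` of an algebraic closure of `k`. -/
def glClosure (k : Type) [Field k] : GL (Fin 2) k →* GL (Fin 2) (AlgebraicClosure k) :=
  Matrix.GeneralLinearGroup.map (algebraMap k (AlgebraicClosure k))

theorem glClosure_apply (g : GL (Fin 2) k) (i l : Fin 2) :
    glClosure k g i l = algebraMap k (AlgebraicClosure k) (g i l) := rfl

/-- Being scalar is insensitive to extension of the field. -/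
theorem isScalarGL_glClosure {g : GL (Fin 2) k} :
    IsScalarGL (glClosure k g) ↔ g 1 0 = 0 ∧ g 0 1 = 0 ∧ g 0 0 = g 1 1 := by
  simp only [IsScalarGL, glClosure_apply, map_eq_zero,
    (algebraMap k (AlgebraicClosure k)).injective.eq_iff]

/-- Having trace `±2` is insensitive to extension of the field. -/
theorem trace_sq_glClosure {g : GL (Fin 2) k} :
    (glClosure k g 0 0 + glClosure k g 1 1) ^ 2 = 4 ↔ (g 0 0 + g 1 1) ^ 2 = 4 := by
  rw [glClosure_apply, glClosure_apply, ← map_add, ← map_pow,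
    ← map_ofNat (algebraMap k (AlgebraicClosure k)) 4,
    (algebraMap k (AlgebraicClosure k)).injective.eq_iff]

section Counting

variable [Finite k] (G : Subgroup (GL (Fin 2) k))

omit [Finite k] in
/-- The determinant of an element of `detOne G`, written out. -/
theorem detOne_entries (g : detOne G) :
    g.1.1 0 0 * g.1.1 1 1 - g.1.1 0 1 * g.1.1 1 0 = 1 :=
  (det_eq _).symm.trans ((mem_detOne G).mp g.2)

/-- A unipotent of `G`, as an element of determinant one. -/
def uDetOne (a : unipSet G) : detOne G :=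
  ⟨uElem G a, upperP_le_detOne G (uElem_mem_upperP G a)⟩

/-- The upper triangular elements of determinant one. -/
def upperDetOne : Finset (detOne G) := (Set.toFinite {g : detOne G | g.1.1 1 0 = 0}).toFinset

theorem mem_upperDetOne {g : detOne G} : g ∈ upperDetOne G ↔ g.1.1 1 0 = 0 := by
  simp [upperDetOne]

/-- The scalar elements of determinant one. -/
def scalarDetOne : Finset (detOne G) :=
  (Set.toFinite {g : detOne G | g.1.1 1 0 = 0 ∧ g.1.1 0 1 = 0 ∧ g.1.1 0 0 = g.1.1 1 1}).toFinset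

theorem mem_scalarDetOne {g : detOne G} :
    g ∈ scalarDetOne G ↔ g.1.1 1 0 = 0 ∧ g.1.1 0 1 = 0 ∧ g.1.1 0 0 = g.1.1 1 1 := by
  simp [scalarDetOne]

/-- The upper left entries of the upper triangular elements of determinant one. -/
def upperDiag : Finset k :=
  (Set.toFinite ((fun g : detOne G => g.1.1 0 0) '' {g | g.1.1 1 0 = 0})).toFinset

theorem mem_upperDiag {w : k} :
    w ∈ upperDiag G ↔ ∃ g : detOne G, g.1.1 1 0 = 0 ∧ g.1.1 0 0 = w := by
  simp [upperDiag]

variable {G}

/-- The elements of `upperDetOne` with a given upper left entry are a coset of the unipotents. -/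
theorem card_upperDetOne_fiber [DecidableEq k] {g₀ : detOne G} (hg₀ : g₀.1.1 1 0 = 0) :
    ((upperDetOne G).filter fun g => g.1.1 0 0 = g₀.1.1 0 0).card = Nat.card (unipSet G) := by
  let _ : Fintype (unipSet G) := Fintype.ofFinite _
  rw [Nat.card_eq_fintype_card, ← Finset.card_univ]
  refine (Finset.card_bij (fun a _ => g₀ * uDetOne G a) ?_ ?_ ?_).symm
  · intro a _
    simp [mem_upperDetOne, uDetOne, uElem, uGL_val, Matrix.mul_apply, Fin.sum_univ_two, hg₀]
  · intro a _ b _ h
    exact uElem_injective G (congrArg Subtype.val (mul_left_cancel h))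
  · intro g hg
    rw [Finset.mem_filter, mem_upperDetOne] at hg
    have hd := detOne_entries G g; have hd0 := detOne_entries G g₀
    rw [hg.1, mul_zero, sub_zero, hg.2] at hd
    rw [hg₀, mul_zero, sub_zero] at hd0
    have h11 : g.1.1 1 1 = g₀.1.1 1 1 := by
      refine mul_left_cancel₀ (upper_diag_ne_zero hg₀).1 ?_
      rw [hd, hd0]
    have hmem : ((g₀⁻¹ * g : detOne G) : G) ∈ upperP G := by
      have e : g₀ * (g₀⁻¹ * g) = g := mul_inv_cancel_left _ _
      have e' : ∀ i l, ((g₀.1.1 : Matrix (Fin 2) (Fin 2) k) *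
          ((g₀⁻¹ * g : detOne G) : G).1) i l = g.1.1 i l := fun i l =>
        congrArg (fun x : detOne G => x.1.1 i l) e
      have a10 := e' 1 0; have a00 := e' 0 0; have a11 := e' 1 1
      simp only [Matrix.mul_apply, Fin.sum_univ_two, hg₀, zero_mul, zero_add, hg.1] at a10 a00 a11
      rw [mul_eq_zero] at a10
      have b10 := a10.resolve_left (upper_diag_ne_zero hg₀).2
      rw [b10, mul_zero, add_zero, hg.2] at a00
      rw [h11] at a11
      exact ⟨b10, mul_left_cancel₀ (upper_diag_ne_zero hg₀).1 (a00.trans (mul_one _).symm),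
        mul_left_cancel₀ (upper_diag_ne_zero hg₀).2 (a11.trans (mul_one _).symm)⟩
    obtain ⟨a, ha⟩ := eq_uElem_of_mem_upperP G hmem
    refine ⟨a, Finset.mem_univ _, ?_⟩
    rw [show uDetOne G a = g₀⁻¹ * g from Subtype.ext ha.symm, mul_inv_cancel_left]

/-- The upper triangular elements are `q` times as many as their upper left entries. -/
theorem card_upperDetOne :
    (upperDetOne G).card = Nat.card (unipSet G) * (upperDiag G).card := by
  classical
  have himg : (upperDetOne G).image (fun g => g.1.1 0 0) = upperDiag G := by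
    ext w; simp [mem_upperDetOne, mem_upperDiag]
  rw [Finset.card_eq_sum_card_image (fun g : detOne G => g.1.1 0 0), himg,
    Finset.sum_congr rfl fun w hw => ?_, Finset.sum_const, smul_eq_mul, mul_comm]
  obtain ⟨g₀, hg₀, rfl⟩ := (mem_upperDiag G).mp hw
  exact card_upperDetOne_fiber hg₀

variable (p : ℕ) [Fact p.Prime] [CharP k p]

/-- An upper triangular element with equal diagonal is its `p`-th power times a unipotent. -/
theorem pow_char_mem_scalarDetOne (hp2 : p ≠ 2) (g : detOne G) (h10 : g.1.1 1 0 = 0)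
    (heq : g.1.1 0 0 = g.1.1 1 1) :
    g ^ p ∈ scalarDetOne G ∧ (g ^ p).1.1 0 0 = g.1.1 0 0 ∧ ((g ^ p)⁻¹ * g).1 ∈ upperP G := by
  have hp : p.Prime := Fact.out
  set ε := g.1.1 0 0 with hε
  have hd := detOne_entries G g
  rw [h10, mul_zero, sub_zero, ← heq] at hd
  have hεε : ε ^ 2 = 1 := by rw [sq, hd]
  have hne : ε ≠ 0 := fun h => by simp [h] at hεε
  have hdecomp : (g.1.1 : Matrix (Fin 2) (Fin 2) k) =
      ε • (uGL (g.1.1 0 1 / ε) : Matrix (Fin 2) (Fin 2) k) := by
    ext i l
    fin_cases i <;> fin_cases l <;> simp [uGL_val, h10, ← heq, ← hε, hne, mul_div_cancel₀]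
  have hpodd : ε ^ p = ε := by
    obtain ⟨t, ht⟩ := hp.odd_of_ne_two hp2
    rw [ht, pow_succ, pow_mul, hεε, one_pow, one_mul]
  have hpow : ((g ^ p).1.1 : Matrix (Fin 2) (Fin 2) k) = ε • 1 := by
    rw [SubgroupClass.coe_pow, SubgroupClass.coe_pow, Units.val_pow_eq_pow_val, hdecomp, smul_pow,
      hpodd, ← Units.val_pow_eq_pow_val, uGL_pow, CharP.cast_eq_zero, zero_mul, uGL_zero,
      Units.val_one]
  refine ⟨by rw [mem_scalarDetOne, hpow]; simp, by rw [hpow]; simp, ?_⟩
  have e : ((g ^ p).1.1 : Matrix (Fin 2) (Fin 2) k) * ((g ^ p)⁻¹ * g).1.1 = g.1.1 := by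
    rw [← Units.val_mul, ← Subgroup.coe_mul, ← Subgroup.coe_mul, mul_inv_cancel_left]
  rw [hpow, smul_mul_assoc, one_mul] at e
  have a : ∀ i l, ε * ((g ^ p)⁻¹ * g).1.1 i l = g.1.1 i l := fun i l => by
    rw [← e]; simp
  exact ⟨(mul_eq_zero.mp ((a 1 0).trans h10)).resolve_left hne,
    mul_left_cancel₀ hne ((a 0 0).trans (mul_one _).symm),
    mul_left_cancel₀ hne ((a 1 1).trans (heq.symm.trans (mul_one _).symm))⟩

omit [Finite k] in
/-- Equal diagonal entries follow from trace `±2` and determinant one. -/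
theorem diag_eq_of_trace_sq {a d : k} (hd : a * d = 1) (h : (a + d) ^ 2 = 4) : a = d := by
  have : (a - d) ^ 2 = 0 := by linear_combination h - 4 * hd
  exact sub_eq_zero.mp (pow_eq_zero_iff two_ne_zero |>.mp this)

include p in
/-- The nonscalar upper triangular `g` with `tr² = 4` are scalars times nonzero unipotents. -/
theorem card_scalarDetOne_mul (hp2 : p ≠ 2) (s : Finset (detOne G))
    (hs : ∀ g, g ∈ s ↔ g.1.1 1 0 = 0 ∧ g ∉ scalarDetOne G ∧ (g.1.1 0 0 + g.1.1 1 1) ^ 2 = 4) :
    (scalarDetOne G).card * (Nat.card (unipSet G) - 1) = s.card := by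
  classical
  let _ : Fintype (unipSet G) := Fintype.ofFinite _
  rw [Nat.card_eq_fintype_card, ← Finset.card_univ,
    ← Finset.card_erase_of_mem (Finset.mem_univ (0 : unipSet G)), ← Finset.card_product]
  refine Finset.card_bij (fun x _ => x.1 * uDetOne G x.2) ?_ ?_ ?_
  · rintro ⟨t, a⟩ hx
    simp only [Finset.mem_product, mem_scalarDetOne, Finset.mem_erase, Finset.mem_univ,
      and_true] at hx
    obtain ⟨⟨s10, s01, s00⟩, ha⟩ := hx
    have hd := detOne_entries G t
    rw [s10, mul_zero, sub_zero, ← s00] at hd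
    have hne : t.1.1 0 0 ≠ 0 := fun h => by rw [h, zero_mul] at hd; exact zero_ne_one hd
    simp only [hs, mem_scalarDetOne]
    simp only [uDetOne, uElem, Subgroup.coe_mul, Units.val_mul, Matrix.mul_apply,
      Fin.sum_univ_two, uGL_val]
    simp [s10, s01, ← s00, hne]
    refine ⟨ha, ?_⟩
    linear_combination 4 * hd
  · rintro ⟨t, a⟩ hx ⟨t', b⟩ hy h
    simp only [Finset.mem_product, mem_scalarDetOne, Finset.mem_erase, Finset.mem_univ,
      and_true] at hx hy
    have e : ∀ i l, (t * uDetOne G a).1.1 i l = (t' * uDetOne G b).1.1 i l := fun i l => by rw [h]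
    have e00 := e 0 0; have e01 := e 0 1
    simp [uDetOne, uElem, uGL_val, Matrix.mul_apply, Fin.sum_univ_two, hx.1.2.1,
      hy.1.2.1] at e00 e01
    have hst : t = t' := by
      refine Subtype.ext (Subtype.ext (Units.ext ?_))
      ext i l
      fin_cases i <;> fin_cases l <;>
        simp [hx.1.1, hx.1.2.1, hy.1.1, hy.1.2.1, ← hx.1.2.2, ← hy.1.2.2, e00]
    subst hst
    rw [Prod.mk.injEq]
    exact ⟨rfl, Subtype.ext (mul_left_cancel₀ (upper_diag_ne_zero hx.1.1).1 e01)⟩
  · intro g hg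
    obtain ⟨g10, gns, g4⟩ := (hs g).mp hg
    have hd := detOne_entries G g
    rw [g10, mul_zero, sub_zero] at hd
    obtain ⟨hgp, -, hmem⟩ :=
      pow_char_mem_scalarDetOne p hp2 g g10 (diag_eq_of_trace_sq hd g4)
    obtain ⟨a, ha⟩ := eq_uElem_of_mem_upperP G hmem
    refine ⟨(g ^ p, a), Finset.mem_product.mpr
      ⟨hgp, Finset.mem_erase.mpr ⟨fun h0 => gns ?_, Finset.mem_univ _⟩⟩, ?_⟩
    · simp only at h0
      rw [h0, uElem_zero] at ha
      have : (g ^ p)⁻¹ * g = 1 := Subtype.ext ha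
      rw [inv_mul_eq_one] at this
      rwa [← this]
    · show g ^ p * uDetOne G a = g
      rw [show uDetOne G a = (g ^ p)⁻¹ * g from Subtype.ext ha.symm, mul_inv_cancel_left]

omit [Finite k] in
/-- An irreducible `G` with a nontrivial unipotent has a determinant one element moving `∞`. -/
theorem exists_detOne_lower_ne_zero (hu : uGL (1 : k) ∈ G) (hirr : ∃ g ∈ G, g 1 0 ≠ 0) :
    ∃ g : detOne G, g.1.1 1 0 ≠ 0 := by
  obtain ⟨g, hgG, hg⟩ := hirr
  by_contra hcon
  push Not at hcon
  refine hg (upper_of_conj g 1 one_ne_zero ?_)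
  have hm : (⟨g, hgG⟩ : G) * uElem G ⟨1, hu⟩ * (⟨g, hgG⟩ : G)⁻¹ ∈ detOne G :=
    (detOne_normal G).conj_mem _ (upperP_le_detOne G (uElem_mem_upperP G _)) _
  exact hcon ⟨_, hm⟩

/-- The orbit of `∞` has more than `q` points. -/
theorem card_unipSet_lt_orbit [DecidableEq (AlgebraicClosure k)] (hu : uGL (1 : k) ∈ G)
    (hirr : ∃ g ∈ G, g 1 0 ≠ 0) (s : Finset (OnePoint (AlgebraicClosure k)))
    (hs : ∀ g : detOne G, glClosure k g.1.1 • (∞ : OnePoint (AlgebraicClosure k)) ∈ s) :
    Nat.card (unipSet G) + 1 ≤ s.card := by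
  obtain ⟨g1, hg1⟩ := exists_detOne_lower_ne_zero hu hirr
  let _ : Fintype (unipSet G) := Fintype.ofFinite _
  set φ := algebraMap k (AlgebraicClosure k)
  have hg1' : glClosure k g1.1.1 1 0 ≠ 0 := by rw [glClosure_apply]; simpa using hg1
  set c := glClosure k g1.1.1 0 0 / glClosure k g1.1.1 1 0 with hc
  have hinf : glClosure k g1.1.1 • (∞ : OnePoint (AlgebraicClosure k)) =
      (c : OnePoint (AlgebraicClosure k)) := by
    rw [smul_infty_eq_ite, if_neg hg1']
  let f : unipSet G → OnePoint (AlgebraicClosure k) := fun a =>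
    ((c + φ a.1 : AlgebraicClosure k) : OnePoint (AlgebraicClosure k))
  let _ : DecidableEq (OnePoint (AlgebraicClosure k)) := Classical.decEq _
  have hsub : insert ∞ (Finset.univ.image f) ⊆ s := by
    intro x hx
    rcases Finset.mem_insert.mp hx with rfl | hx
    · simpa using hs 1
    · obtain ⟨a, -, rfl⟩ := Finset.mem_image.mp hx
      refine (?_ : glClosure k (uDetOne G a * g1).1.1 • _ = f a) ▸ hs (uDetOne G a * g1)
      rw [Subgroup.coe_mul, Subgroup.coe_mul, map_mul, mul_smul, hinf, smul_some_eq_ite]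
      simp [f, φ, glClosure_apply, uDetOne, uElem, uGL_val]
  refine le_trans (le_of_eq ?_) (Finset.card_le_card hsub)
  rw [Finset.card_insert_of_notMem (by simp [f]),
    Finset.card_image_of_injective _ (fun a b h => ?_), Finset.card_univ, Nat.card_eq_fintype_card]
  simp only [f, coe_eq_coe, add_right_inj] at h
  exact Subtype.ext (φ.injective h)

include p in
omit [Finite k] in
/-- The square of a determinant one element of trace `±2` has order dividing `p`. -/
theorem sq_pow_char_eq_one (g : detOne G) (h4 : (g.1.1 0 0 + g.1.1 1 1) ^ 2 = 4) :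
    (g.1 ^ 2) ^ p ^ 1 = 1 := by
  have hp : p.Prime := Fact.out
  have hd := detOne_entries G g
  have hsq : (((g.1 ^ 2 : G).1 : Matrix (Fin 2) (Fin 2) k) - 1) ^ 2 = 0 := by
    have e : (g.1 ^ 2 : G).1 = g.1.1 * g.1.1 := by rw [sq]; rfl
    ext i l
    rw [sq, e, Units.val_mul]
    fin_cases i <;> fin_cases l <;> simp [Matrix.mul_apply, Fin.sum_univ_two] <;> grind
  have e1 : (((g.1 ^ 2 : G).1 : Matrix (Fin 2) (Fin 2) k) - 1) ^ p ^ 1 = 0 := by
    rw [pow_one, show p = 2 + (p - 2) by have := hp.two_le; omega, pow_add, hsq, zero_mul]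
  rw [sub_pow_char_pow_of_commute (p := p) (h := Commute.one_right _), one_pow, sub_eq_zero,
    ← Units.val_pow_eq_pow_val, ← SubgroupClass.coe_pow] at e1
  exact Subtype.ext (Units.ext e1)

/-- A determinant one element of trace `±2` squaring to one is scalar. -/
theorem mem_scalarDetOne_of_sq_eq_one (h2k : (2 : k) ≠ 0) (g : detOne G)
    (h4 : (g.1.1 0 0 + g.1.1 1 1) ^ 2 = 4) (e : g.1.1 * g.1.1 = 1) : g ∈ scalarDetOne G := by
  have hd := detOne_entries G g
  have e' : ∀ i l, ((g.1.1 : Matrix (Fin 2) (Fin 2) k) * g.1.1) i l = (1 : Matrix _ _ k) i l :=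
    fun i l => by rw [← Units.val_mul, e, Units.val_one]
  have e01 := e' 0 1; have e10 := e' 1 0
  simp [Matrix.mul_apply, Fin.sum_univ_two] at e01 e10
  have ht : g.1.1 0 0 + g.1.1 1 1 ≠ 0 := fun h => by
    rw [h] at h4
    simp at h4
    exact h2k (pow_eq_zero_iff two_ne_zero |>.mp (show (2 : k) ^ 2 = 0 by linear_combination -h4))
  have g01 : g.1.1 0 1 = 0 := (mul_eq_zero.mp
    (show (g.1.1 0 0 + g.1.1 1 1) * g.1.1 0 1 = 0 by linear_combination e01)).resolve_left ht
  have g10 : g.1.1 1 0 = 0 := (mul_eq_zero.mp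
    (show (g.1.1 0 0 + g.1.1 1 1) * g.1.1 1 0 = 0 by linear_combination e10)).resolve_left ht
  rw [g01, zero_mul, sub_zero] at hd
  exact (mem_scalarDetOne G).mpr ⟨g10, g01, diag_eq_of_trace_sq hd h4⟩

include p in
/-- A fixed point of a non-scalar element of trace `±2` is a translate of `∞`. -/
theorem exists_smul_infty_eq_of_fixed [DecidableEq (AlgebraicClosure k)] (hp2 : p ≠ 2)
    (hu : uGL (1 : k) ∈ G) (g : detOne G) (hns : g ∉ scalarDetOne G)
    (h4 : (g.1.1 0 0 + g.1.1 1 1) ^ 2 = 4) {x : OnePoint (AlgebraicClosure k)}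
    (hx : glClosure k g.1.1 • x = x) :
    ∃ h : detOne G, glClosure k h.1.1 • (∞ : OnePoint (AlgebraicClosure k)) = x := by
  have h2k : (2 : k) ≠ 0 := Ring.two_ne_zero (by rwa [ringChar.eq k p])
  have : NeZero (2 : AlgebraicClosure k) := ⟨by
    rw [← map_ofNat (algebraMap k (AlgebraicClosure k)) 2]
    exact (map_ne_zero _).mpr h2k⟩
  obtain ⟨h, hh, hmem⟩ := exists_conj_mem_upperP p hu (g.1 ^ 2) 1 (sq_pow_char_eq_one p g h4)
  obtain ⟨a, ha⟩ := eq_uElem_of_mem_upperP G hmem
  have ha0 : a.1 ≠ 0 := by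
    intro h0
    rw [show a = 0 from Subtype.ext h0, uElem_zero, mul_eq_one_iff_eq_inv, mul_eq_left] at ha
    refine hns (mem_scalarDetOne_of_sq_eq_one h2k g h4 ?_)
    rw [← Subgroup.coe_mul, ← sq, ha]; rfl
  refine ⟨⟨h, hh⟩, ?_⟩
  set ι := glClosure k
  have hfix : ι (uGL a.1) • ((ι h.1)⁻¹ • x) = (ι h.1)⁻¹ • x := by
    have e : uGL a.1 = (h.1)⁻¹ * (g.1.1 * g.1.1) * h.1 := by
      have := congrArg (fun y : G => y.1) ha
      simp only [sq, Subgroup.coe_mul, Subgroup.coe_inv] at this
      exact this.symm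
    rw [e, map_mul, map_mul, map_inv, map_mul, mul_smul, mul_smul, mul_smul, smul_inv_smul, hx, hx]
  have hinf : (ι h.1)⁻¹ • x = ∞ := by
    rcases hy : (ι h.1)⁻¹ • x with _ | y
    · rfl
    · exfalso
      rw [hy] at hfix
      have hfix' : ι (uGL a.1) • (y : OnePoint (AlgebraicClosure k)) = y := hfix
      rw [some_mem_fixed_iff, glClosure_apply, glClosure_apply, glClosure_apply,
        glClosure_apply] at hfix'
      simp [uGL_val] at hfix'
      exact ha0 (congrArg Subtype.val hfix')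
  rw [← hinf, smul_inv_smul]

include p in
/-- Two upper left entries with the same square differ by a scalar element of the group. -/
theorem card_upperDiag_le [DecidableEq k] (hp2 : p ≠ 2) :
    (upperDiag G).card ≤ (scalarDetOne G).card * ((upperDiag G).image fun w => w ^ 2).card := by
  refine Finset.card_le_mul_card_image (f := fun w : k => w ^ 2) (upperDiag G) _ fun r hr => ?_
  obtain ⟨w, hw, rfl⟩ := Finset.mem_image.mp hr
  obtain ⟨g, g10, rfl⟩ := (mem_upperDiag G).mp hw
  refine Finset.card_le_card_of_surjOn (fun s : detOne G => s.1.1 0 0 * g.1.1 0 0) ?_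
  intro w' hw'
  simp only [Finset.mem_coe, Finset.mem_filter] at hw'
  obtain ⟨g', g'10, rfl⟩ := (mem_upperDiag G).mp hw'.1
  rcases eq_or_eq_neg_of_sq_eq_sq _ _ hw'.2 with h | h
  · exact ⟨1, by simp [mem_scalarDetOne], by simp [h]⟩
  · have hg2 : (g' * g⁻¹).1.1 1 0 = 0 ∧ (g' * g⁻¹).1.1 0 0 = -1 ∧
        (g' * g⁻¹).1.1 1 1 = -1 := by
      have e : ∀ i l, (((g' * g⁻¹).1.1 : Matrix (Fin 2) (Fin 2) k) * g.1.1) i l = g'.1.1 i l :=
        fun i l => by rw [← Units.val_mul, ← Subgroup.coe_mul, ← Subgroup.coe_mul,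
          inv_mul_cancel_right]
      have a10 := e 1 0; have a00 := e 0 0; have a11 := e 1 1
      simp only [Matrix.mul_apply, Fin.sum_univ_two, g10, mul_zero, add_zero, g'10] at a10 a00 a11
      have n00 := (upper_diag_ne_zero g10).1
      have b10 := (mul_eq_zero.mp a10).resolve_right n00
      rw [b10, zero_mul, zero_add] at a11
      have b00 : (g' * g⁻¹).1.1 0 0 = -1 :=
        mul_right_cancel₀ n00 (a00.trans (by rw [h]; ring))
      have hd := detOne_entries G (g' * g⁻¹)
      rw [b10, b00, mul_zero, sub_zero] at hd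
      exact ⟨b10, b00, by linear_combination -hd⟩
    obtain ⟨hs, hs00, -⟩ :=
      pow_char_mem_scalarDetOne p hp2 (g' * g⁻¹) hg2.1 (hg2.2.1.trans hg2.2.2.symm)
    refine ⟨_, Finset.mem_coe.mpr hs, ?_⟩
    show (((g' * g⁻¹) ^ p : detOne G).1.1 : Matrix (Fin 2) (Fin 2) k) 0 0 * _ = _
    rw [hs00, hg2.2.1, h]; ring

omit [Finite k] in
/-- A count on the determinant one elements, carried over to their image in the closure. -/
theorem card_filter_glClosure [Fintype ((detOne G).map ((glClosure k).comp G.subtype))]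
    (P : GL (Fin 2) (AlgebraicClosure k) → Prop) [DecidablePred P] (s : Finset (detOne G))
    (hs : ∀ g, g ∈ s ↔ P (glClosure k g.1.1)) :
    s.card = (Finset.univ.filter
      fun g : (detOne G).map ((glClosure k).comp G.subtype) => P g.1).card := by
  refine Finset.card_bij (fun g _ => ⟨glClosure k g.1.1, Subgroup.mem_map_of_mem _ g.2⟩) ?_ ?_ ?_
  · intro g hg
    exact Finset.mem_filter.mpr ⟨Finset.mem_univ _, (hs g).mp hg⟩
  · intro a _ b _ h
    exact Subtype.ext (Subtype.ext (Units.ext (Matrix.map_injective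
      (algebraMap k (AlgebraicClosure k)).injective
      (congrArg Units.val (congrArg Subtype.val h)))))
  · rintro ⟨x, g, hgA, rfl⟩ hg
    exact ⟨⟨g, hgA⟩, (hs _).mpr (Finset.mem_filter.mp hg).2, rfl⟩

/-- The ratios of the diagonal are the squares of the upper left entries. -/
theorem exists_ratio_eq [DecidableEq k] {r : k}
    (hr : r ∈ (upperDiag G).image fun w => w ^ 2) :
    ∃ g : G, g.1 1 0 = 0 ∧ (g.1 : Matrix (Fin 2) (Fin 2) k).det = 1 ∧
      g.1 0 0 / g.1 1 1 = r := by
  obtain ⟨w, hw, rfl⟩ := Finset.mem_image.mp hr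
  obtain ⟨g, hg, rfl⟩ := (mem_upperDiag G).mp hw
  refine ⟨g.1, hg, (mem_detOne G).mp g.2, ?_⟩
  have h := detOne_entries G g
  rw [hg, mul_zero, sub_zero] at h
  rw [div_eq_iff (upper_diag_ne_zero hg).2]
  linear_combination -(g.1.1 0 0) * h

/-- The numerical end of the count. -/
theorem le_two_mul_of_count {q z b w r : ℕ} (hq5 : 5 ≤ q) (hb : b = q * w) (hw : w ≤ z * r)
    (h : z * ((q + 1) * (q - 2)) < 2 * b) : q - 1 ≤ 2 * r := by
  have hm : 2 * b ≤ z * (2 * (q * r)) := by
    rw [hb, show z * (2 * (q * r)) = 2 * (q * (z * r)) by ring]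
    exact Nat.mul_le_mul_left _ (Nat.mul_le_mul_left _ hw)
  have key' : (q + 1) * (q - 2) < 2 * (q * r) :=
    Nat.lt_of_mul_lt_mul_left (a := z) (lt_of_lt_of_le h hm)
  by_contra hcon
  obtain ⟨q', rfl⟩ : ∃ q', q = q' + 2 := ⟨q - 2, by omega⟩
  have h2 : (q' + 2) * (2 * r) ≤ (q' + 2) * q' := Nat.mul_le_mul_left _ (by omega)
  rw [show q' + 2 - 2 = q' by omega, show 2 * ((q' + 2) * r) = (q' + 2) * (2 * r) by ring,
    show (q' + 2 + 1) * q' = (q' + 2) * q' + q' by ring] at key'
  omega

end Counting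

variable [Finite k] (p : ℕ) [Fact p.Prime] [CharP k p] {G : Subgroup (GL (Fin 2) k)}

include p in
/-- The ratios of the diagonals are at least `(q - 1) / 2` in number, `q` the unipotent count. -/
theorem exists_torus_ratios (hp2 : p ≠ 2) (hu : uGL (1 : k) ∈ G) (hirr : ∃ g ∈ G, g 1 0 ≠ 0)
    (hq5 : 5 ≤ Nat.card (unipSet G)) :
    ∃ R : Finset k, (0 : k) ∉ R ∧ Nat.card (unipSet G) - 1 ≤ 2 * R.card ∧
      ∀ r ∈ R, ∃ g : G, g.1 1 0 = 0 ∧ (g.1 : Matrix (Fin 2) (Fin 2) k).det = 1 ∧
        g.1 0 0 / g.1 1 1 = r := by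
  classical
  refine ⟨(upperDiag G).image fun w => w ^ 2, fun h0 => ?_, ?_, fun r hr => exists_ratio_eq hr⟩
  · obtain ⟨g, h1, -, h3⟩ := exists_ratio_eq h0
    exact div_ne_zero (upper_diag_ne_zero h1).1 (upper_diag_ne_zero h1).2 h3
  let K := AlgebraicClosure k
  have : NeZero (2 : K) := ⟨by
    rw [← map_ofNat (algebraMap k K) 2]
    exact (map_ne_zero _).mpr (Ring.two_ne_zero (by rwa [ringChar.eq k p]))⟩
  let A := (detOne G).map ((glClosure k).comp G.subtype)
  let toA : detOne G → A := fun g => ⟨glClosure k g.1.1, Subgroup.mem_map_of_mem _ g.2⟩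
  have : Finite A := Finite.of_surjective toA fun x => by
    obtain ⟨g, hg, hgx⟩ := x.2
    exact ⟨⟨g, hg⟩, Subtype.ext hgx⟩
  let _ : Fintype A := Fintype.ofFinite _
  let U := (Set.toFinite {g : detOne G | g.1.1 1 0 = 0 ∧ g ∉ scalarDetOne G ∧
    (g.1.1 0 0 + g.1.1 1 1) ^ 2 = 4}).toFinset
  set Orb := Finset.univ.image fun g : A => g.1 • (∞ : OnePoint K) with hOrb
  refine le_two_mul_of_count hq5 card_upperDetOne (card_upperDiag_le p hp2)
    (stabilizer_infty_large A ?_ _ _ _ Orb.card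
      (card_filter_glClosure IsScalarGL _ fun g => by
        rw [mem_scalarDetOne, isScalarGL_glClosure])
      (card_filter_glClosure (fun g => g 1 0 = 0) _ fun g => by
        rw [mem_upperDetOne, glClosure_apply, map_eq_zero]) rfl
      ((card_scalarDetOne_mul p hp2 U fun g => by simp [U]).trans
        (card_filter_glClosure
          (fun g => g 1 0 = 0 ∧ ¬ IsScalarGL g ∧ (g 0 0 + g 1 1) ^ 2 = 4) _ fun g => by
            simp only [U, Set.Finite.mem_toFinset, Set.mem_ofPred_eq, mem_scalarDetOne,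
              isScalarGL_glClosure, trace_sq_glClosure]
            rw [glClosure_apply, map_eq_zero]))
      (by omega)
      (card_unipSet_lt_orbit hu hirr _ fun g =>
        Finset.mem_image.mpr ⟨toA g, Finset.mem_univ _, rfl⟩) ?_)
  · rintro _ ⟨g, hgA, rfl⟩
    show algebraMap k K (g.1 0 0) * algebraMap k K (g.1 1 1) -
      algebraMap k K (g.1 0 1) * algebraMap k K (g.1 1 0) = 1
    rw [← map_mul, ← map_mul, ← map_sub, detOne_entries G ⟨g, hgA⟩, map_one]
  · rintro _ ⟨g, hgA, rfl⟩ hns h4 x hx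
    obtain ⟨h, hh⟩ := exists_smul_infty_eq_of_fixed p hp2 hu ⟨g, hgA⟩
      (fun hs => hns (isScalarGL_glClosure.mpr ((mem_scalarDetOne G).mp hs)))
      (trace_sq_glClosure.mp h4) hx
    exact ⟨_, ⟨h.1, h.2, rfl⟩, hh⟩

end FLTAgent.TWPrimes
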