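import Mathlib.FieldTheory.Finite.Basic
import Mathlib.RingTheory.LittleWedderburn
import Fermat.Agent.TWPrimes.SymSquareTorus

/-!
# Vanishing of `H¹(G, Sym²)` when `G` contains a unipotent

`k` finite of odd characteristic, `G ⊆ GL₂(k)` fixes no line, contains `uGL 1` and an element with
non-square determinant in the prime field: every cocycle for the symmetric square is a coboundary
(`isSymCoboundary_of_uGL_mem`). Used by `SymSquareH1`.
-/

set_option autoImplicit false
set_option linter.unusedSectionVars false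

open Matrix

noncomputable section

namespace FLTAgent.TWPrimes

variable {k : Type} [Field k]

/-- A function is additive on `Λ`. -/
def AddOn (Λ : AddSubgroup k) (f : k → k) : Prop :=
  ∀ a ∈ Λ, ∀ b ∈ Λ, f (a + b) = f a + f b

/-- A function additive on a subgroup vanishes at zero. -/
theorem AddOn.zero {Λ : AddSubgroup k} {f : k → k} (h : AddOn Λ f) : f 0 = 0 := by
  have := h 0 Λ.zero_mem 0 Λ.zero_mem
  rw [add_zero] at this
  simpa using this

theorem AddOn.neg {Λ : AddSubgroup k} {f : k → k} (h : AddOn Λ f) {a : k} (ha : a ∈ Λ) :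
    f (-a) = -f a := by
  have := h a ha (-a) (Λ.neg_mem ha)
  rw [add_neg_cancel, h.zero] at this
  linear_combination -this

/-- An additive function is linear on a group generated by `1`. -/
theorem AddOn.eq_mul_of_zmultiples {Λ : AddSubgroup k} {f : k → k} (h : AddOn Λ f)
    (h1 : (1 : k) ∈ Λ) (hgen : Λ ≤ AddSubgroup.zmultiples 1) {a : k} (ha : a ∈ Λ) :
    f a = f 1 * a := by
  have hn : ∀ n : ℕ, (n : k) ∈ Λ ∧ f n = f 1 * n := by
    intro n
    induction n with
    | zero => simp [h.zero, Λ.zero_mem]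
    | succ n ih =>
      rw [Nat.cast_succ]
      exact ⟨Λ.add_mem ih.1 h1, by rw [h _ ih.1 _ h1, ih.2]; ring⟩
  obtain ⟨n, hn'⟩ := AddSubgroup.mem_zmultiples_iff.mp (hgen ha)
  rw [← hn', zsmul_one]
  rcases Int.eq_nat_or_neg n with ⟨m, rfl | rfl⟩
  · simpa using (hn m).2
  · rw [Int.cast_neg, Int.cast_natCast, h.neg (hn m).1, (hn m).2]; ring

variable (p : ℕ) [Fact p.Prime] [CharP k p] [Finite k]

include p in
/-- If `Λ ∋ 1` is stable under more than half as many multipliers as it has nonzero elements, then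
it is the subring generated by them. -/
theorem mem_closure_of_multipliers (Λ : AddSubgroup k) (R : Finset k) (h1 : (1 : k) ∈ Λ)
    (h0 : (0 : k) ∉ R) (hR : ∀ r ∈ R, ∀ a ∈ Λ, r * a ∈ Λ)
    (hcard : Nat.card Λ - 1 ≤ 2 * R.card) (h5 : 5 ≤ Nat.card Λ) :
    ∀ a, a ∈ Λ ↔ a ∈ Subring.closure (R : Set k) := by
  classical
  let _ : Fintype k := Fintype.ofFinite k
  set F := Subring.closure (R : Set k) with hF
  have hstab : ∀ s ∈ F, ∀ a ∈ Λ, s * a ∈ Λ := by
    intro s hs
    induction hs using Subring.closure_induction with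
    | mem x hx => exact hR x hx
    | zero => intro a _; rw [zero_mul]; exact Λ.zero_mem
    | one => intro a ha; rwa [one_mul]
    | add x y _ _ ihx ihy => intro a ha; rw [add_mul]; exact Λ.add_mem (ihx a ha) (ihy a ha)
    | neg x _ ih => intro a ha; rw [neg_mul]; exact Λ.neg_mem (ih a ha)
    | mul x y _ _ ihx ihy => intro a ha; rw [mul_assoc]; exact ihx _ (ihy a ha)
  have hFΛ : ∀ s ∈ F, s ∈ Λ := fun s hs => mul_one s ▸ hstab s hs 1 h1
  intro a
  refine ⟨fun ha => ?_, hFΛ a⟩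
  by_contra hna
  have hinj : Function.Injective (fun x : F × F => (⟨x.1.1 + x.2.1 * a,
      Λ.add_mem (hFΛ _ x.1.2) (hstab _ x.2.2 a ha)⟩ : Λ)) := by
    rintro ⟨s, t⟩ ⟨s', t'⟩ h
    have h' : s.1 + t.1 * a = s'.1 + t'.1 * a := congrArg Subtype.val h
    by_cases htt : t = t'
    · subst htt; exact Prod.ext (Subtype.ext (add_right_cancel h')) rfl
    · exfalso
      refine hna ?_
      have hu : t - t' ≠ 0 := sub_ne_zero.mpr htt
      obtain ⟨w, hw⟩ := (Finite.isDomain_to_isField F).mul_inv_cancel hu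
      have hw' : (t.1 - t'.1) * w.1 = 1 := congrArg Subtype.val hw
      have : a = ((s' - s) * w).1 := by
        show a = (s'.1 - s.1) * w.1
        linear_combination w.1 * h' - a * hw'
      rw [this]; exact ((s' - s) * w).2
  have hc := Nat.card_le_card_of_injective _ hinj
  rw [Nat.card_prod] at hc
  have hRF : R.card + 1 ≤ Nat.card F := by
    rw [← Finset.card_insert_of_notMem h0, ← Nat.card_eq_finsetCard]
    refine Nat.card_le_card_of_injective (fun x => (⟨x.1, ?_⟩ : F))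
      (fun x y h => Subtype.ext (congrArg (fun z : F => z.1) h))
    rcases Finset.mem_insert.mp x.2 with hx | hx
    · rw [hx]; exact F.zero_mem
    · exact Subring.subset_closure hx
  nlinarith [Nat.sub_add_cancel (show 1 ≤ Nat.card Λ by omega)]

include p in
/-- A function on a finite subfield satisfying the Leibniz rule against generators vanishes. -/
theorem eq_zero_of_leibniz (Λ : AddSubgroup k) (R : Finset k) (D : k → k) (hD : AddOn Λ D)
    (h1 : (1 : k) ∈ Λ) (hD1 : D 1 = 0) (hΛ : ∀ a, a ∈ Λ ↔ a ∈ Subring.closure (R : Set k))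
    (hR : ∀ r ∈ R, ∀ a ∈ Λ, D (r * a) = r * D a + a * D r) {a : k} (ha : a ∈ Λ) : D a = 0 := by
  have hmul : ∀ s ∈ Λ, ∀ t ∈ Λ, s * t ∈ Λ := fun s hs t ht =>
    (hΛ _).mpr (Subring.mul_mem _ ((hΛ _).mp hs) ((hΛ _).mp ht))
  have hleib : ∀ s ∈ Subring.closure (R : Set k), ∀ t ∈ Λ, D (s * t) = s * D t + t * D s := by
    intro s hs
    induction hs using Subring.closure_induction with
    | mem x hx => exact hR x hx
    | zero => intro t _; simp [hD.zero]
    | one => intro t _; simp [hD1]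
    | add x y hx hy ihx ihy =>
      intro t ht
      rw [add_mul, hD _ (hmul _ ((hΛ x).mpr hx) _ ht) _ (hmul _ ((hΛ y).mpr hy) _ ht), ihx t ht,
        ihy t ht, hD _ ((hΛ x).mpr hx) _ ((hΛ y).mpr hy)]
      ring
    | neg x hx ih =>
      intro t ht
      rw [neg_mul, hD.neg (hmul _ ((hΛ x).mpr hx) _ ht), ih t ht, hD.neg ((hΛ x).mpr hx)]
      ring
    | mul x y hx hy ihx ihy =>
      intro t ht
      rw [mul_assoc, ihx _ (hmul _ ((hΛ y).mpr hy) _ ht), ihy t ht, ihx y ((hΛ y).mpr hy)]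
      ring
  have hpow : ∀ n : ℕ, a ^ n ∈ Λ ∧ D (a ^ n) * a = n * a ^ n * D a := by
    intro n
    induction n with
    | zero => simp [hD1, h1]
    | succ n ih =>
      refine ⟨by rw [pow_succ]; exact hmul _ ih.1 _ ha, ?_⟩
      rw [pow_succ', hleib a ((hΛ a).mp ha) _ ih.1, Nat.cast_succ]
      linear_combination a * ih.2
  by_cases ha0 : a = 0
  · rw [ha0]; exact hD.zero
  let _ : Fintype k := Fintype.ofFinite k
  have := (hpow (Fintype.card k)).2
  rw [FiniteField.pow_card, FiniteField.cast_card_eq_zero, zero_mul, zero_mul] at this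
  exact (mul_eq_zero.mp this).resolve_right ha0

variable {G : Subgroup (GL (Fin 2) k)} {c : G → Matrix (Fin 2) (Fin 2) k}

open Classical in
/-- An entry of `c` on the unipotents of `G`, extended by zero. -/
private def unipEntry (G : Subgroup (GL (Fin 2) k)) (c : G → Matrix (Fin 2) (Fin 2) k)
    (i l : Fin 2) (a : k) : k :=
  if h : a ∈ unipSet G then c (uElem G ⟨a, h⟩) i l else 0

/-- `unipEntry` restricts to the entries of `c` on unipotents. -/
private theorem apply_uElem_eq (i l : Fin 2) {a : k} (h : a ∈ unipSet G) :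
    c (uElem G ⟨a, h⟩) i l = unipEntry G c i l a := by
  simp [unipEntry, h]

/-- The cocycle relations between the entries on the unipotents. -/
private theorem unipEntry_add (hc : IsSymCocycle G c) :
    ∀ a ∈ unipSet G, ∀ b ∈ unipSet G,
      unipEntry G c 1 0 (a + b) = unipEntry G c 1 0 a + unipEntry G c 1 0 b ∧
      unipEntry G c 0 0 (a + b) =
        unipEntry G c 0 0 a + unipEntry G c 0 0 b + a * unipEntry G c 1 0 b ∧
      unipEntry G c 0 1 (a + b) = unipEntry G c 0 1 a + unipEntry G c 0 1 b -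
        2 * a * unipEntry G c 0 0 b - a ^ 2 * unipEntry G c 1 0 b := by
  intro a ha b hb
  have hab := (unipSet G).add_mem ha hb
  obtain ⟨e1, e2, e3⟩ := symAct_upper ((uElem G ⟨a, ha⟩).1 : Matrix (Fin 2) (Fin 2) k)
    (c (uElem G ⟨b, hb⟩)) (by simp [uElem, uGL_val]) (apply_one_one_of_trace_eq_zero (hc.1 _))
  simp [uElem, uGL_val] at e1 e2 e3
  simp only [← apply_uElem_eq (c := c) _ _ ha, ← apply_uElem_eq (c := c) _ _ hb,
    ← apply_uElem_eq (c := c) _ _ hab]
  rw [show (⟨a + b, hab⟩ : unipSet G) = ⟨a, ha⟩ + ⟨b, hb⟩ from rfl, uElem_add, hc.2]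
  simp only [Matrix.add_apply, uElem, uGL_val, e1, e2, e3]
  exact ⟨trivial, by ring, by ring⟩

/-- The cocycle relations coming from upper triangular elements. -/
private theorem unipEntry_ratio (hc : IsSymCocycle G c) :
    ∀ g : G, g.1 1 0 = 0 → ∀ a ∈ unipSet G,
      g.1 0 0 / g.1 1 1 * a ∈ unipSet G ∧
      unipEntry G c 1 0 (g.1 0 0 / g.1 1 1 * a) = g.1 1 1 ^ 2 * unipEntry G c 1 0 a ∧
      unipEntry G c 0 0 (g.1 0 0 / g.1 1 1 * a) + g.1 0 0 / g.1 1 1 * a * c g 1 0 =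
        g.1 0 0 * g.1 1 1 * unipEntry G c 0 0 a + g.1 0 1 * g.1 1 1 * unipEntry G c 1 0 a ∧
      unipEntry G c 0 1 (g.1 0 0 / g.1 1 1 * a) - 2 * (g.1 0 0 / g.1 1 1 * a) * c g 0 0 -
          (g.1 0 0 / g.1 1 1 * a) ^ 2 * c g 1 0 =
        g.1 0 0 ^ 2 * unipEntry G c 0 1 a - 2 * g.1 0 0 * g.1 0 1 * unipEntry G c 0 0 a -
          g.1 0 1 ^ 2 * unipEntry G c 1 0 a := by
  intro g hg a ha
  obtain ⟨hm, he⟩ := unipSet_ratio G g hg ⟨a, ha⟩
  have key := congrArg c he
  rw [hc.2, hc.2] at key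
  have hm' : g.1 0 0 / g.1 1 1 * a ∈ unipSet G := hm
  obtain ⟨e1, e2, e3⟩ := symAct_upper (g.1 : Matrix (Fin 2) (Fin 2) k)
    (c (uElem G ⟨a, ha⟩)) hg (apply_one_one_of_trace_eq_zero (hc.1 _))
  obtain ⟨d1, d2, d3⟩ := symAct_upper ((uElem G ⟨_, hm⟩).1 : Matrix (Fin 2) (Fin 2) k) (c g)
    (by simp [uElem, uGL_val]) (apply_one_one_of_trace_eq_zero (hc.1 _))
  have k1 := congr_fun (congr_fun key 1) 0
  have k2 := congr_fun (congr_fun key 0) 0
  have k3 := congr_fun (congr_fun key 0) 1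
  rw [Matrix.add_apply, Matrix.add_apply, e1, d1] at k1
  rw [Matrix.add_apply, Matrix.add_apply, e2, d2] at k2
  rw [Matrix.add_apply, Matrix.add_apply, e3, d3] at k3
  simp only [apply_uElem_eq] at k1 k2 k3
  simp [uElem, uGL_val] at k1 k2 k3
  exact ⟨hm', by linear_combination -k1, by linear_combination -k2, by linear_combination -k3⟩

/-- If the lower entry vanishes and the others are linearised by `μ, ν`, the cocycle is a
coboundary on the unipotents. -/
private theorem exists_sub_eq_of_linear (h2k : (2 : k) ≠ 0) (hc : IsSymCocycle G c)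
    (hf0 : ∀ a ∈ unipSet G, unipEntry G c 1 0 a = 0) {μ ν : k}
    (hμν : ∀ a ∈ unipSet G,
      unipEntry G c 0 0 a = μ * a ∧ unipEntry G c 0 1 a = ν * a - μ * a ^ 2) :
    ∃ m : Matrix (Fin 2) (Fin 2) k, m.trace = 0 ∧ ∀ a : unipSet G,
      c (uElem G a) = symAct ((uElem G a).1 : Matrix (Fin 2) (Fin 2) k) m - m := by
  refine ⟨!![-ν / 2, 0; μ, ν / 2], by simp [Matrix.trace_fin_two]; ring, fun a => ?_⟩
  obtain ⟨a, ha⟩ := a
  obtain ⟨e1, e2, e3⟩ := symAct_upper ((uElem G ⟨a, ha⟩).1 : Matrix (Fin 2) (Fin 2) k)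
    !![-ν / 2, 0; μ, ν / 2] (by simp [uElem, uGL_val]) (by simp; ring)
  have h11 : symAct ((uElem G ⟨a, ha⟩).1 : Matrix (Fin 2) (Fin 2) k) !![-ν / 2, 0; μ, ν / 2] 1 1 =
      -symAct ((uElem G ⟨a, ha⟩).1 : Matrix (Fin 2) (Fin 2) k) !![-ν / 2, 0; μ, ν / 2] 0 0 :=
    apply_one_one_of_trace_eq_zero
      ((trace_symAct _ _).trans (by simp [Matrix.trace_fin_two]; right; ring))
  have c11 := apply_one_one_of_trace_eq_zero (hc.1 (uElem G ⟨a, ha⟩))
  simp [uElem, uGL_val] at e1 e2 e3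
  ext i l
  fin_cases i <;> fin_cases l <;> simp only [Matrix.sub_apply, Fin.zero_eta, Fin.mk_one]
  · rw [apply_uElem_eq (c := c) _ _ ha, (hμν a ha).1]; simp [uElem, uGL_val, e2]; ring
  · rw [apply_uElem_eq (c := c) _ _ ha, (hμν a ha).2]; simp [uElem, uGL_val, e3]; field_simp
  · rw [apply_uElem_eq (c := c) _ _ ha, hf0 a ha]; simp [uElem, uGL_val, e1]
  · rw [c11, h11, apply_uElem_eq (c := c) _ _ ha, (hμν a ha).1]; simp [uElem, uGL_val, e2]; ring

include p in
/-- When the unipotents of `G` have order less than `5`, so `q = p = 3`, the entries are linear. -/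
private theorem unipEntry_linear_of_card_lt (hp2 : p ≠ 2) (hu : uGL (1 : k) ∈ G)
    (hc : IsSymCocycle G c) (hq : Nat.card (unipSet G) < 5) :
    (∀ a ∈ unipSet G, unipEntry G c 1 0 a = 0) ∧ ∃ μ ν : k, ∀ a ∈ unipSet G,
      unipEntry G c 0 0 a = μ * a ∧ unipEntry G c 0 1 a = ν * a - μ * a ^ 2 := by
  have hp : p.Prime := Fact.out
  have h1 : (1 : k) ∈ unipSet G := hu
  have hdvd : (p : ℕ) ∣ Nat.card (unipSet G) := by
    have ho : addOrderOf (⟨1, h1⟩ : unipSet G) = p := by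
      rw [← AddSubgroup.addOrderOf_coe]
      exact CharP.eq k (CharP.addOrderOf_one k) inferInstance
    exact ho ▸ addOrderOf_dvd_natCard _
  have hp3 : p = 3 ∧ Nat.card (unipSet G) = 3 := by
    have hpos : 0 < Nat.card (unipSet G) := Nat.card_pos
    have := Nat.le_of_dvd hpos hdvd
    have := hp.two_le
    rcases (show p = 3 ∨ p = 4 by omega) with rfl | rfl
    · refine ⟨rfl, ?_⟩; obtain ⟨t, ht⟩ := hdvd; omega
    · exact absurd hp (by decide)
  obtain ⟨rfl, hcard⟩ := hp3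
  have h3 : (3 : k) = 0 := CharP.cast_eq_zero k 3
  have hgen : unipSet G ≤ AddSubgroup.zmultiples 1 := by
    intro a ha
    have : Fact (Nat.Prime 3) := ⟨hp⟩
    have hz : AddSubgroup.zmultiples (⟨1, h1⟩ : unipSet G) = ⊤ :=
      zmultiples_eq_top_of_prime_card (p := 3) hcard
        (fun h => one_ne_zero (congrArg Subtype.val h : (1 : k) = 0))
    obtain ⟨n, hn⟩ : (⟨a, ha⟩ : unipSet G) ∈ AddSubgroup.zmultiples (⟨1, h1⟩ : unipSet G) :=
      hz ▸ AddSubgroup.mem_top _
    exact ⟨n, congrArg Subtype.val hn⟩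
  have hfA : AddOn (unipSet G) (unipEntry G c 1 0) := fun a ha b hb =>
    (unipEntry_add hc a ha b hb).1
  have hf1 : unipEntry G c 1 0 1 = 0 := by
    obtain ⟨-, -, a3⟩ := unipEntry_add hc 1 h1 1 h1
    obtain ⟨-, -, b3⟩ := unipEntry_add hc (1 + 1) ((unipSet G).add_mem h1 h1) 1 h1
    obtain ⟨-, -, z3⟩ := unipEntry_add hc 0 (unipSet G).zero_mem 0 (unipSet G).zero_mem
    rw [show (1 : k) + 1 + 1 = 0 by linear_combination h3, a3] at b3
    simp at z3
    rw [z3] at b3
    linear_combination -b3 +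
      (2 * unipEntry G c 1 0 1 - unipEntry G c 0 1 1 + 2 * unipEntry G c 0 0 1) * h3
  have hf0 : ∀ a ∈ unipSet G, unipEntry G c 1 0 a = 0 := fun a ha => by
    rw [hfA.eq_mul_of_zmultiples h1 hgen ha, hf1, zero_mul]
  have hhA : AddOn (unipSet G) (unipEntry G c 0 0) := fun a ha b hb => by
    rw [(unipEntry_add hc a ha b hb).2.1, hf0 b hb]; ring
  have hheq : ∀ a ∈ unipSet G, unipEntry G c 0 0 a = unipEntry G c 0 0 1 * a := fun a ha =>
    hhA.eq_mul_of_zmultiples h1 hgen ha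
  have heA : AddOn (unipSet G) fun a => unipEntry G c 0 1 a + unipEntry G c 0 0 1 * a ^ 2 :=
    fun a ha b hb => by
    simp only
    rw [(unipEntry_add hc a ha b hb).2.2, hf0 b hb, hheq b hb]; ring
  refine ⟨hf0, unipEntry G c 0 0 1, unipEntry G c 0 1 1 + unipEntry G c 0 0 1 * 1 ^ 2,
    fun a ha => ⟨hheq a ha, ?_⟩⟩
  linear_combination (heA.eq_mul_of_zmultiples h1 hgen ha :
    unipEntry G c 0 1 a + unipEntry G c 0 0 1 * a ^ 2 = _)

/-- An upper triangular element of determinant one scales unipotents by the square of its upper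
left entry. -/
private theorem ratio_eq_sq {g : G} (hg : g.1 1 0 = 0)
    (hd : (g.1 : Matrix (Fin 2) (Fin 2) k).det = 1) :
    g.1 0 0 * g.1 1 1 = 1 ∧ g.1 0 0 ^ 2 = g.1 0 0 / g.1 1 1 ∧
      g.1 0 0 / g.1 1 1 * g.1 1 1 ^ 2 = 1 := by
  rw [det_eq, hg, mul_zero, sub_zero] at hd
  have hy0 := (upper_diag_ne_zero hg).2
  exact ⟨hd, by rw [eq_div_iff hy0]; linear_combination g.1 0 0 * hd,
    by rw [div_mul_eq_mul_div, div_eq_iff hy0]; linear_combination g.1 1 1 * hd⟩

include p in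
/-- When the ratios in `R` generate the unipotents, the lower entry vanishes on them. -/
private theorem unipEntry_lower_eq_zero (hu : uGL (1 : k) ∈ G) (hc : IsSymCocycle G c)
    (hdet : ∃ g ∈ G, ∃ a : ZMod p,
      (g : Matrix (Fin 2) (Fin 2) k).det = ZMod.castHom (dvd_refl p) k a ∧ ¬ IsSquare a)
    {R : Finset k} (hR : ∀ r ∈ R, ∃ g : G, g.1 1 0 = 0 ∧
      (g.1 : Matrix (Fin 2) (Fin 2) k).det = 1 ∧ g.1 0 0 / g.1 1 1 = r)
    (hΛ : ∀ a, a ∈ unipSet G ↔ a ∈ Subring.closure (R : Set k)) :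
    ∀ a ∈ unipSet G, unipEntry G c 1 0 a = 0 := by
  classical
  have h1 : (1 : k) ∈ unipSet G := hu
  have hflin : ∀ a ∈ unipSet G, unipEntry G c 1 0 a = unipEntry G c 1 0 1 * a := by
    intro a ha
    have e1 := (unipEntry_add hc a ha 1 h1).2.1
    have e2 := (unipEntry_add hc 1 h1 a ha).2.1
    rw [add_comm 1 a, e1] at e2
    linear_combination -e2
  have hf1 : unipEntry G c 1 0 1 = 0 := by
    by_contra hne
    -- every ratio is `±1`
    have hpm : ∀ r ∈ R, r = 1 ∨ r = -1 := by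
      intro r hr
      obtain ⟨g, hg, hd, hrg⟩ := hR r hr
      obtain ⟨-, -, hry⟩ := ratio_eq_sq hg hd
      rw [hrg] at hry
      obtain ⟨hm, e1, -, -⟩ := unipEntry_ratio hc g hg 1 h1
      rw [hrg, mul_one] at e1 hm
      rw [hflin r hm] at e1
      have h2 : r = g.1 1 1 ^ 2 := mul_left_cancel₀ hne (by linear_combination e1)
      rw [← h2, ← sq] at hry
      exact sq_eq_one_iff.mp hry
    have hRle : R.card ≤ 2 := le_trans (Finset.card_le_card (show R ⊆ {1, -1} by
      intro r hr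
      rcases hpm r hr with rfl | rfl <;> simp)) Finset.card_le_two
    have hprime : ∀ a ∈ unipSet G, ∃ z : ZMod p, ZMod.castHom (dvd_refl p) k z = a := by
      intro a ha
      have hsub : Subring.closure (R : Set k) ≤ (ZMod.castHom (dvd_refl p) k).range := by
        refine Subring.closure_le.mpr fun r hr => ?_
        rcases hpm r hr with rfl | rfl
        · exact ⟨1, map_one _⟩
        · exact ⟨-1, by rw [map_neg, map_one]⟩
      exact hsub ((hΛ a).mp ha)
    obtain ⟨g0, hg0, d, hd, hns⟩ := hdet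
    obtain ⟨b, hb, hbd⟩ := exists_upper_det_eq p hu ⟨g0, hg0⟩
    obtain ⟨hm, e1, -, -⟩ := unipEntry_ratio hc b hb 1 h1
    rw [mul_one] at e1 hm
    rw [hflin _ hm] at e1
    have hr : b.1 0 0 / b.1 1 1 = b.1 1 1 ^ 2 := mul_left_cancel₀ hne (by linear_combination e1)
    obtain ⟨t, ht⟩ := hprime _ hm
    refine hns ⟨t, (ZMod.castHom (dvd_refl p) k).injective ?_⟩
    have hdd : (g0 : Matrix (Fin 2) (Fin 2) k).det = b.1 0 0 * b.1 1 1 := by
      rw [← hbd, det_eq, hb, mul_zero, sub_zero]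
    rw [← hd, hdd, map_mul, ht]
    have hy0 := (upper_diag_ne_zero hb).2
    have hx : b.1 0 0 = b.1 1 1 ^ 2 * b.1 1 1 := (div_eq_iff hy0).mp hr
    rw [hr, hx]; ring
  exact fun a ha => by rw [hflin a ha, hf1, zero_mul]

include p in
/-- When the ratios in `R` generate the unipotents and the lower entry vanishes, the upper entries
are linearised by suitable `μ, ν`. -/
private theorem unipEntry_upper_linear (hu : uGL (1 : k) ∈ G) (hc : IsSymCocycle G c)
    {R : Finset k} (hRcard : 1 < R.card) (hR : ∀ r ∈ R, ∃ g : G, g.1 1 0 = 0 ∧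
      (g.1 : Matrix (Fin 2) (Fin 2) k).det = 1 ∧ g.1 0 0 / g.1 1 1 = r)
    (hΛ : ∀ a, a ∈ unipSet G ↔ a ∈ Subring.closure (R : Set k))
    (hf0 : ∀ a ∈ unipSet G, unipEntry G c 1 0 a = 0) :
    ∃ μ ν : k, ∀ a ∈ unipSet G,
      unipEntry G c 0 0 a = μ * a ∧ unipEntry G c 0 1 a = ν * a - μ * a ^ 2 := by
  have h1 : (1 : k) ∈ unipSet G := hu
  -- some ratio differs from one
  obtain ⟨r, hr, hr1⟩ : ∃ r ∈ R, r ≠ 1 := by
    by_contra hcon
    push Not at hcon
    have : R.card ≤ 1 := Finset.card_le_one.mpr fun a ha b hb => (hcon a ha).trans (hcon b hb).symm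
    omega
  have hhA : AddOn (unipSet G) (unipEntry G c 0 0) := fun a ha b hb => by
    rw [(unipEntry_add hc a ha b hb).2.1, hf0 b hb]; ring
  obtain ⟨g, hg, hd, hrg⟩ := hR r hr
  obtain ⟨hxy, -, -⟩ := ratio_eq_sq hg hd
  set μ := r * c g 1 0 / (1 - r) with hμ
  have hmulΛ : ∀ s ∈ unipSet G, ∀ t ∈ unipSet G, s * t ∈ unipSet G := fun s hs t ht =>
    (hΛ _).mpr (Subring.mul_mem _ ((hΛ _).mp hs) ((hΛ _).mp ht))
  have hr1' : 1 - r ≠ 0 := sub_ne_zero.mpr (Ne.symm hr1)
  have hrΛ : r ∈ unipSet G := (hΛ r).mpr (Subring.subset_closure hr)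
  have hμa : ∀ a ∈ unipSet G, unipEntry G c 0 0 a = μ * a := by
    intro b hb
    have hinv : (1 - r)⁻¹ ∈ unipSet G := by
      have hs : (1 - r) ∈ Subring.closure (R : Set k) :=
        Subring.sub_mem _ (Subring.one_mem _) ((hΛ r).mp hrΛ)
      have hu' : (⟨1 - r, hs⟩ : Subring.closure (R : Set k)) ≠ 0 := fun h =>
        hr1' (congrArg Subtype.val h)
      obtain ⟨w, hw⟩ := (Finite.isDomain_to_isField _).mul_inv_cancel hu'
      rw [inv_eq_of_mul_eq_one_right (congrArg Subtype.val hw : (1 - r) * w.1 = 1)]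
      exact (hΛ _).mpr w.2
    have ha := hmulΛ _ hinv _ hb
    obtain ⟨hm, -, e2, -⟩ := unipEntry_ratio hc g hg _ ha
    rw [hrg, hxy, hf0 _ ha] at e2
    rw [hrg] at hm
    have e3 := hhA _ ha _ ((unipSet G).neg_mem hm)
    rw [hhA.neg hm, ← sub_eq_add_neg, show (1 - r)⁻¹ * b - r * ((1 - r)⁻¹ * b) = b by
      field_simp] at e3
    rw [e3, hμ, div_eq_mul_inv]
    linear_combination -e2
  have heA : AddOn (unipSet G) fun a => unipEntry G c 0 1 a + μ * a ^ 2 := fun a ha b hb => by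
    simp only
    rw [(unipEntry_add hc a ha b hb).2.2, hf0 b hb, hμa b hb]; ring
  set ν := unipEntry G c 0 1 1 + μ with hν
  refine ⟨μ, ν, fun a ha => ⟨hμa a ha, ?_⟩⟩
  have hD : AddOn (unipSet G) fun a => unipEntry G c 0 1 a + μ * a ^ 2 - ν * a := by
    intro a ha b hb
    have := heA a ha b hb
    simp only at this ⊢
    linear_combination this
  have key : unipEntry G c 0 1 a + μ * a ^ 2 - ν * a = 0 := by
    refine eq_zero_of_leibniz p (unipSet G) R _ hD h1 (by simp only [hν]; ring)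
      hΛ (fun s hs b hb => ?_) ha
    obtain ⟨g, hg, hd, hsg⟩ := hR s hs
    obtain ⟨hxy, hxx, -⟩ := ratio_eq_sq hg hd
    rw [hsg] at hxx
    obtain ⟨hm, -, e2, e3⟩ := unipEntry_ratio hc g hg b hb
    obtain ⟨hm1, -, e21, e31⟩ := unipEntry_ratio hc g hg 1 h1
    rw [hsg] at hm e2 e3 hm1 e21 e31
    rw [hf0 b hb, hμa b hb, hμa _ hm, hxy] at e2
    rw [hf0 b hb, hμa b hb, hxx] at e3
    rw [mul_one] at e21 e31 hm1
    rw [hf0 1 h1, hμa 1 h1, hμa _ hm1, hxy] at e21
    rw [hf0 1 h1, hμa 1 h1, hxx] at e31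
    linear_combination e3 - b * e31 + (s * b ^ 2) * e21 - (s * b) * e21
  linear_combination key

include p in
/-- The vanishing theorem for a normalised group. -/
theorem isSymCoboundary_of_uGL_mem (hp2 : p ≠ 2) (hu : uGL (1 : k) ∈ G)
    (hirr : ∃ g ∈ G, g 1 0 ≠ 0)
    (hdet : ∃ g ∈ G, ∃ a : ZMod p,
      (g : Matrix (Fin 2) (Fin 2) k).det = ZMod.castHom (dvd_refl p) k a ∧ ¬ IsSquare a)
    (hc : IsSymCocycle G c) : IsSymCoboundary G c := by
  have h2k : (2 : k) ≠ 0 := Ring.two_ne_zero (by rwa [ringChar.eq k p])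
  -- it suffices to kill the lower entry and linearise the others on the unipotents
  suffices h : (∀ a ∈ unipSet G, unipEntry G c 1 0 a = 0) ∧ ∃ μ ν : k, ∀ a ∈ unipSet G,
      unipEntry G c 0 0 a = μ * a ∧ unipEntry G c 0 1 a = ν * a - μ * a ^ 2 by
    obtain ⟨hf0, μ, ν, hμν⟩ := h
    obtain ⟨m, hm, hm'⟩ := exists_sub_eq_of_linear h2k hc hf0 hμν
    refine IsSymCoboundary.of_sub m hm ((hc.sub_coboundary m hm).isSymCoboundary_of_index
      (upperP G) (fun x hx => ?_) (index_upperP_ne_zero p hu))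
    obtain ⟨a, rfl⟩ := eq_uElem_of_mem_upperP G hx
    simp [hm']
  by_cases hq : Nat.card (unipSet G) < 5
  · exact unipEntry_linear_of_card_lt p hp2 hu hc hq
  push Not at hq
  obtain ⟨R, hR0, hRcard, hR⟩ := exists_torus_ratios p hp2 hu hirr hq
  have hRstab : ∀ r ∈ R, ∀ a ∈ unipSet G, r * a ∈ unipSet G := by
    intro r hr a ha
    obtain ⟨g, hg, -, rfl⟩ := hR r hr
    exact (unipEntry_ratio hc g hg a ha).1
  have hΛ := mem_closure_of_multipliers p (unipSet G) R hu hR0 hRstab hRcard hq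
  have hf0 := unipEntry_lower_eq_zero p hu hc hdet hR hΛ
  exact ⟨hf0, unipEntry_upper_linear p hu hc (by omega) hR hΛ hf0⟩

end FLTAgent.TWPrimes
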