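import Mathlib.GroupTheory.Perm.Cycle.Type
import Mathlib.LinearAlgebra.Matrix.ToLinearEquiv
import Fermat.Agent.TWPrimes.SymSquareVanishing

/-!
# `H¹(G, Sym²) = 0` for irreducible `G` with non-square determinant

The final form `isSymCoboundary_of_fixesNoLine`: `k` a finite field of odd characteristic `p`, `G`
fixes no line and some determinant is a non-square of the prime field. Used by `Detection`.
-/

set_option autoImplicit false

open Matrix

noncomputable section

namespace FLTAgent.TWPrimes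

variable {k : Type} [Field k] [Finite k] (p : ℕ) [Fact p.Prime] [CharP k p]
variable {G : Subgroup (GL (Fin 2) k)} {c : G → Matrix (Fin 2) (Fin 2) k}

/-- `G` fixes no line. -/
def FixesNoLine (G : Subgroup (GL (Fin 2) k)) : Prop :=
  ∀ v : Fin 2 → k, v ≠ 0 →
    ∃ g ∈ G, ∀ a : k, (g : Matrix (Fin 2) (Fin 2) k) *ᵥ v ≠ a • v

include p in
theorem isSymCoboundary_of_fixesNoLine (hp2 : p ≠ 2) (hirr : FixesNoLine G)
    (hdet : ∃ g ∈ G, ∃ a : ZMod p,
      (g : Matrix (Fin 2) (Fin 2) k).det = ZMod.castHom (dvd_refl p) k a ∧ ¬ IsSquare a)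
    (hc : IsSymCocycle G c) : IsSymCoboundary G c := by
  classical
  by_cases hdvd : p ∣ Nat.card G
  swap
  · refine hc.isSymCoboundary_of_index ⊥ (fun x hx => ?_) ?_
    · rw [Subgroup.mem_bot.mp hx, hc.one]
    · rw [Subgroup.index_bot]
      exact fun h => hdvd ((CharP.cast_eq_zero_iff k p _).mp h)
  -- an element of order `p` and an adapted basis
  obtain ⟨g, hg⟩ := exists_prime_orderOf_dvd_card' p hdvd
  have hgp : (g.1 : GL (Fin 2) k) ^ p ^ 1 = 1 := by
    rw [pow_one, ← SubgroupClass.coe_pow, ← hg, pow_orderOf_eq_one]; rfl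
  set N : Matrix (Fin 2) (Fin 2) k := (g.1 : Matrix (Fin 2) (Fin 2) k) - 1 with hN
  have hN2 : N * N = 0 := by rw [← sq]; exact sub_one_sq_eq_zero p hgp
  have hN0 : N ≠ 0 := by
    intro h0
    rw [hN, sub_eq_zero] at h0
    have : g = 1 := Subtype.ext (Units.ext h0)
    rw [this, orderOf_one] at hg
    exact (Fact.out : p.Prime).one_lt.ne' hg.symm
  obtain ⟨w, hw⟩ : ∃ w, N *ᵥ w ≠ 0 := by
    by_contra hcon
    push Not at hcon
    exact hN0 (Matrix.ext_of_mulVec_single fun i => by rw [hcon, Matrix.zero_mulVec])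
  set v := N *ᵥ w with hv
  have hNv : N *ᵥ v = 0 := by rw [hv, Matrix.mulVec_mulVec, hN2, Matrix.zero_mulVec]
  set P0 : Matrix (Fin 2) (Fin 2) k := Matrix.of fun i j => ![v i, w i] j with hP0
  have hdetP : P0.det ≠ 0 := by
    intro h0
    obtain ⟨x, hx0, hx⟩ := Matrix.exists_mulVec_eq_zero_iff.mpr h0
    have hcomb : x 0 • v + x 1 • w = 0 := by
      rw [← hx]
      ext i
      simp [hP0, Matrix.mulVec, dotProduct, Fin.sum_univ_two, mul_comm]
    have h1 : x 1 = 0 := by
      have := congrArg (fun z => N *ᵥ z) hcomb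
      simp [Matrix.mulVec_add, Matrix.mulVec_smul, hNv, ← hv] at this
      exact this.resolve_right hw
    rw [h1, zero_smul, add_zero, smul_eq_zero] at hcomb
    refine hx0 (funext fun i => ?_)
    fin_cases i
    · exact hcomb.resolve_right hw
    · exact h1
  let P : GL (Fin 2) k := Matrix.GeneralLinearGroup.mkOfDetNeZero P0 hdetP
  have hPval : (P : Matrix (Fin 2) (Fin 2) k) = P0 := rfl
  have hconj : g.1 * P = P * uGL 1 := by
    refine Units.ext ?_
    have hgm : (g.1 : Matrix (Fin 2) (Fin 2) k) = N + 1 := by rw [hN]; abel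
    rw [Units.val_mul, Units.val_mul, hPval, hgm, add_mul, one_mul]
    ext i j
    have e1 := congr_fun hNv i
    have e2 := congr_fun hv i
    simp [Matrix.mulVec, dotProduct, Fin.sum_univ_two] at e1 e2
    fin_cases j <;> simp [hP0, Matrix.mul_apply, Fin.sum_univ_two, uGL_val, e1, ← e2]
  let G' : Subgroup (GL (Fin 2) k) := G.comap (MulAut.conj P).toMonoidHom
  have hmem : ∀ x : GL (Fin 2) k, x ∈ G' ↔ P * x * P⁻¹ ∈ G := fun x => Iff.rfl
  let toG : G' → G := fun x => ⟨P * x.1 * P⁻¹, x.2⟩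
  have htoG : ∀ x y : G', toG (x * y) = toG x * toG y := fun x y =>
    Subtype.ext (show P * (x.1 * y.1) * P⁻¹ = P * x.1 * P⁻¹ * (P * y.1 * P⁻¹) by group)
  let c' : G' → Matrix (Fin 2) (Fin 2) k := fun x =>
    symAct ((P⁻¹ : GL (Fin 2) k) : Matrix (Fin 2) (Fin 2) k) (c (toG x))
  have hc' : IsSymCocycle G' c' := by
    refine ⟨fun x => ?_, fun x y => ?_⟩
    · rw [trace_symAct, hc.1, mul_zero]
    · show symAct _ (c (toG (x * y))) = _
      rw [htoG, hc.2, symAct_add]
      congr 1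
      show symAct _ (symAct _ _) = symAct _ (symAct _ _)
      rw [← symAct_mul, ← symAct_mul, ← Units.val_mul, ← Units.val_mul]
      congr 2
      show P⁻¹ * (P * x.1 * P⁻¹) = x.1 * P⁻¹
      group
  obtain ⟨m, hm, hm'⟩ : IsSymCoboundary G' c' := by
    refine isSymCoboundary_of_uGL_mem p hp2 ?_ ?_ ?_ hc'
    · rw [hmem, ← hconj, mul_inv_cancel_right]; exact g.2
    · obtain ⟨h, hh, hne⟩ := hirr v (fun h0 => hw h0)
      refine ⟨P⁻¹ * h * P, by rw [hmem]; convert hh using 1; group, fun h10 => ?_⟩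
      refine hne ((P⁻¹ * h * P : GL (Fin 2) k) 0 0) ?_
      have e : ((h * P : GL (Fin 2) k) : Matrix (Fin 2) (Fin 2) k) =
          P0 * (P⁻¹ * h * P : GL (Fin 2) k) := by
        rw [← hPval, ← Units.val_mul]; congr 1; group
      ext i
      have ei := congr_fun (congr_fun e i) 0
      rw [Units.val_mul, hPval, Matrix.mul_apply, Matrix.mul_apply, Fin.sum_univ_two,
        Fin.sum_univ_two, h10, mul_zero, add_zero] at ei
      simp [Matrix.mulVec, dotProduct, Fin.sum_univ_two]
      simp [hP0] at ei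
      rw [ei]; simp [mul_comm]
    · obtain ⟨h, hh, a, ha, hns⟩ := hdet
      refine ⟨P⁻¹ * h * P, by rw [hmem]; convert hh using 1; group, a, ?_, hns⟩
      rw [← ha, Units.val_mul, Units.val_mul, Matrix.det_units_conj']
  refine ⟨symAct (P : Matrix (Fin 2) (Fin 2) k) m, by rw [trace_symAct, hm, mul_zero],
    fun x => ?_⟩
  have hx' : P⁻¹ * x.1 * P ∈ G' := by rw [hmem]; convert x.2 using 1; group
  have hx : toG ⟨_, hx'⟩ = x := Subtype.ext (show P * (P⁻¹ * x.1 * P) * P⁻¹ = x.1 by group)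
  have := congrArg (symAct (P : Matrix (Fin 2) (Fin 2) k)) (hm' ⟨_, hx'⟩)
  rw [show c' ⟨_, hx'⟩ = symAct ((P⁻¹ : GL (Fin 2) k) : Matrix (Fin 2) (Fin 2) k) (c (toG ⟨_, hx'⟩))
    from rfl, hx, ← symAct_mul, ← Units.val_mul, mul_inv_cancel, Units.val_one, symAct_one,
    symAct_sub, ← symAct_mul, ← Units.val_mul] at this
  rw [this, ← symAct_mul, ← Units.val_mul]
  congr 3
  show P * (P⁻¹ * x.1 * P) = x.1 * P
  group

end FLTAgent.TWPrimes
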