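import Fermat.Agent.TWPrimes.Adjoint
import Fermat.Agent.TWPrimes.SymSquareH1
import Mathlib.LinearAlgebra.Matrix.Charpoly.Coeff

/-!
# Detection of twisted adjoint classes

If a cocycle for `g • m = g m adj g` on trace zero matrices is not a coboundary, some element of a
normal subgroup with abelian quotient, of trivial determinant, has distinct eigenvalues and
detects it (`exists_detecting`). Used by `PrimeSelection`.
-/

set_option autoImplicit false

open Matrix Polynomial

noncomputable section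

namespace FLTAgent.TWPrimes

variable {k : Type} [Field k] {Γ : Type} [Group Γ] {r : Γ →* GL (Fin 2) k}

/-- Cocycles on `Γ` for the twisted adjoint action through `r`, trace zero valued. -/
def IsSymCocycleOn (r : Γ →* GL (Fin 2) k) (ψ : Γ → Matrix (Fin 2) (Fin 2) k) : Prop :=
  (∀ g, (ψ g).trace = 0) ∧ ∀ g h, ψ (g * h) = ψ g + symAct (mat r g) (ψ h)

theorem IsSymCocycleOn.one {ψ : Γ → Matrix (Fin 2) (Fin 2) k} (h : IsSymCocycleOn r ψ) :
    ψ 1 = 0 := by
  have := h.2 1 1
  rw [mul_one, mat_one, symAct_one] at this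
  simpa using this

/-- A cocycle at a conjugate of an element with trivial image is moved by the action. -/
theorem IsSymCocycleOn.conj {ψ : Γ → Matrix (Fin 2) (Fin 2) k} (h : IsSymCocycleOn r ψ) (g n : Γ)
    (hn : mat r n = 1) : ψ (g * n * g⁻¹) = symAct (mat r g) (ψ n) := by
  have h1 := h.2 g g⁻¹
  rw [mul_inv_cancel, h.one] at h1
  rw [h.2, h.2, mat_mul, hn, mul_one, add_right_comm, ← h1, zero_add]

/-- Two commuting trace zero matrices are proportional. -/
theorem exists_smul_of_commute [NeZero (2 : k)] {x C : Matrix (Fin 2) (Fin 2) k}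
    (hx : x.trace = 0) (hC : C.trace = 0) (hC0 : C ≠ 0) (h : x * C = C * x) :
    ∃ a : k, x = a • C := by
  have hx' := apply_one_one_of_trace_eq_zero hx
  have hC' := apply_one_one_of_trace_eq_zero hC
  have e00 := congr_fun (congr_fun h 0) 0
  have e01 := congr_fun (congr_fun h 0) 1
  have e10 := congr_fun (congr_fun h 1) 0
  simp [Matrix.mul_apply, Fin.sum_univ_two, hx', hC'] at e00 e01 e10
  have f01 : x 0 0 * C 0 1 = x 0 1 * C 0 0 :=
    mul_left_cancel₀ (two_ne_zero : (2 : k) ≠ 0) (by linear_combination e01)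
  have f10 : x 0 0 * C 1 0 = x 1 0 * C 0 0 :=
    mul_left_cancel₀ (two_ne_zero : (2 : k) ≠ 0) (by linear_combination -e10)
  have f00 : x 0 1 * C 1 0 = x 1 0 * C 0 1 := by linear_combination e00
  by_cases h0 : C 0 0 = 0
  · by_cases h1 : C 0 1 = 0
    · have h2 : C 1 0 ≠ 0 := fun h2 => hC0 (by
        ext i j; fin_cases i <;> fin_cases j <;> simp [h0, h1, h2, hC'])
      refine ⟨x 1 0 / C 1 0, ?_⟩
      ext i j; fin_cases i <;> fin_cases j <;>
        simp [h0, h1, hx', hC', h2] <;> grind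
    · refine ⟨x 0 1 / C 0 1, ?_⟩
      ext i j; fin_cases i <;> fin_cases j <;>
        simp [h0, hx', hC', h1] <;> (try field_simp) <;> grind
  · refine ⟨x 0 0 / C 0 0, ?_⟩
    ext i j; fin_cases i <;> fin_cases j <;>
      simp [hx', hC'] <;> (try field_simp) <;> grind

/-- The bracket is orthogonal only to itself: the double bracket identity. -/
theorem bracket_bracket (x u v : Matrix (Fin 2) (Fin 2) k) (hx : x.trace = 0) (hu : u.trace = 0)
    (hv : v.trace = 0) (h1 : (x * u).trace = 0) (h2 : (x * v).trace = 0) :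
    x * (u * v - v * u) = (u * v - v * u) * x := by
  have hx' := apply_one_one_of_trace_eq_zero hx
  have hu' := apply_one_one_of_trace_eq_zero hu
  have hv' := apply_one_one_of_trace_eq_zero hv
  simp [Matrix.trace_fin_two, Matrix.mul_apply, Fin.sum_univ_two, hx', hu', hv'] at h1 h2
  ext i j
  fin_cases i <;> fin_cases j <;>
    simp [Matrix.mul_apply, Fin.sum_univ_two, hx', hu', hv'] <;> grind

theorem mul_mul_self_of_det_eq_zero (N X : Matrix (Fin 2) (Fin 2) k) (hN : N.det = 0) :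
    N * X * N = (N * X).trace • N := by
  rw [Matrix.det_fin_two] at hN
  ext i j
  fin_cases i <;> fin_cases j <;>
    simp [Matrix.mul_apply, Fin.sum_univ_two, Matrix.trace_fin_two] <;> grind

theorem trace_conj_mat (g : Γ) (x : Matrix (Fin 2) (Fin 2) k) :
    (mat r g * x * mat r g⁻¹).trace = x.trace := by
  rw [Matrix.trace_mul_cycle, mat_inv_mul, one_mul]

theorem adjugate_mat (g : Γ) :
    (mat r g).adjugate = (mat r g).det • mat r g⁻¹ := by
  have h1 := congrArg (· * mat r g⁻¹) (Matrix.adjugate_mul (mat r g))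
  simp only [mul_assoc, mat_mul_inv, mul_one, smul_mul_assoc, one_mul] at h1
  exact h1

theorem symAct_mat (g : Γ) (m : Matrix (Fin 2) (Fin 2) k) :
    symAct (mat r g) m = (mat r g).det • (mat r g * m * mat r g⁻¹) := by
  rw [symAct, adjugate_mat, mul_smul_comm]

variable [NeZero (2 : k)] (h : NoInducedLine r) (Γ' : Subgroup Γ) [Γ'.Normal]

include h

/-- Some element of `Γ'` has distinct eigenvalues. -/
theorem NoInducedLine.exists_regular (hcomm : ∀ a b, a * b * (b * a)⁻¹ ∈ Γ')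
    (hdet1 : ∀ g ∈ Γ', (mat r g).det = 1) :
    ∃ g ∈ Γ', (mat r g).trace ^ 2 ≠ 4 := by
  by_contra hcon
  push Not at hcon
  by_cases hsc : ∀ g ∈ Γ', ∃ a : k, mat r g = a • 1
  · refine h.not_projectively_commutative fun a b => ?_
    obtain ⟨l, hl⟩ := hsc _ (hcomm a b)
    have h1 := hdet1 _ (hcomm a b)
    rw [hl, Matrix.det_smul, Matrix.det_one, mul_one, Fintype.card_fin] at h1
    have e : mat r a * mat r b = l • (mat r b * mat r a) := by
      rw [← mat_mul, ← mat_mul, show a * b = a * b * (b * a)⁻¹ * (b * a) by group, mat_mul, hl,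
        smul_mul_assoc, one_mul]
    rcases sq_eq_one_iff.mp h1 with h2 | h2
    · exact Or.inl (by rw [e, h2, one_smul])
    · exact Or.inr (by rw [e, h2, neg_one_smul])
  push Not at hsc
  obtain ⟨g, hgΓ, hg⟩ := hsc
  set ε : k := (mat r g).trace / 2 with hε
  have hεε : ε ^ 2 = 1 := by
    rw [hε, div_pow, hcon g hgΓ, show (2 : k) ^ 2 = 4 by norm_num]
    exact div_self (by
      rw [show (4 : k) = 2 * 2 by norm_num]; exact mul_ne_zero two_ne_zero two_ne_zero)
  set N := mat r g - ε • (1 : Matrix (Fin 2) (Fin 2) k) with hN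
  have htr : (mat r g).trace = 2 * ε := by rw [hε, mul_div_cancel₀ _ two_ne_zero]
  have hNtr : N.trace = 0 := by
    rw [hN, Matrix.trace_sub, Matrix.trace_smul, Matrix.trace_one, smul_eq_mul, htr,
      Fintype.card_fin]
    push_cast; ring
  have hNdet : N.det = 0 := by
    have h1 := hdet1 g hgΓ
    rw [Matrix.det_fin_two] at h1
    rw [Matrix.trace_fin_two] at htr
    rw [hN, Matrix.det_fin_two]
    simp
    linear_combination h1 - ε * htr - hεε
  have hN0 : N ≠ 0 := fun h0 => hg ε (sub_eq_zero.mp h0)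
  have hN2 : N * N = 0 := by
    have h1 := mul_mul_self_of_det_eq_zero N 1 hNdet
    rwa [mul_one, hNtr, zero_smul] at h1
  obtain ⟨w, hw⟩ : ∃ w, N *ᵥ w ≠ 0 := by
    by_contra hall
    push Not at hall
    exact hN0 (Matrix.ext_of_mulVec_single fun i => by rw [hall, Matrix.zero_mulVec])
  set v := N *ᵥ w with hv
  have hNv : N *ᵥ v = 0 := by rw [hv, Matrix.mulVec_mulVec, hN2, Matrix.zero_mulVec]
  obtain ⟨γ, hγ⟩ := h.fixesNoLine hw
  set N' := mat r γ * N * mat r γ⁻¹ with hN'
  have hconj : mat r (γ * g * γ⁻¹) = ε • 1 + N' := by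
    rw [hN', hN, mat_mul, mat_mul, mul_sub, sub_mul, mul_smul_comm, mul_one, smul_mul_assoc,
      mat_mul_inv]
    abel
  have hg' : mat r g = ε • 1 + N := by rw [hN]; abel
  have hN't : N'.trace = 0 := by rw [hN', trace_conj_mat, hNtr]
  have hmem := Subgroup.Normal.conj_mem (inferInstance : Γ'.Normal) g hgΓ γ
  have e1 := hcon _ (Γ'.mul_mem hgΓ hmem)
  have e2 := hcon _ (Γ'.mul_mem (Γ'.mul_mem hgΓ hgΓ) hmem)
  rw [mat_mul, hconj, hg'] at e1
  rw [mat_mul, mat_mul, hconj, hg'] at e2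
  simp [mul_add, add_mul, hN2, Matrix.trace_add, Matrix.trace_smul, hNtr, hN't, smul_smul] at e1 e2
  have ht : (N * N').trace = 0 := by
    have h1 : (N * N').trace * ((N * N').trace + 4) = 0 := by grind
    have h2 : (N * N').trace * ((N * N').trace + 2) = 0 := by grind
    have h3 : (N * N').trace * 2 = 0 := by linear_combination h1 - h2
    exact (mul_eq_zero.mp h3).resolve_right two_ne_zero
  have hNN'v : N *ᵥ (N' *ᵥ v) = 0 := by
    rw [hv, Matrix.mulVec_mulVec, Matrix.mulVec_mulVec,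
      mul_mul_self_of_det_eq_zero N N' hNdet, ht, zero_smul, Matrix.zero_mulVec]
  obtain ⟨b, hb⟩ := exists_smul_of_mulVec_eq_zero hN0 hw hNv hNN'v
  have hb0 : N' *ᵥ v = 0 := by
    have hN'2 : N' * N' = 0 := by
      rw [hN', show mat r γ * N * mat r γ⁻¹ * (mat r γ * N * mat r γ⁻¹) =
        mat r γ * N * (mat r γ⁻¹ * mat r γ) * N * mat r γ⁻¹ by simp [mul_assoc], mat_inv_mul,
        mul_one, mul_assoc (mat r γ), hN2, mul_zero, zero_mul]
    have h1 : N' *ᵥ (N' *ᵥ v) = 0 := by rw [Matrix.mulVec_mulVec, hN'2, Matrix.zero_mulVec]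
    rw [hb, Matrix.mulVec_smul, hb, smul_smul, smul_eq_zero] at h1
    rw [hb, mul_self_eq_zero.mp (h1.resolve_right hw), zero_smul]
  have hNγ : N *ᵥ (mat r γ⁻¹ *ᵥ v) = 0 := by
    have h1 := congrArg (fun z => mat r γ⁻¹ *ᵥ z) hb0
    simp only [Matrix.mulVec_mulVec, Matrix.mulVec_zero, hN', ← mul_assoc,
      mat_inv_mul, one_mul] at h1
    rw [Matrix.mulVec_mulVec]; exact h1
  obtain ⟨a, ha⟩ := exists_smul_of_mulVec_eq_zero hN0 hw hNv hNγ
  have h2 := congrArg (fun z => mat r γ *ᵥ z) ha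
  simp only [Matrix.mulVec_mulVec, mat_mul_inv, Matrix.one_mulVec, Matrix.mulVec_smul] at h2
  have ha0 : a ≠ 0 := fun h0 => hw (by rw [h0, zero_smul] at h2; exact h2)
  exact hγ a⁻¹ (by rw [eq_inv_smul_iff₀ ha0, ← h2])

/-- A nonzero space of trace zero matrices stable under `Γ` is not orthogonal to any fixed
matrix which is not scalar. -/
theorem NoInducedLine.exists_trace_mul_ne_zero (U : Submodule k (Matrix (Fin 2) (Fin 2) k))
    (hU0 : U ≠ ⊥) (htr : ∀ u ∈ U, u.trace = 0) (hstab : ∀ g, ∀ u ∈ U, symAct (mat r g) u ∈ U)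
    (S : Matrix (Fin 2) (Fin 2) k) (hS : ∀ a : k, S ≠ a • 1) :
    ∃ u ∈ U, (u * S).trace ≠ 0 := by
  by_contra hcon
  push Not at hcon
  obtain ⟨u, hu, hu0⟩ := Submodule.exists_mem_ne_zero_of_ne_bot hU0
  by_cases hall : ∀ v ∈ U, v * u = u * v
  · obtain ⟨g, hg⟩ := h.no_stable_matrix_line (htr u hu) hu0
    obtain ⟨a, ha⟩ := exists_smul_of_commute (htr _ (hstab g u hu)) (htr u hu) hu0
      (hall _ (hstab g u hu))
    exact hg a ha
  push Not at hall
  obtain ⟨v, hv, hvu⟩ := hall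
  set C := u * v - v * u with hC
  have hC0 : C ≠ 0 := fun h0 => hvu (sub_eq_zero.mp h0).symm
  have hCtr : C.trace = 0 := by rw [hC, Matrix.trace_sub, Matrix.trace_mul_comm, sub_self]
  set S' := S - (S.trace / 2) • (1 : Matrix (Fin 2) (Fin 2) k) with hS'
  have hS'tr : S'.trace = 0 := by
    rw [hS', Matrix.trace_sub, Matrix.trace_smul, Matrix.trace_one, smul_eq_mul, Fintype.card_fin]
    push_cast
    rw [div_mul_cancel₀ _ two_ne_zero, sub_self]
  have hS'0 : S' ≠ 0 := fun h0 => hS _ (sub_eq_zero.mp h0)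
  have horth : ∀ y ∈ U, (S' * y).trace = 0 := by
    intro y hy
    rw [hS', sub_mul, Matrix.trace_sub, smul_mul_assoc, one_mul, Matrix.trace_smul, htr y hy,
      smul_zero, sub_zero, Matrix.trace_mul_comm]
    exact hcon y hy
  obtain ⟨g, hg⟩ := h.no_stable_matrix_line hS'tr hS'0
  have hgS : ∀ y ∈ U, (symAct (mat r g) S' * y).trace = 0 := by
    intro y hy
    have hy' := horth _ (hstab g⁻¹ y hy)
    rw [symAct_mat, mul_smul_comm, Matrix.trace_smul, inv_inv, smul_eq_zero] at hy'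
    rw [symAct_mat, smul_mul_assoc, Matrix.trace_smul]
    have e : (mat r g⁻¹ * y * (mat r g * S')).trace = (S' * (mat r g⁻¹ * y * mat r g)).trace := by
      rw [← mul_assoc, Matrix.trace_mul_comm S']
    rw [show mat r g * S' * mat r g⁻¹ * y = mat r g * S' * (mat r g⁻¹ * y) by simp [mul_assoc],
      Matrix.trace_mul_comm (mat r g * S') (mat r g⁻¹ * y), e,
      hy'.resolve_left (det_mat_ne_zero _), smul_zero]
  have hprop : ∀ X : Matrix (Fin 2) (Fin 2) k, X.trace = 0 → (∀ y ∈ U, (X * y).trace = 0) →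
      ∃ a : k, X = a • C := fun X hX hXU =>
    exists_smul_of_commute hX hCtr hC0
      (bracket_bracket X u v hX (htr u hu) (htr v hv) (hXU u hu) (hXU v hv))
  obtain ⟨a, ha⟩ := hprop S' hS'tr horth
  obtain ⟨b, hb⟩ := hprop _ (by rw [trace_symAct, hS'tr, mul_zero]) hgS
  have ha0 : a ≠ 0 := fun h0 => hS'0 (by rw [ha, h0, zero_smul])
  exact hg (b / a) (by rw [hb, ha, smul_smul, div_mul_cancel₀ _ ha0])

variable [Finite k] (p : ℕ) [Fact p.Prime] [CharP k p] (χ : Γ →* (ZMod p)ˣ)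

/-- **Detection.** -/
theorem NoInducedLine.exists_detecting (hp2 : p ≠ 2)
    (hdet : ∀ g, (mat r g).det = ZMod.castHom (dvd_refl p) k (χ g : ZMod p))
    (hχ : ∀ g ∈ Γ', χ g = 1) (hns : ∃ g, ¬ IsSquare (χ g : ZMod p))
    (hcomm : ∀ a b, a * b * (b * a)⁻¹ ∈ Γ')
    {ψ : Γ → Matrix (Fin 2) (Fin 2) k} (hψ : IsSymCocycleOn r ψ)
    (hnot : ¬ ∃ m : Matrix (Fin 2) (Fin 2) k, m.trace = 0 ∧
      ∀ g, ψ g = symAct (mat r g) m - m) :
    ∃ σ ∈ Γ', (∃ α β : k, α ≠ β ∧ (mat r σ).charpoly = (X - C α) * (X - C β)) ∧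
      ∀ m : Matrix (Fin 2) (Fin 2) k, m.trace = 0 → ψ σ ≠ symAct (mat r σ) m - m := by
  classical
  have hdet1 : ∀ g ∈ Γ', (mat r g).det = 1 := fun g hg => by
    rw [hdet, hχ g hg, Units.val_one, map_one]
  obtain ⟨σ₀, hσ₀, hreg⟩ := h.exists_regular Γ' hcomm hdet1
  have hchar : ∀ σ ∈ Γ', mat r σ = mat r σ₀ →
      ∃ α β : k, α ≠ β ∧ (mat r σ).charpoly = (X - C α) * (X - C β) := by
    intro σ _ he
    obtain ⟨a, ha⟩ := h.split σ₀
    refine ⟨a, (mat r σ₀).trace - a, fun h0 => hreg ?_, ?_⟩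
    · rw [Matrix.det_fin_two] at ha
      simp at ha
      have hd := hdet1 σ₀ hσ₀
      rw [Matrix.det_fin_two] at hd
      rw [Matrix.trace_fin_two] at h0 ⊢
      grind
    · rw [he, Matrix.charpoly_fin_two, hdet1 σ₀ hσ₀]
      rw [Matrix.det_fin_two] at ha
      simp at ha
      have hd := hdet1 σ₀ hσ₀
      rw [Matrix.det_fin_two] at hd
      have e : a * ((mat r σ₀).trace - a) = 1 := by rw [Matrix.trace_fin_two]; grind
      rw [show (C (1 : k) : k[X]) = C (a * ((mat r σ₀).trace - a)) by rw [e], map_mul, map_sub]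
      ring
  have hSns : ∀ b : k, mat r σ₀ ≠ b • 1 := by
    intro b hb
    apply hreg
    have hd := hdet1 σ₀ hσ₀
    rw [hb, Matrix.det_smul, Matrix.det_one, mul_one, Fintype.card_fin] at hd
    rw [hb, Matrix.trace_smul, Matrix.trace_one, smul_eq_mul, Fintype.card_fin]
    push_cast
    linear_combination 4 * hd
  -- elements of the image of `σ₀ - 1` are orthogonal to `σ₀`
  have horth : ∀ m : Matrix (Fin 2) (Fin 2) k,
      ((symAct (mat r σ₀) m - m) * mat r σ₀).trace = 0 := by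
    intro m
    rw [symAct_mat, hdet1 σ₀ hσ₀, one_smul, sub_mul, Matrix.trace_sub, mul_assoc, mat_inv_mul,
      mul_one, Matrix.trace_mul_comm, sub_self]
  by_cases hσψ : ∀ m : Matrix (Fin 2) (Fin 2) k, m.trace = 0 → ψ σ₀ ≠ symAct (mat r σ₀) m - m
  · exact ⟨σ₀, hσ₀, hchar σ₀ hσ₀ rfl, hσψ⟩
  push Not at hσψ
  obtain ⟨m₀, -, hm₀⟩ := hσψ
  let N₀ : Set Γ := {n | n ∈ Γ' ∧ mat r n = 1}
  let U := Submodule.span k (ψ '' N₀)
  by_cases hU : U = ⊥
  · exfalso
    apply hnot
    have hzero : ∀ n ∈ N₀, ψ n = 0 := fun n hn =>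
      (Submodule.mem_bot k).mp (hU ▸ Submodule.subset_span ⟨n, hn, rfl⟩)
    have hker : ∀ n, mat r n = 1 → ψ n = 0 := by
      intro n hn
      by_contra hne
      obtain ⟨g, hg⟩ := h.no_stable_matrix_line (hψ.1 n) hne
      refine hg 1 ?_
      rw [one_smul, ← hψ.conj g n hn]
      have hc : g * n * g⁻¹ * n⁻¹ ∈ N₀ := by
        refine ⟨by simpa [mul_assoc] using hcomm g n, ?_⟩
        have hn' : mat r n⁻¹ = 1 := by have := mat_inv_mul (r := r) n; rwa [hn, mul_one] at this
        simp [mat_mul, hn, hn', mat_mul_inv]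
      have := hψ.2 (g * n * g⁻¹ * n⁻¹) n
      rw [inv_mul_cancel_right, hzero _ hc, hc.2, symAct_one, zero_add] at this
      exact this
    -- factor through the image
    let c : r.range → Matrix (Fin 2) (Fin 2) k := fun x => ψ (Function.surjInv
      (MonoidHom.rangeRestrict_surjective r) x)
    have hc : ∀ g, c (r.rangeRestrict g) = ψ g := by
      intro g
      show ψ _ = ψ g
      set g' := Function.surjInv (MonoidHom.rangeRestrict_surjective r) (r.rangeRestrict g)
      have e : r g' = r g := congrArg Subtype.val (Function.surjInv_eq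
        (MonoidHom.rangeRestrict_surjective r) (r.rangeRestrict g))
      have hn : mat r (g'⁻¹ * g) = 1 := by
        rw [mat_mul, show mat r g = mat r g' by rw [mat, mat, e], mat_inv_mul]
      have := hψ.2 g' (g'⁻¹ * g)
      rw [mul_inv_cancel_left, hker _ hn, symAct_zero, add_zero] at this
      exact this.symm
    have hcc : IsSymCocycle r.range c := by
      refine ⟨fun x => hψ.1 _, fun x y => ?_⟩
      obtain ⟨a, rfl⟩ := MonoidHom.rangeRestrict_surjective r x
      obtain ⟨b, rfl⟩ := MonoidHom.rangeRestrict_surjective r y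
      rw [← map_mul, hc, hc, hc, hψ.2]
      rfl
    obtain ⟨m, hm, hm'⟩ := isSymCoboundary_of_fixesNoLine p hp2
      (fun v hv => by
        obtain ⟨g, hg⟩ := h.fixesNoLine hv
        exact ⟨r g, ⟨g, rfl⟩, hg⟩)
      (by
        obtain ⟨g, hg⟩ := hns
        exact ⟨r g, ⟨g, rfl⟩, (χ g : ZMod p), hdet g, hg⟩) hcc
    exact ⟨m, hm, fun g => by rw [← hc]; exact hm' _⟩
  have hUtr : ∀ u ∈ U, u.trace = 0 := fun u hu =>
    Submodule.span_le (p := LinearMap.ker (Matrix.traceLinearMap (Fin 2) k k)).mpr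
      (by rintro _ ⟨n, -, rfl⟩; simpa using hψ.1 n) hu
  have hUstab : ∀ g, ∀ u ∈ U, symAct (mat r g) u ∈ U := by
    intro g u hu
    induction hu using Submodule.span_induction with
    | mem x hx =>
      obtain ⟨n, ⟨hn, hn'⟩, rfl⟩ := hx
      rw [← hψ.conj g n hn']
      refine Submodule.subset_span ⟨_, ⟨Subgroup.Normal.conj_mem inferInstance n hn g, ?_⟩, rfl⟩
      rw [mat_mul, mat_mul, hn', mul_one, mat_mul_inv]
    | zero => rw [symAct_zero]; exact U.zero_mem
    | add x y _ _ hx hy => rw [symAct_add]; exact U.add_mem hx hy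
    | smul a x _ hx => rw [symAct_smul]; exact U.smul_mem a hx
  obtain ⟨u, hu, hune⟩ := h.exists_trace_mul_ne_zero U hU hUtr hUstab (mat r σ₀) hSns
  obtain ⟨n, hn, hnne⟩ : ∃ n ∈ N₀, (ψ n * mat r σ₀).trace ≠ 0 := by
    by_contra hcon
    push Not at hcon
    apply hune
    clear hune
    induction hu using Submodule.span_induction with
    | mem x hx => obtain ⟨n, hn, rfl⟩ := hx; exact hcon n hn
    | zero => simp
    | add x y _ _ hx hy => rw [add_mul, Matrix.trace_add, hx, hy, add_zero]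
    | smul a x _ hx =>
      rw [smul_mul_assoc, Matrix.trace_smul, smul_eq_mul, hx, mul_zero]
  have hmat : mat r (n * σ₀) = mat r σ₀ := by rw [mat_mul, hn.2, one_mul]
  refine ⟨n * σ₀, Γ'.mul_mem hn.1 hσ₀, hchar _ (Γ'.mul_mem hn.1 hσ₀) hmat, fun m _ hm => hnne ?_⟩
  rw [hψ.2, hn.2, symAct_one, hm₀, hmat] at hm
  rw [← sub_eq_iff_eq_add.mpr (hm.symm), Matrix.sub_mul, Matrix.trace_sub, horth, horth, sub_self]

end FLTAgent.TWPrimes
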