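import Mathlib.LinearAlgebra.Matrix.Trace
import Fermat.Agent.Density.Frobenius
import Fermat.Agent.LocalDuality.Fields
import Fermat.Agent.FiniteFlat.Model
import Fermat.Prelude.Def_GroupCohomology_ContinuousH2
import Fermat.Agent.TWPrimes.Detection

/-!
# Local classes of the adjoint representation

Vocabulary for the local conditions in the Taylor–Wiles prime theorem: `adAct`, `adCob`,
`classDim`, and the unramified, strict and flat class predicates on `LocalGal q`, mapped to the
global group by `toGlobal q`. Used by all local bounds in this directory.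
-/

set_option autoImplicit false

open Matrix groupCohomology

noncomputable section

namespace FLTAgent.TWPrimes

open FLTAgent.LocalDuality

variable {k : Type} [Field k] {Γ : Type} [Group Γ]

/-- The adjoint action `g m g⁻¹` through `r`. -/
def adAct (r : Γ →* GL (Fin 2) k) (g : Γ) (m : Matrix (Fin 2) (Fin 2) k) :
    Matrix (Fin 2) (Fin 2) k :=
  mat r g * m * mat r g⁻¹

/-- Trace zero valued cocycles for the adjoint action. -/
def IsAdCocycleOn (r : Γ →* GL (Fin 2) k) (c : Γ → Matrix (Fin 2) (Fin 2) k) : Prop :=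
  (∀ g, (c g).trace = 0) ∧ ∀ g h, c (g * h) = c g + adAct r g (c h)

/-- The coboundaries of trace zero matrices. -/
def adCob (r : Γ →* GL (Fin 2) k) : Submodule k (Γ → Matrix (Fin 2) (Fin 2) k) :=
  (LinearMap.ker (Matrix.traceLinearMap (Fin 2) k k)).map
    ({ toFun := fun m g => adAct r g m - m
       map_add' := fun a b => funext fun g => by simp [adAct, mul_add, add_mul]; abel
       map_smul' := fun a m => funext fun g => by simp [adAct, smul_sub] } :
      Matrix (Fin 2) (Fin 2) k →ₗ[k] Γ → Matrix (Fin 2) (Fin 2) k)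

theorem mem_adCob_iff {r : Γ →* GL (Fin 2) k} {c : Γ → Matrix (Fin 2) (Fin 2) k} :
    c ∈ adCob r ↔ ∃ m : Matrix (Fin 2) (Fin 2) k, m.trace = 0 ∧ ∀ g, c g = adAct r g m - m := by
  simp only [adCob, Submodule.mem_map, LinearMap.mem_ker, Matrix.traceLinearMap_apply]
  constructor
  · rintro ⟨m, hm, rfl⟩; exact ⟨m, hm, fun g => rfl⟩
  · rintro ⟨m, hm, h⟩; exact ⟨m, hm, funext fun g => (h g).symm⟩

/-- The trace zero invariants of the adjoint action. -/
def adFixed (r : Γ →* GL (Fin 2) k) : Submodule k (Matrix (Fin 2) (Fin 2) k) :=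
  LinearMap.ker (Matrix.traceLinearMap (Fin 2) k k) ⊓
    ⨅ g, LinearMap.eqLocus
      (LinearMap.mulLeft k (mat r g) ∘ₗ LinearMap.mulRight k (mat r g⁻¹)) LinearMap.id

/-- The fixed space consists of the invariant trace zero matrices. -/
theorem mem_adFixed_iff {r : Γ →* GL (Fin 2) k} {m : Matrix (Fin 2) (Fin 2) k} :
    m ∈ adFixed r ↔ m.trace = 0 ∧ ∀ g, adAct r g m = m := by
  simp [adFixed, adAct, mul_assoc]

/-- The dimension of the classes of a space of cocycles. -/
def classDim (r : Γ →* GL (Fin 2) k) (W : Submodule k (Γ → Matrix (Fin 2) (Fin 2) k)) : ℕ :=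
  Module.finrank k (W.map (adCob r).mkQ)

section Place

variable (q : ℕ) [Fact q.Prime]

/-- A global representation at `q`. -/
def locHom (r : Density.GalQ →* GL (Fin 2) k) : LocalGal q →* GL (Fin 2) k :=
  r.comp (toGlobal q)

/-- Restriction of functions to the local group at `q`. -/
def resLin : (Density.GalQ → Matrix (Fin 2) (Fin 2) k) →ₗ[k]
    (LocalGal q → Matrix (Fin 2) (Fin 2) k) :=
  LinearMap.funLeft k _ (toGlobal q)

/-- The local inertia elements. -/
def IsLocalInertia (τ : LocalGal q) : Prop :=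
  ∀ x : PadicAlgCl q, ‖x‖ ≤ 1 → ‖τ x - x‖ < 1

/-- Local functions which are constant on the cosets of a finite level. -/
def LocalLevel (c : LocalGal q → Matrix (Fin 2) (Fin 2) k) : Prop :=
  IsLevelConstant₁ (toGlobal q) c

/-- Local cocycles of finite level which are coboundaries on inertia. -/
def IsUnramifiedClass (r : Density.GalQ →* GL (Fin 2) k)
    (c : LocalGal q → Matrix (Fin 2) (Fin 2) k) : Prop :=
  IsAdCocycleOn (locHom q r) c ∧ LocalLevel q c ∧
    ∃ m : Matrix (Fin 2) (Fin 2) k, m.trace = 0 ∧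
      ∀ τ, IsLocalInertia q τ → c τ = adAct (locHom q r) τ m - m

/-- Local cocycles of finite level which, in the frame `g`, are strictly upper triangular up to a
coboundary. -/
def IsStrictClass (r : Density.GalQ →* GL (Fin 2) k) (g : GL (Fin 2) k)
    (c : LocalGal q → Matrix (Fin 2) (Fin 2) k) : Prop :=
  IsAdCocycleOn (locHom q r) c ∧ LocalLevel q c ∧
    ∃ m : Matrix (Fin 2) (Fin 2) k, m.trace = 0 ∧ ∀ σ,
      ((g : Matrix (Fin 2) (Fin 2) k) * (c σ - (adAct (locHom q r) σ m - m)) *
        (g⁻¹ : GL (Fin 2) k)) 1 0 = 0 ∧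
      ((g : Matrix (Fin 2) (Fin 2) k) * (c σ - (adAct (locHom q r) σ m - m)) *
        (g⁻¹ : GL (Fin 2) k)) 0 0 = 0

end Place

/-- The action on `k² × k²` of the deformation `(1 + ε c) r` to the dual numbers. -/
def liftAct (r : Γ →* GL (Fin 2) k) (c : Γ → Matrix (Fin 2) (Fin 2) k) (hc : IsAdCocycleOn r c) :
    Γ →* AddMonoid.End ((Fin 2 → k) × (Fin 2 → k)) where
  toFun g :=
    { toFun := fun v => (mat r g *ᵥ v.1, mat r g *ᵥ v.2 + (c g * mat r g) *ᵥ v.1)
      map_zero' := by simp
      map_add' := fun v w => by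
        simp only [Prod.fst_add, Prod.snd_add, Matrix.mulVec_add, Prod.mk_add_mk, Prod.mk.injEq,
          true_and]
        abel }
  map_one' := by
    have h1 : c 1 = 0 := by
      have := hc.2 1 1
      rw [mul_one, adAct, inv_one, mat_one, one_mul, mul_one] at this
      simpa using this
    refine AddMonoidHom.ext fun v => ?_
    show (mat r 1 *ᵥ v.1, mat r 1 *ᵥ v.2 + (c 1 * mat r 1) *ᵥ v.1) = v
    simp [h1, mat_one]
  map_mul' g h := by
    refine AddMonoidHom.ext fun v => ?_
    show (mat r (g * h) *ᵥ v.1, mat r (g * h) *ᵥ v.2 + (c (g * h) * mat r (g * h)) *ᵥ v.1) =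
      (mat r g *ᵥ (mat r h *ᵥ v.1), mat r g *ᵥ (mat r h *ᵥ v.2 + (c h * mat r h) *ᵥ v.1) +
        (c g * mat r g) *ᵥ (mat r h *ᵥ v.1))
    have e : c (g * h) * mat r (g * h) =
        c g * mat r g * mat r h + mat r g * (c h * mat r h) := by
      rw [hc.2, adAct, mat_mul, add_mul]
      simp only [← mul_assoc]
      rw [mul_assoc (mat r g * c h) (mat r g⁻¹) (mat r g), mat_inv_mul, mul_one]
    rw [e, mat_mul, Matrix.add_mulVec, Matrix.mulVec_add]
    simp only [Matrix.mulVec_mulVec, mul_assoc, Prod.mk.injEq, true_and]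
    abel

/-- Cocycles whose deformation has a finite flat model at `p`. -/
def IsFlatClass (p : ℕ) (r : Density.GalQ →* GL (Fin 2) k)
    (c : Density.GalQ → Matrix (Fin 2) (Fin 2) k) : Prop :=
  ∃ hc : IsAdCocycleOn r c, IsLevelConstant₁ (MonoidHom.id Density.GalQ) c ∧
    FiniteFlat.HasFlatModel p (liftAct r c hc)

end FLTAgent.TWPrimes
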