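import Fermat.Agent.ExtVanishing.Places
import Fermat.Agent.TWPrimes.DecompositionLift
import Fermat.Agent.TWPrimes.Local

/-!
# The local Galois group and the decomposition group of `padicPlace q`

`toGlobal q` maps onto the decomposition group (`exists_toGlobal`), inertia corresponds to inertia
(`isLocalInertia_iff`), and at every finite level decomposition elements are Frobenius powers
times inertia (`exists_frobenius_pow_mul`).
-/

set_option autoImplicit false

open scoped NumberField Pointwise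

noncomputable section

namespace FLTAgent.TWPrimes

open FLTAgent.Density FLTAgent.LocalDuality FLTAgent.ExtVanishing

section Global

variable {q : ℕ} [Fact q.Prime] {A : ValuationSubring Qbar}

/-- At a finite Galois level a decomposition element is a Frobenius power times inertia. -/
theorem exists_frobenius_pow_mul (hA : A.LiesOverPrime q) (L : IntermediateField ℚ Qbar)
    [FiniteDimensional ℚ L] [IsGalois ℚ L] {Φ : GalQ} (hΦ : A.IsFrobeniusAt Φ q) {σ : GalQ}
    (hσ : σ ∈ A.decompositionSubgroup ℚ) :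
    ∃ n : ℕ, ∃ s ∈ A.inertiaSubgroupIn ℚ, ∀ x ∈ L, σ x = (Φ ^ n * s) x := by
  have hq : q.Prime := Fact.out
  have : NumberField L := { }
  set P := (primeBelow A).comap (intEmb L) with hP
  have hmemP : ∀ y : 𝓞 L, y ∈ P ↔ ((y : L) : Qbar) ∈ A.nonunits := fun y => by
    rw [hP, Ideal.mem_comap, mem_primeBelow]; rfl
  have hmemA : ∀ y : 𝓞 L, ((y : L) : Qbar) ∈ A := fun y =>
    mem_of_isIntegral A ((y.isIntegral_coe).map (L.val.restrictScalars ℤ))
  have : P.IsPrime := Ideal.comap_isPrime _ _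
  have hqP : (q : 𝓞 L) ∈ P := by rw [hmemP]; simpa [ValuationSubring.LiesOverPrime] using hA
  have hP0 : P ≠ ⊥ := fun h => by
    rw [h, Ideal.mem_bot, Nat.cast_eq_zero] at hqP; exact hq.ne_zero hqP
  have : P.IsMaximal := Ideal.IsPrime.isMaximal inferInstance hP0
  let : Field (𝓞 L ⧸ P) := Ideal.Quotient.field P
  have : Finite (𝓞 L ⧸ P) := Ideal.finiteQuotientOfFreeOfNeBot P hP0
  have : CharP (𝓞 L ⧸ P) q := (CharP.charP_iff_prime_eq_zero hq).mpr (by
    rw [← map_natCast (Ideal.Quotient.mk P), Ideal.Quotient.eq_zero_iff_mem]; exact hqP)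
  let : Algebra (ZMod q) (𝓞 L ⧸ P) := ZMod.algebra _ q
  let res : GalQ →* (L ≃ₐ[ℚ] L) := AlgEquiv.restrictNormalHom L
  have hres : ∀ g (y : L), ((res g y : L) : Qbar) = g (y : Qbar) := fun g y =>
    AlgEquiv.restrictNormal_commutes g L y
  let f : 𝓞 L →+* 𝓞 L := MulSemiringAction.toRingHom (L ≃ₐ[ℚ] L) (𝓞 L) (res σ)
  have hf : ∀ y : 𝓞 L, ((f y : L) : Qbar) = σ ((y : L) : Qbar) := fun y => hres σ (y : L)
  have hfP : P ≤ P.comap f := fun y hy => by
    rw [Ideal.mem_comap, hmemP, hf, apply_mem_nonunits_iff hσ, ← hmemP]; exact hy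
  let fbar : (𝓞 L ⧸ P) →+* (𝓞 L ⧸ P) := Ideal.quotientMap P f hfP
  let g : (𝓞 L ⧸ P) →ₐ[ZMod q] (𝓞 L ⧸ P) :=
    { fbar with
      commutes' := fun c => RingHom.congr_fun
        (Subsingleton.elim (fbar.comp (algebraMap (ZMod q) (𝓞 L ⧸ P))) (algebraMap (ZMod q) _)) c }
  obtain ⟨⟨n, hn'⟩, hn⟩ :=
    (FiniteField.bijective_frobeniusAlgHom_pow (ZMod q) (𝓞 L ⧸ P)).2 g
  have hcong : ∀ y : 𝓞 L, σ ((y : L) : Qbar) - ((y : L) : Qbar) ^ q ^ n ∈ A.nonunits := by
    intro y
    have h1 : fbar (Ideal.Quotient.mk P y) = Ideal.Quotient.mk P y ^ q ^ n := by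
      show g _ = _
      rw [← hn]
      simp [FiniteField.coe_frobeniusAlgHom, pow_iterate, ZMod.card]
    rw [Ideal.quotientMap_mk, ← map_pow, Ideal.Quotient.eq, hmemP] at h1
    simpa [hf] using h1
  have hΦd := (isFrobeniusAt_iff.mp hΦ).1
  have hiter : ∀ m : ℕ, ∀ x ∈ A, (Φ ^ m) x - x ^ q ^ m ∈ A.nonunits := by
    intro m
    induction m with
    | zero => intro x _; simp
    | succ m ih =>
      intro x hx
      have hmem : (Φ ^ m) x ∈ A := (apply_mem_iff (pow_mem hΦd m) x).mpr hx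
      have e1 := (isFrobeniusAt_iff.mp hΦ).2 _ hmem
      obtain ⟨d, hd⟩ := sub_dvd_pow_sub_pow (⟨(Φ ^ m) x, hmem⟩ : A)
        ((⟨x, hx⟩ : A) ^ q ^ m) q
      have e2 : ((Φ ^ m) x) ^ q - x ^ q ^ (m + 1) ∈ A.nonunits := by
        have hd' := congrArg (fun z : A => (z : Qbar)) hd
        simp only [AddSubgroupClass.coe_sub, SubmonoidClass.coe_pow, MulMemClass.coe_mul] at hd'
        rw [pow_succ, pow_mul, hd']
        have h3 : (⟨(Φ ^ m) x, hmem⟩ - (⟨x, hx⟩ : A) ^ q ^ m) * d ∈ IsLocalRing.maximalIdeal A :=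
          Ideal.mul_mem_right d _
            (ValuationSubring.coe_mem_nonunits_iff.mp (by simpa using ih x hx))
        simpa using ValuationSubring.coe_mem_nonunits_iff.mpr h3
      rw [pow_succ', AlgEquiv.mul_apply]
      convert A.nonunits.add_mem e1 e2 using 1
      ring
  have hm : Φ ^ n ∈ A.decompositionSubgroup ℚ := pow_mem hΦd n
  have hσ'd : (Φ ^ n)⁻¹ * σ ∈ A.decompositionSubgroup ℚ := mul_mem (inv_mem hm) hσ
  have hσ'P : res ((Φ ^ n)⁻¹ * σ) ∈ P.inertia (L ≃ₐ[ℚ] L) := by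
    intro y
    show res ((Φ ^ n)⁻¹ * σ) • y - y ∈ P
    rw [hmemP]
    show ((res ((Φ ^ n)⁻¹ * σ) (y : L) : L) : Qbar) - ((y : L) : Qbar) ∈ A.nonunits
    rw [hres, ← apply_mem_nonunits_iff hm, map_sub, ← AlgEquiv.mul_apply (Φ ^ n),
      mul_inv_cancel_left]
    convert A.nonunits.sub_mem (hcong y) (hiter n _ (hmemA y)) using 1
    ring
  obtain ⟨s, hs, hsL⟩ := exists_inertia_lift hq hA hP.symm hσ'P
  refine ⟨n, s, hs, fun x hx => ?_⟩
  rw [AlgEquiv.mul_apply, hsL ⟨x, hx⟩, hres, ← AlgEquiv.mul_apply, mul_inv_cancel_left]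

end Global

variable (q : ℕ) [Fact q.Prime]

theorem norm_algEquiv (τ : LocalGal q) (x : PadicAlgCl q) : ‖τ x‖ = ‖x‖ :=
  congrArg Subtype.val (nnnorm_padicAlgCl_algEquiv q τ x)

theorem mem_padicPlace_nonunits_iff {x : Qbar} :
    x ∈ (padicPlace q).nonunits ↔ ‖padicEmbedding q x‖ < 1 := by
  rw [ValuationSubring.mem_nonunits_iff_or, mem_padicPlace_iff, map_inv₀, nnnorm_inv,
    ← not_iff_not, not_or, not_not, not_lt]
  constructor
  · rintro ⟨h0, h⟩
    have hpos : 0 < ‖padicEmbedding q x‖₊ := by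
      rw [pos_iff_ne_zero, ne_eq, nnnorm_eq_zero, map_eq_zero]
      exact h0
    exact_mod_cast (inv_le_one₀ hpos).mp h
  · intro h
    have hpos : 0 < ‖padicEmbedding q x‖₊ := lt_of_lt_of_le one_pos (by exact_mod_cast h)
    refine ⟨fun h0 => by simp [h0] at hpos, (inv_le_one₀ hpos).mpr (by exact_mod_cast h)⟩

/-- Local inertia is the preimage of inertia at `padicPlace q`. -/
theorem isLocalInertia_iff (τ : LocalGal q) :
    IsLocalInertia q τ ↔ toGlobal q τ ∈ (padicPlace q).inertiaSubgroupIn ℚ := by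
  rw [mem_inertiaSubgroupIn_iff]
  constructor
  · refine fun h => ⟨localGaloisToGlobal_mem_decompositionSubgroup q τ, fun x hx => ?_⟩
    rw [mem_padicPlace_nonunits_iff, map_sub, padicEmbedding_localGaloisToGlobal]
    exact h _ (by exact_mod_cast (mem_padicPlace_iff q).mp hx)
  · rintro ⟨-, h⟩ x hx
    obtain ⟨y, hy⟩ := Metric.denseRange_iff.mp (denseRange_padicEmbedding q) x 1 one_pos
    rw [dist_eq_norm] at hy
    have hyA : y ∈ padicPlace q := by
      rw [mem_padicPlace_iff, ← NNReal.coe_le_coe, coe_nnnorm, NNReal.coe_one]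
      calc ‖padicEmbedding q y‖ = ‖x + (padicEmbedding q y - x)‖ := by rw [add_sub_cancel]
        _ ≤ max ‖x‖ ‖padicEmbedding q y - x‖ := IsUltrametricDist.norm_add_le_max ..
        _ ≤ 1 := max_le hx (by rw [norm_sub_rev]; exact hy.le)
    have h1 := h y hyA
    rw [mem_padicPlace_nonunits_iff, map_sub, padicEmbedding_localGaloisToGlobal] at h1
    have h2 : ‖τ x - τ (padicEmbedding q y)‖ < 1 := by rw [← map_sub, norm_algEquiv]; exact hy
    calc ‖τ x - x‖ = ‖(τ x - τ (padicEmbedding q y)) + (τ (padicEmbedding q y) - padicEmbedding q y)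
          + (padicEmbedding q y - x)‖ := by congr 1; ring
      _ ≤ max (max ‖τ x - τ (padicEmbedding q y)‖ ‖τ (padicEmbedding q y) - padicEmbedding q y‖)
          ‖padicEmbedding q y - x‖ :=
        (IsUltrametricDist.norm_add_le_max _ _).trans
          (max_le_max (IsUltrametricDist.norm_add_le_max _ _) le_rfl)
      _ < 1 := max_lt (max_lt h2 h1) (by rwa [norm_sub_rev])

/-- The local Galois group maps onto the decomposition group of `padicPlace q`. -/
theorem exists_toGlobal {σ : GalQ} (hσ : σ ∈ (padicPlace q).decompositionSubgroup ℚ) :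
    ∃ τ : LocalGal q, toGlobal q τ = σ := by
  classical
  let K : Finset Qbar → Set (LocalGal q) := fun t => {τ | ∀ x ∈ t, toGlobal q τ x = σ x}
  have hne : ∀ t, (K t).Nonempty := fun t => by
    have : FiniteDimensional ℚ (IntermediateField.adjoin ℚ (t : Set Qbar)) :=
      IntermediateField.finiteDimensional_adjoin fun x _ => Algebra.IsIntegral.isIntegral x
    obtain ⟨τ, hτ⟩ := exists_toGlobal_eq hσ (IntermediateField.adjoin ℚ (t : Set Qbar))
    exact ⟨τ, fun x hx => hτ x (IntermediateField.subset_adjoin ℚ _ hx)⟩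
  have hclosed : ∀ t, IsClosed (K t) := fun t => by
    have : FiniteDimensional ℚ (IntermediateField.adjoin ℚ (t : Set Qbar)) :=
      IntermediateField.finiteDimensional_adjoin fun x _ => Algebra.IsIntegral.isIntegral x
    obtain ⟨E, hE, hEF⟩ := exists_field_le_level q (IntermediateField.adjoin ℚ (t : Set Qbar))
    have := hE
    rw [← isOpen_compl_iff, isOpen_iff_forall_mem_open]
    intro τ hτ
    refine ⟨(fun u => τ * u) '' (E.fixingSubgroup : Set (LocalGal q)), ?_,
      (Homeomorph.mulLeft τ).isOpenMap _ (IntermediateField.fixingSubgroup_isOpen E),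
      ⟨1, one_mem _, mul_one τ⟩⟩
    rintro _ ⟨u, hu, rfl⟩ hK
    refine hτ fun x hx => ?_
    rw [← hK x hx, map_mul, AlgEquiv.mul_apply]
    congr 1
    exact ((IntermediateField.mem_fixingSubgroup_iff _ _).mp (hEF hu) x
      (IntermediateField.subset_adjoin ℚ _ hx)).symm
  obtain ⟨τ, hτ⟩ := IsCompact.nonempty_iInter_of_directed_nonempty_isCompact_isClosed K
    (fun a b => ⟨a ∪ b, fun τ h x hx => h x (Finset.mem_union_left _ hx),
      fun τ h x hx => h x (Finset.mem_union_right _ hx)⟩)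
    hne (fun t => (hclosed t).isCompact) hclosed
  exact ⟨τ, AlgEquiv.ext fun x => Set.mem_iInter.mp hτ {x} x (Finset.mem_singleton_self x)⟩

end FLTAgent.TWPrimes
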