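import Fermat.Prelude.Def_GroupCohomology_ContinuousUnramified
import Fermat.Agent.LocalDuality.Fields
import Fermat.Agent.Density.Frobenius

/-!
# Levels unramified outside a finite set

A cocycle-like function of finite level which, with its action, is trivial on inertia outside `S`
has a level unramified outside `S` (`isLevelConstantS₁_of_inertia`).
Used by `Core` and `GWEuler.ChangeS`.
-/

set_option autoImplicit false

open groupCohomology

noncomputable section

namespace FLTAgent.TWPrimes

open FLTAgent.Density FLTAgent.LocalDuality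

/-- A cocycle-like function of finite level which, together with its action, is trivial on inertia
outside `S` is constant on the cosets of a level unramified outside `S`. -/
theorem isLevelConstantS₁_of_inertia {G X : Type} [Group G] [AddCommGroup X]
    (S : Finset Nat.Primes) {r : GalQ →* G} (hr : GaloisFactorsThroughFiniteLevel r)
    (act : GalQ → X →+ X) (hact : ∀ g, r g = 1 → act g = AddMonoidHom.id X)
    {c : GalQ → X} (hc : ∀ g h, c (g * h) = c g + act g (c h))
    (hlc : IsLevelConstant₁ (MonoidHom.id GalQ) c)
    (hinert : ∀ q : Nat.Primes, q ∉ S → ∀ A : ValuationSubring Qbar, A.LiesOverPrime (q : ℕ) →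
      ∀ σ ∈ A.inertiaSubgroupIn ℚ, r σ = 1 ∧ c σ = 0) :
    IsLevelConstantS₁ S c := by
  obtain ⟨L, hL, hL1⟩ := hr
  obtain ⟨F, hF, hFc⟩ := hlc
  have := hL; have := hF
  have hmul : ∀ s t, r s = 1 → c (s * t) = c s + c t := fun s t hs => by
    rw [hc, hact s hs]; rfl
  have h1 : c 1 = 0 := by simpa using hmul 1 1 (map_one r)
  let N : Subgroup GalQ :=
    { carrier := {s | r s = 1 ∧ c s = 0}
      one_mem' := ⟨map_one r, h1⟩
      mul_mem' := fun {s t} hs ht =>
        ⟨by simp [hs.1, ht.1], by rw [hmul s t hs.1, hs.2, ht.2, add_zero]⟩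
      inv_mem' := fun {s} hs => ⟨by simp [hs.1], by
        have h := hmul s s⁻¹ hs.1
        rw [mul_inv_cancel, h1, hs.2, zero_add] at h
        exact h.symm⟩ }
  have hle : (L ⊔ F).fixingSubgroup ≤ N := fun s hs => by
    refine ⟨hL1 s fun x hx => (IntermediateField.mem_fixingSubgroup_iff _ _).mp hs x
      (le_sup_left (b := F) hx), ?_⟩
    have := hFc 1 s (IntermediateField.fixingSubgroup_antitone le_sup_right hs)
    rw [one_mul, h1] at this
    exact this
  have hopen : IsOpen (N : Set GalQ) :=
    Subgroup.isOpen_mono hle (IntermediateField.fixingSubgroup_isOpen _)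
  have hfix : (IntermediateField.fixedField N).fixingSubgroup = N :=
    InfiniteGalois.fixingSubgroup_fixedField ⟨N, Subgroup.isClosed_of_isOpen _ hopen⟩
  have hK : IntermediateField.fixedField N ≤ L ⊔ F := by
    rw [← InfiniteGalois.fixedField_fixingSubgroup (L ⊔ F)]
    exact fun x hx ⟨σ, hσ⟩ => hx ⟨σ, hle hσ⟩
  refine ⟨IntermediateField.fixedField N,
    ⟨FiniteDimensional.of_injective (IntermediateField.inclusion hK).toLinearMap
      (IntermediateField.inclusion_injective hK), fun q hq A hA σ hσ => ?_⟩, fun g s hs => ?_⟩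
  · rw [hfix]; exact hinert q hq A hA σ hσ
  · rw [hfix] at hs
    rw [hc, hs.2, map_zero, add_zero]

end FLTAgent.TWPrimes
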