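import Fermat.Prelude.Def_GroupCohomology_ContinuousUnramified

/-!
# The Greenberg–Wiles inequality used for Taylor–Wiles primes

Defines the proposition `GreenbergWiles p`, the statement of `GWEuler.greenbergWiles`, which
`TWPrimes.Core` applies to the adjoint representation.
-/

set_option autoImplicit false

open CategoryTheory Module groupCohomology ExtCitation

noncomputable section

namespace FLTAgent.TWPrimes

/-- The Galois group of `ℚ̄` over `ℚ`. -/
local notation "Γℚ" => AlgebraicClosure ℚ ≃ₐ[ℚ] AlgebraicClosure ℚ

/-- For every finite smooth `F_p`-module `M` unramified outside a finite set `S ∋ p`: the global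
classes of the dual twist with level unramified outside `S` form a finite dimensional space, and
for some pairings, right non-degenerate on continuous classes, the Greenberg–Wiles inequality
holds for all local conditions made of continuous classes. -/
def GreenbergWiles (p : ℕ) [Fact p.Prime] : Prop :=
  ∀ (S : Finset Nat.Primes), pPrime p ∈ S →
  ∀ (M : Rep (ZMod p) Γℚ) [FiniteDimensional (ZMod p) M],
    (∀ m : M, ∃ F : IntermediateField ℚ (AlgebraicClosure ℚ), FiniteDimensional ℚ F ∧
      ∀ s ∈ F.fixingSubgroup, M.ρ s m = m) →
    (∀ q : Nat.Primes, q ∉ S → ∀ A : ValuationSubring (AlgebraicClosure ℚ),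
      A.LiesOverPrime (q : ℕ) → ∀ g ∈ A.inertiaSubgroupIn ℚ, M.ρ g = 1) →
    Module.Finite (ZMod p) (continuousH1S S M) ∧
    Module.Finite (ZMod p) (continuousH1S S (M.dualTwist (cycloChar p))) ∧
    ∃ pairing : ∀ v : extArithIndex S, H1 (Rep.res (extArithLoc S v) M) →ₗ[ZMod p]
        H1 (Rep.res (extArithLoc S v) (M.dualTwist (cycloChar p))) →ₗ[ZMod p] ZMod p,
      (∀ v, ∀ y ∈ continuousH1 (extArithLoc S v)
          (Rep.res (extArithLoc S v) (M.dualTwist (cycloChar p))),
        (∀ x ∈ continuousH1 (extArithLoc S v) (Rep.res (extArithLoc S v) M), pairing v x y = 0) →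
          y = 0) ∧
      ∀ L : ∀ v : extArithIndex S, Submodule (ZMod p) (H1 (Rep.res (extArithLoc S v) M)),
        (∀ v, L v ≤ continuousH1 (extArithLoc S v) (Rep.res (extArithLoc S v) M)) →
        (∀ v, Module.Finite (ZMod p) (L v)) →
        finrank (ZMod p) ↥(continuousH1S S M ⊓ selmer (extArithLoc S) M L) +
            finrank (ZMod p) (M.dualTwist (cycloChar p)).ρ.invariants +
            ∑ v, finrank (ZMod p) (Rep.res (extArithLoc S v) M).ρ.invariants ≤
          finrank (ZMod p) ↥(continuousH1S S (M.dualTwist (cycloChar p)) ⊓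
              selmer (extArithLoc S) (M.dualTwist (cycloChar p))
                (dualConditions (extArithLoc S) M (M.dualTwist (cycloChar p)) pairing L)) +
            finrank (ZMod p) M.ρ.invariants + ∑ v, finrank (ZMod p) (L v)

end FLTAgent.TWPrimes
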