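import Mathlib.RepresentationTheory.Homological.GroupCohomology.LowDegree
import Mathlib.RepresentationTheory.Homological.GroupCohomology.Functoriality
import Mathlib.LinearAlgebra.Dimension.Free
import Fermat.Prelude.Def_GroupCohomology_ContinuousH1
import Fermat.Agent.TWPrimes.Local

/-!
# Adjoint cocycles as classes of a representation over `𝔽_p`

The trace zero matrices with the adjoint action as `adRep : Rep (ZMod p) Γ`, the translation
`classMap` from matrix valued cocycles to `H1`, and the dimension of the classes of a space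
(`finrank_classSpace`). Used by `Core` through `DualTwist`.
-/

set_option autoImplicit false

open Matrix Module CategoryTheory groupCohomology

noncomputable section

namespace FLTAgent.TWPrimes

variable (k : Type) [Field k]

/-- Trace zero matrices. -/
abbrev Sl2 : Submodule k (Matrix (Fin 2) (Fin 2) k) :=
  LinearMap.ker (Matrix.traceLinearMap (Fin 2) k k)

variable {k} {Γ : Type} [Group Γ] {H : Type} [Group H]

theorem mem_sl2_iff {m : Matrix (Fin 2) (Fin 2) k} : m ∈ Sl2 k ↔ m.trace = 0 := by simp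

theorem Sl2.trace_eq_zero (m : Sl2 k) : (m : Matrix (Fin 2) (Fin 2) k).trace = 0 :=
  mem_sl2_iff.mp m.2

theorem adAct_comp (r : Γ →* GL (Fin 2) k) (j : H →* Γ) (h : H) (m : Matrix (Fin 2) (Fin 2) k) :
    adAct (r.comp j) h m = adAct r (j h) m := by
  simp [adAct, mat]

theorem trace_adAct (r : Γ →* GL (Fin 2) k) (g : Γ) (m : Matrix (Fin 2) (Fin 2) k) :
    (adAct r g m).trace = m.trace := by
  rw [adAct, Matrix.trace_mul_cycle, mat_inv_mul, one_mul]

theorem adAct_one (r : Γ →* GL (Fin 2) k) (m : Matrix (Fin 2) (Fin 2) k) : adAct r 1 m = m := by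
  simp [adAct, mat_one]

theorem adAct_mul (r : Γ →* GL (Fin 2) k) (g h : Γ) (m : Matrix (Fin 2) (Fin 2) k) :
    adAct r (g * h) m = adAct r g (adAct r h m) := by
  simp only [adAct, _root_.mul_inv_rev, mat_mul, mul_assoc]

theorem adAct_add (r : Γ →* GL (Fin 2) k) (g : Γ) (m m' : Matrix (Fin 2) (Fin 2) k) :
    adAct r g (m + m') = adAct r g m + adAct r g m' := by
  simp [adAct, mul_add, add_mul]

theorem adAct_smul (r : Γ →* GL (Fin 2) k) (g : Γ) (a : k) (m : Matrix (Fin 2) (Fin 2) k) :
    adAct r g (a • m) = a • adAct r g m := by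
  simp [adAct]

/-- The adjoint action as a linear map on trace zero matrices. -/
def adLin (r : Γ →* GL (Fin 2) k) (g : Γ) : Sl2 k →ₗ[k] Sl2 k where
  toFun m := ⟨adAct r g m, by rw [mem_sl2_iff, trace_adAct, Sl2.trace_eq_zero]⟩
  map_add' a b := Subtype.ext (adAct_add r g a b)
  map_smul' a b := Subtype.ext (adAct_smul r g a b)

@[simp] theorem coe_adLin (r : Γ →* GL (Fin 2) k) (g : Γ) (m : Sl2 k) :
    (adLin r g m : Matrix (Fin 2) (Fin 2) k) = adAct r g m := rfl

variable (p : ℕ) [Algebra (ZMod p) k]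

/-- The adjoint representation over `𝔽_p`. -/
def adSl (r : Γ →* GL (Fin 2) k) : Representation (ZMod p) Γ (Sl2 k) where
  toFun g := (adLin r g).restrictScalars (ZMod p)
  map_one' := LinearMap.ext fun m => Subtype.ext (adAct_one r m)
  map_mul' g h := LinearMap.ext fun m => Subtype.ext (adAct_mul r g h m)

@[simp] theorem coe_adSl (r : Γ →* GL (Fin 2) k) (g : Γ) (m : Sl2 k) :
    (adSl p r g m : Matrix (Fin 2) (Fin 2) k) = adAct r g m := rfl

/-- The adjoint representation as an object of `Rep (ZMod p) Γ`. -/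
abbrev adRep (r : Γ →* GL (Fin 2) k) : Rep (ZMod p) Γ := Rep.of (adSl p r)

variable {p}

/-- Cocycles for the adjoint action. -/
def adCocycles (r : Γ →* GL (Fin 2) k) : Submodule k (Γ → Matrix (Fin 2) (Fin 2) k) where
  carrier := {c | IsAdCocycleOn r c}
  zero_mem' := ⟨fun g => by simp, fun g h => by simp [adAct]⟩
  add_mem' {a b} ha hb := ⟨fun g => by simp [ha.1 g, hb.1 g], fun g h => by
    simp only [Pi.add_apply, ha.2, hb.2, adAct_add]; abel⟩
  smul_mem' a c hc := ⟨fun g => by simp [hc.1 g], fun g h => by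
    simp only [Pi.smul_apply, hc.2, smul_add, adAct_smul]⟩

theorem adCob_le_adCocycles (r : Γ →* GL (Fin 2) k) : adCob r ≤ adCocycles r := by
  intro c hc
  obtain ⟨m, hm, hc⟩ := mem_adCob_iff.mp hc
  refine ⟨fun g => by rw [hc, Matrix.trace_sub, trace_adAct, sub_self], fun g h => ?_⟩
  rw [hc, hc, hc, adAct_mul]
  simp only [adAct, mul_sub, sub_mul]
  abel

variable {r : H →* GL (Fin 2) k} (A : Rep (ZMod p) H) (e : Sl2 k ≃ₗ[ZMod p] A)
  (he : ∀ h m, A.ρ h (e m) = e (adSl p r h m))

/-- A matrix valued cocycle as a cocycle of `A`. -/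
def toCocycle : adCocycles r →ₗ[ZMod p] cocycles₁ A where
  toFun c := ⟨fun g => e ⟨c.1 g, mem_sl2_iff.mpr (c.2.1 g)⟩, (mem_cocycles₁_iff _).mpr fun g h => by
    rw [he, ← map_add]
    congr 1
    exact Subtype.ext ((c.2.2 g h).trans (add_comm _ _))⟩
  map_add' a b := Subtype.ext (funext fun g => map_add e (⟨a.1 g, mem_sl2_iff.mpr (a.2.1 g)⟩)
    (⟨b.1 g, mem_sl2_iff.mpr (b.2.1 g)⟩))
  map_smul' a c := Subtype.ext (funext fun g => map_smul e a (⟨c.1 g, mem_sl2_iff.mpr (c.2.1 g)⟩))

/-- The class of a matrix valued cocycle. -/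
def classMap : adCocycles r →ₗ[ZMod p] H1 A := (H1π A).hom ∘ₗ toCocycle A e he

theorem classMap_apply (c : adCocycles r) :
    classMap A e he c = (H1π A).hom (toCocycle A e he c) := rfl

theorem toCocycle_surjective (f : cocycles₁ A) : ∃ c, toCocycle A e he c = f := by
  refine ⟨⟨fun g => (e.symm (f g) : Sl2 k), fun g => Sl2.trace_eq_zero _, fun g h => ?_⟩,
    Subtype.ext (funext fun g => ?_)⟩
  · have h1 : f.1 (g * h) = A.ρ g (f.1 h) + f.1 g := (mem_cocycles₁_iff _).mp f.2 g h
    rw [← e.apply_symm_apply (f.1 h), he, add_comm] at h1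
    have h2 := congrArg (fun x => ((e.symm x : Sl2 k) : Matrix (Fin 2) (Fin 2) k)) h1
    simp only [map_add, LinearEquiv.symm_apply_apply, Submodule.coe_add, coe_adSl] at h2
    exact h2
  · exact e.apply_symm_apply (f g)

theorem classMap_eq_zero_iff (c : adCocycles r) :
    classMap A e he c = 0 ↔ c.1 ∈ adCob r := by
  rw [classMap_apply, mem_adCob_iff]
  refine (H1π_eq_zero_iff (toCocycle A e he c)).trans ?_
  constructor
  · rintro ⟨x, hx⟩
    refine ⟨(e.symm x : Sl2 k), Sl2.trace_eq_zero _, fun g => ?_⟩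
    have h1 : (d₀₁ A).hom x g = e ⟨c.1 g, mem_sl2_iff.mpr (c.2.1 g)⟩ := congr_fun hx g
    rw [d₀₁_hom_apply, ← e.apply_symm_apply x, he, ← map_sub] at h1
    exact (congrArg Subtype.val (e.injective h1)).symm
  · rintro ⟨m, hm, hc⟩
    refine ⟨e ⟨m, mem_sl2_iff.mpr hm⟩, funext fun g => ?_⟩
    rw [d₀₁_hom_apply, he, ← map_sub]
    exact congrArg e (Subtype.ext (hc g).symm)

theorem isLevelConstant₁_toCocycle_iff (j : H →* AlgebraicClosure ℚ ≃ₐ[ℚ] AlgebraicClosure ℚ)
    (c : adCocycles r) :
    IsLevelConstant₁ j (toCocycle A e he c : H → A) ↔ IsLevelConstant₁ j c.1 := by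
  constructor
  · rintro ⟨F, hF, h⟩
    exact ⟨F, hF, fun g s hs => congrArg Subtype.val (e.injective (h g s hs))⟩
  · rintro ⟨F, hF, h⟩
    exact ⟨F, hF, fun g s hs => congrArg e (Subtype.ext (h g s hs))⟩

/-- The classes of a space of cocycles. -/
def classSpace (W : Submodule k (H → Matrix (Fin 2) (Fin 2) k)) : Submodule (ZMod p) (H1 A) :=
  ((W.comap (adCocycles r).subtype).restrictScalars (ZMod p)).map (classMap A e he)

theorem classMap_mem_classSpace {W : Submodule k (H → Matrix (Fin 2) (Fin 2) k)}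
    (c : adCocycles r) (hc : c.1 ∈ W) : classMap A e he c ∈ classSpace A e he W :=
  ⟨c, hc, rfl⟩

theorem exists_of_mem_classSpace {W : Submodule k (H → Matrix (Fin 2) (Fin 2) k)} {x : H1 A}
    (hx : x ∈ classSpace A e he W) :
    ∃ c : adCocycles r, c.1 ∈ W ∧ classMap A e he c = x := by
  obtain ⟨c, hc, rfl⟩ := hx
  exact ⟨c, hc, rfl⟩

/-- Classes are cocycles modulo coboundaries. -/
theorem nonempty_classSpace_equiv {W : Submodule k (H → Matrix (Fin 2) (Fin 2) k)}
    (hW : W ≤ adCocycles r) :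
    Nonempty ((W.map (adCob r).mkQ : Submodule k _) ≃ₗ[ZMod p] classSpace A e he W) := by
  let ψ : W →ₗ[ZMod p] (H → Matrix (Fin 2) (Fin 2) k) ⧸ adCob r :=
    ((adCob r).mkQ.domRestrict W).restrictScalars (ZMod p)
  let φ : W →ₗ[ZMod p] H1 A :=
    classMap A e he ∘ₗ (Submodule.inclusion hW).restrictScalars (ZMod p)
  have hker : LinearMap.ker ψ = LinearMap.ker φ := by
    ext c
    rw [LinearMap.mem_ker, LinearMap.mem_ker]
    exact (Submodule.Quotient.mk_eq_zero _).trans
      (classMap_eq_zero_iff A e he (Submodule.inclusion hW c)).symm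
  have hψ : LinearMap.range ψ = (W.map (adCob r).mkQ).restrictScalars (ZMod p) := by
    ext x
    constructor
    · rintro ⟨c, rfl⟩; exact ⟨c.1, c.2, rfl⟩
    · rintro ⟨c, hc, rfl⟩; exact ⟨⟨c, hc⟩, rfl⟩
  have hφ : LinearMap.range φ = classSpace A e he W := by
    ext x
    constructor
    · rintro ⟨c, rfl⟩; exact ⟨Submodule.inclusion hW c, c.2, rfl⟩
    · rintro ⟨c, hc, rfl⟩; exact ⟨⟨c.1, hc⟩, rfl⟩
  exact ⟨(Submodule.restrictScalarsEquiv (ZMod p) k _ (W.map (adCob r).mkQ)).restrictScalars
    (ZMod p) |>.symm.trans <| (LinearEquiv.ofEq _ _ hψ.symm).trans <|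
    ψ.quotKerEquivRange.symm.trans <| (Submodule.quotEquivOfEq _ _ hker).trans <|
    φ.quotKerEquivRange.trans (LinearEquiv.ofEq _ _ hφ)⟩

variable (p) in
/-- The restricted adjoint representation is the adjoint representation of the restriction. -/
def resEquiv {G : Type} [Group G] (r₀ : G →* GL (Fin 2) k) (j : H →* G) :
    Sl2 k ≃ₗ[ZMod p] Rep.res j (adRep p r₀) :=
  LinearEquiv.refl _ _

theorem resEquiv_spec {G : Type} [Group G] (r₀ : G →* GL (Fin 2) k) (j : H →* G) (h : H)
    (m : Sl2 k) :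
    (Rep.res j (adRep p r₀)).ρ h (resEquiv p r₀ j m) =
      resEquiv p r₀ j (adSl p (r₀.comp j) h m) :=
  Subtype.ext (adAct_comp r₀ j h m).symm

/-- Restriction of classes. -/
theorem locRes_classMap {G : Type} [Group G] {r₀ : G →* GL (Fin 2) k} (j : H →* G)
    (c : adCocycles r₀) :
    ((groupCohomology.map j (𝟙 (Rep.res j (adRep p r₀))) 1).hom
        (classMap (adRep p r₀) (LinearEquiv.refl _ _) (fun _ _ => rfl) c) :
      H1 (Rep.res j (adRep p r₀))) =
      classMap (Rep.res j (adRep p r₀)) (resEquiv p r₀ j) (resEquiv_spec r₀ j)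
        ⟨fun h => c.1 (j h), fun h => c.2.1 (j h), fun g h => by
          show c.1 (j (g * h)) = _
          rw [map_mul, c.2.2, adAct_comp]⟩ := by
  exact H1π_comp_map_apply j (𝟙 (Rep.res j (adRep p r₀))) _

variable [Fact p.Prime] [Finite k]

theorem finite_classSpace {W : Submodule k (H → Matrix (Fin 2) (Fin 2) k)}
    (hW : W ≤ adCocycles r) [Module.Finite k (W.map (adCob r).mkQ)] :
    Module.Finite (ZMod p) (classSpace A e he W) := by
  have : Module.Finite (ZMod p) k := Module.Finite.of_finite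
  have : Module.Finite (ZMod p) (W.map (adCob r).mkQ) := Module.Finite.trans k _
  exact Module.Finite.equiv (nonempty_classSpace_equiv A e he hW).some

omit [Finite k] in
theorem finite_of_finite_classSpace {W : Submodule k (H → Matrix (Fin 2) (Fin 2) k)}
    (hW : W ≤ adCocycles r) [Module.Finite (ZMod p) (classSpace A e he W)] :
    Module.Finite k (W.map (adCob r).mkQ) := by
  have : Module.Finite (ZMod p) (W.map (adCob r).mkQ) :=
    Module.Finite.equiv (nonempty_classSpace_equiv A e he hW).some.symm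
  exact Module.Finite.of_restrictScalars_finite (ZMod p) k _

theorem finrank_classSpace {W : Submodule k (H → Matrix (Fin 2) (Fin 2) k)}
    (hW : W ≤ adCocycles r) :
    finrank (ZMod p) (classSpace A e he W) = finrank (ZMod p) k * classDim r W := by
  rw [← LinearEquiv.finrank_eq (nonempty_classSpace_equiv A e he hW).some, classDim,
    Module.finrank_mul_finrank]

include e he in
/-- Fixed vectors are fixed matrices. -/
theorem finrank_invariants_eq :
    finrank (ZMod p) A.ρ.invariants = finrank (ZMod p) k * finrank k (adFixed r) := by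
  rw [Module.finrank_mul_finrank]
  refine (LinearEquiv.finrank_eq ?_).symm
  exact
    { toFun := fun m => ⟨e ⟨m.1, mem_sl2_iff.mpr (mem_adFixed_iff.mp m.2).1⟩, fun g => by
        rw [he]; exact congrArg e (Subtype.ext ((mem_adFixed_iff.mp m.2).2 g))⟩
      invFun := fun v =>
        ⟨(e.symm v.1 : Sl2 k), mem_adFixed_iff.mpr ⟨Sl2.trace_eq_zero _, fun g => by
        have h := v.2 g
        rw [← e.apply_symm_apply v.1, he] at h
        exact congrArg Subtype.val (e.injective h)⟩⟩
      map_add' := fun a b => Subtype.ext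
        (map_add e (⟨a.1, mem_sl2_iff.mpr (mem_adFixed_iff.mp a.2).1⟩)
        (⟨b.1, mem_sl2_iff.mpr (mem_adFixed_iff.mp b.2).1⟩))
      map_smul' := fun a b => Subtype.ext
        (map_smul e a (⟨b.1, mem_sl2_iff.mpr (mem_adFixed_iff.mp b.2).1⟩))
      left_inv := fun m => Subtype.ext (by simp)
      right_inv := fun v => Subtype.ext (by simp) }

end FLTAgent.TWPrimes
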