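import Mathlib.RingTheory.Trace.Basic
import Fermat.Prelude.Def_GroupCohomology_Selmer
import Fermat.Prelude.Def_GroupCohomology_ContinuousH1
import Fermat.Agent.TWPrimes.AdRep
import Fermat.Agent.TWPrimes.Detection

/-!
# The dual twist of the adjoint representation

The trace form identifies the dual of trace zero matrices, twisted by a character lifting the
determinant, with the action `g m adj g` (`dualEquiv`, `dualTwist_apply_dualEquiv`); `dualFun`
turns classes of the dual twist into cocycles for `Detection`. Used by `Core`.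
-/

set_option autoImplicit false

open Matrix Module CategoryTheory groupCohomology

noncomputable section

namespace FLTAgent.TWPrimes

variable {k : Type} [Field k] {Γ : Type} [Group Γ]

theorem symAct_eq_smul_adAct (r : Γ →* GL (Fin 2) k) (g : Γ) (m : Matrix (Fin 2) (Fin 2) k) :
    symAct (mat r g) m = (mat r g).det • adAct r g m := by
  have h : (mat r g).adjugate = (mat r g).det • mat r g⁻¹ := by
    calc (mat r g).adjugate = (mat r g).adjugate * (mat r g * mat r g⁻¹) := by
          rw [mat_mul_inv, mul_one]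
      _ = (mat r g).det • mat r g⁻¹ := by
          rw [← mul_assoc, Matrix.adjugate_mul, smul_mul_assoc, one_mul]
  rw [symAct, h, adAct, mul_smul_comm]

variable (p : ℕ) [Algebra (ZMod p) k]

/-- The trace pairing of trace zero matrices, valued in `𝔽_p`. -/
def trPairing : Sl2 k →ₗ[ZMod p] Module.Dual (ZMod p) (Sl2 k) :=
  LinearMap.mk₂ (ZMod p)
    (fun m x => Algebra.trace (ZMod p) k ((m : Matrix (Fin 2) (Fin 2) k) * x.1).trace)
    (fun a b x => by simp [add_mul])
    (fun c a x => by simp)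
    (fun m a b => by simp [mul_add])
    (fun c m a => by simp)

theorem trPairing_apply (m x : Sl2 k) :
    trPairing p m x = Algebra.trace (ZMod p) k ((m : Matrix (Fin 2) (Fin 2) k) * x.1).trace := rfl

variable [Fact p.Prime] [Finite k] [NeZero (2 : k)]

theorem trPairing_injective : Function.Injective (trPairing (k := k) p) := by
  refine (injective_iff_map_eq_zero _).mpr fun m hm => ?_
  have key : ∀ x : Sl2 k, ((m : Matrix (Fin 2) (Fin 2) k) * x.1).trace = 0 := by
    intro x
    by_contra h0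
    obtain ⟨a, ha⟩ : ∃ a : k, Algebra.trace (ZMod p) k a ≠ 0 := by
      by_contra hcon
      push Not at hcon
      exact Algebra.trace_ne_zero (ZMod p) k (LinearMap.ext hcon)
    have h1 := LinearMap.congr_fun hm ((a / ((m : Matrix (Fin 2) (Fin 2) k) * x.1).trace) • x)
    rw [trPairing_apply, Submodule.coe_smul, mul_smul_comm, Matrix.trace_smul, smul_eq_mul,
      div_mul_cancel₀ _ h0] at h1
    exact ha h1
  have hd := apply_one_one_of_trace_eq_zero (Sl2.trace_eq_zero m)
  have e1 := key ⟨!![0, 1; 0, 0], by simp [Matrix.trace_fin_two]⟩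
  have e2 := key ⟨!![0, 0; 1, 0], by simp [Matrix.trace_fin_two]⟩
  have e3 := key ⟨!![1, 0; 0, -1], by simp [Matrix.trace_fin_two]⟩
  simp [Matrix.trace_fin_two, Matrix.mul_apply, Fin.sum_univ_two] at e1 e2 e3
  rw [hd, neg_neg, ← two_mul] at e3
  have h00 := (mul_eq_zero.mp e3).resolve_left two_ne_zero
  refine Subtype.ext (Matrix.ext fun i j => ?_)
  fin_cases i <;> fin_cases j <;> simp [e1, e2, h00, hd]

/-- The trace zero matrices are their own dual over `𝔽_p`. -/
def dualEquiv : Sl2 k ≃ₗ[ZMod p] Module.Dual (ZMod p) (Sl2 k) :=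
  haveI : Module.Finite (ZMod p) (Sl2 k) := Module.Finite.of_finite
  LinearEquiv.ofBijective (trPairing p)
    ⟨trPairing_injective p, (LinearMap.injective_iff_surjective_of_finrank_eq_finrank
      Subspace.dual_finrank_eq.symm).mp (trPairing_injective p)⟩

theorem dualEquiv_apply (m x : Sl2 k) :
    dualEquiv p m x = Algebra.trace (ZMod p) k ((m : Matrix (Fin 2) (Fin 2) k) * x.1).trace := rfl

variable {r : Γ →* GL (Fin 2) k} (χ : Γ →* (ZMod p)ˣ)
  (hdet : ∀ g, (mat r g).det = algebraMap (ZMod p) k (χ g : ZMod p))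

/-- The twisted adjoint action on trace zero matrices. -/
def symSl (r : Γ →* GL (Fin 2) k) (g : Γ) (m : Sl2 k) : Sl2 k :=
  ⟨symAct (mat r g) m.1, by rw [mem_sl2_iff, trace_symAct, Sl2.trace_eq_zero, mul_zero]⟩

include hdet in
theorem dualTwist_apply_dualEquiv (g : Γ) (m : Sl2 k) :
    ((adRep p r).dualTwist χ).ρ g (dualEquiv p m) = dualEquiv p (symSl r g m) := by
  refine LinearMap.ext fun (x : Sl2 k) => ?_
  show (χ g : ZMod p) • dualEquiv p m (adSl p r g⁻¹ x) = _
  rw [dualEquiv_apply, dualEquiv_apply, ← map_smul, coe_adSl, ← algebraMap_smul k (χ g : ZMod p),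
    ← hdet]
  show Algebra.trace _ _ _ = Algebra.trace _ _ (symAct (mat r g) m.1 * x.1).trace
  congr 1
  rw [symAct_eq_smul_adAct, smul_mul_assoc, Matrix.trace_smul]
  congr 1
  rw [adAct, adAct, inv_inv, mul_assoc (mat r g * m.1), mul_assoc (mat r g) m.1,
    Matrix.trace_mul_comm (mat r g)]
  simp only [mul_assoc]

variable (r)

/-- The matrix valued function of a cocycle of the dual twist. -/
def dualFun : cocycles₁ ((adRep p r).dualTwist χ) →+ (Γ → Matrix (Fin 2) (Fin 2) k) where
  toFun f g := ((dualEquiv p).symm (f.1 g) : Sl2 k).1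
  map_zero' := funext fun _ => congrArg Subtype.val (map_zero (dualEquiv p).symm)
  map_add' f f' := funext fun g =>
    congrArg Subtype.val (map_add (dualEquiv p).symm (f.1 g) (f'.1 g))

variable {r}

theorem dualFun_apply (f : cocycles₁ ((adRep p r).dualTwist χ)) (g : Γ) :
    dualFun p r χ f g = ((dualEquiv p).symm (f.1 g) : Sl2 k).1 := rfl

include hdet in
theorem isSymCocycleOn_dualFun (f : cocycles₁ ((adRep p r).dualTwist χ)) :
    IsSymCocycleOn r (dualFun p r χ f) := by
  refine ⟨fun g => Sl2.trace_eq_zero _, fun g h => ?_⟩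
  have h1 : f.1 (g * h) = ((adRep p r).dualTwist χ).ρ g (f.1 h) + f.1 g :=
    (mem_cocycles₁_iff _).mp f.2 g h
  rw [← (dualEquiv p).apply_symm_apply (f.1 h), dualTwist_apply_dualEquiv p χ hdet,
    add_comm] at h1
  have h2 := congrArg (fun x => ((dualEquiv p).symm x : Sl2 k).1) h1
  simp only [map_add, LinearEquiv.symm_apply_apply, Submodule.coe_add] at h2
  exact h2

include hdet in
theorem H1π_eq_zero_iff_dualFun (f : cocycles₁ ((adRep p r).dualTwist χ)) :
    (H1π _).hom f = 0 ↔ ∃ m : Matrix (Fin 2) (Fin 2) k, m.trace = 0 ∧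
      ∀ g, dualFun p r χ f g = symAct (mat r g) m - m := by
  refine (H1π_eq_zero_iff f).trans ⟨?_, ?_⟩
  · rintro ⟨x, hx⟩
    refine ⟨((dualEquiv p).symm x : Sl2 k).1, Sl2.trace_eq_zero _, fun g => ?_⟩
    have h1 : (d₀₁ _).hom x g = f.1 g := congr_fun hx g
    rw [d₀₁_hom_apply, ← (dualEquiv p).apply_symm_apply x,
      dualTwist_apply_dualEquiv p χ hdet, ← map_sub] at h1
    rw [dualFun_apply, ← h1, LinearEquiv.symm_apply_apply]
    rfl
  · rintro ⟨m, hm, hc⟩
    refine ⟨dualEquiv p ⟨m, mem_sl2_iff.mpr hm⟩, funext fun g => ?_⟩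
    rw [d₀₁_hom_apply, dualTwist_apply_dualEquiv p χ hdet, ← map_sub]
    refine ((dualEquiv p).eq_symm_apply.mp ?_)
    exact Subtype.ext (hc g).symm

theorem isLevelConstant₁_dualFun (j : Γ →* AlgebraicClosure ℚ ≃ₐ[ℚ] AlgebraicClosure ℚ)
    {f : cocycles₁ ((adRep p r).dualTwist χ)} (hf : IsLevelConstant₁ j f.1) :
    IsLevelConstant₁ j (dualFun p r χ f) :=
  hf.comp (fun x => ((dualEquiv p).symm x : Sl2 k).1)

include hdet in
/-- Restriction to `j` kills the class iff the function is a coboundary on the range. -/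
theorem exists_of_locRes_eq_zero {H : Type} [Group H] (j : H →* Γ)
    (f : cocycles₁ ((adRep p r).dualTwist χ))
    (hf : (groupCohomology.map j (𝟙 (Rep.res j ((adRep p r).dualTwist χ))) 1).hom
      ((H1π _).hom f) = 0) :
    ∃ m : Matrix (Fin 2) (Fin 2) k, m.trace = 0 ∧
      ∀ h, dualFun p r χ f (j h) = symAct (mat r (j h)) m - m := by
  have h1 : (H1π (Rep.res j ((adRep p r).dualTwist χ))).hom
      (mapCocycles₁ j (𝟙 (Rep.res j ((adRep p r).dualTwist χ))) f) = 0 := by
    rw [← H1π_comp_map_apply j (𝟙 (Rep.res j ((adRep p r).dualTwist χ))) f]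
    exact hf
  obtain ⟨x, hx⟩ := (H1π_eq_zero_iff _).mp h1
  refine ⟨((dualEquiv p).symm x : Sl2 k).1, Sl2.trace_eq_zero _, fun h => ?_⟩
  have h2 : ((adRep p r).dualTwist χ).ρ (j h) x - x = f.1 (j h) := congr_fun hx h
  rw [← (dualEquiv p).apply_symm_apply x, dualTwist_apply_dualEquiv p χ hdet, ← map_sub] at h2
  rw [dualFun_apply, ← h2, LinearEquiv.symm_apply_apply]
  rfl

include hdet in
/-- Invariants of the dual twist. -/
theorem invariants_dualTwist_eq_bot
    (hno : ∀ m : Matrix (Fin 2) (Fin 2) k, m.trace = 0 → m ≠ 0 →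
      ∃ g, ∀ a : k, symAct (mat r g) m ≠ a • m) :
    ((adRep p r).dualTwist χ).ρ.invariants = ⊥ := by
  rw [eq_bot_iff]
  intro v hv
  by_contra hv0
  set m := (dualEquiv p).symm v with hm
  have hm0 : m.1 ≠ 0 := fun h0 => hv0 (by
    have : m = 0 := Subtype.ext h0
    simpa [hm] using this)
  obtain ⟨g, hg⟩ := hno m.1 (Sl2.trace_eq_zero _) hm0
  refine hg 1 ?_
  have h1 := hv g
  rw [← (dualEquiv p).apply_symm_apply v, dualTwist_apply_dualEquiv p χ hdet] at h1
  rw [one_smul]
  exact congrArg Subtype.val ((dualEquiv p).injective h1)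

end FLTAgent.TWPrimes
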