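import Fermat.Agent.LevelLowering.Tame
import Mathlib.Tactic.Group
import Fermat.Agent.TWPrimes.LocalPlace
import Fermat.Agent.TWPrimes.AdRep
import Fermat.Agent.TWPrimes.Detection
import Fermat.Agent.TWPrimes.Frame

/-!
# Local classes at an unramified and at a Taylor–Wiles prime

Unramified classes are bounded by the invariants (`classDim_le_of_unramified`); at a Taylor–Wiles
prime all classes form a space of dimension at most two (`classDim_le_two`). Used by `Core`,
`LocalOrdinary` and the flat bound.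
-/

set_option autoImplicit false

open Matrix Polynomial groupCohomology Module
open scoped Pointwise

noncomputable section

namespace FLTAgent.TWPrimes

open FLTAgent.Density FLTAgent.LocalDuality

variable {k : Type} [Field k]

/-- Cocycles modulo coboundaries are bounded by any map whose kernel consists of coboundaries. -/
theorem classDim_le_of_ker {Γ : Type} [Group Γ] {r : Γ →* GL (Fin 2) k}
    {W W' : Submodule k (Γ → Matrix (Fin 2) (Fin 2) k)} (hWW' : W ≤ W' ⊔ adCob r)
    {Y : Type} [AddCommGroup Y] [Module k Y] [Module.Finite k Y] (T : W' →ₗ[k] Y)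
    (hT : ∀ c, T c = 0 → c.1 ∈ adCob r) :
    Module.Finite k (W.map (adCob r).mkQ) ∧ classDim r W ≤ finrank k Y := by
  set ψ := (adCob r).mkQ.domRestrict W' with hψ
  have hle : LinearMap.ker T ≤ LinearMap.ker ψ := fun c hc =>
    (Submodule.Quotient.mk_eq_zero _).mpr (hT c hc)
  have hsub : W.map (adCob r).mkQ ≤ LinearMap.range ψ := by
    rintro _ ⟨c, hc, rfl⟩
    obtain ⟨a, ha, b, hb, rfl⟩ := Submodule.mem_sup.mp (hWW' hc)
    refine ⟨⟨a, ha⟩, ?_⟩
    show (adCob r).mkQ a = (adCob r).mkQ (a + b)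
    rw [map_add, show (adCob r).mkQ b = 0 from (Submodule.Quotient.mk_eq_zero _).mpr hb, add_zero]
  have hsurj : Function.Surjective ((LinearMap.ker T).liftQ ψ.rangeRestrict
      (by simpa using hle)) := by
    rintro ⟨_, c, rfl⟩
    exact ⟨Submodule.Quotient.mk c, rfl⟩
  have : Module.Finite k (W' ⧸ LinearMap.ker T) := Module.Finite.equiv T.quotKerEquivRange.symm
  have : Module.Finite k (LinearMap.range ψ) := Module.Finite.of_surjective _ hsurj
  refine ⟨Submodule.finiteDimensional_of_le hsub, ?_⟩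
  calc classDim r W ≤ finrank k (LinearMap.range ψ) := Submodule.finrank_mono hsub
    _ ≤ finrank k (W' ⧸ LinearMap.ker T) := LinearMap.finrank_le_finrank_of_surjective hsurj
    _ = finrank k (LinearMap.range T) := LinearEquiv.finrank_eq T.quotKerEquivRange
    _ ≤ finrank k Y := Submodule.finrank_le _

theorem finrank_quotient_range {V : Type} [AddCommGroup V] [Module k V] [Module.Finite k V]
    (f : V →ₗ[k] V) : finrank k (V ⧸ LinearMap.range f) = finrank k (LinearMap.ker f) := by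
  have h1 := (LinearMap.range f).finrank_quotient_add_finrank
  have h2 := f.finrank_range_add_finrank_ker
  omega

/-- A cocycle vanishes at one. -/
theorem IsAdCocycleOn.map_one {Γ : Type} [Group Γ] {r : Γ →* GL (Fin 2) k}
    {c : Γ → Matrix (Fin 2) (Fin 2) k} (hc : IsAdCocycleOn r c) : c 1 = 0 := by
  have h := hc.2 1 1
  rw [mul_one, adAct_one] at h
  simpa using h

variable (q : ℕ) [Fact q.Prime] (r : GalQ →* GL (Fin 2) k)

/-- Local cocycles of finite level. -/
def localCocycles : Submodule k (LocalGal q → Matrix (Fin 2) (Fin 2) k) where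
  carrier := {c | IsAdCocycleOn (locHom q r) c ∧ LocalLevel q c}
  zero_mem' := ⟨(adCocycles _).zero_mem, isLevelConstant₁_const _ (0 : Matrix (Fin 2) (Fin 2) k)⟩
  add_mem' ha hb := ⟨(adCocycles _).add_mem ha.1 hb.1, ha.2.add hb.2⟩
  smul_mem' a _ hc := ⟨(adCocycles _).smul_mem a hc.1, hc.2.comp (a • ·)⟩

/-- Local cocycles of finite level vanishing on inertia. -/
def unramifiedCocycles : Submodule k (LocalGal q → Matrix (Fin 2) (Fin 2) k) :=
  localCocycles q r ⊓ ⨅ (τ : LocalGal q) (_ : IsLocalInertia q τ),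
    LinearMap.ker (LinearMap.proj τ)

theorem mem_unramifiedCocycles_iff {c : LocalGal q → Matrix (Fin 2) (Fin 2) k} :
    c ∈ unramifiedCocycles q r ↔ c ∈ localCocycles q r ∧
      ∀ τ, IsLocalInertia q τ → c τ = 0 := by
  simp [unramifiedCocycles]

variable {q r}

theorem isLocalInertia_conj {τ : LocalGal q} (h : IsLocalInertia q τ) (φ : LocalGal q) :
    IsLocalInertia q (φ⁻¹ * τ * φ) := fun x hx => by
  have h1 := h (φ x) (by rwa [norm_algEquiv])
  rwa [← norm_algEquiv q φ⁻¹, map_sub, ← AlgEquiv.mul_apply φ⁻¹ φ, inv_mul_cancel,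
    ← AlgEquiv.mul_apply, ← AlgEquiv.mul_apply] at h1

/-- A local Frobenius element. -/
theorem exists_local_frobenius (q : ℕ) [Fact q.Prime] :
    ∃ φ : LocalGal q, (padicPlace q).IsFrobeniusAt (toGlobal q φ) q := by
  obtain ⟨Φ, hΦ⟩ := exists_isFrobeniusAt _ Fact.out (padicPlace_liesOverPrime q)
  obtain ⟨φ, hφ⟩ := exists_toGlobal q hΦ.mem_decompositionSubgroup
  exact ⟨φ, hφ ▸ hΦ⟩

/-- A local cocycle killed by Frobenius and inertia is zero. -/
theorem eq_zero_of_frobenius_of_inertia {c : LocalGal q → Matrix (Fin 2) (Fin 2) k}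
    (hc : c ∈ localCocycles q r) {φ : LocalGal q}
    (hφ : (padicPlace q).IsFrobeniusAt (toGlobal q φ) q) (hcφ : c φ = 0)
    (hI : ∀ τ, IsLocalInertia q τ → c τ = 0) : c = 0 := by
  obtain ⟨hco, F, hF, hlev⟩ := hc
  have := hF
  let L := IntermediateField.normalClosure ℚ F Qbar
  have : IsGalois ℚ L := IsGalois.normalClosure ..
  funext g
  obtain ⟨n, s, hs, hL⟩ := exists_frobenius_pow_mul (padicPlace_liesOverPrime q) L hφ
    (localGaloisToGlobal_mem_decompositionSubgroup q g)
  obtain ⟨u, hu⟩ := exists_toGlobal q (inertiaSubgroupIn_le_decompositionSubgroup _ hs)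
  have hpow : ∀ m : ℕ, c (φ ^ m) = 0 := fun m => by
    induction m with
    | zero => rw [pow_zero]; exact hco.map_one
    | succ m ih => rw [pow_succ, hco.2, ih, hcφ]; simp [adAct]
  have hmem : toGlobal q ((φ ^ n * u)⁻¹ * g) ∈ F.fixingSubgroup :=
    (IntermediateField.mem_fixingSubgroup_iff _ _).mpr fun x hx => by
      rw [map_mul, map_inv, AlgEquiv.mul_apply, map_mul, map_pow, hu,
        show toGlobal q g x = _ from hL x (IntermediateField.le_normalClosure F hx),
        ← AlgEquiv.mul_apply, inv_mul_cancel, AlgEquiv.one_apply]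
  rw [Pi.zero_apply, ← mul_inv_cancel_left (φ ^ n * u) g, hlev _ _ hmem, hco.2, hpow,
    hI u ((isLocalInertia_iff q u).mpr (hu.symm ▸ hs))]
  simp [adAct]

variable (q r)

theorem adCob_le_localCocycles (hr : GaloisFactorsThroughFiniteLevel r) :
    adCob (locHom q r) ≤ localCocycles q r := by
  intro c hc
  refine ⟨adCob_le_adCocycles _ hc, ?_⟩
  obtain ⟨m, -, hm⟩ := mem_adCob_iff.mp hc
  obtain ⟨L, hL, hL1⟩ := hr
  refine ⟨L, hL, fun g s hs => ?_⟩
  have h1 : locHom q r s = 1 :=
    hL1 _ fun x hx => (IntermediateField.mem_fixingSubgroup_iff _ _).mp hs x hx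
  have h2 : adAct (locHom q r) s m = m := by simp [adAct, mat, h1]
  rw [hm, hm, adAct_mul, h2]

/-- The adjoint action of one element as a linear map. -/
def adMat {Γ : Type} [Group Γ] (r : Γ →* GL (Fin 2) k) (g : Γ) :
    Matrix (Fin 2) (Fin 2) k →ₗ[k] Matrix (Fin 2) (Fin 2) k :=
  LinearMap.mulLeft k (mat r g) ∘ₗ LinearMap.mulRight k (mat r g⁻¹)

theorem adMat_apply {Γ : Type} [Group Γ] (r : Γ →* GL (Fin 2) k) (g : Γ)
    (m : Matrix (Fin 2) (Fin 2) k) : adMat r g m = adAct r g m := by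
  simp [adMat, adAct, mul_assoc]

/-- Inertia invariant trace zero matrices. -/
def inertiaFixed : Submodule k (Matrix (Fin 2) (Fin 2) k) :=
  Sl2 k ⊓ ⨅ (τ : LocalGal q) (_ : IsLocalInertia q τ),
    LinearMap.eqLocus (adMat (locHom q r) τ) LinearMap.id

theorem mem_inertiaFixed_iff {m : Matrix (Fin 2) (Fin 2) k} :
    m ∈ inertiaFixed q r ↔
      m.trace = 0 ∧ ∀ τ, IsLocalInertia q τ → adAct (locHom q r) τ m = m := by
  simp [inertiaFixed, adMat_apply]

theorem adMat_mem_inertiaFixed (φ : LocalGal q) {m : Matrix (Fin 2) (Fin 2) k}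
    (hm : m ∈ inertiaFixed q r) : adMat (locHom q r) φ m ∈ inertiaFixed q r := by
  rw [mem_inertiaFixed_iff] at hm ⊢
  refine ⟨by rw [adMat_apply, trace_adAct, hm.1], fun τ hτ => ?_⟩
  rw [adMat_apply, ← adAct_mul]
  conv_rhs => rw [← hm.2 _ (isLocalInertia_conj hτ φ), ← adAct_mul]
  congr 1
  group

theorem trace_eq_zero_of_inertiaFixed (m : inertiaFixed q r) :
    (m : Matrix (Fin 2) (Fin 2) k).trace = 0 :=
  ((mem_inertiaFixed_iff q r).mp m.2).1

/-- Frobenius minus one on the inertia invariants. -/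
def frobSub (φ : LocalGal q) : inertiaFixed q r →ₗ[k] inertiaFixed q r :=
  ((adMat (locHom q r) φ).restrict fun _ h => adMat_mem_inertiaFixed q r φ h) - LinearMap.id

theorem coe_frobSub (φ : LocalGal q) (m : inertiaFixed q r) :
    (frobSub q r φ m : Matrix (Fin 2) (Fin 2) k) = adAct (locHom q r) φ m.1 - m.1 := by
  rw [← adMat_apply]; rfl

theorem adAct_eq_self_of_frobSub (hr : GaloisFactorsThroughFiniteLevel r) {φ : LocalGal q}
    (hφ : (padicPlace q).IsFrobeniusAt (toGlobal q φ) q) {m : inertiaFixed q r}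
    (hm : frobSub q r φ m = 0) (g : LocalGal q) : adAct (locHom q r) g m.1 = m.1 := by
  have hc : (fun g => adAct (locHom q r) g m.1 - m.1) ∈ adCob (locHom q r) :=
    mem_adCob_iff.mpr ⟨m.1, trace_eq_zero_of_inertiaFixed q r m, fun g => rfl⟩
  have := eq_zero_of_frobenius_of_inertia (adCob_le_localCocycles q r hr hc) hφ
    (by rw [← coe_frobSub, hm]; rfl)
    (fun τ hτ => sub_eq_zero.mpr (((mem_inertiaFixed_iff q r).mp m.2).2 τ hτ))
  exact sub_eq_zero.mp (congr_fun this g)

theorem finrank_ker_frobSub_le (hr : GaloisFactorsThroughFiniteLevel r) {φ : LocalGal q}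
    (hφ : (padicPlace q).IsFrobeniusAt (toGlobal q φ) q) :
    finrank k (LinearMap.ker (frobSub q r φ)) ≤ finrank k (adFixed (locHom q r)) := by
  refine LinearMap.finrank_le_finrank_of_injective (f :=
    { toFun := fun m => (⟨m.1.1, mem_adFixed_iff.mpr
        ⟨trace_eq_zero_of_inertiaFixed q r m.1,
          adAct_eq_self_of_frobSub q r hr hφ m.2⟩⟩ : adFixed (locHom q r))
      map_add' := fun _ _ => rfl
      map_smul' := fun _ _ => rfl }) ?_
  intro a b hab
  exact Subtype.ext (Subtype.ext (congrArg Subtype.val hab :))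

variable [Finite k]

omit [Finite k] in
/-- At any prime the unramified classes are bounded by the invariants. -/
theorem classDim_le_of_unramified (hr : GaloisFactorsThroughFiniteLevel r)
    (W : Submodule k (LocalGal q → Matrix (Fin 2) (Fin 2) k))
    (hW : ∀ c ∈ W, IsUnramifiedClass q r c) :
    Module.Finite k (W.map (adCob (locHom q r)).mkQ) ∧
      classDim (locHom q r) W ≤ Module.finrank k (adFixed (locHom q r)) := by
  obtain ⟨φ, hφ⟩ := exists_local_frobenius q
  let ev : unramifiedCocycles q r →ₗ[k] inertiaFixed q r :=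
    { toFun := fun c => ⟨c.1 φ, by
        obtain ⟨⟨hco, -⟩, hI⟩ := (mem_unramifiedCocycles_iff q r).mp c.2
        rw [mem_inertiaFixed_iff]
        refine ⟨hco.1 φ, fun τ hτ => ?_⟩
        have h1 := hco.2 τ φ
        rw [hI τ hτ, zero_add] at h1
        have h2 := hco.2 φ (φ⁻¹ * τ * φ)
        rw [hI _ (isLocalInertia_conj hτ φ), show φ * (φ⁻¹ * τ * φ) = τ * φ by group] at h2
        simp only [adAct, mul_zero, zero_mul, add_zero] at h2
        exact h1.symm.trans h2⟩
      map_add' := fun _ _ => rfl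
      map_smul' := fun _ _ => rfl }
  obtain ⟨hfin, hle⟩ := classDim_le_of_ker (W := W) (W' := unramifiedCocycles q r)
    (Y := inertiaFixed q r ⧸ LinearMap.range (frobSub q r φ))
    (fun c hc => by
      obtain ⟨hco, hlev, m, hm, hI⟩ := hW c hc
      refine Submodule.mem_sup.mpr ⟨c - fun g => adAct (locHom q r) g m - m,
        (mem_unramifiedCocycles_iff q r).mpr ⟨Submodule.sub_mem _ ⟨hco, hlev⟩
          (adCob_le_localCocycles q r hr (mem_adCob_iff.mpr ⟨m, hm, fun g => rfl⟩)),
          fun τ hτ => sub_eq_zero.mpr (hI τ hτ)⟩,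
        _, mem_adCob_iff.mpr ⟨m, hm, fun g => rfl⟩, sub_add_cancel _ _⟩)
    ((LinearMap.range (frobSub q r φ)).mkQ ∘ₗ ev) (fun c hc => by
      obtain ⟨n, hn⟩ := (Submodule.Quotient.mk_eq_zero _).mp hc
      refine mem_adCob_iff.mpr ⟨n.1, trace_eq_zero_of_inertiaFixed q r n, fun g => ?_⟩
      obtain ⟨hloc, hI⟩ := (mem_unramifiedCocycles_iff q r).mp c.2
      have := eq_zero_of_frobenius_of_inertia (Submodule.sub_mem _ hloc
        (adCob_le_localCocycles q r hr (mem_adCob_iff.mpr
          ⟨n.1, trace_eq_zero_of_inertiaFixed q r n, fun g => rfl⟩))) hφ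
        (sub_eq_zero.mpr ((congrArg (fun x : inertiaFixed q r => x.1) hn).symm.trans
          (coe_frobSub q r φ n)))
        (fun τ hτ => by
          rw [Pi.sub_apply, hI τ hτ, ((mem_inertiaFixed_iff q r).mp n.2).2 τ hτ,
            sub_self, sub_zero])
      exact sub_eq_zero.mp (congr_fun this g))
  exact ⟨hfin, hle.trans ((finrank_quotient_range _).trans_le (finrank_ker_frobSub_le q r hr hφ))⟩

omit [Finite k] in
/-- A tame element: its value determines a homomorphism on inertia of exponent `p`, and is fixed by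
Frobenius when `p ∣ q - 1`. -/
theorem exists_tame_generator (p : ℕ) [Fact p.Prime] [CharP k p] (hq : p ∣ q - 1)
    (hunr : ∀ σ ∈ (padicPlace q).inertiaSubgroupIn ℚ, r σ = 1) {φ : LocalGal q}
    (hφ : (padicPlace q).IsFrobeniusAt (toGlobal q φ) q) :
    ∃ τ : LocalGal q, IsLocalInertia q τ ∧ ∀ c ∈ localCocycles q r,
      (c τ = 0 → ∀ u, IsLocalInertia q u → c u = 0) ∧
      adAct (locHom q r) φ (c τ) = c τ := by
  have hp : p.Prime := Fact.out
  have hqq : q.Prime := Fact.out
  have hq1 : (q : k) = 1 := by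
    have h : ((q - 1 : ℕ) : k) = 0 := (CharP.cast_eq_zero_iff k p _).mpr hq
    rwa [Nat.cast_sub hqq.one_le, Nat.cast_one, sub_eq_zero] at h
  have hqp : q ≠ p := by
    rintro rfl
    rw [CharP.cast_eq_zero] at hq1
    exact zero_ne_one hq1
  obtain ⟨x, hx, t, ht, htx⟩ := LevelLowering.exists_tame_element hp hqq
    (padicPlace_liesOverPrime q)
  obtain ⟨τ, hτ⟩ := exists_toGlobal q (inertiaSubgroupIn_le_decompositionSubgroup _ ht)
  refine ⟨τ, (isLocalInertia_iff q τ).mpr (hτ.symm ▸ ht), fun c hc => ?_⟩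
  obtain ⟨hco, F, hF, hlev⟩ := hc
  have := hF
  have hxint : IsIntegral ℚ x := (Algebra.IsAlgebraic.isAlgebraic x).isIntegral
  have := IntermediateField.adjoin.finiteDimensional hxint
  let L := IntermediateField.normalClosure ℚ ↥(F ⊔ IntermediateField.adjoin ℚ {x}) Qbar
  have : IsGalois ℚ L := IsGalois.normalClosure ..
  have hle : F ⊔ IntermediateField.adjoin ℚ {x} ≤ L := IntermediateField.le_normalClosure _
  have hxL : x ∈ L := hle (le_sup_right (a := F) (IntermediateField.mem_adjoin_simple_self ℚ x))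
  set I := (padicPlace q).inertiaSubgroupIn ℚ
  choose l hl using fun s : I =>
    exists_toGlobal q (inertiaSubgroupIn_le_decompositionSubgroup _ s.2)
  have hone : ∀ u v : LocalGal q, toGlobal q u ∈ I → c (u * v) = c u + c v := fun u v hu => by
    have h1 : locHom q r u = 1 := hunr _ hu
    rw [hco.2]
    simp [adAct, mat, h1]
  have hd : ∀ (u : LocalGal q) (s : I), (∀ y ∈ L, toGlobal q u y = (s : GalQ) y) → c u = c (l s) :=
    fun u s h => by
      rw [← mul_inv_cancel_left (l s) u]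
      refine hlev _ _ ((IntermediateField.mem_fixingSubgroup_iff _ _).mpr fun y hy => ?_)
      rw [map_mul, map_inv, AlgEquiv.mul_apply, hl,
        h y (hle (le_sup_left (b := IntermediateField.adjoin ℚ {x}) hy)),
        ← AlgEquiv.mul_apply, inv_mul_cancel, AlgEquiv.one_apply]
  let d : I →* Multiplicative (Matrix (Fin 2) (Fin 2) k) := MonoidHom.mk'
    (fun s => Multiplicative.ofAdd (c (l s))) fun s s' => by
      rw [← ofAdd_add, ← hone _ _ (by rw [hl]; exact s.2)]
      exact congrArg Multiplicative.ofAdd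
        (hd _ _ fun y _ => by rw [map_mul, hl, hl]; rfl).symm
  have hdpow : ∀ (s : I) (n : ℕ), c (l (s ^ n)) = (n : k) • c (l s) := fun s n => by
    have := congrArg Multiplicative.toAdd (map_pow d s n)
    rw [toAdd_pow, ← Nat.cast_smul_eq_nsmul k] at this
    exact this
  -- inertia acts on `x` through roots of unity fixed by inertia
  have hpow : ∀ (s : I) (n : ℕ), (p ∣ n → ((s ^ n : I) : GalQ) x = x) ∧
      ((n : k) = 1 → ((s ^ n : I) : GalQ) x = (s : GalQ) x) := by
    intro s n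
    have hx0 : x ≠ 0 := fun h => by
      rw [h, zero_pow hp.ne_zero] at hx
      exact hqq.ne_zero (by exact_mod_cast hx.symm)
    set μ := (s : GalQ) x / x with hμdef
    have hμ : μ ^ p = 1 := by
      rw [hμdef, div_pow, ← map_pow, hx, map_natCast,
        div_self (Nat.cast_ne_zero.mpr hqq.ne_zero)]
    have hsx : (s : GalQ) x = μ * x := (div_mul_cancel₀ _ hx0).symm
    have hsμ : (s : GalQ) μ = μ := GaloisAttach.inertia_apply_rootOfUnity hqq
      (padicPlace_liesOverPrime q) s.2 (fun h => hqp ((Nat.prime_dvd_prime_iff_eq hqq hp).mp h)) hμ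
    have key : ∀ m : ℕ, ((s ^ m : I) : GalQ) x = μ ^ m * x := fun m => by
      induction m with
      | zero => simp
      | succ m ih =>
        rw [pow_succ', Subgroup.coe_mul, AlgEquiv.mul_apply, ih, map_mul, map_pow, hsμ, hsx]
        ring
    refine ⟨fun ⟨e, he⟩ => by rw [key, he, pow_mul, hμ, one_pow, one_mul], fun hn => ?_⟩
    have hmod : n % p = 1 := by
      rw [← Nat.cast_one, CharP.natCast_eq_natCast k p] at hn
      rw [Nat.ModEq, Nat.one_mod_eq_one.mpr hp.ne_one] at hn
      exact hn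
    rw [key, pow_eq_pow_mod n hμ, hmod, pow_one, hsx]
  obtain ⟨K, _, _, _, χ, hker, hconj⟩ := MazurStep.exists_tame_character hqq
    (padicPlace_liesOverPrime q) L
  have hkill : ∀ s : I, χ s = 1 → c (l s) = 0 ∧ (s : GalQ) x = x := by
    intro s hs
    obtain ⟨v, hv⟩ := hker s hs
    have hv1 : ((q ^ v : ℕ) : k) = 1 := by rw [Nat.cast_pow, hq1, one_pow]
    refine ⟨?_, ?_⟩
    · have h := hdpow s (q ^ v)
      rw [hv1, one_smul] at h
      rw [← h, ← hco.map_one]
      refine ((hd 1 _ fun y hy => ?_)).symm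
      rw [map_one, SubmonoidClass.coe_pow, hv y hy, AlgEquiv.one_apply]
    · rw [← (hpow s (q ^ v)).2 hv1, SubmonoidClass.coe_pow]
      exact hv x hxL
  have : IsCyclic χ.range := inferInstance
  obtain ⟨⟨_, g, rfl⟩, hg⟩ := IsCyclic.exists_monoid_generator (α := χ.range)
  have hgen : ∀ s : I, ∃ n : ℕ, c (l s) = (n : k) • c (l g) ∧
      (s : GalQ) x = ((g ^ n : I) : GalQ) x := by
    intro s
    obtain ⟨n, hn⟩ := Submonoid.mem_powers_iff _ _ |>.mp (hg ⟨χ s, s, rfl⟩)
    have hn' : χ (g ^ n) = χ s := by rw [map_pow]; exact congrArg Subtype.val hn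
    obtain ⟨h1, h2⟩ := hkill ((g ^ n)⁻¹ * s) (by rw [map_mul, map_inv, hn', inv_mul_cancel])
    refine ⟨n, ?_, ?_⟩
    · rw [← hdpow]
      have := congrArg Multiplicative.toAdd (map_mul d (g ^ n) ((g ^ n)⁻¹ * s))
      rw [mul_inv_cancel_left, toAdd_mul] at this
      refine this.trans ?_
      show c (l (g ^ n)) + c (l _) = _
      rw [h1, add_zero]
    · have h3 := congrArg ((g ^ n : I) : GalQ) h2
      rw [← AlgEquiv.mul_apply, ← Subgroup.coe_mul, mul_inv_cancel_left] at h3
      exact h3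
  have hτl : c τ = c (l ⟨t, ht⟩) := hd τ ⟨t, ht⟩ fun y _ => by rw [hτ]
  refine ⟨fun hcτ u hu => ?_, ?_⟩
  · obtain ⟨n, hn1, hn2⟩ := hgen ⟨t, ht⟩
    have hn0 : (n : k) ≠ 0 := fun h =>
      htx (hn2.trans ((hpow g n).1 ((CharP.cast_eq_zero_iff k p n).mp h)))
    rw [hτl, hn1, smul_eq_zero] at hcτ
    obtain ⟨m, hm, -⟩ := hgen ⟨toGlobal q u, (isLocalInertia_iff q u).mp hu⟩
    rw [hd u ⟨toGlobal q u, (isLocalInertia_iff q u).mp hu⟩ fun y _ => rfl, hm,
      hcτ.resolve_left hn0, smul_zero]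
  · have hΦd := hφ.mem_decompositionSubgroup
    have hmem : toGlobal q (φ * τ * φ⁻¹) ∈ I := by
      rw [map_mul, map_mul, map_inv, hτ]
      have h := mem_inertiaSubgroupIn_smul ht (toGlobal q φ)
      rwa [MulAction.mem_stabilizer_iff.mp hΦd] at h
    have h1 := hconj _ hφ ⟨t, ht⟩ ⟨_, hmem⟩
      (by show toGlobal q (φ * τ * φ⁻¹) = _; rw [map_mul, map_mul, map_inv, hτ])
    rw [← map_pow] at h1
    obtain ⟨h2, -⟩ := hkill ((⟨t, ht⟩ ^ q)⁻¹ * ⟨_, hmem⟩) (by
      rw [map_mul, map_inv, h1, inv_mul_cancel])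
    have h3 := congrArg Multiplicative.toAdd
      (map_mul d (⟨t, ht⟩ ^ q) ((⟨t, ht⟩ ^ q)⁻¹ * ⟨_, hmem⟩))
    rw [mul_inv_cancel_left, toAdd_mul] at h3
    change c (l _) = c (l _) + c (l _) at h3
    rw [h2, add_zero, hdpow, hq1, one_smul, ← hτl, ← hd (φ * τ * φ⁻¹) ⟨_, hmem⟩ fun y _ => rfl,
      hco.2, hco.2] at h3
    have h4 : c φ⁻¹ + adAct (locHom q r) φ⁻¹ (c φ) = 0 := by
      rw [← hco.2, inv_mul_cancel, hco.map_one]
    have h5 : adAct (locHom q r) (φ * τ) (c φ⁻¹) = - c φ := by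
      have h6 : locHom q r τ = 1 := hunr _ (hτ.symm ▸ ht)
      rw [adAct_mul, show adAct (locHom q r) τ (c φ⁻¹) = c φ⁻¹ by simp [adAct, mat, h6],
        eq_neg_of_add_eq_zero_left h4]
      simp only [adAct, inv_inv, mul_neg, neg_mul]
      rw [← mul_assoc, ← mul_assoc, mat_mul_inv, one_mul, mul_assoc, mat_mul_inv, mul_one]
    rw [h5] at h3
    rwa [add_neg_cancel_comm] at h3

variable (p : ℕ) [Fact p.Prime] [CharP k p]

omit [Finite k] in
/-- At a Taylor–Wiles prime all classes form a space of dimension at most two. -/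
theorem classDim_le_two (hp2 : p ≠ 2) (hq : p ∣ q - 1)
    (hr : GaloisFactorsThroughFiniteLevel r)
    (hunr : ∀ P : ValuationSubring Qbar, P.LiesOverPrime q →
      ∀ σ ∈ P.inertiaSubgroupIn ℚ, r σ = 1)
    (hdist : ∀ P : ValuationSubring Qbar, P.LiesOverPrime q → ∀ φ : GalQ, P.IsFrobeniusAt φ q →
      ∃ α β : k, α ≠ β ∧ (mat r φ).charpoly = (X - C α) * (X - C β))
    (W : Submodule k (LocalGal q → Matrix (Fin 2) (Fin 2) k))
    (hW : ∀ c ∈ W, IsAdCocycleOn (locHom q r) c ∧ LocalLevel q c) :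
    Module.Finite k (W.map (adCob (locHom q r)).mkQ) ∧ classDim (locHom q r) W ≤ 2 ∧
      1 ≤ Module.finrank k (adFixed (locHom q r)) := by
  have hP := padicPlace_liesOverPrime q
  have : NeZero (2 : k) := ⟨fun h => by
    have h2 : p ∣ 2 := (CharP.cast_eq_zero_iff k p 2).mp (by exact_mod_cast h)
    exact hp2 ((Nat.prime_dvd_prime_iff_eq Fact.out Nat.prime_two).mp h2)⟩
  obtain ⟨φ, hφ⟩ := exists_local_frobenius q
  set R := mat (locHom q r) φ with hR
  have htop : ∀ m : Matrix (Fin 2) (Fin 2) k, m.trace = 0 → m ∈ inertiaFixed q r := fun m hm => by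
    rw [mem_inertiaFixed_iff]
    refine ⟨hm, fun τ hτ => ?_⟩
    have h1 : locHom q r τ = 1 := hunr _ hP _ ((isLocalInertia_iff q τ).mp hτ)
    simp [adAct, mat, h1]
  set C₀ := R - (R.trace / 2) • (1 : Matrix (Fin 2) (Fin 2) k) with hC₀
  have hC₀tr : C₀.trace = 0 := by
    rw [hC₀, Matrix.trace_sub, Matrix.trace_smul, Matrix.trace_one, Fintype.card_fin, smul_eq_mul,
      Nat.cast_ofNat, div_mul_cancel₀ _ two_ne_zero, sub_self]
  have hC₀0 : C₀ ≠ 0 := by
    intro h0
    obtain ⟨α, β, hne, hcp⟩ := hdist _ hP _ hφ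
    have hs : R = (R.trace / 2) • (1 : Matrix (Fin 2) (Fin 2) k) := sub_eq_zero.mp h0
    set a := R.trace / 2
    have hev : ∀ y : k, R.charpoly.eval y = (y - a) ^ 2 := fun y => by
      rw [hs, Matrix.charpoly_fin_two]
      simp
      ring
    have hRcp : R.charpoly = (X - C α) * (X - C β) := hcp
    have h1 := hev α
    have h2 := hev β
    rw [hRcp] at h1 h2
    simp at h1 h2
    replace h1 := sub_eq_zero.mp (eq_zero_of_pow_eq_zero h1.symm)
    replace h2 := sub_eq_zero.mp (eq_zero_of_pow_eq_zero h2.symm)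
    exact hne (h1.trans h2.symm)
  have hfix : ∀ m : Matrix (Fin 2) (Fin 2) k,
      adAct (locHom q r) φ m = m ↔ R * m = m * R := fun m => by
    constructor
    · intro h
      conv_rhs => rw [← h, adAct, mul_assoc, mat_inv_mul, mul_one]
    · intro h
      rw [adAct, ← hR, h, mul_assoc, mat_mul_inv, mul_one]
  have hone : finrank k (LinearMap.ker (frobSub q r φ)) ≤ 1 := by
    refine finrank_le_one ⟨⟨C₀, htop C₀ hC₀tr⟩, ?_⟩ fun m => ?_
    · rw [LinearMap.mem_ker]
      refine Subtype.ext ?_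
      rw [coe_frobSub]
      show _ = (0 : Matrix (Fin 2) (Fin 2) k)
      rw [sub_eq_zero, hfix]
      show R * C₀ = C₀ * R
      rw [hC₀, mul_sub, sub_mul]
      simp
    · have h1 := congrArg (fun x : inertiaFixed q r => x.1) (LinearMap.mem_ker.mp m.2)
      simp only [coe_frobSub] at h1
      have h2 := (hfix _).mp (sub_eq_zero.mp h1)
      have h3 : m.1.1 * C₀ = C₀ * m.1.1 := by
        rw [hC₀, mul_sub, sub_mul, ← h2]
        simp
      obtain ⟨a, ha⟩ := exists_smul_of_commute (trace_eq_zero_of_inertiaFixed q r m.1) hC₀tr hC₀0 h3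
      exact ⟨a, Subtype.ext (Subtype.ext ha.symm)⟩
  obtain ⟨τ, hτI, hτ⟩ := exists_tame_generator q r p hq (hunr _ hP) hφ
  let T : localCocycles q r →ₗ[k]
      (inertiaFixed q r ⧸ LinearMap.range (frobSub q r φ)) ×
        (LinearMap.ker (frobSub q r φ)).map (inertiaFixed q r).subtype :=
    LinearMap.prod ((LinearMap.range (frobSub q r φ)).mkQ ∘ₗ
      { toFun := fun c => ⟨c.1 φ, htop _ (c.2.1.1 φ)⟩
        map_add' := fun _ _ => rfl
        map_smul' := fun _ _ => rfl })
      { toFun := fun c => ⟨c.1 τ, ⟨c.1 τ, htop _ (c.2.1.1 τ)⟩, by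
          rw [SetLike.mem_coe, LinearMap.mem_ker]
          exact Subtype.ext (sub_eq_zero.mpr ((adMat_apply _ _ _).trans (hτ c.1 c.2).2)), rfl⟩
        map_add' := fun _ _ => rfl
        map_smul' := fun _ _ => rfl }
  have hT : ∀ c, T c = 0 → c.1 ∈ adCob (locHom q r) := fun c hc => by
      obtain ⟨hc1', hc2⟩ := Prod.ext_iff.mp hc
      have hc1 : (LinearMap.range (frobSub q r φ)).mkQ (⟨c.1 φ, htop _ (c.2.1.1 φ)⟩) = 0 := hc1'
      obtain ⟨n, hn⟩ := (Submodule.Quotient.mk_eq_zero _).mp hc1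
      refine mem_adCob_iff.mpr ⟨n.1, trace_eq_zero_of_inertiaFixed q r n, fun g => ?_⟩
      have hcτ : c.1 τ = 0 :=
        congrArg Subtype.val hc2
      have := eq_zero_of_frobenius_of_inertia (Submodule.sub_mem _ c.2
        (adCob_le_localCocycles q r hr (mem_adCob_iff.mpr
          ⟨n.1, trace_eq_zero_of_inertiaFixed q r n, fun g => rfl⟩))) hφ
        (sub_eq_zero.mpr ((congrArg (fun x : inertiaFixed q r => x.1) hn).symm.trans
          (coe_frobSub q r φ n)))
        (fun u hu => by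
          rw [Pi.sub_apply, (hτ c.1 c.2).1 hcτ u hu,
            ((mem_inertiaFixed_iff q r).mp n.2).2 u hu, sub_self, sub_zero])
      exact sub_eq_zero.mp (congr_fun this g)
  obtain ⟨hfin, hle⟩ := classDim_le_of_ker (W := W) (W' := localCocycles q r)
    (fun c hc => Submodule.mem_sup_left (hW c hc)) T hT
  refine ⟨hfin, hle.trans ?_, ?_⟩
  · rw [Module.finrank_prod, finrank_quotient_range, Submodule.finrank_map_subtype_eq]
    omega
  · have hmem : C₀ ∈ adFixed (locHom q r) := by
      refine mem_adFixed_iff.mpr ⟨hC₀tr, adAct_eq_self_of_frobSub q r hr hφ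
        (m := ⟨C₀, htop C₀ hC₀tr⟩) ?_⟩
      refine Subtype.ext ((coe_frobSub q r φ _).trans (sub_eq_zero.mpr ((hfix _).mpr ?_)))
      show R * C₀ = C₀ * R
      rw [hC₀, mul_sub, sub_mul]
      simp
    refine Submodule.one_le_finrank_iff.mpr fun h => hC₀0 ?_
    rw [h] at hmem
    exact (Submodule.mem_bot _).mp hmem

end FLTAgent.TWPrimes
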