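import Fermat.Agent.Density.Chebotarev
import Fermat.Prelude.Def_GroupCohomology_ContinuousH2
import Fermat.Agent.TWPrimes.Detection
import Fermat.Agent.TWPrimes.Frame

/-!
# Selection of Taylor–Wiles primes

For a finite dimensional space of locally constant twisted adjoint cocycles there are as many
primes `q ≡ 1 (mod pⁿ⁺¹)` with distinct Frobenius eigenvalues as the dimension, avoiding any finite
set, such that every class vanishing at all of them is a coboundary (`exists_twPrimes`).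
-/

set_option autoImplicit false

open Matrix Polynomial groupCohomology

noncomputable section

namespace FLTAgent.TWPrimes

open FLTAgent.Density

variable {k : Type} [Field k]

/-- `ψ` is a coboundary on every Frobenius element at `q`. -/
def VanishesAt (r : GalQ →* GL (Fin 2) k) (q : ℕ) (ψ : GalQ → Matrix (Fin 2) (Fin 2) k) : Prop :=
  ∀ P : ValuationSubring Qbar, P.LiesOverPrime q → ∀ φ : GalQ, P.IsFrobeniusAt φ q →
    ∃ m : Matrix (Fin 2) (Fin 2) k, m.trace = 0 ∧ ψ φ = symAct (mat r φ) m - m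

/-- A Taylor–Wiles prime of level `n` outside `T`. -/
structure IsTWPrime (r : GalQ →* GL (Fin 2) k) (p n : ℕ) (T : Finset ℕ) (q : ℕ) : Prop where
  prime : q.Prime
  notMem : q ∉ T
  modEq : p ^ (n + 1) ∣ q - 1
  unramified : ∀ P : ValuationSubring Qbar, P.LiesOverPrime q →
    ∀ σ ∈ P.inertiaSubgroupIn ℚ, r σ = 1
  distinct : ∀ P : ValuationSubring Qbar, P.LiesOverPrime q →
    ∀ φ : GalQ, P.IsFrobeniusAt φ q →
      ∃ α β : k, α ≠ β ∧ (mat r φ).charpoly = (X - C α) * (X - C β)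

variable [Finite k] [NeZero (2 : k)] (p : ℕ) [Fact p.Prime] [CharP k p]

omit [Finite k] [NeZero (2 : k)] [CharP k p] in
/-- A prime whose Frobenius agrees with a given element on a given level. -/
theorem exists_twPrime_frobenius {r : GalQ →* GL (Fin 2) k}
    (hfin : GaloisFactorsThroughFiniteLevel r) (n : ℕ) (T : Finset ℕ)
    (F : IntermediateField ℚ Qbar) [FiniteDimensional ℚ F] [NeZero (p ^ (n + 1))] {σ : GalQ}
    (hσ : σ ∈ (cyclo (p ^ (n + 1))).ker)
    (hdist : ∃ α β : k, α ≠ β ∧ (mat r σ).charpoly = (X - C α) * (X - C β)) :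
    ∃ q, IsTWPrime r p n T q ∧ ∃ P : ValuationSubring Qbar, P.LiesOverPrime q ∧
      ∃ φ : GalQ, P.IsFrobeniusAt φ q ∧ ∃ s ∈ F.fixingSubgroup, σ = φ * s ∧ r σ = r φ := by
  have hp : p.Prime := Fact.out
  set χn := cyclo (p ^ (n + 1))
  obtain ⟨L₁, hL₁, hr₁⟩ := hfin
  obtain ⟨L₂, hL₂, hχ₂⟩ := cyclo_factorsThroughFiniteLevel (p ^ (n + 1))
  have := hL₁; have := hL₂
  let L := IntermediateField.normalClosure ℚ ↥(F ⊔ L₁ ⊔ L₂) Qbar
  have : IsGalois ℚ L := IsGalois.normalClosure ..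
  obtain ⟨q, hq, hqT, P, hP, hI, φ, hφ, hφσ⟩ := exists_frobenius_agree L σ (T ∪ {p})
  rw [Finset.mem_union, Finset.mem_singleton, not_or] at hqT
  have hle : F ⊔ L₁ ⊔ L₂ ≤ L := IntermediateField.le_normalClosure _
  have hagree : ∀ x ∈ F ⊔ L₁ ⊔ L₂, φ⁻¹ (σ x) = x := fun x hx => by
    rw [hφσ x (hle hx)]; exact φ.symm_apply_apply x
  set s := φ⁻¹ * σ with hs
  have hσs : σ = φ * s := by rw [hs, mul_inv_cancel_left]
  have hrs : r s = 1 := hr₁ s fun x hx =>
    hagree x (le_sup_left (b := L₂) (le_sup_right (a := F) hx))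
  have hrφ : r σ = r φ := by rw [hσs, map_mul, hrs, mul_one]
  have hχφ : χn φ = χn σ := by
    rw [hσs, map_mul, hχ₂ s fun x hx => hagree x (le_sup_right (a := F ⊔ L₁) hx), mul_one]
  have hsF : s ∈ F.fixingSubgroup := (IntermediateField.mem_fixingSubgroup_iff _ _).mpr fun x hx =>
    hagree x (le_sup_left (b := L₂) (le_sup_left (b := L₁) hx))
  have hunr : ∀ B : ValuationSubring Qbar, B.LiesOverPrime q →
      ∀ τ ∈ B.inertiaSubgroupIn ℚ, r τ = 1 :=
    fun B hB => forall_inertia_eq_one_of_one_place hq hP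
      (fun τ hτ => hr₁ τ fun x hx => hI τ hτ x
        (hle (le_sup_left (b := L₂) (le_sup_right (a := F) hx)))) hB
  refine ⟨q, ⟨hq, hqT.1, ?_, hunr, fun B hB φ' hφ' => ?_⟩, P, hP, φ, hφ, s, hsF, hσs, hrφ⟩
  · have hnd : ¬ q ∣ p ^ (n + 1) := fun hd =>
      hqT.2 ((Nat.prime_dvd_prime_iff_eq hq hp).mp (hq.dvd_of_dvd_pow hd))
    have h1 := cyclo_of_isFrobeniusAt (p ^ (n + 1)) hq hnd hP hφ
    rw [hχφ, MonoidHom.mem_ker.mp hσ, Units.val_one] at h1
    exact (Nat.modEq_iff_dvd' hq.one_le).mp ((ZMod.natCast_eq_natCast_iff _ _ _).mp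
      (by rw [Nat.cast_one]; exact h1))
  · obtain ⟨g, hg⟩ := isConj_iff.mp (isConj_map_of_isFrobeniusAt hq hunr hP hB hφ hφ')
    obtain ⟨α, β, hne, hcp⟩ := hdist
    refine ⟨α, β, hne, ?_⟩
    rw [show mat r φ' = ((g * r φ * g⁻¹ : GL (Fin 2) k) : Matrix (Fin 2) (Fin 2) k) by rw [hg],
      Units.val_mul, Units.val_mul, Matrix.coe_units_inv, Matrix.charpoly_units_conj, ← hcp]
    congr 1
    rw [← hrφ]


/-- A single prime detecting a single class. -/
theorem exists_twPrime_not_vanishesAt (hp2 : p ≠ 2) {r : GalQ →* GL (Fin 2) k}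
    (h : NoInducedLine r) (hfin : GaloisFactorsThroughFiniteLevel r)
    (hdet : ∀ g, (mat r g).det = ZMod.castHom (dvd_refl p) k (ExtCitation.cycloChar p g : ZMod p))
    (n : ℕ) (T : Finset ℕ) {ψ : GalQ → Matrix (Fin 2) (Fin 2) k} (hψ : IsSymCocycleOn r ψ)
    (hlc : IsLevelConstant₁ (MonoidHom.id GalQ) ψ)
    (hnot : ¬ ∃ m : Matrix (Fin 2) (Fin 2) k, m.trace = 0 ∧
      ∀ g, ψ g = symAct (mat r g) m - m) :
    ∃ q, IsTWPrime r p n T q ∧ ¬ VanishesAt r q ψ := by
  have hp : p.Prime := Fact.out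
  have : NeZero (p ^ (n + 1)) := ⟨pow_ne_zero _ hp.ne_zero⟩
  have : NeZero p := ⟨hp.ne_zero⟩
  set χn := cyclo (p ^ (n + 1))
  obtain ⟨σ, hσ, hdist, hσψ⟩ := h.exists_detecting χn.ker p (ExtCitation.cycloChar p) hp2 hdet
    (fun g hg => by
      rw [← cyclo_eq_cycloChar]
      exact cyclo_eq_one_of_dvd _ (dvd_pow_self p (Nat.succ_ne_zero n)) hg)
    (by
      obtain ⟨a, ha⟩ := FiniteField.exists_nonsquare (F := ZMod p) (by rwa [ZMod.ringChar_zmod_n])
      have ha0 : a ≠ 0 := fun h0 => ha (h0 ▸ IsSquare.zero)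
      obtain ⟨g, hg⟩ := cyclo_surjective p (Units.mk0 a ha0)
      exact ⟨g, by rw [← cyclo_eq_cycloChar, hg]; exact ha⟩)
    (fun a b => by
      rw [MonoidHom.mem_ker, map_mul, map_mul, map_inv, map_mul, mul_comm (χn b) (χn a),
        mul_inv_cancel])
    hψ hnot
  obtain ⟨F, hF, hFψ⟩ := hlc
  have := hF
  obtain ⟨q, hq, P, hP, φ, hφ, s, hsF, hσs, hrφ⟩ :=
    exists_twPrime_frobenius p hfin n T F hσ hdist
  refine ⟨q, hq, fun hvan => ?_⟩
  obtain ⟨m, hm, hm'⟩ := hvan P hP φ hφ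
  refine hσψ m hm ?_
  rw [show ψ σ = ψ φ by rw [hσs]; exact hFψ φ s hsF, hm',
    show mat r φ = mat r σ by rw [mat, mat, hrφ]]

omit [Finite k] in
/-- Taylor–Wiles primes exist. -/
theorem exists_isTWPrime {r : GalQ →* GL (Fin 2) k}
    (h : NoInducedLine r) (hfin : GaloisFactorsThroughFiniteLevel r)
    (hdet : ∀ g, (mat r g).det = ZMod.castHom (dvd_refl p) k (ExtCitation.cycloChar p g : ZMod p))
    (n : ℕ) (T : Finset ℕ) : ∃ q, IsTWPrime r p n T q := by
  have hp : p.Prime := Fact.out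
  have : NeZero (p ^ (n + 1)) := ⟨pow_ne_zero _ hp.ne_zero⟩
  have : NeZero p := ⟨hp.ne_zero⟩
  have hdet1 : ∀ g ∈ (cyclo (p ^ (n + 1))).ker, (mat r g).det = 1 := fun g hg => by
    rw [hdet, ← cyclo_eq_cycloChar,
      cyclo_eq_one_of_dvd _ (dvd_pow_self p (Nat.succ_ne_zero n)) hg, Units.val_one, map_one]
  obtain ⟨σ, hσ, hreg⟩ := h.exists_regular (cyclo (p ^ (n + 1))).ker (fun a b => by
    rw [MonoidHom.mem_ker, map_mul, map_mul, map_inv, map_mul, mul_comm (cyclo (p ^ (n + 1)) b),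
      mul_inv_cancel]) hdet1
  obtain ⟨a, ha⟩ := h.split σ
  rw [Matrix.det_fin_two] at ha
  simp at ha
  have hd := hdet1 σ hσ
  rw [Matrix.det_fin_two] at hd
  rw [Matrix.trace_fin_two] at hreg
  have hdist : ∃ α β : k, α ≠ β ∧ (mat r σ).charpoly = (X - C α) * (X - C β) := by
    refine ⟨a, mat r σ 0 0 + mat r σ 1 1 - a, fun h0 => hreg (by grind), ?_⟩
    rw [Matrix.charpoly_fin_two, hdet1 σ hσ, Matrix.trace_fin_two]
    have e : a * (mat r σ 0 0 + mat r σ 1 1 - a) = 1 := by grind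
    rw [show (C (1 : k) : k[X]) = C (a * (mat r σ 0 0 + mat r σ 1 1 - a)) by rw [e], map_mul,
      map_sub]
    ring
  obtain ⟨q, hq, -⟩ := exists_twPrime_frobenius p hfin n T ⊥ hσ hdist
  exact ⟨q, hq⟩

variable {W : Type} [AddCommGroup W] [Module (ZMod p) W]

/-- As many primes as the dimension detect a whole space of classes. -/
theorem exists_twPrimes (hp2 : p ≠ 2) {r : GalQ →* GL (Fin 2) k}
    (h : NoInducedLine r) (hfin : GaloisFactorsThroughFiniteLevel r)
    (hdet : ∀ g, (mat r g).det = ZMod.castHom (dvd_refl p) k (ExtCitation.cycloChar p g : ZMod p))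
    [Module.Finite (ZMod p) W] (Φ : W →+ (GalQ → Matrix (Fin 2) (Fin 2) k))
    (hΦ : ∀ w, IsSymCocycleOn r (Φ w) ∧ IsLevelConstant₁ (MonoidHom.id GalQ) (Φ w))
    (hinj : ∀ w, (∃ m : Matrix (Fin 2) (Fin 2) k, m.trace = 0 ∧
      ∀ g, Φ w g = symAct (mat r g) m - m) → w = 0)
    (n : ℕ) (T : Finset ℕ) :
    ∀ d, Module.finrank (ZMod p) W ≤ d → ∃ qv : Fin d → ℕ, Function.Injective qv ∧
      (∀ i, IsTWPrime r p n T (qv i)) ∧
      ∀ w, (∀ i, VanishesAt r (qv i) (Φ w)) → w = 0 := by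
  classical
  intro d hd
  -- a strengthened induction on subspaces
  suffices key : ∀ d (U : Submodule (ZMod p) W), Module.finrank (ZMod p) U ≤ d →
      ∀ T' : Finset ℕ, T ⊆ T' → ∃ qv : Fin d → ℕ, Function.Injective qv ∧
      (∀ i, IsTWPrime r p n T' (qv i)) ∧
      ∀ w ∈ U, (∀ i, VanishesAt r (qv i) (Φ w)) → w = 0 by
    obtain ⟨qv, h1, h2, h3⟩ := key d ⊤ (by rwa [finrank_top]) T subset_rfl
    exact ⟨qv, h1, h2, fun w => h3 w Submodule.mem_top⟩
  intro d
  induction d with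
  | zero =>
    intro U hU T' _
    refine ⟨Fin.elim0, fun i => i.elim0, fun i => i.elim0, fun w hw _ => ?_⟩
    rw [Submodule.finrank_eq_zero.mp (Nat.le_zero.mp hU)] at hw
    exact (Submodule.mem_bot _).mp hw
  | succ d ih =>
    intro U hU T' hT
    -- one prime cutting `U` down
    obtain ⟨q, hq, hcut⟩ : ∃ q, IsTWPrime r p n T' q ∧
        (U ≠ ⊥ → ∃ w ∈ U, ¬ VanishesAt r q (Φ w)) := by
      by_cases hU0 : U = ⊥
      · obtain ⟨w, hw⟩ | hW := em (∃ w : W, w ≠ 0)
        · obtain ⟨q, hq, -⟩ := exists_twPrime_not_vanishesAt p hp2 h hfin hdet n T'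
            (hΦ w).1 (hΦ w).2 (fun hc => hw (hinj w hc))
          exact ⟨q, hq, fun h' => absurd hU0 h'⟩
        · obtain ⟨q, hq⟩ := exists_isTWPrime p h hfin hdet n T'
          exact ⟨q, hq, fun h' => absurd hU0 h'⟩
      · obtain ⟨w, hwU, hw⟩ := Submodule.exists_mem_ne_zero_of_ne_bot hU0
        obtain ⟨q, hq, hnv⟩ := exists_twPrime_not_vanishesAt p hp2 h hfin hdet n T'
          (hΦ w).1 (hΦ w).2 (fun hc => hw (hinj w hc))
        exact ⟨q, hq, fun _ => ⟨w, hwU, hnv⟩⟩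
    let V : AddSubgroup W :=
      { carrier := {w | VanishesAt r q (Φ w)}
        zero_mem' := fun P _ φ _ => ⟨0, by simp, by simp [symAct_zero]⟩
        add_mem' := fun {a b} ha hb P hP φ hφ => by
          obtain ⟨m, hm, hm'⟩ := ha P hP φ hφ
          obtain ⟨m', hm2, hm2'⟩ := hb P hP φ hφ
          refine ⟨m + m', by simp [hm, hm2], ?_⟩
          rw [map_add, Pi.add_apply, hm', hm2', symAct_add]; abel
        neg_mem' := fun {a} ha P hP φ hφ => by
          obtain ⟨m, hm, hm'⟩ := ha P hP φ hφ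
          refine ⟨-m, by simp [hm], ?_⟩
          rw [map_neg, Pi.neg_apply, hm', symAct, symAct, mul_neg, neg_mul]; abel }
    let V' : Submodule (ZMod p) W := AddSubgroup.toZModSubmodule p V
    have hle : Module.finrank (ZMod p) ↥(U ⊓ V') ≤ d := by
      by_cases hU0 : U = ⊥
      · rw [hU0, bot_inf_eq, finrank_bot]; omega
      · obtain ⟨w, hwU, hnv⟩ := hcut hU0
        have hlt : U ⊓ V' < U := lt_of_le_of_ne inf_le_left fun he => hnv ((inf_eq_left.mp he) hwU)
        have := Submodule.finrank_lt_finrank_of_lt hlt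
        omega
    obtain ⟨qv, hinj', hgood, hdetect⟩ := ih (U ⊓ V') hle (insert q T')
      (hT.trans (Finset.subset_insert _ _))
    refine ⟨Fin.cons q qv, ?_, ?_, fun w hw hall => hdetect w ⟨hw, hall 0⟩ fun i => ?_⟩
    · refine Fin.cons_injective_iff.mpr ⟨?_, hinj'⟩
      rintro ⟨i, hi⟩
      exact (hgood i).notMem (by rw [hi]; exact Finset.mem_insert_self _ _)
    · intro i
      refine Fin.cases ?_ (fun j => ?_) i
      · simpa using hq
      · simpa using
          { hgood j with notMem := fun hm => (hgood j).notMem (Finset.mem_insert_of_mem hm) :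
            IsTWPrime r p n T' (qv j) }
    · simpa using hall i.succ

end FLTAgent.TWPrimes
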