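import Fermat.Agent.MazurStep.Basics
import Fermat.Agent.TWPrimes.PrimeSelection
import Fermat.Agent.GWEuler.Main
import Fermat.Agent.TWPrimes.DualTwist
import Fermat.Agent.TWPrimes.Level
import Fermat.Agent.TWPrimes.LocalUnramified

/-!
# Taylor–Wiles primes kill the dual Selmer group and bound the classes

`exists_twPrimes_classDim`: for every level `n` there are `R` Taylor–Wiles primes such that any
space of adjoint cocycles unramified outside `S` and those primes has dimension bounded by `R` and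
the local dimensions at `S` alone, by the Greenberg–Wiles inequality `GWEuler.greenbergWiles`.
-/

set_option autoImplicit false
set_option linter.unusedSectionVars false

open Matrix Module CategoryTheory groupCohomology ExtCitation
open scoped Pointwise

noncomputable section

namespace FLTAgent.TWPrimes

open FLTAgent.Density FLTAgent.LocalDuality

local instance fact_natPrimes_core (q : Nat.Primes) : Fact (q : ℕ).Prime := ⟨q.2⟩

variable {k : Type} [Field k] {H : Type} [Group H] (j : H →* GalQ) (r : GalQ →* GL (Fin 2) k)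

/-- Cocycles of finite level on a group mapping to the global one. -/
def levelAdCocycles : Submodule k (H → Matrix (Fin 2) (Fin 2) k) where
  carrier := {c | IsAdCocycleOn (r.comp j) c ∧ IsLevelConstant₁ j c}
  zero_mem' := ⟨(adCocycles _).zero_mem, isLevelConstant₁_const _ (0 : Matrix (Fin 2) (Fin 2) k)⟩
  add_mem' ha hb := ⟨(adCocycles _).add_mem ha.1 hb.1, ha.2.add hb.2⟩
  smul_mem' a _ hc := ⟨(adCocycles _).smul_mem a hc.1, hc.2.comp (a • ·)⟩

variable (p : ℕ) [Algebra (ZMod p) k]

/-- Classes of a space of local cocycles. -/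
abbrev locSpace (W : Submodule k (H → Matrix (Fin 2) (Fin 2) k)) :
    Submodule (ZMod p) (H1 (Rep.res j (adRep p r))) :=
  classSpace (Rep.res j (adRep p r)) (resEquiv p r j) (resEquiv_spec r j) W

theorem locSpace_le_continuousH1 {W : Submodule k (H → Matrix (Fin 2) (Fin 2) k)}
    (hW : W ≤ levelAdCocycles j r) :
    locSpace j r p W ≤ continuousH1 j (Rep.res j (adRep p r)) := by
  intro x hx
  obtain ⟨c, hc, rfl⟩ := exists_of_mem_classSpace _ _ _ hx
  exact H1π_mem_continuousH1 _ _ ((isLevelConstant₁_toCocycle_iff _ _ _ _ c).mpr (hW hc).2)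

theorem continuousH1_le_locSpace :
    continuousH1 j (Rep.res j (adRep p r)) ≤ locSpace j r p (levelAdCocycles j r) := by
  intro x hx
  obtain ⟨f, hf, rfl⟩ := (mem_continuousH1_iff _ _ _).mp hx
  obtain ⟨c, rfl⟩ := toCocycle_surjective (Rep.res j (adRep p r)) (resEquiv p r j)
    (resEquiv_spec r j) f
  exact classMap_mem_classSpace _ _ _ c
    ⟨c.2, (isLevelConstant₁_toCocycle_iff _ _ _ _ c).mp hf⟩

/-- Classes of a space of global cocycles. -/
abbrev globSpace (V : Submodule k (GalQ → Matrix (Fin 2) (Fin 2) k)) :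
    Submodule (ZMod p) (H1 (adRep p r)) :=
  classSpace (adRep p r) (LinearEquiv.refl _ _) (fun _ _ => rfl) V

theorem locRes_mem_locSpace {V : Submodule k (GalQ → Matrix (Fin 2) (Fin 2) k)}
    {W : Submodule k (H → Matrix (Fin 2) (Fin 2) k)}
    (hVW : ∀ c ∈ V, IsAdCocycleOn r c → ∃ d ∈ W, (fun h => c (j h)) - d ∈ adCob (r.comp j))
    (hW : W ≤ adCocycles (r.comp j)) {x : H1 (adRep p r)} (hx : x ∈ globSpace r p V) :
    (groupCohomology.map j (𝟙 (Rep.res j (adRep p r))) 1).hom x ∈ locSpace j r p W := by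
  obtain ⟨c, hc, rfl⟩ := exists_of_mem_classSpace _ _ _ hx
  rw [locRes_classMap]
  obtain ⟨d, hd, hcd⟩ := hVW c.1 hc c.2
  have hz := (classMap_eq_zero_iff (Rep.res j (adRep p r)) (resEquiv p r j) (resEquiv_spec r j)
    ⟨_, adCob_le_adCocycles _ hcd⟩).mpr hcd
  refine ⟨⟨d, hW hd⟩, hd, sub_eq_zero.mp ?_⟩
  rw [← map_sub, ← neg_eq_zero, ← map_neg, neg_sub]
  exact hz

theorem locRes_mem_continuousH1 (S : Finset Nat.Primes) (M : Rep (ZMod p) GalQ) {x : H1 M}
    (hx : x ∈ continuousH1S S M) :
    (groupCohomology.map j (𝟙 (Rep.res j M)) 1).hom x ∈ continuousH1 j (Rep.res j M) := by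
  obtain ⟨c, hcS, rfl⟩ := (mem_continuousH1S_iff _ _ _).mp hx
  erw [H1π_comp_map_apply]
  obtain ⟨F, hF, hFc⟩ := hcS
  refine H1π_mem_continuousH1 _ _ ⟨F, hF.1, fun g t ht => ?_⟩
  show c.1 (j (g * t)) = c.1 (j g)
  rw [map_mul]
  exact hFc _ _ ht

/-! ### The archimedean place -/

theorem adAct_sub {Γ : Type} [Group Γ] (r : Γ →* GL (Fin 2) k) (g : Γ)
    (m m' : Matrix (Fin 2) (Fin 2) k) : adAct r g (m - m') = adAct r g m - adAct r g m' := by
  simp [adAct, mul_sub, sub_mul]

theorem cyclo_complexConjugation (m : ℕ) [NeZero m] :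
    (cyclo m complexConjugation : ZMod m) = -1 := by
  have hm : 0 < m := NeZero.pos m
  rw [show (-1 : ZMod m) = ((m - 1 : ℕ) : ZMod m) by
    rw [Nat.cast_sub hm, ZMod.natCast_self, Nat.cast_one, zero_sub]]
  refine (modularCyclotomicCharacter.unique _ _ _ fun t ht => ?_).symm
  have ht' : (t : Qbar) ^ m = 1 := by
    rw [← Units.val_pow_eq_pow_val, (mem_rootsOfUnity _ _).mp ht, Units.val_one]
  change complexConjugation (t : Qbar) = _
  rw [MazurStep.complexConjugation_root_of_unity m _ hm ht', ZMod.val_natCast,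
    ← pow_eq_pow_mod _ ht']
  refine inv_eq_of_mul_eq_one_right ?_
  rw [← pow_succ', Nat.sub_add_cancel hm, ht']

variable {r} [NeZero (2 : k)]

/-- Restrictions to the archimedean place are coboundaries. -/
theorem restrict_archimedean_mem_adCob {c : GalQ → Matrix (Fin 2) (Fin 2) k}
    (hc : IsAdCocycleOn r c) :
    (fun h => c (archimedeanLoc h)) ∈ adCob (r.comp archimedeanLoc) := by
  set m := (-(1 / 2 : k)) • c complexConjugation with hm
  have hmtr : m.trace = 0 := by rw [hm, Matrix.trace_smul, hc.1, smul_zero]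
  let K : Subgroup GalQ :=
    { carrier := {g | c g = adAct r g m - m}
      one_mem' := by simp [hc.map_one, adAct_one]
      mul_mem' := fun {a b} ha hb => by
        show c (a * b) = _
        rw [hc.2, show c a = _ from ha, show c b = _ from hb, adAct_mul]
        simp only [adAct, mul_sub, sub_mul]
        abel
      inv_mem' := fun {a} ha => by
        show c a⁻¹ = _
        have h := hc.2 a⁻¹ a
        rw [inv_mul_cancel, hc.map_one, show c a = _ from ha] at h
        rw [eq_neg_of_add_eq_zero_left h.symm]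
        rw [adAct_sub, ← adAct_mul, inv_mul_cancel, adAct_one]
        abel }
  have hcc : complexConjugation ∈ K := by
    show c complexConjugation = _
    have h := hc.2 complexConjugation complexConjugation
    rw [complexConjugation_mul_self, hc.map_one] at h
    rw [hm, adAct_smul, eq_neg_of_add_eq_zero_right h.symm, smul_neg, neg_smul, neg_neg,
      sub_neg_eq_add,
      ← add_smul, add_halves, one_smul]
  refine mem_adCob_iff.mpr ⟨m, hmtr, fun h => ?_⟩
  rw [adAct_comp]
  exact (Subgroup.zpowers_le.mpr hcc) h.2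

/-- Complex conjugation has invariants. -/
theorem one_le_finrank_adFixed_archimedean
    (hcc : (mat r complexConjugation).det = -1) :
    1 ≤ finrank k (adFixed (r.comp archimedeanLoc)) := by
  set A := mat r complexConjugation with hA
  have hsq : A * A = 1 := by rw [hA, ← mat_mul, complexConjugation_mul_self, mat_one]
  have htr : A.trace = 0 := by
    have e00 := congr_fun (congr_fun hsq 0) 0
    have e11 := congr_fun (congr_fun hsq 1) 1
    simp [Matrix.mul_apply, Fin.sum_univ_two] at e00 e11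
    rw [Matrix.det_fin_two] at hcc
    rw [Matrix.trace_fin_two]
    exact pow_eq_zero_iff two_ne_zero |>.mp
      (show (A 0 0 + A 1 1) ^ 2 = 0 by linear_combination e00 + e11 + 2 * hcc)
  let K : Subgroup GalQ :=
    { carrier := {g | adAct r g A = A}
      one_mem' := adAct_one r A
      mul_mem' := fun {a b} ha hb => by
        show adAct r (a * b) A = A
        rw [adAct_mul, show adAct r b A = A from hb, show adAct r a A = A from ha]
      inv_mem' := fun {a} ha => by
        show adAct r a⁻¹ A = A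
        conv_lhs => rw [← show adAct r a A = A from ha, ← adAct_mul, inv_mul_cancel, adAct_one] }
  have hmem : A ∈ adFixed (r.comp archimedeanLoc) := mem_adFixed_iff.mpr ⟨htr, fun h => by
    rw [adAct_comp]
    refine (Subgroup.zpowers_le.mpr (show complexConjugation ∈ K from ?_)) h.2
    show adAct r complexConjugation A = A
    rw [adAct, ← hA, mul_assoc, hA, mat_mul_inv, mul_one]⟩
  refine Submodule.one_le_finrank_iff.mpr fun h0 => ?_
  rw [h0, Submodule.mem_bot] at hmem
  rw [hmem, zero_mul] at hsq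
  exact one_ne_zero hsq.symm

/-! ### The main theorem -/

variable (r) [Fact p.Prime] [Finite k]

theorem adFixed_eq_bot (h : NoInducedLine r) : adFixed r = ⊥ := by
  rw [eq_bot_iff]
  intro m hm
  obtain ⟨htr, hfix⟩ := mem_adFixed_iff.mp hm
  by_contra hm0
  obtain ⟨g, hg⟩ := h.no_stable_matrix_line htr hm0
  exact hg (mat r g).det (by rw [symAct_eq_smul_adAct, hfix])

theorem dualTwist_trivial {χ : GalQ →* (ZMod p)ˣ}
    (hdet : ∀ g, (mat r g).det = algebraMap (ZMod p) k (χ g : ZMod p)) {g : GalQ} (hg : r g = 1) :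
    ((adRep p r).dualTwist χ).ρ g = LinearMap.id := by
  refine LinearMap.ext fun f => ?_
  rw [← (dualEquiv p).apply_symm_apply f, dualTwist_apply_dualEquiv p χ hdet, LinearMap.id_apply]
  congr 1
  exact Subtype.ext (by simp [symSl, mat, hg, symAct_one])

/-- A class of the dual twist, unramified outside `S'` and trivial at the primes of `S' \ S`,
vanishes, provided those primes detect all classes unramified outside `S`. -/
theorem eq_zero_of_locally_trivial {χ : GalQ →* (ZMod p)ˣ}
    (hdet : ∀ g, (mat r g).det = algebraMap (ZMod p) k (χ g : ZMod p))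
    (hr : GaloisFactorsThroughFiniteLevel r) (S S' : Finset Nat.Primes)
    (hunr : ∀ q : Nat.Primes, q ∉ S → ∀ A : ValuationSubring Qbar, A.LiesOverPrime (q : ℕ) →
      ∀ σ ∈ A.inertiaSubgroupIn ℚ, r σ = 1)
    (Φ : continuousH1S S ((adRep p r).dualTwist χ) → cocycles₁ ((adRep p r).dualTwist χ))
    (hΦ : ∀ w, (H1π _).hom (Φ w) = w.1)
    (hdetect : ∀ w, (∀ q ∈ S', q ∉ S → VanishesAt r (q : ℕ) (dualFun p r χ (Φ w))) → w = 0)
    {x : H1 ((adRep p r).dualTwist χ)} (hx : x ∈ continuousH1S S' ((adRep p r).dualTwist χ))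
    (hloc : ∀ q ∈ S', q ∉ S → (groupCohomology.map (toGlobal (q : ℕ))
      (𝟙 (Rep.res (toGlobal (q : ℕ)) ((adRep p r).dualTwist χ))) 1).hom x = 0) :
    x = 0 := by
  obtain ⟨c, hcS, rfl⟩ := (mem_continuousH1S_iff _ _ _).mp hx
  have hψ := isSymCocycleOn_dualFun p χ hdet c
  set ψ := dualFun p r χ c with hψdef
  have hc0 : ∀ g, ψ g = 0 → c.1 g = 0 := fun g hg =>
    (dualEquiv p).symm.map_eq_zero_iff.mp (Subtype.ext hg)
  have hone : c.1 1 = 0 := hc0 1 hψ.one
  -- behaviour at the primes of `S'` outside `S`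
  have hQ : ∀ q ∈ S', q ∉ S →
      (∀ A : ValuationSubring Qbar, A.LiesOverPrime (q : ℕ) → ∀ σ ∈ A.inertiaSubgroupIn ℚ,
        ψ σ = 0) ∧ VanishesAt r (q : ℕ) ψ := by
    intro q hq hqS
    obtain ⟨m, hm, hm'⟩ := exists_of_locRes_eq_zero p χ hdet (toGlobal (q : ℕ)) c (hloc q hq hqS)
    have hD : ∀ σ ∈ (padicPlace (q : ℕ)).decompositionSubgroup ℚ,
        ψ σ = symAct (mat r σ) m - m := fun σ hσ => by
      obtain ⟨τ, rfl⟩ := exists_toGlobal (q : ℕ) hσ
      exact hm' τ
    have hP := padicPlace_liesOverPrime (q : ℕ)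
    refine ⟨fun A hA σ hσ => ?_, fun P hPq φ hφ => ?_⟩
    · obtain ⟨τ, rfl⟩ := exists_smul_eq_of_liesOverPrime q.2 hP hA
      have hσ' := mem_inertiaSubgroupIn_smul hσ τ⁻¹
      rw [inv_smul_smul] at hσ'
      have h1 : mat r (τ⁻¹ * σ * τ⁻¹⁻¹) = 1 := by
        simp only [mat, hunr q hqS _ hP _ hσ', Units.val_one]
      have h2 : ψ (τ⁻¹ * σ * τ⁻¹⁻¹) = 0 := by
        rw [hD _ (inertiaSubgroupIn_le_decompositionSubgroup _ hσ'), h1, symAct_one, sub_self]
      have h3 := hψ.conj τ (τ⁻¹ * σ * τ⁻¹⁻¹) h1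
      rw [h2, symAct_zero, show τ * (τ⁻¹ * σ * τ⁻¹⁻¹) * τ⁻¹ = σ by group] at h3
      exact h3
    · obtain ⟨τ, rfl⟩ := exists_smul_eq_of_liesOverPrime q.2 hP hPq
      have hφ' := isFrobeniusAt_smul hφ τ⁻¹
      rw [inv_smul_smul] at hφ'
      set φ₀ := τ⁻¹ * φ * τ⁻¹⁻¹ with hφ₀
      have h1 := hD φ₀ hφ'.mem_decompositionSubgroup
      have hφeq : φ = τ * φ₀ * τ⁻¹ := by rw [hφ₀]; group
      refine ⟨symAct (mat r τ) m - ψ τ, ?_, ?_⟩
      · rw [Matrix.trace_sub, trace_symAct, hm, hψ.1, mul_zero, sub_zero]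
      have hinv : symAct (mat r τ) (ψ τ⁻¹) = - ψ τ := by
        have := hψ.2 τ τ⁻¹
        rw [mul_inv_cancel, hψ.one] at this
        exact eq_neg_of_add_eq_zero_right this.symm
      have hprod : φ * τ = τ * φ₀ := by rw [hφ₀]; group
      have h4 := congrArg ψ hprod
      rw [hψ.2, hψ.2, h1, symAct_sub, ← symAct_mul, ← mat_mul, ← hprod, mat_mul, symAct_mul] at h4
      rw [symAct_sub]
      linear_combination (norm := abel) h4
  -- hence unramified outside `S`
  have hlev : IsLevelConstantS₁ S c.1 := by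
    refine isLevelConstantS₁_of_inertia S hr
      (fun g => (((adRep p r).dualTwist χ).ρ g).toAddMonoidHom)
      (fun g hg => by rw [dualTwist_trivial r p hdet hg]; rfl)
      (fun g h => ((mem_cocycles₁_iff _).mp c.2 g h).trans (add_comm _ _))
      hcS.isLevelConstant₁ fun q hq A hA σ hσ => ⟨hunr q hq A hA σ hσ, ?_⟩
    by_cases hq' : q ∈ S'
    · exact hc0 σ ((hQ q hq' hq).1 A hA σ hσ)
    · obtain ⟨F, hF, hFc⟩ := hcS
      have := hFc 1 σ (hF.2 q hq' A hA hσ)
      rwa [one_mul, show (c : GalQ → _) 1 = 0 from hone] at this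
  set w : continuousH1S S ((adRep p r).dualTwist χ) :=
    ⟨(H1π _).hom c, (mem_continuousH1S_iff _ _ _).mpr ⟨c, hlev, rfl⟩⟩ with hwdef
  have hw : w = 0 := hdetect w fun q hq hqS P hP φ hφ => by
    obtain ⟨m, hm, hm'⟩ := (hQ q hq hqS).2 P hP φ hφ
    have h0 : (H1π ((adRep p r).dualTwist χ)).hom (Φ w - c) = 0 := by
      rw [LinearMap.map_sub (H1π ((adRep p r).dualTwist χ)).hom (Φ w) c, hΦ, sub_self]
    obtain ⟨m₀, hm₀, hm₀'⟩ := (H1π_eq_zero_iff_dualFun p χ hdet _).mp h0
    refine ⟨m + m₀, by rw [Matrix.trace_add, hm, hm₀, add_zero], ?_⟩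
    have h1 := hm₀' φ
    rw [AddMonoidHom.map_sub (dualFun p r χ) (Φ w) c, Pi.sub_apply, ← hψdef,
      sub_eq_iff_eq_add] at h1
    rw [h1, hm', symAct_add]
    abel
  exact congrArg Subtype.val hw

variable {p}

theorem sum_extArithIndex (S : Finset Nat.Primes) (g : extArithIndex S → ℕ) (G : Nat.Primes → ℕ)
    (hG : ∀ q : S, g (Sum.inr q) = G q.1) : ∑ v, g v = g (Sum.inl ()) + ∑ q ∈ S, G q := by
  rw [← Finset.sum_coe_sort S G]
  refine (Fintype.sum_sum_type (α₁ := Unit) (α₂ := ↥S) (g : Unit ⊕ ↥S → ℕ)).trans ?_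
  exact congrArg₂ (· + ·) (Fintype.sum_unique _) (Finset.sum_congr rfl fun q _ => hG q)

/-- The adjoint representation is trivial on the kernel of `r`. -/
private theorem adRep_apply_eq_one {g : GalQ} (hg : r g = 1) : (adRep p r).ρ g = 1 :=
  LinearMap.ext fun m => Subtype.ext (show adAct r g m.1 = m.1 by simp [adAct, mat, hg])

/-- The adjoint representation of a representation of finite level is smooth. -/
private theorem adRep_smooth (hr : GaloisFactorsThroughFiniteLevel r) (m : adRep p r) :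
    ∃ F : IntermediateField ℚ Qbar, FiniteDimensional ℚ F ∧
      ∀ s ∈ F.fixingSubgroup, (adRep p r).ρ s m = m := by
  obtain ⟨L, hL, hL1⟩ := hr
  refine ⟨L, hL, fun s hs => ?_⟩
  rw [adRep_apply_eq_one r
    (hL1 s fun x hx => (IntermediateField.mem_fixingSubgroup_iff _ _).mp hs x hx)]
  rfl

/-- Classes unramified outside `S` have a linear choice of cocycles of that level. -/
private theorem exists_cocycle_section (S : Finset Nat.Primes) (M : Rep (ZMod p) GalQ) :
    ∃ s : continuousH1S S M →ₗ[ZMod p] levelCocyclesS₁ S M,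
      ∀ w, (H1π M).hom (s w).1 = w.1 := by
  let π : levelCocyclesS₁ S M →ₗ[ZMod p] continuousH1S S M :=
    ((H1π M).hom.domRestrict (levelCocyclesS₁ S M)).codRestrict _
      fun c => Submodule.mem_map_of_mem c.2
  obtain ⟨s, hs⟩ := π.exists_rightInverse_of_surjective (LinearMap.range_eq_top.mpr (by
    rintro ⟨_, c, hc, rfl⟩
    exact ⟨⟨c, hc⟩, rfl⟩))
  exact ⟨s, fun w => congrArg Subtype.val (LinearMap.congr_fun hs w)⟩

/-- Local dimensions at a Taylor–Wiles prime. -/
private theorem classDim_bounds_of_isTWPrime [CharP k p] (hp2 : p ≠ 2)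
    (hr : GaloisFactorsThroughFiniteLevel r) {n : ℕ} {T : Finset ℕ} {q : Nat.Primes}
    (hq : IsTWPrime r p n T q) :
    Module.Finite k ((localCocycles (q : ℕ) r).map (adCob (locHom (q : ℕ) r)).mkQ) ∧
      classDim (locHom (q : ℕ) r) (localCocycles (q : ℕ) r) ≤ 2 ∧
      1 ≤ finrank k (adFixed (locHom (q : ℕ) r)) :=
  classDim_le_two (q : ℕ) r p hp2 ((dvd_pow_self p (Nat.succ_ne_zero n)).trans hq.modEq) hr
    hq.unramified hq.distinct _ fun _ hc => hc

/-- Restrictions of cocycles of finite level have finite level. -/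
private theorem restrict_mem_levelAdCocycles {c : GalQ → Matrix (Fin 2) (Fin 2) k}
    (hco : IsAdCocycleOn r c) (hlev : IsLevelConstant₁ (MonoidHom.id GalQ) c) :
    (fun g => c (j g)) ∈ levelAdCocycles j r := by
  obtain ⟨F, hF, hFc⟩ := hlev
  refine ⟨⟨fun g => hco.1 _, fun g g' => ?_⟩, F, hF, fun g s hs => ?_⟩
  · show c (j (g * g')) = _
    rw [map_mul, hco.2, adAct_comp]
  · show c (j (g * s)) = _
    rw [map_mul]
    exact hFc _ _ hs

variable (S S' : Finset Nat.Primes) (V : Submodule k (GalQ → Matrix (Fin 2) (Fin 2) k))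

/-- The local conditions cut out by `V`: trivial at `∞`, the restrictions of `V` at the primes of
`S`, and all cocycles of finite level at the other primes. -/
private def localConditions (v : extArithIndex S') :
    Submodule k (extArithLocalGroups S' v → Matrix (Fin 2) (Fin 2) k) :=
  Sum.elim (fun _ : Unit => ⊥) (fun q : S' => if q.1 ∈ S then
    V.map (LinearMap.funLeft k _ (extArithLoc S' v)) else levelAdCocycles (extArithLoc S' v) r) v

variable {S S' V}

/-- The local conditions consist of cocycles of finite level. -/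
private theorem localConditions_le
    (hV : ∀ c ∈ V, IsAdCocycleOn r c ∧ IsLevelConstant₁ (MonoidHom.id GalQ) c)
    (v : extArithIndex S') :
    localConditions r S S' V v ≤ levelAdCocycles (extArithLoc S' v) r := by
  have hres : V.map (LinearMap.funLeft k _ (extArithLoc S' v)) ≤
      levelAdCocycles (extArithLoc S' v) r := by
    rintro _ ⟨c, hc, rfl⟩
    exact restrict_mem_levelAdCocycles (extArithLoc S' v) r (hV c hc).1 (hV c hc).2
  rcases v with u | q <;> simp only [localConditions, Sum.elim_inl, Sum.elim_inr]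
  · exact bot_le
  · split_ifs
    · exact hres
    · exact le_rfl

/-- The local conditions give finitely many classes. -/
private theorem finite_localConditions
    (hS : ∀ q ∈ S, Module.Finite k
      ((V.map (resLin (q : ℕ))).map (adCob (locHom (q : ℕ) r)).mkQ))
    (hS' : ∀ q ∈ S', q ∉ S → Module.Finite k
      ((localCocycles (q : ℕ) r).map (adCob (locHom (q : ℕ) r)).mkQ)) :
    ∀ v, Module.Finite k
      ((localConditions r S S' V v).map (adCob (r.comp (extArithLoc S' v))).mkQ) := by
  intro v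
  have hgen : ∀ W, localConditions r S S' V v = W →
      Module.Finite k (W.map (adCob (r.comp (extArithLoc S' v))).mkQ) →
      Module.Finite k
        ((localConditions r S S' V v).map (adCob (r.comp (extArithLoc S' v))).mkQ) :=
    fun _ e hW => e ▸ hW
  have hbot : Module.Finite k ((⊥ : Submodule k (extArithLocalGroups S' v →
      Matrix (Fin 2) (Fin 2) k)).map (adCob (r.comp (extArithLoc S' v))).mkQ) := by
    rw [Submodule.map_bot]
    exact Module.Finite.bot k _
  rcases v with u | q
  · exact hgen ⊥ rfl hbot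
  · by_cases hq : q.1 ∈ S
    · exact hgen _ (if_pos hq) (hS q.1 hq)
    · exact hgen _ (if_neg hq) (hS' q.1 q.2 hq)

/-- The classes of `V` lie in the Selmer group of the local conditions. -/
private theorem globSpace_le_selmer (hr : GaloisFactorsThroughFiniteLevel r)
    (hunr : ∀ q : Nat.Primes, q ∉ S' → ∀ A : ValuationSubring Qbar, A.LiesOverPrime (q : ℕ) →
      ∀ σ ∈ A.inertiaSubgroupIn ℚ, r σ = 1)
    (hV : ∀ c ∈ V, IsAdCocycleOn r c ∧ IsLevelConstant₁ (MonoidHom.id GalQ) c)
    (hVunr : ∀ c ∈ V, ∀ q : Nat.Primes, q ∉ S' → ∀ A : ValuationSubring Qbar,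
      A.LiesOverPrime (q : ℕ) → ∀ σ ∈ A.inertiaSubgroupIn ℚ, c σ = 0) :
    globSpace r p V ≤ continuousH1S S' (adRep p r) ⊓ selmer (extArithLoc S') (adRep p r)
      fun v => locSpace (extArithLoc S' v) r p (localConditions r S S' V v) := by
  refine le_inf (fun x hx => ?_) fun x hx => (mem_selmer_iff _ _ _ _).mpr fun v => ?_
  · obtain ⟨c, hc, rfl⟩ := exists_of_mem_classSpace _ _ _ hx
    obtain ⟨hco, hlev⟩ := hV c.1 hc
    refine (mem_continuousH1S_iff _ _ _).mpr ⟨_, ?_, rfl⟩
    refine (isLevelConstantS₁_of_inertia S' hr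
      (fun g => AddMonoidHom.mk' (adAct r g) (adAct_add r g))
      (fun g hg => AddMonoidHom.ext fun m => by simp [adAct, mat, hg]) hco.2 hlev
      fun q hq A hA σ hσ => ⟨hunr q hq A hA σ hσ, hVunr c.1 hc q hq A hA σ hσ⟩).elim ?_
    exact fun F hF => ⟨F, hF.1, fun g s hs => Subtype.ext (hF.2 g s hs)⟩
  · refine locRes_mem_locSpace (extArithLoc S' v) r p (fun c hc hco => ?_)
      (fun c hc => (localConditions_le r hV v hc).1) hx
    have hres := restrict_mem_levelAdCocycles (extArithLoc S' v) r hco (hV c hc).2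
    rcases v with u | q
    · exact ⟨0, zero_mem _, by rw [sub_zero]; exact restrict_archimedean_mem_adCob hco⟩
    · refine ⟨_, ?_, by rw [sub_self]; exact zero_mem _⟩
      simp only [localConditions, Sum.elim_inr]
      split_ifs
      · exact ⟨c, hc, rfl⟩
      · exact hres

/-- The dual Selmer group vanishes when the new primes detect the classes unramified outside
`S`. -/
private theorem dualSelmer_eq_bot {χ : GalQ →* (ZMod p)ˣ}
    (hdet : ∀ g, (mat r g).det = algebraMap (ZMod p) k (χ g : ZMod p))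
    (hr : GaloisFactorsThroughFiniteLevel r)
    (hunr : ∀ q : Nat.Primes, q ∉ S → ∀ A : ValuationSubring Qbar, A.LiesOverPrime (q : ℕ) →
      ∀ σ ∈ A.inertiaSubgroupIn ℚ, r σ = 1)
    (Φ : continuousH1S S ((adRep p r).dualTwist χ) → cocycles₁ ((adRep p r).dualTwist χ))
    (hΦ : ∀ w, (H1π _).hom (Φ w) = w.1)
    (hdetect : ∀ w, (∀ q ∈ S', q ∉ S → VanishesAt r (q : ℕ) (dualFun p r χ (Φ w))) → w = 0)
    (pairing : ∀ v : extArithIndex S', H1 (Rep.res (extArithLoc S' v) (adRep p r)) →ₗ[ZMod p]
      H1 (Rep.res (extArithLoc S' v) ((adRep p r).dualTwist χ)) →ₗ[ZMod p] ZMod p)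
    (hnd : ∀ v, ∀ y ∈ continuousH1 (extArithLoc S' v)
        (Rep.res (extArithLoc S' v) ((adRep p r).dualTwist χ)),
      (∀ x ∈ continuousH1 (extArithLoc S' v) (Rep.res (extArithLoc S' v) (adRep p r)),
        pairing v x y = 0) → y = 0) :
    continuousH1S S' ((adRep p r).dualTwist χ) ⊓ selmer (extArithLoc S') ((adRep p r).dualTwist χ)
      (dualConditions (extArithLoc S') (adRep p r) ((adRep p r).dualTwist χ) pairing
        fun v => locSpace (extArithLoc S' v) r p (localConditions r S S' V v)) = ⊥ := by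
  rw [eq_bot_iff]
  rintro x ⟨hx, hsel⟩
  refine (Submodule.mem_bot _).mpr
    (eq_zero_of_locally_trivial r p hdet hr S S' hunr Φ hΦ hdetect hx fun q hq hqS => ?_)
  have key1 : ∀ v, (groupCohomology.map (extArithLoc S' v)
      (𝟙 (Rep.res (extArithLoc S' v) ((adRep p r).dualTwist χ))) 1).hom x ∈ continuousH1
        (extArithLoc S' v) (Rep.res (extArithLoc S' v) ((adRep p r).dualTwist χ)) :=
    fun v => locRes_mem_continuousH1 (extArithLoc S' v) p S' _ hx
  refine hnd (Sum.inr ⟨q, hq⟩) _ (key1 _) fun y hy => ?_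
  refine (mem_orthogonal_iff _ _ _).mp ((mem_selmer_iff _ _ _ _).mp hsel (Sum.inr ⟨q, hq⟩)) y ?_
  have key : ∀ v : extArithIndex S', v = Sum.inr ⟨q, hq⟩ →
      continuousH1 (extArithLoc S' v) (Rep.res (extArithLoc S' v) (adRep p r)) ≤
        locSpace (extArithLoc S' v) r p (localConditions r S S' V v) := fun v hv => by
    rw [show localConditions r S S' V v = levelAdCocycles (extArithLoc S' v) r by
      subst hv; exact if_neg hqS]
    exact continuousH1_le_locSpace _ r p
  exact key _ rfl hy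

variable {Q : Finset Nat.Primes}

/-- The local invariants are at least one-dimensional over `k` at `∞` and at the new primes. -/
private theorem mul_le_sum_finrank_invariants
    (hinf : 1 ≤ finrank k (adFixed (r.comp archimedeanLoc))) (hSQ : Disjoint S Q)
    (hQ : ∀ q ∈ Q, 1 ≤ finrank k (adFixed (locHom (q : ℕ) r))) :
    finrank (ZMod p) k * (1 + ∑ q ∈ S, finrank k (adFixed (locHom (q : ℕ) r)) + Q.card) ≤
      ∑ v, finrank (ZMod p) (Rep.res (extArithLoc (S ∪ Q) v) (adRep p r)).ρ.invariants := by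
  have hv : ∀ v, finrank (ZMod p) (Rep.res (extArithLoc (S ∪ Q) v) (adRep p r)).ρ.invariants =
      finrank (ZMod p) k * finrank k (adFixed (r.comp (extArithLoc (S ∪ Q) v))) :=
    fun v => finrank_invariants_eq _ (resEquiv p r _) (resEquiv_spec r _)
  rw [sum_extArithIndex (S ∪ Q) _
      (fun q => finrank (ZMod p) k * finrank k (adFixed (locHom (q : ℕ) r)))
      (fun q => hv (Sum.inr q))]
  refine le_trans ?_ (add_le_add (le_of_le_of_eq (Nat.mul_le_mul_left _ hinf)
    (hv (Sum.inl ())).symm) le_rfl)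
  rw [← Finset.mul_sum, ← mul_add, Finset.sum_union hSQ, ← add_assoc]
  refine Nat.mul_le_mul_left _ (add_le_add le_rfl ?_)
  rw [Finset.card_eq_sum_ones]
  exact Finset.sum_le_sum hQ

/-- The local conditions have dimension at most two over `k` at each new prime. -/
private theorem sum_finrank_locSpace_le
    (hVloc : ∀ v, localConditions r S (S ∪ Q) V v ≤ adCocycles (r.comp (extArithLoc (S ∪ Q) v)))
    (hSQ : Disjoint S Q)
    (hQ : ∀ q ∈ Q, classDim (locHom (q : ℕ) r) (localCocycles (q : ℕ) r) ≤ 2) :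
    ∑ v, finrank (ZMod p)
        (locSpace (extArithLoc (S ∪ Q) v) r p (localConditions r S (S ∪ Q) V v)) ≤
      finrank (ZMod p) k *
        (∑ q ∈ S, classDim (locHom (q : ℕ) r) (V.map (resLin (q : ℕ))) + 2 * Q.card) := by
  have hv := fun v => finrank_classSpace (Rep.res (extArithLoc (S ∪ Q) v) (adRep p r))
    (resEquiv p r _) (resEquiv_spec r _) (hVloc v)
  rw [sum_extArithIndex (S ∪ Q) _ (fun q => finrank (ZMod p) k * classDim (locHom (q : ℕ) r)
      (if q ∈ S then V.map (resLin (q : ℕ)) else localCocycles (q : ℕ) r)) (fun q => ?_)]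
  · have h0 : ∀ v, localConditions r S (S ∪ Q) V v = ⊥ → finrank (ZMod p) (locSpace
        (extArithLoc (S ∪ Q) v) r p (localConditions r S (S ∪ Q) V v)) = 0 := fun v e => by
      rw [hv, e, classDim, Submodule.map_bot, finrank_bot, mul_zero]
    refine le_of_eq_of_le (congrArg (· + _) (h0 (Sum.inl ()) rfl)) ?_
    rw [zero_add, ← Finset.mul_sum, Finset.sum_union hSQ]
    refine Nat.mul_le_mul_left _ (add_le_add ?_ ?_)
    · exact (Finset.sum_congr rfl fun q hq => by rw [if_pos hq]).le
    · rw [mul_comm, ← smul_eq_mul, ← Finset.sum_const]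
      refine Finset.sum_le_sum fun q hq => ?_
      rw [if_neg (Finset.disjoint_right.mp hSQ hq)]
      exact hQ q hq
  · refine (hv (Sum.inr q)).trans ?_
    by_cases hq : q.1 ∈ S
    · rw [show localConditions r S (S ∪ Q) V (Sum.inr q) = _ from if_pos hq, if_pos hq]
      rfl
    · rw [show localConditions r S (S ∪ Q) V (Sum.inr q) = _ from if_neg hq, if_neg hq]
      rfl

/-- The Greenberg–Wiles inequality for the local conditions bounds the classes of `V`. -/
private theorem classDim_add_le (h : NoInducedLine r) (hV : V ≤ adCocycles r)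
    (hVloc : ∀ v, localConditions r S (S ∪ Q) V v ≤ adCocycles (r.comp (extArithLoc (S ∪ Q) v)))
    (hinf : 1 ≤ finrank k (adFixed (r.comp archimedeanLoc))) (hSQ : Disjoint S Q)
    (hQ : ∀ q ∈ Q, classDim (locHom (q : ℕ) r) (localCocycles (q : ℕ) r) ≤ 2 ∧
      1 ≤ finrank k (adFixed (locHom (q : ℕ) r)))
    {X : Submodule (ZMod p) (H1 (adRep p r))} [Module.Finite (ZMod p) X]
    (hX : globSpace r p V ≤ X)
    (hineq : finrank (ZMod p) X +
        ∑ v, finrank (ZMod p) (Rep.res (extArithLoc (S ∪ Q) v) (adRep p r)).ρ.invariants ≤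
      finrank (ZMod p) (adRep p r).ρ.invariants + ∑ v, finrank (ZMod p)
        (locSpace (extArithLoc (S ∪ Q) v) r p (localConditions r S (S ∪ Q) V v))) :
    Module.Finite k (V.map (adCob r).mkQ) ∧
      classDim r V + ∑ q ∈ S, finrank k (adFixed (locHom (q : ℕ) r)) + 1 ≤
        Q.card + ∑ q ∈ S, classDim (locHom (q : ℕ) r) (V.map (resLin (q : ℕ))) := by
  have : Module.Finite (ZMod p) k := Module.Finite.of_finite
  have : Module.Finite (ZMod p) (globSpace r p V) := Submodule.finiteDimensional_of_le hX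
  refine ⟨finite_of_finite_classSpace (adRep p r) (LinearEquiv.refl _ _) (fun _ _ => rfl) hV, ?_⟩
  have h1 := Submodule.finrank_mono hX
  rw [show finrank (ZMod p) (globSpace r p V) = finrank (ZMod p) k * classDim r V from
    finrank_classSpace (adRep p r) (LinearEquiv.refl _ _) (fun _ _ => rfl) hV] at h1
  rw [show finrank (ZMod p) (adRep p r).ρ.invariants = 0 by
    rw [finrank_invariants_eq (adRep p r) (LinearEquiv.refl _ _) (fun _ _ => rfl),
      adFixed_eq_bot r h, finrank_bot, mul_zero], zero_add] at hineq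
  have hlow := mul_le_sum_finrank_invariants (p := p) r hinf hSQ fun q hq => (hQ q hq).2
  have hup := sum_finrank_locSpace_le (p := p) r hVloc hSQ fun q hq => (hQ q hq).1
  refine Nat.le_of_mul_le_mul_left ?_ (Module.finrank_pos (R := ZMod p) (M := k))
  rw [mul_add, mul_add, mul_one] at hlow
  rw [mul_add, mul_left_comm _ 2] at hup
  rw [mul_add, mul_add, mul_add, mul_one]
  omega

/-- **Taylor–Wiles primes.** -/
theorem exists_twPrimes_classDim [CharP k p] (hp2 : p ≠ 2)
    (hr : GaloisFactorsThroughFiniteLevel r) (h : NoInducedLine r)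
    (hdet : ∀ g, (mat r g).det = ZMod.castHom (dvd_refl p) k (ExtCitation.cycloChar p g : ZMod p))
    (S : Finset Nat.Primes) (hpS : pPrime p ∈ S)
    (hunr : ∀ q : Nat.Primes, q ∉ S → ∀ A : ValuationSubring Qbar, A.LiesOverPrime (q : ℕ) →
      ∀ σ ∈ A.inertiaSubgroupIn ℚ, r σ = 1) :
    ∃ R : ℕ, ∀ n : ℕ, ∃ qv : Fin R → ℕ, Function.Injective qv ∧
      (∀ i, IsTWPrime r p n (S.image (fun q : Nat.Primes => (q : ℕ))) (qv i)) ∧
      ∀ V : Submodule k (GalQ → Matrix (Fin 2) (Fin 2) k),
        (∀ c ∈ V, IsAdCocycleOn r c ∧ IsLevelConstant₁ (MonoidHom.id GalQ) c ∧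
          ∀ q : Nat.Primes, q ∉ S → (∀ i, qv i ≠ (q : ℕ)) → ∀ A : ValuationSubring Qbar,
            A.LiesOverPrime (q : ℕ) → ∀ σ ∈ A.inertiaSubgroupIn ℚ, c σ = 0) →
        (∀ q ∈ S, Module.Finite k
          ((V.map (resLin (q : ℕ))).map (adCob (locHom (q : ℕ) r)).mkQ)) →
        Module.Finite k (V.map (adCob r).mkQ) ∧
          classDim r V + ∑ q ∈ S, finrank k (adFixed (locHom (q : ℕ) r)) + 1 ≤
            R + ∑ q ∈ S, classDim (locHom (q : ℕ) r) (V.map (resLin (q : ℕ))) := by
  classical
  let : Algebra (ZMod p) k := ZMod.algebra k p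
  have : Module.Finite (ZMod p) k := Module.Finite.of_finite
  have : NeZero p := ⟨(Fact.out : p.Prime).ne_zero⟩
  have : Module.Finite (ZMod p) (Sl2 k) := Module.Finite.of_finite
  have : FiniteDimensional (ZMod p) (adRep p r) :=
    (inferInstance : Module.Finite (ZMod p) (Sl2 k))
  set χ := ExtCitation.cycloChar p
  have hdet' : ∀ g, (mat r g).det = algebraMap (ZMod p) k (χ g : ZMod p) := fun g => by
    rw [hdet]; exact RingHom.congr_fun (Subsingleton.elim _ _) _
  set M' := (adRep p r).dualTwist χ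
  obtain ⟨-, hW, -⟩ := GWEuler.greenbergWiles hp2 S hpS (adRep p r) (adRep_smooth r hr)
    (fun q hq A hA g hg => adRep_apply_eq_one r (hunr q hq A hA g hg))
  have : Module.Finite (ZMod p) (continuousH1S S M') := hW
  refine ⟨finrank (ZMod p) (continuousH1S S M'), fun n => ?_⟩
  -- primes detecting the classes of the dual twist
  obtain ⟨s, hs⟩ := exists_cocycle_section S M'
  obtain ⟨qv, hinj, hqv, hdetect⟩ := exists_twPrimes p hp2 (r := r) h hr hdet
    ((dualFun p r χ).comp ((levelCocyclesS₁ S M').subtype.comp s).toAddMonoidHom)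
    (fun w => ⟨isSymCocycleOn_dualFun p χ hdet' _, isLevelConstant₁_dualFun p χ _
      (IsLevelConstantS₁.isLevelConstant₁ (s w).2)⟩)
    (fun w hw => Subtype.ext ((hs w).symm.trans ((H1π_eq_zero_iff_dualFun p χ hdet' _).mpr hw)))
    n (S.image (fun q : Nat.Primes => (q : ℕ))) _ le_rfl
  refine ⟨qv, hinj, hqv, fun V hV hfin => ?_⟩
  let e : Fin (finrank (ZMod p) (continuousH1S S M')) → Nat.Primes :=
    fun i => ⟨qv i, (hqv i).prime⟩
  let Q : Finset Nat.Primes := Finset.univ.image e
  have heQ : ∀ i, e i ∈ Q := fun i => Finset.mem_image_of_mem e (Finset.mem_univ i)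
  have hSQ : Disjoint S Q := Finset.disjoint_right.mpr fun q hq hqS => by
    obtain ⟨i, -, rfl⟩ := Finset.mem_image.mp hq
    exact (hqv i).notMem (Finset.mem_image.mpr ⟨e i, hqS, rfl⟩)
  have hQcard : Q.card = finrank (ZMod p) (continuousH1S S M') := by
    show (Finset.univ.image e).card = _
    have he : Function.Injective e := fun a b hab => hinj (congrArg Subtype.val hab)
    rw [Finset.card_image_of_injective _ he, Finset.card_univ, Fintype.card_fin]
  have hTW : ∀ q ∈ Q,
      Module.Finite k ((localCocycles (q : ℕ) r).map (adCob (locHom (q : ℕ) r)).mkQ) ∧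
      classDim (locHom (q : ℕ) r) (localCocycles (q : ℕ) r) ≤ 2 ∧
      1 ≤ finrank k (adFixed (locHom (q : ℕ) r)) := fun q hq => by
    obtain ⟨i, -, rfl⟩ := Finset.mem_image.mp hq
    exact classDim_bounds_of_isTWPrime r hp2 hr (q := e i) (hqv i)
  -- the Greenberg–Wiles inequality for `S ∪ Q` and the conditions cut out by `V`
  have hunr' := fun (q : Nat.Primes) (hq : q ∉ S ∪ Q) =>
    hunr q fun hqS => hq (Finset.mem_union_left _ hqS)
  obtain ⟨hM, -, pairing, hnd, hineq⟩ := GWEuler.greenbergWiles hp2 (S ∪ Q)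
    (Finset.mem_union_left _ hpS) (adRep p r) (adRep_smooth r hr)
    (fun q hq A hA g hg => adRep_apply_eq_one r (hunr' q hq A hA g hg))
  have : Module.Finite (ZMod p) (continuousH1S (S ∪ Q) (adRep p r)) := hM
  have hV' := fun c hc => And.intro (hV c hc).1 (hV c hc).2.1
  have hle := localConditions_le r (S := S) (S' := S ∪ Q) hV'
  have had := fun v c hc => ((hle v) hc : c ∈ levelAdCocycles _ r).1
  have hVfin := finite_localConditions r (S' := S ∪ Q) (V := V) hfin
    fun q hq hqS => (hTW q ((Finset.mem_union.mp hq).resolve_left hqS)).1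
  have hmain := hineq (fun v => locSpace (extArithLoc (S ∪ Q) v) r p
      (localConditions r S (S ∪ Q) V v)) (fun v => locSpace_le_continuousH1 _ r p (hle v))
    fun v => haveI := hVfin v; finite_classSpace _ _ _ (had v)
  rw [dualSelmer_eq_bot r hdet' hr hunr (fun w => (s w).1) hs
    (fun w hw => hdetect w fun i => hw (e i) (Finset.mem_union_right _ (heQ i))
      (Finset.disjoint_right.mp hSQ (heQ i))) pairing hnd] at hmain
  have hX := globSpace_le_selmer (p := p) (S := S) r hr hunr' hV' fun c hc q hq =>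
    (hV c hc).2.2 q (fun hqS => hq (Finset.mem_union_left _ hqS)) fun i hi =>
      hq (Finset.mem_union_right _ (Finset.mem_image.mpr ⟨i, Finset.mem_univ i, Subtype.ext hi⟩))
  -- counting
  have : Module.Finite (ZMod p) ↥(continuousH1S (S ∪ Q) (adRep p r) ⊓
      selmer (extArithLoc (S ∪ Q)) (adRep p r) fun v =>
        locSpace (extArithLoc (S ∪ Q) v) r p (localConditions r S (S ∪ Q) V v)) :=
    Submodule.finiteDimensional_of_le inf_le_left
  rw [finrank_bot] at hmain
  rw [← hQcard]
  exact classDim_add_le r h (fun c hc => (hV c hc).1) had (one_le_finrank_adFixed_archimedean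
      (r := r) (by rw [hdet, ← cyclo_eq_cycloChar, cyclo_complexConjugation, map_neg, map_one]))
    hSQ (fun q hq => (hTW q hq).2) hX (by omega)

end FLTAgent.TWPrimes
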