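import Fermat.Agent.LocalDuality.Kummer
import Fermat.Agent.LocalDuality.NormIndex
import Fermat.Agent.TWPrimes.Frame
import Fermat.Agent.TWPrimes.LocalUnramified
import Mathlib.NumberTheory.Padics.RingHoms
import Mathlib.LinearAlgebra.Dimension.Constructions

/-!
# The strictly ordinary bound at `p`

`classDim_le_of_strict`: strict classes come from cocycles valued in the line fixed by the frame,
a twist of `k(1)`; by Kummer theory these form a plane, and the extension class of `r` itself is
trivial in the adjoint representation. Used by `Assembly` and level lowering.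
-/

set_option autoImplicit false

open Matrix Module groupCohomology

noncomputable section

namespace FLTAgent.TWPrimes

open FLTAgent.Density FLTAgent.LocalDuality

variable (p : ℕ) [Fact p.Prime]

/-- The mod `p` cyclotomic character of the local Galois group. -/
def locCyclo (σ : LocalGal p) : ZMod p := (ExtCitation.cycloChar p (toGlobal p σ) : ZMod p)

theorem locCyclo_spec (σ : LocalGal p) {ζ : Qbar} (hζ : ζ ^ p = 1) :
    σ (padicEmbedding p ζ) = padicEmbedding p ζ ^ (locCyclo p σ).val := by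
  have : NeZero p := ⟨(Fact.out : p.Prime).ne_zero⟩
  rw [← padicEmbedding_localGaloisToGlobal]
  show padicEmbedding p (toGlobal p σ ζ) = _
  rw [cyclo_spec p _ hζ, map_pow]
  rfl

/-- `ℚ_p` has no nontrivial `p`-th root of unity. -/
theorem padic_eq_one_of_pow_eq_one (hp2 : p ≠ 2) {x : ℚ_[p]} (hx : x ^ p = 1) : x = 1 := by
  have hp : p.Prime := Fact.out
  by_contra hne
  have hnorm : ‖x‖ ≤ 1 := by
    have h := congrArg norm hx
    rw [norm_pow, norm_one] at h
    exact ((pow_eq_one_iff_of_nonneg (norm_nonneg x) hp.ne_zero).mp h).le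
  let y : ℤ_[p] := ⟨x, hnorm⟩
  have hy : y ^ p = 1 := Subtype.ext (by push_cast; exact hx)
  have hy1 : y - 1 ≠ 0 := fun h => hne (by
    have := congrArg (fun z : ℤ_[p] => (z : ℚ_[p])) (sub_eq_zero.mp h)
    simpa [y] using this)
  have hsum : ∑ i ∈ Finset.range p, y ^ i = 0 := by
    have h := geom_sum_mul y p
    rw [hy, sub_self, mul_eq_zero] at h
    exact h.resolve_right hy1
  set φ := PadicInt.toZModPow (p := p) 2
  set z := φ y with hz
  have : NeZero (p ^ 2) := ⟨pow_ne_zero 2 hp.ne_zero⟩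
  set π := ZMod.castHom (dvd_pow_self p two_ne_zero) (ZMod p)
  have hπ : π z = 1 := by
    have h1 : (π z) ^ p = 1 := by rw [hz, ← map_pow, ← map_pow, hy, map_one, map_one]
    rwa [ZMod.pow_card] at h1
  obtain ⟨t, ht⟩ : ∃ t : ZMod (p ^ 2), z = 1 + (p : ZMod (p ^ 2)) * t := by
    have h0 : π (z - 1) = 0 := by rw [map_sub, hπ, map_one, sub_self]
    rw [ZMod.castHom_apply, ZMod.cast_eq_val, ZMod.natCast_eq_zero_iff] at h0
    obtain ⟨d, hd⟩ := h0
    refine ⟨(d : ZMod (p ^ 2)), ?_⟩
    rw [← Nat.cast_mul, ← hd, ZMod.natCast_zmod_val]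
    abel
  have hp2' : (p : ZMod (p ^ 2)) * p = 0 := by
    rw [← Nat.cast_mul, ← pow_two, ZMod.natCast_self]
  have hpow : ∀ i : ℕ, z ^ i = 1 + (i : ZMod (p ^ 2)) * ((p : ZMod (p ^ 2)) * t) := by
    intro i
    induction i with
    | zero => simp
    | succ i ih =>
      rw [pow_succ z i, ih, ht]
      push_cast
      linear_combination ((i : ZMod (p ^ 2)) * t * t) * hp2'
  have hz0 : ∑ i ∈ Finset.range p, z ^ i = 0 := by
    have h := congrArg φ hsum
    rw [map_sum, map_zero] at h
    simpa [map_pow] using h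
  rw [Finset.sum_congr rfl fun i _ => hpow i, Finset.sum_add_distrib, ← Finset.sum_mul,
    ← Nat.cast_sum] at hz0
  obtain ⟨m, hm⟩ := hp.odd_of_ne_two hp2
  have hid : ∑ i ∈ Finset.range p, i = p * m := by
    have h := Finset.sum_range_id_mul_two p
    rw [show p - 1 = m * 2 by omega, ← mul_assoc] at h
    exact Nat.eq_of_mul_eq_mul_right two_pos h
  rw [hid, Nat.cast_mul, show ((p : ZMod (p ^ 2)) * m) * ((p : ZMod (p ^ 2)) * t) = 0 by
    linear_combination ((m : ZMod (p ^ 2)) * t) * hp2', add_zero, Finset.sum_const,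
    Finset.card_range, nsmul_eq_mul, mul_one, ZMod.natCast_eq_zero_iff] at hz0
  have := Nat.le_of_dvd hp.pos hz0
  nlinarith [hp.two_le, pow_two p]

theorem exists_locCyclo_ne_one (hp2 : p ≠ 2) : ∃ σ : LocalGal p, locCyclo p σ ≠ 1 := by
  have : NeZero (p : Qbar) := ⟨Nat.cast_ne_zero.mpr (Fact.out : p.Prime).ne_zero⟩
  have : Fact (1 < p) := ⟨(Fact.out : p.Prime).one_lt⟩
  obtain ⟨ζ, hζ⟩ := (inferInstance : HasEnoughRootsOfUnity Qbar p).prim
  by_contra! hall
  have hmem : padicEmbedding p ζ ∈ (⊥ : IntermediateField ℚ_[p] (PadicAlgCl p)) :=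
    (InfiniteGalois.mem_bot_iff_fixed _).mpr fun σ => by
      rw [locCyclo_spec p σ hζ.pow_eq_one, hall σ, ZMod.val_one, pow_one]
  obtain ⟨x, hx⟩ := IntermediateField.mem_bot.mp hmem
  have hx1 : x = 1 := padic_eq_one_of_pow_eq_one p hp2
    ((algebraMap ℚ_[p] (PadicAlgCl p)).injective (by
      rw [map_pow, hx, map_one, ← map_pow, hζ.pow_eq_one, map_one]))
  rw [hx1, map_one, ← map_one (padicEmbedding p)] at hx
  exact hζ.ne_one (Fact.out : p.Prime).one_lt ((padicEmbedding p).injective hx.symm)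

variable (σ₀ : LocalGal p)

/-- Cocycles valued in `𝔽_p(1)` vanishing at `σ₀`. -/
def primeCocycles : Set (LocalGal p → ZMod p) :=
  {b | (∀ σ τ, b (σ * τ) = b σ + locCyclo p σ * b τ) ∧ IsLevelConstant₁ (toGlobal p) b ∧ b σ₀ = 0}

theorem primeCocycles_card (hp2 : p ≠ 2) (hσ₀ : locCyclo p σ₀ ≠ 1) :
    Finite (primeCocycles p σ₀) ∧ Nat.card (primeCocycles p σ₀) ≤ p ^ 2 := by
  classical
  have hp : p.Prime := Fact.out
  have : NeZero p := ⟨hp.ne_zero⟩
  have : NeZero (p : Qbar) := ⟨Nat.cast_ne_zero.mpr hp.ne_zero⟩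
  obtain ⟨ζ, hζ⟩ := (inferInstance : HasEnoughRootsOfUnity Qbar p).prim
  set z : PadicAlgCl p := padicEmbedding p ζ with hz
  have hzp : z ^ p = 1 := by rw [hz, ← map_pow, hζ.pow_eq_one, map_one]
  have hzprim : IsPrimitiveRoot z p := hζ.map_of_injective (padicEmbedding p).injective
  let u : (PadicAlgCl p)ˣ := (hzprim.isUnit hp.ne_zero).unit
  have hu : (u : PadicAlgCl p) = z := IsUnit.unit_spec _
  have hup : u ^ p = 1 := Units.ext (by rw [Units.val_pow_eq_pow_val, hu, hzp, Units.val_one])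
  have hpu : ∀ n : ℕ, u ^ ((n : ZMod p)).val = u ^ n := fun n => by
    rw [ZMod.val_natCast, ← pow_eq_pow_mod n hup]
  have hadd : ∀ a c : ZMod p, u ^ (a + c).val = u ^ a.val * u ^ c.val := fun a c => by
    rw [← pow_add, ← hpu (a.val + c.val), Nat.cast_add, ZMod.natCast_zmod_val,
      ZMod.natCast_zmod_val]
  have hmul : ∀ a c : ZMod p, u ^ (a * c).val = (u ^ a.val) ^ c.val := fun a c => by
    rw [← pow_mul, ← hpu (a.val * c.val), Nat.cast_mul, ZMod.natCast_zmod_val,
      ZMod.natCast_zmod_val]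
  have hact : ∀ (σ : LocalGal p) (n : ℕ),
      Units.map (σ : PadicAlgCl p →* PadicAlgCl p) (u ^ n) = (u ^ (locCyclo p σ).val) ^ n :=
    fun σ n => by
      rw [map_pow]
      congr 1
      refine Units.ext ?_
      rw [Units.val_pow_eq_pow_val, hu]
      show σ (u : PadicAlgCl p) = _
      rw [hu, hz, locCyclo_spec p σ hζ.pow_eq_one]
  have h90 : ∀ b : primeCocycles p σ₀, ∃ m : (PadicAlgCl p)ˣ, ∀ σ,
      u ^ (b.1 σ).val = Units.map (σ : PadicAlgCl p →* PadicAlgCl p) m / m := fun b => by
    refine hilbert90 (MonoidHom.id (LocalGal p)) (fun σ => u ^ (b.1 σ).val) (fun σ τ => ?_)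
      (b.2.2.1.comp fun x => u ^ x.val)
    show u ^ (b.1 (σ * τ)).val = _
    rw [b.2.1, hadd, hmul, mul_comm]
    congr 1
    exact (hact σ _).symm
  choose m hm using h90
  have hfix : ∀ b : primeCocycles p σ₀, ∃ a : ℚ_[p]ˣ,
      algebraMap ℚ_[p] (PadicAlgCl p) a = ((m b : PadicAlgCl p)) ^ p := fun b => by
    have hmem : ((m b : PadicAlgCl p)) ^ p ∈ (⊥ : IntermediateField ℚ_[p] (PadicAlgCl p)) :=
      (InfiniteGalois.mem_bot_iff_fixed _).mpr fun σ => by
        have h := congrArg (fun v => v ^ p) (hm b σ)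
        rw [div_pow, ← pow_mul, mul_comm, pow_mul, hup, one_pow, eq_div_iff_mul_eq', one_mul,
          ← map_pow] at h
        have h2 := congrArg Units.val h
        rw [Units.coe_map, Units.val_pow_eq_pow_val] at h2
        exact h2.symm
    obtain ⟨a, ha⟩ := IntermediateField.mem_bot.mp hmem
    refine ⟨Units.mk0 a ?_, ha⟩
    rintro rfl
    rw [map_zero, eq_comm] at ha
    exact pow_ne_zero p (m b).ne_zero ha
  choose a ha using hfix
  set P := (powMonoidHom p : ℚ_[p]ˣ →* ℚ_[p]ˣ).range with hP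
  have hidx : P.index = p ^ 2 := by
    rw [hP, local_index_pow_range p ℚ_[p] p, if_pos rfl, Module.finrank_self, pow_one]
    have : Subsingleton (powMonoidHom p : ℚ_[p]ˣ →* ℚ_[p]ˣ).ker := ⟨fun x y => by
      have e : ∀ x : (powMonoidHom p : ℚ_[p]ˣ →* ℚ_[p]ˣ).ker, x = 1 := fun x =>
        Subtype.ext (Units.ext (padic_eq_one_of_pow_eq_one p hp2
          (by rw [← Units.val_pow_eq_pow_val, show (x.1) ^ p = 1 from x.2, Units.val_one])))
      rw [e x, e y]⟩
    rw [Nat.card_of_subsingleton 1, one_mul, pow_two]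
  have : Finite (ℚ_[p]ˣ ⧸ P) := Nat.finite_of_card_ne_zero (by
    rw [← Subgroup.index_eq_card, hidx]; exact pow_ne_zero _ hp.ne_zero)
  have hinj : Function.Injective fun b : primeCocycles p σ₀ =>
      (QuotientGroup.mk (a b) : ℚ_[p]ˣ ⧸ P) := by
    intro b b' hbb
    obtain ⟨c, hc⟩ := QuotientGroup.eq.mp hbb
    let c' : (PadicAlgCl p)ˣ := Units.map (algebraMap ℚ_[p] (PadicAlgCl p) : ℚ_[p] →* _) c
    set w := m b * c' / m b' with hw
    have hwp : w ^ p = 1 := by
      rw [hw, div_pow, mul_pow, div_eq_one]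
      refine Units.ext ?_
      rw [Units.val_mul, Units.val_pow_eq_pow_val, Units.val_pow_eq_pow_val,
        Units.val_pow_eq_pow_val, ← ha, ← ha]
      show _ * (algebraMap ℚ_[p] (PadicAlgCl p) (c : ℚ_[p])) ^ p = _
      rw [← map_pow, ← map_mul, ← Units.val_pow_eq_pow_val, ← Units.val_mul,
        show c ^ p = (a b)⁻¹ * a b' from hc, mul_inv_cancel_left]
    obtain ⟨i, -, hi⟩ := hzprim.eq_pow_of_pow_eq_one (ξ := (w : PadicAlgCl p))
      (by rw [← Units.val_pow_eq_pow_val, hwp, Units.val_one])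
    have hwu : w = u ^ i := Units.ext (by rw [Units.val_pow_eq_pow_val, hu, hi])
    have hrel : ∀ σ, u ^ (b.1 σ).val / u ^ (b'.1 σ).val =
        (u ^ (locCyclo p σ).val) ^ i / u ^ i := fun σ => by
      rw [hm b, hm b', ← hact, ← hwu, hw]
      have hc' : Units.map (σ : PadicAlgCl p →* PadicAlgCl p) c' = c' :=
        Units.ext (σ.commutes _)
      rw [map_div, map_mul, hc']
      simp only [div_eq_mul_inv, _root_.mul_inv_rev, inv_inv]
      group
      simp [mul_comm, mul_left_comm, mul_assoc]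
    have hexp : ∀ σ, b.1 σ - b'.1 σ = locCyclo p σ * (i : ZMod p) - (i : ZMod p) := fun σ => by
      have h := hrel σ
      rw [div_eq_div_iff_mul_eq_mul, ← hpu i, ← hadd, ← pow_mul, ← hpu ((locCyclo p σ).val * i),
        Nat.cast_mul, ZMod.natCast_zmod_val, ← hadd] at h
      have h2 := (IsPrimitiveRoot.coe_units_iff.mp (hu ▸ hzprim)).pow_inj
        (ZMod.val_lt _) (ZMod.val_lt _) h
      have h3 := ZMod.val_injective p h2
      linear_combination h3
    have hi0 : (i : ZMod p) = 0 := by
      have h := hexp σ₀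
      rw [b.2.2.2, b'.2.2.2, sub_self, eq_comm, ← sub_one_mul, mul_eq_zero] at h
      exact h.resolve_left (sub_ne_zero.mpr hσ₀)
    refine Subtype.ext (funext fun σ => sub_eq_zero.mp ?_)
    rw [hexp, hi0, mul_zero, sub_zero]
  exact ⟨Finite.of_injective _ hinj,
    (Nat.card_le_card_of_injective _ hinj).trans (by rw [← Subgroup.index_eq_card, hidx])⟩

variable {k : Type} [Field k] [CharP k p]

/-- Cocycles valued in `k(1)`. -/
def lineCocycles : Submodule k (LocalGal p → k) where
  carrier := {b | (∀ σ τ, b (σ * τ) = b σ + ZMod.castHom (dvd_refl p) k (locCyclo p σ) * b τ) ∧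
    IsLevelConstant₁ (toGlobal p) b}
  zero_mem' := ⟨fun σ τ => by simp, isLevelConstant₁_const _ (0 : k)⟩
  add_mem' ha hb := ⟨fun σ τ => by simp only [Pi.add_apply, ha.1, hb.1]; ring, ha.2.add hb.2⟩
  smul_mem' c b hb := ⟨fun σ τ => by simp only [Pi.smul_apply, smul_eq_mul, hb.1]; ring,
    hb.2.comp (c * ·)⟩

/-- Those vanishing at `σ₀`. -/
def lineCocycles₀ : Submodule k (LocalGal p → k) :=
  lineCocycles p ⊓ LinearMap.ker (LinearMap.proj σ₀)

variable [Finite k]

theorem finrank_lineCocycles₀_le (hp2 : p ≠ 2) (hσ₀ : locCyclo p σ₀ ≠ 1) :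
    Module.Finite k (lineCocycles₀ (k := k) p σ₀) ∧
      finrank k (lineCocycles₀ (k := k) p σ₀) ≤ 2 := by
  classical
  have : NeZero p := ⟨(Fact.out : p.Prime).ne_zero⟩
  let : Algebra (ZMod p) k := ZMod.algebra k p
  have : Module.Finite (ZMod p) k := Module.Finite.of_finite
  have := Fintype.ofFinite k
  let e := Module.finBasis (ZMod p) k
  obtain ⟨hfin, hcard⟩ := primeCocycles_card p σ₀ hp2 hσ₀
  have := hfin
  have hcast : ∀ (x : ZMod p) (y : k), ZMod.castHom (dvd_refl p) k x * y = x • y := fun x y => by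
    rw [Algebra.smul_def]
    exact congrArg (· * y) (RingHom.congr_fun (Subsingleton.elim _ _) x)
  let F : lineCocycles₀ (k := k) p σ₀ → (Fin (finrank (ZMod p) k) → primeCocycles p σ₀) :=
    fun b i => ⟨fun σ => e.repr (b.1 σ) i, fun σ τ => by
      dsimp only
      rw [show b.1 (σ * τ) = _ from b.2.1.1 σ τ, hcast, map_add, map_smul]
      rfl, b.2.1.2.comp fun x => e.repr x i, by
      dsimp only
      rw [show b.1 σ₀ = 0 from b.2.2]
      simp⟩
  have hinj : Function.Injective F := fun b b' h => Subtype.ext (funext fun σ =>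
    e.repr.injective (Finsupp.ext fun i =>
      congr_fun (congrArg Subtype.val (congr_fun h i)) σ))
  have : Finite (lineCocycles₀ (k := k) p σ₀) := Finite.of_injective F hinj
  have hfin' : Module.Finite k (lineCocycles₀ (k := k) p σ₀) := Module.Finite.of_finite
  refine ⟨hfin', ?_⟩
  have h1 := Nat.card_le_card_of_injective F hinj
  rw [Module.natCard_eq_pow_finrank (K := k), Nat.card_fun, Nat.card_fin] at h1
  have h2 : Nat.card k = p ^ finrank (ZMod p) k := by
    rw [Module.natCard_eq_pow_finrank (K := ZMod p), Nat.card_zmod]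
  have h3 := h1.trans (Nat.pow_le_pow_left hcard _)
  rw [← pow_mul, mul_comm 2, pow_mul, ← h2] at h3
  exact (Nat.pow_le_pow_iff_right Finite.one_lt_card).mp h3

variable (k) in
/-- The cyclotomic character with values in `k`. -/
private def lineChar (σ : LocalGal p) : k := ZMod.castHom (dvd_refl p) k (locCyclo p σ)

/-- The nilpotent matrix which the frame `g` maps to the upper corner. -/
private def frameLine (g : GL (Fin 2) k) : Matrix (Fin 2) (Fin 2) k :=
  (g⁻¹ : GL (Fin 2) k).val * Matrix.single 0 1 1 * g.val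

/-- The preimage of `diag(1, -1)` in the frame `g`. -/
private def frameDiag (g : GL (Fin 2) k) : Matrix (Fin 2) (Fin 2) k :=
  (g⁻¹ : GL (Fin 2) k).val * Matrix.diagonal ![1, -1] * g.val

variable (k) in
/-- Functions valued in the line of `N`. -/
private def lineMap (N : Matrix (Fin 2) (Fin 2) k) :
    (LocalGal p → k) →ₗ[k] (LocalGal p → Matrix (Fin 2) (Fin 2) k) :=
  LinearMap.pi fun σ => (LinearMap.proj σ).smulRight N

variable {p}

omit [CharP k p] [Finite k] in
/-- Conjugation by the frame undoes conjugation by its inverse. -/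
private theorem frame_conj_inv (g : GL (Fin 2) k) (X : Matrix (Fin 2) (Fin 2) k) :
    g.val * ((g⁻¹ : GL (Fin 2) k).val * X * g.val) * (g⁻¹ : GL (Fin 2) k).val = X := by
  simp only [mul_assoc, Units.mul_inv_cancel_left, Units.mul_inv, mul_one]

omit [CharP k p] [Finite k] in
/-- Conjugation by the frame is multiplicative. -/
private theorem frame_conj_mul (g : GL (Fin 2) k) (X Y : Matrix (Fin 2) (Fin 2) k) :
    g.val * (X * Y) * (g⁻¹ : GL (Fin 2) k).val =
      (g.val * X * (g⁻¹ : GL (Fin 2) k).val) * (g.val * Y * (g⁻¹ : GL (Fin 2) k).val) := by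
  simp only [mul_assoc, Units.inv_mul_cancel_left]

omit [CharP k p] [Finite k] in
/-- The line of the frame consists of trace zero matrices. -/
private theorem trace_frameLine (g : GL (Fin 2) k) : (frameLine g).trace = 0 := by
  rw [frameLine, Matrix.trace_mul_cycle, Units.mul_inv, one_mul]
  simp

omit [CharP k p] [Finite k] in
/-- The line of the frame is not zero. -/
private theorem frameLine_ne_zero (g : GL (Fin 2) k) : frameLine g ≠ 0 := fun h => by
  have h1 := frame_conj_inv g (Matrix.single 0 1 1)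
  rw [show (g⁻¹ : GL (Fin 2) k).val * Matrix.single 0 1 1 * g.val = 0 from h, mul_zero,
    zero_mul] at h1
  simpa using (congr_fun (congr_fun h1 0) 1).symm

variable (p)

/-- In the frame `g` the representation is upper triangular, with `χ` the ratio of the diagonal. -/
private def IsStrictFrame (r : GalQ →* GL (Fin 2) k) (g : GL (Fin 2) k) : Prop :=
  ∀ σ : LocalGal p,
    (g.val * mat (locHom p r) σ * (g⁻¹ : GL (Fin 2) k).val) 1 0 = 0 ∧
    (g.val * mat (locHom p r) σ * (g⁻¹ : GL (Fin 2) k).val) 0 0 =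
      lineChar p k σ * (g.val * mat (locHom p r) σ * (g⁻¹ : GL (Fin 2) k).val) 1 1

variable {p} {r : GalQ →* GL (Fin 2) k} {g : GL (Fin 2) k}

omit [Finite k] in
/-- The group acts on the line of the frame through the cyclotomic character. -/
private theorem adAct_frameLine (hg : IsStrictFrame p r g) (σ : LocalGal p) :
    adAct (locHom p r) σ (frameLine g) = lineChar p k σ • frameLine g := by
  set R : LocalGal p → Matrix (Fin 2) (Fin 2) k :=
    fun σ => g.val * mat (locHom p r) σ * (g⁻¹ : GL (Fin 2) k).val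
  have hinj : ∀ {X Y : Matrix (Fin 2) (Fin 2) k},
      g.val * X * (g⁻¹ : GL (Fin 2) k).val = g.val * Y * (g⁻¹ : GL (Fin 2) k).val → X = Y :=
    fun h => (Units.mul_right_inj g).mp ((Units.mul_left_inj g⁻¹).mp h)
  refine hinj ?_
  rw [adAct, frame_conj_mul, frame_conj_mul, Matrix.mul_smul, Matrix.smul_mul, frameLine,
    frame_conj_inv]
  show R σ * Matrix.single 0 1 1 * R σ⁻¹ = _
  have h : R σ * Matrix.single 0 1 1 = lineChar p k σ • (Matrix.single 0 1 1 * R σ) := by
    have h10 : R σ 1 0 = 0 := (hg σ).1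
    have h00 : R σ 0 0 = lineChar p k σ * R σ 1 1 := (hg σ).2
    ext i j
    fin_cases i <;> fin_cases j <;>
      simp [Matrix.mul_apply, Fin.sum_univ_two, h10, h00, mul_comm]
  rw [h, Matrix.smul_mul, mul_assoc, ← frame_conj_mul g, mat_mul_inv, mul_one, Units.mul_inv,
    mul_one]

omit [Finite k] in
/-- Strictly triangular trace zero cocycles are `k(1)`-valued cocycles on the line of the frame. -/
private theorem exists_lineCocycle (hg : IsStrictFrame p r g)
    {d : LocalGal p → Matrix (Fin 2) (Fin 2) k} (hd : IsAdCocycleOn (locHom p r) d)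
    (hlev : LocalLevel p d)
    (htri : ∀ σ, (g.val * d σ * (g⁻¹ : GL (Fin 2) k).val) 1 0 = 0 ∧
      (g.val * d σ * (g⁻¹ : GL (Fin 2) k).val) 0 0 = 0) :
    ∃ b ∈ lineCocycles (k := k) p, ∀ σ, d σ = b σ • frameLine g := by
  set g₀ := g.val
  set g₁ := (g⁻¹ : GL (Fin 2) k).val
  let b : LocalGal p → k := fun σ => (g₀ * d σ * g₁) 0 1
  have hdN : ∀ σ, d σ = b σ • frameLine g := fun σ => by
    have h : g₀ * d σ * g₁ = b σ • Matrix.single 0 1 1 := by
      obtain ⟨h10, h00⟩ := htri σ
      have h11 : (g₀ * d σ * g₁) 1 1 = 0 := by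
        have ht : (g₀ * d σ * g₁).trace = 0 := by
          rw [Matrix.trace_mul_cycle, Units.inv_mul, one_mul, hd.1]
        rw [Matrix.trace_fin_two, h00, zero_add] at ht
        exact ht
      ext i j
      fin_cases i <;> fin_cases j <;> simp [b, h10, h00, h11]
    calc d σ = g₁ * (g₀ * d σ * g₁) * g₀ := by simp [g₀, g₁, mul_assoc]
      _ = b σ • frameLine g := by rw [h, Matrix.mul_smul, Matrix.smul_mul]; rfl
  refine ⟨b, ⟨fun σ τ => ?_, hlev.comp fun X => (g₀ * X * g₁) 0 1⟩, hdN⟩
  have h := hd.2 σ τ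
  rw [hdN, hdN, hdN, adAct_smul, adAct_frameLine hg, smul_smul, ← add_smul] at h
  rw [smul_left_injective k (frameLine_ne_zero g) h, lineChar]
  ring

omit [Finite k] in
/-- The coboundaries on the line of the frame. -/
private theorem lineMap_mem_adCob (hg : IsStrictFrame p r g) (t : k) :
    lineMap p k (frameLine g) (fun σ => t * (lineChar p k σ - 1)) ∈ adCob (locHom p r) :=
  mem_adCob_iff.mpr ⟨t • frameLine g, by rw [Matrix.trace_smul, trace_frameLine, smul_zero],
    fun σ => by
      show (t * (lineChar p k σ - 1)) • frameLine g = _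
      rw [adAct_smul, adAct_frameLine hg, mul_sub, mul_one, sub_smul, smul_smul]⟩

omit [Finite k] in
/-- A line cocycle is, up to a coboundary of the line, one vanishing at `σ₀`. -/
private theorem exists_normal (hg : IsStrictFrame p r g) (hr : GaloisFactorsThroughFiniteLevel r)
    {σ₀ : LocalGal p} (hσ₀ : locCyclo p σ₀ ≠ 1) {b : LocalGal p → k}
    (hb : b ∈ lineCocycles (k := k) p) :
    ∃ b₀ : lineCocycles₀ (k := k) p σ₀, ∃ t : k,
      b = b₀.1 + fun σ => t * (lineChar p k σ - 1) := by
  have hχ0 : lineChar p k σ₀ - 1 ≠ 0 := by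
    rw [sub_ne_zero, lineChar]
    exact fun h => hσ₀ ((ZMod.castHom (dvd_refl p) k).injective (h.trans (map_one _).symm))
  set t := b σ₀ / (lineChar p k σ₀ - 1)
  have hcob := lineMap_mem_adCob hg t
  obtain ⟨b', hb', hbN⟩ := exists_lineCocycle hg (adCob_le_adCocycles _ hcob)
    (adCob_le_localCocycles p r hr hcob).2 fun σ => by
      rw [show g.val * lineMap p k (frameLine g) (fun σ => t * (lineChar p k σ - 1)) σ *
          (g⁻¹ : GL (Fin 2) k).val = (t * (lineChar p k σ - 1)) • Matrix.single 0 1 1 by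
        show g.val * ((t * (lineChar p k σ - 1)) • frameLine g) * _ = _
        rw [Matrix.mul_smul, Matrix.smul_mul, frameLine, frame_conj_inv]]
      simp
  have hδ : (fun σ => t * (lineChar p k σ - 1)) = b' :=
    funext fun σ => smul_left_injective k (frameLine_ne_zero g) (hbN σ)
  refine ⟨⟨b - fun σ => t * (lineChar p k σ - 1), sub_mem hb (hδ ▸ hb'), ?_⟩, t,
    (sub_add_cancel _ _).symm⟩
  show b σ₀ - t * (lineChar p k σ₀ - 1) = 0
  rw [div_mul_cancel₀ _ hχ0, sub_self]

omit [Finite k] in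
/-- Without invariants, the extension class of `r` is a nonzero normalised line cocycle with
trivial class. -/
private theorem exists_trivial_class (hg : IsStrictFrame p r g)
    (hr : GaloisFactorsThroughFiniteLevel r) {σ₀ : LocalGal p} (hσ₀ : locCyclo p σ₀ ≠ 1)
    (h0 : adFixed (locHom p r) = ⊥) :
    ∃ b₀ : lineCocycles₀ (k := k) p σ₀,
      b₀ ≠ 0 ∧ lineMap p k (frameLine g) b₀.1 ∈ adCob (locHom p r) := by
  set g₀ := g.val
  set g₁ := (g⁻¹ : GL (Fin 2) k).val
  have hHtr : (frameDiag g).trace = 0 := by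
    rw [frameDiag, Matrix.trace_mul_cycle, Units.mul_inv, one_mul]
    simp
  set dH := fun σ => adAct (locHom p r) σ (frameDiag g) - frameDiag g
  have hdH : dH ∈ adCob (locHom p r) := mem_adCob_iff.mpr ⟨frameDiag g, hHtr, fun _ => rfl⟩
  obtain ⟨bH, hbH, hbHN⟩ := exists_lineCocycle hg (adCob_le_adCocycles _ hdH)
    (adCob_le_localCocycles p r hr hdH).2 fun σ => by
      set R : LocalGal p → Matrix (Fin 2) (Fin 2) k := fun σ => g₀ * mat (locHom p r) σ * g₁
      have : g₀ * dH σ * g₁ =
          R σ * Matrix.diagonal ![1, -1] * R σ⁻¹ - Matrix.diagonal ![1, -1] := by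
        show g₀ * (adAct _ σ (frameDiag g) - frameDiag g) * g₁ = _
        rw [mul_sub, sub_mul, adAct, frame_conj_mul, frame_conj_mul, frameDiag, frame_conj_inv]
      rw [this]
      have hR10 : ∀ σ, R σ 1 0 = 0 := fun σ => (hg σ).1
      have hinv : R σ * R σ⁻¹ = 1 := by
        rw [← frame_conj_mul g, mat_mul_inv, mul_one, Units.mul_inv]
      have h00 := congr_fun (congr_fun hinv 0) 0
      rw [Matrix.mul_apply, Fin.sum_univ_two, hR10 σ⁻¹, mul_zero, add_zero,
        Matrix.one_apply_eq] at h00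
      constructor <;> simp [Matrix.mul_apply, Fin.sum_univ_two, hR10, h00]
  obtain ⟨b₀, t, hbt⟩ := exists_normal hg hr hσ₀ hbH
  refine ⟨b₀, ?_, ?_⟩
  · rintro rfl
    rw [Submodule.coe_zero, zero_add] at hbt
    have hfixed : frameDiag g - t • frameLine g ∈ adFixed (locHom p r) := mem_adFixed_iff.mpr
      ⟨by rw [Matrix.trace_sub, Matrix.trace_smul, hHtr, trace_frameLine, smul_zero, sub_zero],
        fun σ => by
        have h1 : adAct (locHom p r) σ (frameDiag g) - frameDiag g =
            (t * (lineChar p k σ - 1)) • frameLine g :=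
          (hbHN σ).trans (congrArg (fun b => b σ • frameLine g) hbt)
        rw [mul_sub, mul_one, sub_smul] at h1
        rw [show adAct (locHom p r) σ (frameDiag g - t • frameLine g) =
            adAct (locHom p r) σ (frameDiag g) - adAct (locHom p r) σ (t • frameLine g) by
            simp [adAct, mul_sub, sub_mul],
          adAct_smul, adAct_frameLine hg, smul_smul, sub_eq_iff_eq_add.mp h1]
        abel⟩
    rw [h0, Submodule.mem_bot] at hfixed
    have h2 := congrArg (fun X => (g₀ * X * g₁) 0 0) hfixed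
    simp only [mul_sub, sub_mul, Matrix.mul_smul, Matrix.smul_mul, frameDiag, frameLine, g₀, g₁,
      frame_conj_inv] at h2
    simp at h2
  · rw [show b₀.1 = bH - fun σ => t * (lineChar p k σ - 1) from eq_sub_of_add_eq hbt.symm, map_sub]
    refine sub_mem ?_ (lineMap_mem_adCob hg t)
    convert hdH using 1
    exact funext fun σ => (hbHN σ).symm

variable (p)

/-- The bound for strictly ordinary classes at `p`. -/
theorem classDim_le_of_strict (hp2 : p ≠ 2) (r : GalQ →* GL (Fin 2) k)
    (hr : GaloisFactorsThroughFiniteLevel r) (g : GL (Fin 2) k)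
    (hg : ∀ σ : LocalGal p,
      ((g : Matrix (Fin 2) (Fin 2) k) * mat (locHom p r) σ * (g⁻¹ : GL (Fin 2) k)) 1 0 = 0 ∧
      ((g : Matrix (Fin 2) (Fin 2) k) * mat (locHom p r) σ * (g⁻¹ : GL (Fin 2) k)) 0 0 =
        ZMod.castHom (dvd_refl p) k (ExtCitation.cycloChar p (toGlobal p σ) : ZMod p) *
        ((g : Matrix (Fin 2) (Fin 2) k) * mat (locHom p r) σ * (g⁻¹ : GL (Fin 2) k)) 1 1)
    (W : Submodule k (LocalGal p → Matrix (Fin 2) (Fin 2) k))
    (hW : ∀ c ∈ W, IsStrictClass p r g c) :
    Module.Finite k (W.map (adCob (locHom p r)).mkQ) ∧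
      classDim (locHom p r) W ≤ Module.finrank k (adFixed (locHom p r)) + 1 := by
  obtain ⟨σ₀, hσ₀⟩ := exists_locCyclo_ne_one p hp2
  obtain ⟨hfin, hdim⟩ := finrank_lineCocycles₀_le (k := k) p σ₀ hp2 hσ₀
  have := hfin
  have hF : IsStrictFrame p r g := hg
  -- the classes of the normalised line cocycles
  let T : lineCocycles₀ (k := k) p σ₀ →ₗ[k]
      ((LocalGal p → Matrix (Fin 2) (Fin 2) k) ⧸ adCob (locHom p r)) :=
    ((adCob (locHom p r)).mkQ ∘ₗ lineMap p k (frameLine g)) ∘ₗ
      (lineCocycles₀ (k := k) p σ₀).subtype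
  -- strict classes are among them
  have hWT : W.map (adCob (locHom p r)).mkQ ≤ LinearMap.range T := by
    rintro _ ⟨c, hc, rfl⟩
    obtain ⟨hco, hlev, m, hm, hmc⟩ := hW c hc
    set e := fun σ => adAct (locHom p r) σ m - m
    have he : e ∈ adCob (locHom p r) := mem_adCob_iff.mpr ⟨m, hm, fun _ => rfl⟩
    have hcl : c - e ∈ localCocycles p r :=
      sub_mem (show c ∈ localCocycles p r from ⟨hco, hlev⟩) (adCob_le_localCocycles p r hr he)
    obtain ⟨b, hb, hbN⟩ := exists_lineCocycle hF hcl.1 hcl.2 hmc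
    obtain ⟨b₀, t, rfl⟩ := exists_normal hF hr hσ₀ hb
    refine ⟨b₀, ?_⟩
    show Submodule.Quotient.mk (lineMap p k (frameLine g) b₀.1) = Submodule.Quotient.mk c
    rw [Submodule.Quotient.eq]
    have h : c = lineMap p k (frameLine g) b₀.1 +
        (lineMap p k (frameLine g) (fun σ => t * (lineChar p k σ - 1)) + e) := by
      rw [← add_assoc, ← map_add, ← sub_eq_iff_eq_add]
      exact funext hbN
    rw [h, sub_add_eq_sub_sub, sub_self, zero_sub]
    exact neg_mem (add_mem (lineMap_mem_adCob hF t) he)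
  have : Module.Finite k (LinearMap.range T) := inferInstance
  refine ⟨Submodule.finiteDimensional_of_le hWT, (Submodule.finrank_mono hWT).trans ?_⟩
  have hrank := T.finrank_range_add_finrank_ker
  by_cases h0 : finrank k (adFixed (locHom p r)) = 0
  swap
  · omega
  -- the class of `r` itself dies
  obtain ⟨b₀, hb₀, hcob⟩ := exists_trivial_class hF hr hσ₀ (Submodule.finrank_eq_zero.mp h0)
  have hpos : 0 < finrank k (LinearMap.ker T) :=
    Module.finrank_pos_iff_exists_ne_zero.mpr
      ⟨⟨b₀, LinearMap.mem_ker.mpr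
          (show T b₀ = 0 from (Submodule.Quotient.mk_eq_zero _).mpr hcob)⟩,
        fun h => hb₀ (congrArg Subtype.val h)⟩
  omega

end FLTAgent.TWPrimes
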