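import Fermat.Agent.TWPrimes.Assembly
import Fermat.Agent.TWPrimes.Flat.Main

/-!
# Taylor–Wiles primes for the strictly ordinary and flat problems

`exists_twPrimes_strict` and `exists_twPrimes_flat`, both from Greenberg–Wiles duality and the
local bounds at `p`; they give statement S56.
-/

set_option autoImplicit false

open Matrix IsLocalRing Module Polynomial

noncomputable section

namespace FLTAgent.TWPrimes

open FLTAgent.Density FLTAgent.LocalDuality

variable {O : Type} [CommRing O] [IsDomain O] [IsDiscreteValuationRing O]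
  [IsAdicComplete (maximalIdeal O) O] [Finite (ResidueField O)]
  {ρbar : ResidualGaloisRep (ResidueField O)}
  (p : ℕ) [Fact p.Prime]

variable (hp2 : p ≠ 2)
  (habs : ρbar.IsAbsolutelyIrreducible)
  (hdet : (GaloisRepAdic.ofResidualGaloisRep ρbar).DetIsCyclotomic p)
  (hsplit : ∀ σ : AlgebraicClosure ℚ ≃ₐ[ℚ] AlgebraicClosure ℚ,
    ∃ α β : ResidueField O, LinearMap.charpoly (ρbar.ρ σ) = (X - C α) * (X - C β))
  (hTW : ∀ (K : Type) [Field K] [Algebra (ResidueField O) K]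
    (G : Subgroup (AlgebraicClosure ℚ ≃ₐ[ℚ] AlgebraicClosure ℚ)), G.index = 2 →
    ∀ V : Submodule K (ρbar.baseChange K).V,
      (∀ σ ∈ G, ∀ x ∈ V, (ρbar.baseChange K).ρ σ x ∈ V) → V = ⊥ ∨ V = ⊤)
  (S Smin : Finset ℕ) (hpSmin : p ∈ Smin) (hSmin : Smin ⊆ S) (hS : ∀ q ∈ S, q.Prime)
  (hmin : ∀ q : ℕ, q.Prime → q ≠ p → (q ∈ Smin ↔ ¬ ρbar.IsUnramifiedAt q))

include hp2 habs hdet hsplit hTW hpSmin hSmin hS hmin

/-- Taylor–Wiles primes for the strictly ordinary deformation problem. -/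
theorem exists_twPrimes_strict :
    ∃ r : ℕ, ∀ n : ℕ, ∃ qv : Fin r → ℕ, Function.Injective qv ∧
      (∀ i, (qv i).Prime ∧ qv i ∉ S ∧ p ^ (n + 1) ∣ qv i - 1) ∧
      (∀ i, ∀ P : ValuationSubring (AlgebraicClosure ℚ), P.LiesOverPrime (qv i) →
        ∀ φ : AlgebraicClosure ℚ ≃ₐ[ℚ] AlgebraicClosure ℚ, P.IsFrobeniusAt φ (qv i) →
          ∃ α β : ResidueField O, α ≠ β ∧
            LinearMap.charpoly (ρbar.ρ φ) = (X - C α) * (X - C β)) ∧
      ∀ DQ : GaloisRep.DeformationRingData O ρbar (fun _A _ _ _ ρ =>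
          GaloisRep.strictOrdinaryCondition O p (Smin ∪ Finset.univ.image qv) ρ ∧
            ∀ q ∈ Smin, q.Prime → q ≠ p → ρ.IsUnipotentOnInertiaAt q),
        ∃ γ : MvPowerSeries (Fin r) O →ₐ[O] DQ.R, Function.Surjective γ := by
  have : CharP (ResidueField O) p := charP_of_detIsCyclotomic ρbar hdet
  have : NeZero (2 : ResidueField O) := ⟨fun h => hp2 (((Nat.prime_dvd_prime_iff_eq Fact.out
    Nat.prime_two).mp ((CharP.cast_eq_zero_iff (ResidueField O) p 2).mp (by exact_mod_cast h))))⟩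
  let bb := Module.finBasisOfFinrankEq (ResidueField O) ρbar.V ρbar.finrank_eq
  obtain ⟨r, hr⟩ := exists_twPrimes_tangent p hp2 bb habs hdet hsplit hTW S Smin hpSmin hSmin
    hS hmin
  refine ⟨r, fun n => ?_⟩
  obtain ⟨qv, h1, h2, h3, h4⟩ := hr n
  refine ⟨qv, h1, h2, h3, fun DQ => ?_⟩
  obtain ⟨⟨hdetR, hstrict, hunr⟩, hunip⟩ := DQ.isOfType
  obtain ⟨g, hg, hclass⟩ := strict_derClass (bb := bb) hdetR hstrict
  refine h4 DQ hdetR hunr hunip ?_ fun D hD => ?_
  · refine classDim_le_of_strict p hp2 _ (glHom_factorsThroughFiniteLevel ρbar bb) g hg _ ?_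
    rintro _ ⟨_, ⟨D, rfl⟩, rfl⟩
    exact hclass D
  · exact ⟨⟨detIsCyclotomic_baseChange _ _ hdetR, isStrictOrdinaryAt_baseChange _ _ hstrict,
      fun q hq hqS => isUnramifiedAt_baseChange _ _ (hunr q hq hqS)⟩,
      fun q hq hq' hqp => isUnipotentOnInertiaAt_baseChange _ _ (hunip q hq hq' hqp)⟩

/-- Taylor–Wiles primes for the flat deformation problem. -/
theorem exists_twPrimes_flat :
    ∃ r : ℕ, ∀ n : ℕ, ∃ qv : Fin r → ℕ, Function.Injective qv ∧
      (∀ i, (qv i).Prime ∧ qv i ∉ S ∧ p ^ (n + 1) ∣ qv i - 1) ∧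
      (∀ i, ∀ P : ValuationSubring (AlgebraicClosure ℚ), P.LiesOverPrime (qv i) →
        ∀ φ : AlgebraicClosure ℚ ≃ₐ[ℚ] AlgebraicClosure ℚ, P.IsFrobeniusAt φ (qv i) →
          ∃ α β : ResidueField O, α ≠ β ∧
            LinearMap.charpoly (ρbar.ρ φ) = (X - C α) * (X - C β)) ∧
      ∀ DQ : GaloisRep.DeformationRingData O ρbar (fun _A _ _ _ ρ =>
          GaloisRep.flatCondition O p (Smin ∪ Finset.univ.image qv) ρ ∧
            ∀ q ∈ Smin, q.Prime → q ≠ p → ρ.IsUnipotentOnInertiaAt q),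
        ∃ γ : MvPowerSeries (Fin r) O →ₐ[O] DQ.R, Function.Surjective γ := by
  have : CharP (ResidueField O) p := charP_of_detIsCyclotomic ρbar hdet
  let bb := Module.finBasisOfFinrankEq (ResidueField O) ρbar.V ρbar.finrank_eq
  obtain ⟨r, hr⟩ := exists_twPrimes_tangent p hp2 bb habs hdet hsplit hTW S Smin hpSmin hSmin
    hS hmin
  refine ⟨r, fun n => ?_⟩
  obtain ⟨qv, h1, h2, h3, h4⟩ := hr n
  refine ⟨qv, h1, h2, h3, fun DQ => ?_⟩
  obtain ⟨⟨hdetR, hflat, hunr⟩, hunip⟩ := DQ.isOfType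
  refine h4 DQ hdetR hunr hunip ?_ fun D hD => ?_
  · refine classDim_le_of_flat p hp2 _ (glHom_factorsThroughFiniteLevel ρbar bb)
      (det_glHom ρbar bb hdet) _ ?_
    rintro _ ⟨D, rfl⟩
    exact flat_derClass hdetR hflat D
  · exact ⟨⟨detIsCyclotomic_baseChange _ _ hdetR,
      @isFlatAt_baseChange _ _ _ _ _ isLocalRing_dual _ _ _ _ (surjective_derPoint DQ D hD) hflat,
      fun q hq hqS => isUnramifiedAt_baseChange _ _ (hunr q hq hqS)⟩,
      fun q hq hq' hqp => isUnipotentOnInertiaAt_baseChange _ _ (hunip q hq hq' hqp)⟩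

end FLTAgent.TWPrimes
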