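import Fermat.Agent.TWPrimes.HopfModel
import Fermat.Prelude.Def_GaloisRep_LocalConditions
import Fermat.Prelude.Def_GaloisRep_StrictOrdinary

/-!
# The local conditions along a change of coefficients

Unramified, unipotent, cyclotomic determinant, strictly ordinary and flat all pass through a base
change (`isFlatAt_baseChange` for surjective maps). Used by `Tangent` and `Existence`.
-/

set_option autoImplicit false

open scoped TensorProduct
open IsLocalRing Module

noncomputable section

namespace FLTAgent.TWPrimes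

variable {A B : Type} [CommRing A] [IsLocalRing A] [CommRing B] [IsLocalRing B]
  (φ : A →+* B) (hφ : IsLocalHom φ) {ρ : GaloisRepAdic A} {p : ℕ}

theorem isUnramifiedAt_baseChange {q : ℕ} (h : ρ.IsUnramifiedAt q) :
    (ρ.baseChangeAlong φ hφ).IsUnramifiedAt q := by
  intro P hP σ hσ
  let := φ.toAlgebra
  show (ρ.ρ σ).baseChange B = 1
  rw [h P hP σ hσ, LinearMap.baseChange_one]

theorem isUnipotentOnInertiaAt_baseChange {q : ℕ} (h : ρ.IsUnipotentOnInertiaAt q) :
    (ρ.baseChangeAlong φ hφ).IsUnipotentOnInertiaAt q := by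
  intro P hP σ hσ
  let := φ.toAlgebra
  show LinearMap.charpoly ((ρ.ρ σ).baseChange B) = _
  rw [LinearMap.charpoly_baseChange, h P hP σ hσ]
  simp

theorem detIsCyclotomic_baseChange (h : ρ.DetIsCyclotomic p) :
    (ρ.baseChangeAlong φ hφ).DetIsCyclotomic p := by
  refine ⟨?_, fun n σ a hσ => ?_⟩
  · rw [← map_natCast φ]
    exact (haveI := hφ; map_nonunit φ _ h.1)
  · let := φ.toAlgebra
    show LinearMap.det ((ρ.ρ σ).baseChange B) - _ ∈ _
    rw [LinearMap.det_baseChange]
    have := Ideal.mem_map_of_mem φ (h.2 n σ a hσ)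
    rw [Ideal.map_span, Set.image_singleton, map_natCast, map_sub, map_natCast] at this
    exact this

theorem isStrictOrdinaryAt_baseChange (h : ρ.IsStrictOrdinaryAt p) :
    (ρ.baseChangeAlong φ hφ).IsStrictOrdinaryAt p := by
  refine ⟨?_, fun P hP => ?_⟩
  · rw [← map_natCast φ]
    exact (haveI := hφ; map_nonunit φ _ h.1)
  let := φ.toAlgebra
  obtain ⟨L, ⟨b, hb⟩, hD, hI, hxz⟩ := h.2 P hP
  subst hb
  let b' : Basis (Fin 2) B (B ⊗[A] ρ.V) := Algebra.TensorProduct.basis B b
  have hb0 : b' 0 = (1 : B) ⊗ₜ[A] b 0 := Algebra.TensorProduct.basis_apply b 0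
  have hmem : ∀ (c : B) (v : ρ.V), v ∈ A ∙ b 0 → c ⊗ₜ[A] v ∈ B ∙ b' 0 := by
    intro c v hv
    obtain ⟨t, rfl⟩ := Submodule.mem_span_singleton.mp hv
    refine Submodule.mem_span_singleton.mpr ⟨c * φ t, ?_⟩
    rw [hb0, TensorProduct.smul_tmul', smul_eq_mul, mul_one, TensorProduct.tmul_smul,
      TensorProduct.smul_tmul', Algebra.smul_def, mul_comm]
    rfl
  refine ⟨B ∙ b' 0, ⟨b', rfl⟩, fun σ hσ v hv => ?_, fun σ hσ v => ?_, fun σ hσ => ?_⟩
  · obtain ⟨c, rfl⟩ := Submodule.mem_span_singleton.mp hv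
    show (ρ.ρ σ).baseChange B (c • b' 0) ∈ B ∙ b' 0
    rw [map_smul]
    refine Submodule.smul_mem _ _ ?_
    rw [show (ρ.ρ σ).baseChange B (b' 0) = (1 : B) ⊗ₜ[A] ρ.ρ σ (b 0) by
      rw [hb0, LinearMap.baseChange_tmul]]
    exact hmem 1 _ (hD σ hσ _ (Submodule.mem_span_singleton_self _))
  · change B ⊗[A] ρ.V at v
    show (ρ.ρ σ).baseChange B v - v ∈ B ∙ b' 0
    induction v using TensorProduct.induction_on with
    | zero => simp
    | tmul c w =>
      rw [LinearMap.baseChange_tmul, ← TensorProduct.tmul_sub]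
      exact hmem c _ (hI σ hσ w)
    | add x y hx hy =>
      rw [map_add, add_sub_add_comm]
      exact add_mem hx hy
  · obtain ⟨x, z, hx, hz, hchar⟩ := hxz σ hσ
    refine ⟨φ x, φ z, fun w hw => ?_, fun v => ?_, fun n a hn => ?_⟩
    · obtain ⟨c, rfl⟩ := Submodule.mem_span_singleton.mp hw
      show (ρ.ρ σ).baseChange B (c • b' 0) = φ x • c • b' 0
      rw [map_smul, hb0, LinearMap.baseChange_tmul, hx _ (Submodule.mem_span_singleton_self _),
        smul_comm (φ x) c, TensorProduct.tmul_smul]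
      congr 1
    · change B ⊗[A] ρ.V at v
      show (ρ.ρ σ).baseChange B v - φ z • v ∈ B ∙ b' 0
      induction v using TensorProduct.induction_on with
      | zero => simp
      | tmul c w =>
        have e : φ z • (c ⊗ₜ[A] w) = c ⊗ₜ[A] (z • w) := by
          rw [TensorProduct.tmul_smul, ← IsScalarTower.algebraMap_smul B z]
          rfl
        rw [LinearMap.baseChange_tmul, e, ← TensorProduct.tmul_sub]
        exact hmem c _ (hz w)
      | add u w hu hw =>
        rw [map_add, smul_add, add_sub_add_comm]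
        exact add_mem hu hw
    · have := Ideal.mem_map_of_mem φ (hchar n a hn)
      rw [Ideal.map_span, Set.image_singleton, map_natCast, map_sub, map_mul, map_natCast] at this
      exact this

theorem isFlatAt_baseChange (hsurj : Function.Surjective φ) (h : ρ.IsFlatAt p) :
    (ρ.baseChangeAlong φ hφ).IsFlatAt p := by
  let := φ.toAlgebra
  have := h.1
  have := hφ
  have : Finite (ResidueField B) := Finite.of_surjective (ResidueField.map φ) fun y => by
    obtain ⟨y, rfl⟩ := IsLocalRing.residue_surjective y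
    obtain ⟨x, rfl⟩ := hsurj y
    exact ⟨IsLocalRing.residue A x, ResidueField.map_residue _ _⟩
  refine isFlatAt_of_levelEnd fun I hI => ?_
  let J : Ideal A := I.comap φ
  have := hI
  have : Finite (A ⧸ J) := Finite.of_injective (Ideal.quotientMap I φ le_rfl)
    Ideal.quotientMap_injective
  have : Finite (ρ.V ⧸ (J • (⊤ : Submodule A ρ.V))) := Module.finite_of_finite (A ⧸ J)
  let f : ρ.V →+ ((ρ.baseChangeAlong φ hφ).V ⧸
      (I • (⊤ : Submodule B (ρ.baseChangeAlong φ hφ).V))) :=
    AddMonoidHom.mk' (fun v => Submodule.Quotient.mk ((1 : B) ⊗ₜ[A] v : B ⊗[A] ρ.V))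
      fun u v => by
        rw [TensorProduct.tmul_add]
        exact Submodule.Quotient.mk_add _
  have hf : (J • (⊤ : Submodule A ρ.V)).toAddSubgroup ≤ f.ker := by
    intro v hv
    refine Submodule.smul_induction_on (p := fun v => f v = 0) hv (fun a ha w _ => ?_)
      fun u w hu hw => by rw [map_add, hu, hw, add_zero]
    refine (Submodule.Quotient.mk_eq_zero _).mpr ?_
    rw [TensorProduct.tmul_smul, ← IsScalarTower.algebraMap_smul B a]
    exact Submodule.smul_mem_smul (show φ a ∈ I from ha) Submodule.mem_top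
  refine (hasFlatModel_levelEnd h J).of_surjective
    (QuotientAddGroup.lift _ f hf : ρ.V ⧸ (J • (⊤ : Submodule A ρ.V)) →+ _)
    (fun σ x => ?_) fun y => ?_
  · obtain ⟨v, rfl⟩ := Submodule.mkQ_surjective _ x
    rfl
  · obtain ⟨w, rfl⟩ := Submodule.mkQ_surjective _ y
    obtain ⟨v, hv⟩ : ∃ v : ρ.V, (1 : B) ⊗ₜ[A] v = w := by
      change B ⊗[A] ρ.V at w
      induction w using TensorProduct.induction_on with
      | zero => exact ⟨0, TensorProduct.tmul_zero _ _⟩
      | tmul c v =>
        obtain ⟨a, rfl⟩ := hsurj c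
        refine ⟨a • v, ?_⟩
        rw [TensorProduct.tmul_smul, TensorProduct.smul_tmul', Algebra.smul_def, mul_one]
        rfl
      | add u v hu hv =>
        obtain ⟨a, rfl⟩ := hu
        obtain ⟨c, rfl⟩ := hv
        exact ⟨a + c, TensorProduct.tmul_add _ _ _⟩
    exact ⟨Submodule.Quotient.mk v, by subst hv; rfl⟩

end FLTAgent.TWPrimes
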