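import Mathlib.Algebra.TrivSqZeroExt.Basic
import Fermat.Agent.DefRing.MatrixRep
import Fermat.Agent.LevelLowering.Tame
import Fermat.Agent.TWPrimes.AdRep
import Fermat.Agent.TWPrimes.LocalPlace
import Fermat.Agent.TWPrimes.LocalUnramified

/-!
# The class of a deformation to the dual numbers

A lift `M` of `r` to `k[ε]` is `(1 + ε c) r` with `c = liftClass r M`; properties of the lift
(determinant, strictness, unipotent inertia) become properties of the adjoint cocycle `c`.
Used by `Tangent`.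
-/

set_option autoImplicit false
set_option linter.unusedSectionVars false

open Matrix TrivSqZeroExt
open scoped Pointwise

noncomputable section

namespace FLTAgent.TWPrimes

open FLTAgent.Density FLTAgent.LocalDuality FLTAgent.DefRing

variable {k : Type} [Field k]

theorem map_snd_mul (N N' : Matrix (Fin 2) (Fin 2) (TrivSqZeroExt k k)) :
    (N * N').map snd = N.map fst * N'.map snd + N.map snd * N'.map fst := by
  ext i j
  simp only [Matrix.map_apply, Matrix.mul_apply, Matrix.add_apply, Fin.sum_univ_two, snd_add,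
    snd_mul, MulOpposite.smul_eq_mul_unop, MulOpposite.unop_op, smul_eq_mul]
  ring

theorem map_fst_mul (N N' : Matrix (Fin 2) (Fin 2) (TrivSqZeroExt k k)) :
    (N * N').map fst = N.map fst * N'.map fst := by
  ext i j
  simp only [Matrix.map_apply, Matrix.mul_apply, Fin.sum_univ_two, fst_add, fst_mul]

theorem map_fst_one : (1 : Matrix (Fin 2) (Fin 2) (TrivSqZeroExt k k)).map fst = 1 :=
  Matrix.map_one _ fst_zero fst_one

theorem map_snd_one : (1 : Matrix (Fin 2) (Fin 2) (TrivSqZeroExt k k)).map snd = 0 := by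
  ext i j
  by_cases h : i = j <;> simp [h]

theorem snd_det (N : Matrix (Fin 2) (Fin 2) (TrivSqZeroExt k k)) :
    N.det.snd = (N.map snd * (N.map fst).adjugate).trace := by
  rw [Matrix.det_fin_two, Matrix.trace_fin_two, Matrix.adjugate_fin_two]
  simp only [Matrix.mul_apply, Fin.sum_univ_two, Matrix.map_apply, snd_sub, snd_mul,
    MulOpposite.smul_eq_mul_unop, MulOpposite.unop_op, smul_eq_mul, Matrix.of_apply,
    Matrix.cons_val', Matrix.cons_val_zero, Matrix.cons_val_one, Matrix.empty_val',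
    Matrix.cons_val_fin_one]
  ring

variable (r : GalQ →* GL (Fin 2) k) (M : MatRep (TrivSqZeroExt k k))

/-- The class of a lift: `c` in `M = (1 + ε c) r`. -/
def liftClass (σ : GalQ) : Matrix (Fin 2) (Fin 2) k := (M σ).map snd * mat r σ⁻¹

variable {r M} (hfst : ∀ σ, (M σ).map fst = mat r σ)
include hfst

theorem liftClass_mul (σ τ : GalQ) :
    liftClass r M (σ * τ) = liftClass r M σ + adAct r σ (liftClass r M τ) := by
  have hτ : mat r τ * mat r τ⁻¹ = 1 := mat_mul_inv τ
  simp only [liftClass, map_mul, map_snd_mul, hfst, _root_.mul_inv_rev, mat_mul, adAct, add_mul]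
  rw [add_comm]
  congr 1
  · rw [mul_assoc ((M σ).map snd), ← mul_assoc (mat r τ), hτ, one_mul]
  · simp only [mul_assoc]

theorem liftClass_eq_zero {σ : GalQ} (hσ : M σ = 1) : liftClass r M σ = 0 := by
  rw [liftClass, hσ, map_snd_one, zero_mul]

theorem mat_eq_one {σ : GalQ} (hσ : M σ = 1) : r σ = 1 :=
  Units.ext (show mat r σ = 1 by rw [← hfst, hσ, map_fst_one])

theorem trace_liftClass {σ : GalQ} {a : ℕ} (ha : (M σ).det = (a : TrivSqZeroExt k k)) :
    (liftClass r M σ).trace = 0 := by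
  have h := snd_det (M σ)
  rw [ha, snd_natCast, hfst] at h
  have hadj : (mat r σ).adjugate = (mat r σ).det • mat r σ⁻¹ := by
    calc (mat r σ).adjugate = mat r σ⁻¹ * (mat r σ * (mat r σ).adjugate) := by
          rw [← mul_assoc, mat_inv_mul, one_mul]
      _ = _ := by rw [Matrix.mul_adjugate, Matrix.mul_smul, mul_one]
  rw [hadj, Matrix.mul_smul, Matrix.trace_smul, smul_eq_mul, eq_comm, mul_eq_zero] at h
  exact h.resolve_left (det_mat_ne_zero σ)

theorem isAdCocycleOn_liftClass (hdet : ∀ σ, ∃ a : ℕ, (M σ).det = (a : TrivSqZeroExt k k)) :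
    IsAdCocycleOn r (liftClass r M) :=
  ⟨fun σ => trace_liftClass hfst (hdet σ).choose_spec, fun σ τ => liftClass_mul hfst σ τ⟩

theorem isLevelConstant_liftClass
    (hfin : ∃ L : IntermediateField ℚ Qbar, FiniteDimensional ℚ L ∧
      ∀ σ : AbsGal, (∀ x ∈ L, σ x = x) → M σ = 1) :
    groupCohomology.IsLevelConstant₁ (MonoidHom.id GalQ) (liftClass r M) := by
  obtain ⟨L, hL, h⟩ := hfin
  refine ⟨L, hL, fun g s hs => ?_⟩
  show liftClass r M (g * s) = liftClass r M g
  rw [liftClass_mul hfst, liftClass_eq_zero hfst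
    (h s fun x hx => (IntermediateField.mem_fixingSubgroup_iff _ _).mp hs x hx)]
  simp [adAct]

theorem isAdCocycleOn_resLin (hdet : ∀ σ, ∃ a : ℕ, (M σ).det = (a : TrivSqZeroExt k k))
    (hfin : ∃ L : IntermediateField ℚ Qbar, FiniteDimensional ℚ L ∧
      ∀ σ : AbsGal, (∀ x ∈ L, σ x = x) → M σ = 1) (q : ℕ) [Fact q.Prime] :
    IsAdCocycleOn (locHom q r) (resLin q (liftClass r M)) ∧
      LocalLevel q (resLin q (liftClass r M)) := by
  have hco := isAdCocycleOn_liftClass hfst hdet
  obtain ⟨F, hF, hFc⟩ := isLevelConstant_liftClass hfst hfin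
  refine ⟨⟨fun g => hco.1 _, fun g h => ?_⟩, F, hF, fun g s hs => ?_⟩
  · show liftClass r M (toGlobal q (g * h)) = liftClass r M (toGlobal q g) +
      adAct (r.comp (toGlobal q)) g (liftClass r M (toGlobal q h))
    rw [map_mul, hco.2, adAct_comp]
  · show liftClass r M (toGlobal q (g * s)) = _
    rw [map_mul]
    exact hFc _ _ hs

/-! ### Strictly ordinary lifts -/

theorem strict_liftClass [NeZero (2 : k)] {σ : GalQ} (htr : (liftClass r M σ).trace = 0)
    (G : GL (Fin 2) (TrivSqZeroExt k k)) (g : GL (Fin 2) k)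
    (hG : (G : Matrix (Fin 2) (Fin 2) (TrivSqZeroExt k k)).map fst = g)
    (h10 : ((G : Matrix (Fin 2) (Fin 2) (TrivSqZeroExt k k)) * M σ *
      (G⁻¹ : GL (Fin 2) (TrivSqZeroExt k k))) 1 0 = 0)
    (a : ℕ) (h00 : ((G : Matrix (Fin 2) (Fin 2) (TrivSqZeroExt k k)) * M σ *
      (G⁻¹ : GL (Fin 2) (TrivSqZeroExt k k))) 0 0 = a *
      ((G : Matrix (Fin 2) (Fin 2) (TrivSqZeroExt k k)) * M σ *
        (G⁻¹ : GL (Fin 2) (TrivSqZeroExt k k))) 1 1)
    (m : Matrix (Fin 2) (Fin 2) k)
    (hm : ∃ t : k, m = ((g⁻¹ : GL (Fin 2) k) : Matrix (Fin 2) (Fin 2) k) *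
      (G : Matrix (Fin 2) (Fin 2) (TrivSqZeroExt k k)).map snd +
        t • (1 : Matrix (Fin 2) (Fin 2) k)) :
    ((g : Matrix (Fin 2) (Fin 2) k) * (liftClass r M σ - (adAct r σ m - m)) *
      (g⁻¹ : GL (Fin 2) k)) 1 0 = 0 ∧
    ((g : Matrix (Fin 2) (Fin 2) k) * (liftClass r M σ - (adAct r σ m - m)) *
      (g⁻¹ : GL (Fin 2) k)) 0 0 = 0 := by
  obtain ⟨t, rfl⟩ := hm
  set Gm := (G : Matrix (Fin 2) (Fin 2) (TrivSqZeroExt k k))
  set h := Gm.map snd
  set g₀ := (g : Matrix (Fin 2) (Fin 2) k) with hg₀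
  set g₁ := ((g⁻¹ : GL (Fin 2) k) : Matrix (Fin 2) (Fin 2) k) with hg₁
  have e01 : g₀ * g₁ = 1 := by rw [hg₀, hg₁, ← Units.val_mul, mul_inv_cancel, Units.val_one]
  have e10 : g₁ * g₀ = 1 := by rw [hg₀, hg₁, ← Units.val_mul, inv_mul_cancel, Units.val_one]
  set N := Gm * M σ * (G⁻¹ : GL (Fin 2) (TrivSqZeroExt k k)) with hN
  have hNG : N * Gm = Gm * M σ := by
    rw [hN, mul_assoc, ← Units.val_mul, inv_mul_cancel, Units.val_one, mul_one]
  set R := g₀ * mat r σ * g₁ with hR
  have hNf : N.map fst = R := by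
    have h1 := congrArg (fun X : Matrix (Fin 2) (Fin 2) (TrivSqZeroExt k k) => X.map fst * g₁) hNG
    simp only [map_fst_mul, hG, hfst, mul_assoc, e01, mul_one] at h1
    rw [h1, hR, mul_assoc]
  set E := g₀ * (liftClass r M σ -
    (adAct r σ (g₁ * h + t • 1) - (g₁ * h + t • 1))) * g₁ with hE
  have hNs : N.map snd = E * R := by
    have h1 := congrArg (fun X : Matrix (Fin 2) (Fin 2) (TrivSqZeroExt k k) => X.map snd * g₁) hNG
    simp only [map_snd_mul, hG, hfst, hNf, add_mul, mul_assoc, e01, mul_one] at h1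
    rw [eq_sub_iff_add_eq'.mpr h1]
    have ht : adAct r σ (t • (1 : Matrix (Fin 2) (Fin 2) k)) = t • 1 := by
      simp [adAct, mat_mul_inv]
    rw [hE, hR, adAct_add, ht, liftClass, adAct]
    simp only [mul_sub, sub_mul, mul_add, add_mul, mul_assoc]
    simp only [← mul_assoc g₁ g₀, ← mul_assoc g₀ g₁, ← mul_assoc (mat r σ⁻¹) (mat r σ), e10, e01,
      mat_inv_mul, one_mul]
    abel
  have hdetR : R 0 0 * R 1 1 - R 0 1 * R 1 0 ≠ 0 := by
    rw [← Matrix.det_fin_two, hR, Matrix.det_mul, Matrix.det_mul]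
    exact mul_ne_zero (mul_ne_zero g.det_ne_zero (det_mat_ne_zero σ)) (g⁻¹).det_ne_zero
  have hR10 : R 1 0 = 0 := by
    rw [← hNf, Matrix.map_apply, h10, fst_zero]
  have hR00 : R 0 0 = a * R 1 1 := by
    rw [← hNf, Matrix.map_apply, Matrix.map_apply, h00, fst_mul, fst_natCast]
  have hR00' : R 0 0 ≠ 0 := fun h0 => hdetR (by rw [h0, hR10]; ring)
  have hs : ∀ i j, (N i j).snd = E i 0 * R 0 j + E i 1 * R 1 j := fun i j => by
    have := congr_fun (congr_fun hNs i) j
    rw [Matrix.map_apply, Matrix.mul_apply, Fin.sum_univ_two] at this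
    exact this
  have hE10 : E 1 0 = 0 := by
    have h1 := hs 1 0
    rw [h10, snd_zero, hR10, mul_zero, add_zero, eq_comm, mul_eq_zero] at h1
    exact h1.resolve_right hR00'
  refine ⟨hE10, ?_⟩
  have hdiag : E 0 0 = E 1 1 := by
    have h1 := hs 0 0
    rw [h00, snd_mul, fst_natCast, snd_natCast, MulOpposite.smul_eq_mul_unop, MulOpposite.unop_op,
      zero_mul, add_zero, smul_eq_mul, hs 1 1, hE10, hR10, mul_zero, add_zero, zero_mul, zero_add,
      ← mul_left_comm, ← hR00] at h1
    exact mul_right_cancel₀ hR00' h1.symm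
  have htrE : E 0 0 + E 1 1 = 0 := by
    rw [← Matrix.trace_fin_two, hE, Matrix.trace_mul_cycle, e10, one_mul, Matrix.trace_sub,
      Matrix.trace_sub, trace_adAct, htr, sub_self, sub_zero]
  rw [← hdiag, ← two_mul, mul_eq_zero] at htrE
  exact htrE.resolve_left two_ne_zero

/-! ### Unipotent lifts -/

omit hfst in
theorem exists_commutator_eq [NeZero (2 : k)] {R D : Matrix (Fin 2) (Fin 2) k} (hR : R.trace = 2)
    (hR' : R.det = 1) (hR1 : R ≠ 1) (hD : D.trace = 0) (hdet : (D * R.adjugate).trace = 0) :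
    ∃ m : Matrix (Fin 2) (Fin 2) k, m.trace = 0 ∧ R * m - m * R = D := by
  rw [Matrix.trace_fin_two] at hR hD
  rw [Matrix.det_fin_two] at hR'
  rw [Matrix.adjugate_fin_two, Matrix.trace_fin_two] at hdet
  simp [Matrix.mul_apply, Fin.sum_univ_two] at hdet
  have h2 : (2 : k) ≠ 0 := two_ne_zero
  suffices ∃ a b c : k, R 0 1 * c - b * R 1 0 = D 0 0 ∧
      (R 0 0 - R 1 1) * b - 2 * R 0 1 * a = D 0 1 ∧
      2 * R 1 0 * a - (R 0 0 - R 1 1) * c = D 1 0 by
    obtain ⟨a, b, c, e00, e01, e10⟩ := this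
    refine ⟨!![a, b; c, -a], by simp [Matrix.trace_fin_two], ?_⟩
    ext i j
    rw [Matrix.sub_apply, Matrix.mul_apply, Matrix.mul_apply, Fin.sum_univ_two, Fin.sum_univ_two]
    fin_cases i <;> fin_cases j <;> simp
    · linear_combination e00
    · linear_combination e01
    · linear_combination e10
    · linear_combination -e00 - hD
  by_cases hb : R 0 1 = 0
  · rw [hb] at hdet hR' ⊢
    by_cases he : R 1 0 = 0
    · refine absurd ?_ hR1
      rw [he] at hR'
      have h11 : (R 0 0 - 1) ^ 2 = 0 := by linear_combination R 0 0 * hR - hR'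
      rw [sq_eq_zero_iff, sub_eq_zero] at h11
      ext i j
      fin_cases i <;> fin_cases j <;> simp [hb, he, h11]
      linear_combination hR - h11
    refine ⟨D 1 0 / (2 * R 1 0), -D 0 0 / R 1 0, 0, ?_, ?_, ?_⟩ <;> field_simp
    · ring
    · linear_combination hdet - R 0 0 * hD
    · ring
  refine ⟨-D 0 1 / (2 * R 0 1), 0, D 0 0 / R 0 1, ?_, ?_, ?_⟩ <;> field_simp
  · ring
  · ring
  · linear_combination hdet - R 0 0 * hD

omit hfst in
theorem pow_eq_one_of_unipotent {A : Type} [CommRing A] {p : ℕ} (hp : (p : A) = 0)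
    {N : Matrix (Fin 2) (Fin 2) A} (htr : N.trace = 2) (hdet : N.det = 1) : N ^ p = 1 := by
  have hsq : (N - 1) * (N - 1) = 0 := by
    rw [Matrix.trace_fin_two] at htr
    rw [Matrix.det_fin_two] at hdet
    ext i j
    fin_cases i <;> fin_cases j <;> simp [Matrix.mul_apply, Fin.sum_univ_two]
    · linear_combination N 0 0 * htr - hdet
    · linear_combination N 0 1 * htr
    · linear_combination N 1 0 * htr
    · linear_combination N 1 1 * htr - hdet
  have key : ∀ n : ℕ, N ^ n = 1 + n • (N - 1) := by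
    intro n
    induction n with
    | zero => simp
    | succ n ih =>
      have hY : (N - 1) * N = N - 1 := by
        have := hsq
        rw [mul_sub, mul_one, sub_eq_zero] at this
        exact this
      rw [pow_succ, ih, add_mul, one_mul, smul_mul_assoc, hY, succ_nsmul]
      abel
  rw [key, ← Nat.cast_smul_eq_nsmul A, hp, zero_smul, add_zero]

theorem unipotent_liftClass [NeZero (2 : k)] {p : ℕ} [Fact p.Prime] [CharP k p] {q : ℕ}
    [Fact q.Prime] (hqp : q ≠ p)
    (hdet : ∀ σ, ∃ a : ℕ, (M σ).det = (a : TrivSqZeroExt k k))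
    (hfin : ∃ L : IntermediateField ℚ Qbar, FiniteDimensional ℚ L ∧
      ∀ σ : AbsGal, (∀ x ∈ L, σ x = x) → M σ = 1)
    (hunip : ∀ σ ∈ (padicPlace q).inertiaSubgroupIn ℚ, (M σ).trace = 2 ∧ (M σ).det = 1)
    (hram : ∃ σ ∈ (padicPlace q).inertiaSubgroupIn ℚ, r σ ≠ 1) :
    IsUnramifiedClass q r (resLin q (liftClass r M)) := by
  have hco := isAdCocycleOn_liftClass hfst hdet
  refine ⟨(isAdCocycleOn_resLin hfst hdet hfin q).1, (isAdCocycleOn_resLin hfst hdet hfin q).2, ?_⟩
  have hp0 : (p : TrivSqZeroExt k k) = 0 := by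
    ext <;> simp [CharP.cast_eq_zero]
  obtain ⟨x, hx, τ, hτ, hτx⟩ :=
    LevelLowering.exists_tame_element (p := p) Fact.out Fact.out (padicPlace_liesOverPrime q)
  obtain ⟨L, hL, hL1⟩ := hfin
  have := hL
  let π : GalQ →* (Matrix (Fin 2) (Fin 2) (TrivSqZeroExt k k))ˣ := M.toHomUnits
  obtain ⟨hgen, -⟩ := LevelLowering.tame_generator (p := p) (r := q) Fact.out Fact.out hqp
    (padicPlace_liesOverPrime q) hx hτ hτx π L (fun σ hσ => Units.ext (hL1 σ hσ)) 1
    (fun σ hσ => Units.ext (by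
      rw [pow_one, Units.val_pow_eq_pow_val]
      exact pow_eq_one_of_unipotent hp0 (hunip σ hσ).1 (hunip σ hσ).2))
  have hker : ∀ σ, π σ = 1 → M σ = 1 := fun σ h => congrArg Units.val h
  have hτ1 : mat r τ ≠ 1 := by
    intro h1
    obtain ⟨σ, hσ, hne⟩ := hram
    obtain ⟨j, hj⟩ := hgen σ hσ
    have h2 : M ((τ ^ j)⁻¹ * σ) = 1 :=
      hker _ (by rw [map_mul, map_inv, map_zpow, hj, inv_mul_cancel])
    have h3 := mat_eq_one hfst h2
    rw [map_mul, map_inv, map_zpow, show r τ = 1 from Units.ext h1, _root_.one_zpow, inv_one,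
      one_mul] at h3
    exact hne h3
  obtain ⟨htr, hd⟩ := hunip τ hτ
  obtain ⟨m, hm, hmD⟩ := exists_commutator_eq (R := mat r τ) (D := (M τ).map snd)
    (by
      have h := congrArg fst htr
      rw [← hfst, Matrix.trace_fin_two, Matrix.map_apply, Matrix.map_apply]
      rw [Matrix.trace_fin_two, fst_add] at h
      rw [h]
      simp [← one_add_one_eq_two, fst_add])
    (by
      have h := congrArg fst hd
      rw [Matrix.det_fin_two, fst_sub, fst_mul, fst_mul, fst_one] at h
      rw [← hfst, Matrix.det_fin_two]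
      simpa using h)
    hτ1
    (by
      have h := congrArg snd htr
      rw [Matrix.trace_fin_two, snd_add] at h
      rw [Matrix.trace_fin_two, Matrix.map_apply, Matrix.map_apply, h]
      simp [← one_add_one_eq_two, snd_add])
    (by
      have h := snd_det (M τ)
      rw [hd, snd_one, hfst] at h
      exact h.symm)
  let K : Subgroup GalQ :=
    { carrier := {g | liftClass r M g = adAct r g m - m}
      one_mem' := by simp [hco.map_one, adAct_one]
      mul_mem' := fun {a b} ha hb => by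
        show liftClass r M (a * b) = _
        rw [hco.2, show liftClass r M a = _ from ha, show liftClass r M b = _ from hb, adAct_mul]
        simp only [adAct, mul_sub, sub_mul]
        abel
      inv_mem' := fun {a} ha => by
        show liftClass r M a⁻¹ = _
        have h := hco.2 a⁻¹ a
        rw [inv_mul_cancel, hco.map_one, show liftClass r M a = _ from ha] at h
        rw [eq_neg_of_add_eq_zero_left h.symm, show adAct r a⁻¹ (adAct r a m - m) =
            adAct r a⁻¹ (adAct r a m) - adAct r a⁻¹ m by simp [adAct, mul_sub, sub_mul],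
          ← adAct_mul, inv_mul_cancel, adAct_one]
        abel }
  have hτK : τ ∈ K := by
    show liftClass r M τ = _
    rw [liftClass, ← hmD, adAct, sub_mul, mul_assoc m, mat_mul_inv, mul_one]
  refine ⟨m, hm, fun u hu => ?_⟩
  show liftClass r M (toGlobal q u) = _
  rw [locHom, adAct_comp]
  obtain ⟨j, hj⟩ := hgen _ ((isLocalInertia_iff q u).mp hu)
  have h2 : M ((τ ^ j)⁻¹ * toGlobal q u) = 1 :=
    hker _ (by rw [map_mul, map_inv, map_zpow, hj, inv_mul_cancel])
  have h3 : (τ ^ j)⁻¹ * toGlobal q u ∈ K := by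
    show liftClass r M _ = _
    rw [liftClass_eq_zero hfst h2]
    have h4 := mat_eq_one hfst h2
    simp only [adAct, mat, map_inv, h4, inv_one, Units.val_one, one_mul, mul_one, sub_self]
  have := K.mul_mem (K.zpow_mem hτK j) h3
  rwa [mul_inv_cancel_left] at this

end FLTAgent.TWPrimes
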