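import Mathlib.RingTheory.AdicCompletion.Functoriality
import Mathlib.RingTheory.AdicCompletion.Algebra
import Mathlib.RingTheory.AdicCompletion.RingHom
import Mathlib.RingTheory.Nakayama
import Mathlib.LinearAlgebra.Dual.Lemmas
import Mathlib.LinearAlgebra.Dimension.StrongRankCondition
import Fermat.Agent.DefRing.PowerSeries

/-!
# Generators of a complete local algebra from residual derivations

If the derivations to the residue field over the coefficient ring form a space of dimension at
most `r`, the algebra is a quotient of a power series ring in `r` variables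
(`exists_surjective_mvPowerSeries`). Used by `Tangent`.
-/

set_option autoImplicit false

open IsLocalRing Module

noncomputable section

namespace FLTAgent.TWPrimes

open FLTAgent.DefRing

variable {O : Type} [CommRing O] [IsLocalRing O] {R : Type} [CommRing R] [IsLocalRing R]
  [Algebra O R] [IsLocalHom (algebraMap O R)]

theorem bijective_residueMap (hs : Function.Surjective (IsLocalRing.residue R ∘ algebraMap O R)) :
    Function.Bijective (ResidueField.map (algebraMap O R)) := by
  refine ⟨RingHom.injective _, fun y => ?_⟩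
  obtain ⟨c, rfl⟩ := hs y
  exact ⟨IsLocalRing.residue O c, ResidueField.map_residue _ _⟩

variable (hs : Function.Surjective (IsLocalRing.residue R ∘ algebraMap O R))

/-- The residue map to the residue field of the coefficient ring. -/
def resMap : R →ₐ[O] ResidueField O where
  toRingHom := (RingEquiv.ofBijective _ (bijective_residueMap hs)).symm.toRingHom.comp
    (IsLocalRing.residue R)
  commutes' c := by
    show (RingEquiv.ofBijective _ (bijective_residueMap hs)).symm _ = IsLocalRing.residue O c
    rw [RingEquiv.symm_apply_eq]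
    exact (ResidueField.map_residue _ _).symm

theorem map_resMap (x : R) :
    ResidueField.map (algebraMap O R) (resMap hs x) = IsLocalRing.residue R x :=
  (RingEquiv.ofBijective _ (bijective_residueMap hs)).apply_symm_apply _

theorem resMap_eq_zero_iff (x : R) : resMap hs x = 0 ↔ x ∈ maximalIdeal R := by
  rw [← residue_eq_zero_iff, ← map_resMap hs x]
  exact (map_eq_zero_iff _ (RingHom.injective _)).symm

/-- Derivations to the residue field over the coefficient ring. -/
def resDer : Submodule (ResidueField O) (R →ₗ[O] ResidueField O) where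
  carrier := {D | ∀ a b, D (a * b) = resMap hs a * D b + D a * resMap hs b}
  zero_mem' a b := by simp
  add_mem' {D D'} hD hD' a b := by
    simp only [LinearMap.add_apply, hD a b, hD' a b]; ring
  smul_mem' c D hD a b := by
    simp only [LinearMap.smul_apply, hD a b, smul_eq_mul]; ring

theorem mem_resDer_iff {D : R →ₗ[O] ResidueField O} :
    D ∈ resDer hs ↔ ∀ a b, D (a * b) = resMap hs a * D b + D a * resMap hs b := Iff.rfl

/-- An element of the maximal ideal killed by no derivation lies in the given ideal. -/
theorem mem_of_forall_resDer {J : Ideal R} (hJ : J ≤ maximalIdeal R)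
    (hsq : maximalIdeal R ^ 2 ≤ J) (hO : (maximalIdeal O).map (algebraMap O R) ≤ J) {y : R}
    (hy : y ∈ maximalIdeal R)
    (h : ∀ D ∈ resDer hs, (∀ x ∈ J, D x = 0) → D y = 0) : y ∈ J := by
  by_contra hyJ
  -- the quotient as a vector space
  have hlift : ∀ c ∈ maximalIdeal O, (Ideal.Quotient.mk J).comp (algebraMap O R) c = 0 :=
    fun c hc => Ideal.Quotient.eq_zero_iff_mem.mpr (hO (Ideal.mem_map_of_mem _ hc))
  let algk : Algebra (ResidueField O) (R ⧸ J) :=
    (Ideal.Quotient.lift (maximalIdeal O) ((Ideal.Quotient.mk J).comp (algebraMap O R))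
      hlift).toAlgebra
  have : IsScalarTower O (ResidueField O) (R ⧸ J) :=
    IsScalarTower.of_algebraMap_eq fun c => rfl
  have hnot : Ideal.Quotient.mk J y ∉ Submodule.span (ResidueField O) {(1 : R ⧸ J)} := by
    intro hmem
    obtain ⟨c, hc⟩ := Submodule.mem_span_singleton.mp hmem
    obtain ⟨c, rfl⟩ := IsLocalRing.residue_surjective c
    rw [← IsLocalRing.ResidueField.algebraMap_eq, IsScalarTower.algebraMap_smul,
      ← Algebra.algebraMap_eq_smul_one, ← Ideal.Quotient.mk_algebraMap, Ideal.Quotient.eq] at hc
    have hcm : algebraMap O R c ∈ maximalIdeal R := by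
      have := add_mem (hJ hc) hy
      rwa [sub_add_cancel] at this
    have hcO : c ∈ maximalIdeal O := fun hu => hcm (hu.map _)
    refine hyJ ?_
    have := sub_mem (hO (Ideal.mem_map_of_mem _ hcO)) hc
    rwa [sub_sub_cancel] at this
  obtain ⟨ℓ, hℓy, hℓ1⟩ := Submodule.exists_dual_map_eq_bot_of_notMem hnot inferInstance
  have h1 : ℓ 1 = 0 := (Submodule.mem_bot _).mp
    (hℓ1 ▸ Submodule.mem_map_of_mem (Submodule.mem_span_singleton_self _))
  let D : R →ₗ[O] ResidueField O :=
    (ℓ.restrictScalars O) ∘ₗ (Ideal.Quotient.mkₐ O J).toLinearMap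
  have hDapp : ∀ x, D x = ℓ (Ideal.Quotient.mk J x) := fun x => rfl
  have hD : D ∈ resDer hs := by
    intro a b
    obtain ⟨c, hc⟩ := hs (IsLocalRing.residue R a)
    obtain ⟨c', hc'⟩ := hs (IsLocalRing.residue R b)
    rw [Function.comp_apply, eq_comm, ← sub_eq_zero, ← map_sub, residue_eq_zero_iff] at hc hc'
    set n := a - algebraMap O R c with hn
    set n' := b - algebraMap O R c' with hn'
    have ha : a = algebraMap O R c + n := by rw [hn]; ring
    have hb : b = algebraMap O R c' + n' := by rw [hn']; ring
    have hD1 : ∀ e : O, D (algebraMap O R e) = 0 := fun e => by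
      rw [Algebra.algebraMap_eq_smul_one, map_smul, hDapp, map_one, h1, smul_zero]
    have hDn : D (n * n') = 0 := by
      rw [hDapp, Ideal.Quotient.eq_zero_iff_mem.mpr
        (hsq (by rw [pow_two]; exact Ideal.mul_mem_mul hc hc')), map_zero]
    have hπ : ∀ e x, x ∈ maximalIdeal R →
        resMap hs (algebraMap O R e + x) = algebraMap O (ResidueField O) e := fun e x hx => by
      rw [map_add, AlgHom.commutes, (resMap_eq_zero_iff hs x).mpr hx, add_zero]
    rw [ha, hb, hπ c n hc, hπ c' n' hc', show (algebraMap O R c + n) * (algebraMap O R c' + n') =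
      algebraMap O R (c * c') + c • n' + c' • n + n * n' by
        simp only [Algebra.smul_def, map_mul]; ring]
    simp only [map_add, map_smul, hD1, hDn, zero_add, add_zero]
    simp only [Algebra.smul_def]
    ring
  refine hℓy (h D hD fun x hx => ?_)
  rw [hDapp, Ideal.Quotient.eq_zero_iff_mem.mpr hx, map_zero]

variable [IsNoetherianRing R] [IsAdicComplete (maximalIdeal R) R]
  [IsPrecomplete (maximalIdeal O) O]

include hs in
/-- The algebra is a quotient of the power series ring in `r` variables. -/
theorem exists_surjective_mvPowerSeries (r : ℕ) {W : Type} [AddCommGroup W]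
    [Module (ResidueField O) W] [Module.Finite (ResidueField O) W]
    (ι : resDer hs →ₗ[ResidueField O] W) (hι : Function.Injective ι)
    (hr : finrank (ResidueField O) W ≤ r) :
    ∃ γ : MvPowerSeries (Fin r) O →ₐ[O] R, Function.Surjective γ := by
  classical
  let back : LinearMap.range ι →ₗ[ResidueField O] resDer hs :=
    (LinearEquiv.ofInjective ι hι).symm.toLinearMap
  have hback : ∀ D, back ⟨ι D, LinearMap.mem_range_self ι D⟩ = D := fun D =>
    (LinearEquiv.ofInjective ι hι).symm_apply_apply D
  let ev : R → Module.Dual (ResidueField O) (LinearMap.range ι) := fun x =>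
    { toFun := fun w => (back w).1 x
      map_add' := fun v w => by rw [map_add]; rfl
      map_smul' := fun a w => by rw [map_smul]; rfl }
  have : Module.Finite (ResidueField O)
      (Submodule.span (ResidueField O) (ev '' (maximalIdeal R : Set R))) :=
    Submodule.finiteDimensional_of_le (S₂ := ⊤) le_top
  obtain ⟨f, hfm, hfspan, -⟩ :=
    Submodule.exists_fun_fin_finrank_span_eq (ResidueField O) (ev '' (maximalIdeal R : Set R))
  choose x hxm hx using hfm
  have hle : finrank (ResidueField O)
      (Submodule.span (ResidueField O) (ev '' (maximalIdeal R : Set R))) ≤ r :=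
    (Submodule.finrank_le _).trans (Subspace.dual_finrank_eq.trans_le
      ((Submodule.finrank_le _).trans hr))
  let a : Fin r → R := fun i => if h : (i : ℕ) < _ then x ⟨i, h⟩ else 0
  have ha : ∀ i, a i ∈ maximalIdeal R := fun i => by
    simp only [a]
    split
    · exact hxm _
    · exact zero_mem _
  set J := Ideal.span (Set.range a) ⊔ (maximalIdeal O).map (algebraMap O R) with hJ
  have hJm : J ≤ maximalIdeal R := sup_le
    (Ideal.span_le.mpr (by rintro _ ⟨i, rfl⟩; exact ha i))
    (Ideal.map_le_iff_le_comap.mpr fun c hc => Ideal.mem_comap.mpr (map_nonunit _ c hc))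
  have hgen : maximalIdeal R ≤ J ⊔ maximalIdeal R • maximalIdeal R := by
    rw [smul_eq_mul, ← pow_two]
    intro y hy
    refine mem_of_forall_resDer hs (sup_le hJm (Ideal.pow_le_self two_ne_zero)) le_sup_right
      (le_sup_of_le_left le_sup_right) hy fun D hD hvan => ?_
    have hmem : ev y ∈ Submodule.span (ResidueField O) (Set.range f) := by
      rw [hfspan]; exact Submodule.subset_span ⟨y, hy, rfl⟩
    have hker : Submodule.span (ResidueField O) (Set.range f) ≤
        LinearMap.ker (Module.Dual.eval (ResidueField O) _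
          (⟨ι ⟨D, hD⟩, LinearMap.mem_range_self ι _⟩ : LinearMap.range ι)) := by
      rw [Submodule.span_le]
      rintro _ ⟨i, rfl⟩
      rw [SetLike.mem_coe, LinearMap.mem_ker, ← hx i]
      show (back _).1 (x i) = 0
      rw [hback]
      refine hvan _ (Ideal.mem_sup_left (Ideal.mem_sup_left ?_))
      exact Ideal.subset_span ⟨⟨i, lt_of_lt_of_le i.2 hle⟩, dif_pos i.2⟩
    have h0 : (back ⟨ι ⟨D, hD⟩, LinearMap.mem_range_self ι _⟩).1 y = 0 := hker hmem
    rwa [hback] at h0
  have hmJ : maximalIdeal R ≤ J :=
    Submodule.le_of_le_smul_of_le_jacobson_bot (IsNoetherian.noetherian _)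
      (IsLocalRing.maximalIdeal_le_jacobson ⊥) hgen
  -- evaluation
  have hmI : ∀ n, (maximalIdeal R).map (Ideal.Quotient.mk (maximalIdeal R ^ n)) ^ n = ⊥ :=
    fun n => by rw [← Ideal.map_pow, Ideal.map_quotient_self]
  let F : ∀ n, MvPowerSeries (Fin r) O →ₐ[O] R ⧸ maximalIdeal R ^ n := fun n =>
    evalNilp _ n (hmI n) (fun i => Ideal.Quotient.mk _ (a i))
      (fun i => Ideal.mem_map_of_mem _ (ha i))
  have hFX : ∀ n i, F n (MvPowerSeries.X i) = Ideal.Quotient.mk _ (a i) :=
    fun n i => evalNilp_X _ _ _ _ _ i
  have hF : ∀ {m n : ℕ} (h : m ≤ n),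
      (Ideal.Quotient.factorₐ O (Ideal.pow_le_pow_right h)).comp (F n) = F m := by
    intro m n h
    have : IsHausdorff ((maximalIdeal R).map (Ideal.Quotient.mk (maximalIdeal R ^ m)))
        (R ⧸ maximalIdeal R ^ m) := ⟨fun z hz => by
      have := hz m
      rw [SModEq.zero, hmI m, Submodule.bot_smul, Submodule.mem_bot] at this
      exact this⟩
    refine algHom_ext_of_hausdorff
      ((maximalIdeal R).map (Ideal.Quotient.mk (maximalIdeal R ^ m))) _ _ ?_ ?_
    · intro i
      rw [AlgHom.comp_apply, hFX]
      exact Ideal.mem_map_of_mem _ (ha i)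
    · intro i
      rw [AlgHom.comp_apply, hFX, hFX]
      rfl
  let γ : MvPowerSeries (Fin r) O →ₐ[O] R := IsAdicComplete.liftAlgHom (maximalIdeal R) F hF
  have hγX : ∀ i, γ (MvPowerSeries.X i) = a i := fun i => by
    rw [← sub_eq_zero]
    refine IsHausdorff.haus (I := maximalIdeal R) inferInstance _ fun n => ?_
    rw [SModEq.zero, smul_eq_mul, Ideal.mul_top, ← Ideal.Quotient.eq_zero_iff_mem, map_sub,
      IsAdicComplete.mk_liftAlgHom (maximalIdeal R) F hF n, hFX, sub_self]
  refine ⟨γ, ?_⟩
  have hmap : (maximalIdeal (MvPowerSeries (Fin r) O)).map (γ : _ →+* R) = maximalIdeal R := by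
    refine le_antisymm (Ideal.map_le_iff_le_comap.mpr fun p hp => Ideal.mem_comap.mpr ?_)
      (hmJ.trans (sup_le (Ideal.span_le.mpr ?_) (Ideal.map_le_iff_le_comap.mpr fun c hc => ?_)))
    · have hp0 : MvPowerSeries.constantCoeff p ∈ maximalIdeal O :=
        (mem_maximalIdeal_iff_constantCoeff p).mp hp
      have hsub : p - algebraMap O _ (MvPowerSeries.constantCoeff p) ∈
          Ideal.span (Set.range (MvPowerSeries.X : Fin r → MvPowerSeries (Fin r) O)) ^ 1 := by
        refine mem_span_X_pow fun z hz => ?_
        obtain rfl : z = 0 := (Finsupp.degree_eq_zero_iff z).mp (by omega)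
        simp [MvPowerSeries.algebraMap_apply]
      have h1 := mem_pow_of_algHom (maximalIdeal R) γ (fun i => hγX i ▸ ha i) 1 _ hsub
      rw [pow_one, map_sub, AlgHom.commutes] at h1
      have h2 := add_mem h1 (map_nonunit (algebraMap O R) _ hp0)
      rwa [sub_add_cancel] at h2
    · rintro _ ⟨i, rfl⟩
      rw [← hγX i]
      exact Ideal.mem_map_of_mem _ (X_mem_maximalIdeal i)
    · rw [Ideal.mem_comap, ← γ.commutes]
      exact Ideal.mem_map_of_mem _ (map_nonunit _ c hc)
  have : IsHausdorff ((maximalIdeal (MvPowerSeries (Fin r) O)).map (γ : _ →+* R)) R := by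
    rw [hmap]; infer_instance
  refine surjective_of_mk_map_comp_surjective (I := maximalIdeal (MvPowerSeries (Fin r) O))
    (γ : _ →+* R) fun z => ?_
  obtain ⟨y, rfl⟩ := Ideal.Quotient.mk_surjective z
  obtain ⟨c, hc⟩ := hs (IsLocalRing.residue R y)
  refine ⟨algebraMap O _ c, ?_⟩
  rw [Function.comp_apply, ← sub_eq_zero, ← map_sub, residue_eq_zero_iff] at hc
  show Ideal.Quotient.mk _ (γ (algebraMap O _ c)) = _
  rw [AlgHom.commutes, Ideal.Quotient.eq, hmap]
  exact hc

end FLTAgent.TWPrimes
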