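import Mathlib.RingTheory.DualNumber
import Mathlib.RingTheory.Artinian.Module
import Fermat.Prelude.Def_GaloisRep_DeformationRingData
import Fermat.Agent.TWPrimes.Generators
import Fermat.Agent.TWPrimes.BaseChange
import Fermat.Agent.TWPrimes.Derivation
import Fermat.Agent.TWPrimes.Frame

/-!
# The tangent space of a deformation ring as adjoint classes

Residual derivations of the deformation ring give lifts to the dual numbers (`derLift`) and an
injective map `derClass` to adjoint cocycles, strict or flat at `p` when the problem is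
(`strict_derClass`, `flat_derClass`). Used by `Assembly`.
-/

set_option autoImplicit false
set_option linter.unusedSectionVars false

open Matrix IsLocalRing Module
open TrivSqZeroExt (inl inr)
open scoped Pointwise TensorProduct

noncomputable section

namespace FLTAgent.TWPrimes

open FLTAgent.DefRing FLTAgent.Density FLTAgent.LocalDuality

local notation "Eps" k => TrivSqZeroExt k k

section DualNumbers

variable {k : Type} [Field k]

theorem isLocalRing_dual : IsLocalRing (Eps k) := by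
  refine IsLocalRing.of_isUnit_or_isUnit_one_sub_self fun x => ?_
  by_cases h : x.fst = 0
  · exact Or.inr (TrivSqZeroExt.isUnit_iff_isUnit_fst.mpr (by simp [h]))
  · exact Or.inl (TrivSqZeroExt.isUnit_iff_isUnit_fst.mpr (isUnit_iff_ne_zero.mpr h))

instance finite_dual [Finite k] : Finite (Eps k) := inferInstanceAs (Finite (k × k))

theorem mem_maximalIdeal_dual [IsLocalRing (Eps k)] (x : Eps k) :
    x ∈ maximalIdeal (Eps k) ↔ x.fst = 0 := by
  rw [IsLocalRing.mem_maximalIdeal, mem_nonunits_iff, TrivSqZeroExt.isUnit_iff_isUnit_fst,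
    isUnit_iff_ne_zero, not_not]

theorem isAdicComplete_dual [IsLocalRing (Eps k)] :
    IsAdicComplete (maximalIdeal (Eps k)) (Eps k) := by
  have h2 : maximalIdeal (Eps k) ^ 2 = ⊥ := by
    rw [pow_two, eq_bot_iff, Ideal.mul_le]
    intro x hx y hy
    rw [mem_maximalIdeal_dual] at hx hy
    rw [Ideal.mem_bot]
    refine TrivSqZeroExt.ext ?_ ?_ <;> simp [hx, hy]
  have : IsHausdorff (maximalIdeal (Eps k)) (Eps k) := ⟨fun x hx => by
    have := hx 2
    rwa [h2, Submodule.bot_smul, SModEq.bot] at this⟩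
  have : IsPrecomplete (maximalIdeal (Eps k)) (Eps k) := ⟨fun f hf => ⟨f 2, fun n => by
    rcases le_total n 2 with hn | hn
    · exact hf hn
    · have := hf hn
      rw [h2, Submodule.bot_smul, SModEq.bot] at this
      rw [this]
      exact SModEq.refl _⟩⟩
  exact { }

end DualNumbers

variable {O : Type} [CommRing O] [IsDomain O] [IsDiscreteValuationRing O]
  [IsAdicComplete (maximalIdeal O) O] [Finite (ResidueField O)]
  {ρbar : ResidualGaloisRep (ResidueField O)}
  {𝒟 : ∀ ⦃A : Type⦄ [CommRing A] [IsLocalRing A] [Algebra O A], GaloisRepAdic A → Prop}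
  (DQ : GaloisRep.DeformationRingData O ρbar 𝒟)

local notation "k" => ResidueField O

local instance isLocalRing_dual_residueField : IsLocalRing (Eps k) := isLocalRing_dual
local instance isAdicComplete_dual_residueField :
    IsAdicComplete (maximalIdeal (Eps k)) (Eps k) := isAdicComplete_dual
local instance isLocalHom_algebraMap_dual : IsLocalHom (algebraMap O (Eps k)) :=
  ⟨fun x hx => by
    by_contra hu
    have h := TrivSqZeroExt.isUnit_iff_isUnit_fst.mp hx
    rw [show (algebraMap O (Eps k) x).fst = IsLocalRing.residue O x from rfl,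
      (residue_eq_zero_iff x).mpr hu] at h
    exact not_isUnit_zero h⟩

theorem dual_residue_surjective :
    Function.Surjective (IsLocalRing.residue (Eps k) ∘ algebraMap O (Eps k)) := by
  intro y
  obtain ⟨x, rfl⟩ := IsLocalRing.residue_surjective y
  obtain ⟨c, hc⟩ := IsLocalRing.residue_surjective x.fst
  refine ⟨c, ?_⟩
  rw [Function.comp_apply, ← sub_eq_zero, ← map_sub, residue_eq_zero_iff, mem_maximalIdeal_dual]
  rw [TrivSqZeroExt.fst_sub, show (algebraMap O (Eps k) c).fst = IsLocalRing.residue O c from rfl,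
    hc, sub_self]

/-- The residue map of the deformation ring. -/
def piMap : DQ.R →ₐ[O] k := resMap DQ.residue_surjective

/-- The point of a derivation. -/
def derPoint (D : resDer DQ.residue_surjective) : DQ.R →ₐ[O] Eps k where
  toFun x := inl (piMap DQ x) + inr (D.1 x)
  map_one' := by
    have h := (mem_resDer_iff DQ.residue_surjective).mp D.2 1 1
    have e : resMap DQ.residue_surjective (1 : DQ.R) = 1 := map_one (resMap DQ.residue_surjective)
    rw [mul_one, e, one_mul, mul_one, eq_comm, add_eq_left] at h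
    rw [map_one, h, TrivSqZeroExt.inr_zero, add_zero, TrivSqZeroExt.inl_one]
  map_mul' x y := by
    have h := (mem_resDer_iff DQ.residue_surjective).mp D.2 x y
    rw [h]
    refine TrivSqZeroExt.ext ?_ ?_ <;>
      simp [piMap, mul_comm]
  map_zero' := by simp
  map_add' x y := by
    rw [map_add, map_add, TrivSqZeroExt.inl_add, TrivSqZeroExt.inr_add]
    abel
  commutes' c := by
    have h1 : D.1 (1 : DQ.R) = 0 := by
      have h := (mem_resDer_iff DQ.residue_surjective).mp D.2 1 1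
      have e : resMap DQ.residue_surjective (1 : DQ.R) = 1 :=
        map_one (resMap DQ.residue_surjective)
      rwa [mul_one, e, one_mul, mul_one, eq_comm, add_eq_left] at h
    rw [AlgHom.commutes, Algebra.algebraMap_eq_smul_one c (A := DQ.R), map_smul, h1, smul_zero,
      TrivSqZeroExt.inr_zero, add_zero]
    rfl

@[simp] theorem fst_derPoint (D : resDer DQ.residue_surjective) (x : DQ.R) :
    (derPoint DQ D x).fst = piMap DQ x := by simp [derPoint]

@[simp] theorem snd_derPoint (D : resDer DQ.residue_surjective) (x : DQ.R) :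
    (derPoint DQ D x).snd = D.1 x := by simp [derPoint]

theorem piMap_algebraMap (c : O) :
    piMap DQ (algebraMap O DQ.R c) = IsLocalRing.residue O c :=
  (piMap DQ).commutes c

theorem isLocalHom_derPoint (D : resDer DQ.residue_surjective) :
    IsLocalHom (derPoint DQ D : DQ.R →+* Eps k) :=
  ⟨fun x hx => by
    by_contra hu
    have h := TrivSqZeroExt.isUnit_iff_isUnit_fst.mp hx
    rw [RingHom.coe_coe, fst_derPoint, piMap, (resMap_eq_zero_iff _ x).mpr hu] at h
    exact not_isUnit_zero h⟩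

theorem derPoint_eq_zero_iff (D : resDer DQ.residue_surjective) (x : DQ.R) :
    derPoint DQ D x = 0 ↔ piMap DQ x = 0 ∧ D.1 x = 0 := by
  constructor
  · intro h
    rw [← fst_derPoint DQ D, ← snd_derPoint DQ D, h]
    simp
  · rintro ⟨h1, h2⟩
    exact TrivSqZeroExt.ext (by simpa using h1) (by simpa using h2)

theorem surjective_derPoint (D : resDer DQ.residue_surjective) (hD : D ≠ 0) :
    Function.Surjective (derPoint DQ D) := by
  obtain ⟨x, hx⟩ : ∃ x, D.1 x ≠ 0 := by
    by_contra! h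
    exact hD (Subtype.ext (LinearMap.ext h))
  obtain ⟨c₁, hc₁⟩ := IsLocalRing.residue_surjective (piMap DQ x)
  intro y
  obtain ⟨c, hc⟩ := IsLocalRing.residue_surjective y.fst
  obtain ⟨e, he⟩ := IsLocalRing.residue_surjective (y.snd / D.1 x)
  refine ⟨algebraMap O DQ.R c + e • (x - algebraMap O DQ.R c₁), ?_⟩
  rw [map_add, map_smul, map_sub, AlgHom.commutes, AlgHom.commutes]
  refine TrivSqZeroExt.ext ?_ ?_
  · simp [TrivSqZeroExt.algebraMap_eq_inl', hc, hc₁]
  · simp [TrivSqZeroExt.algebraMap_eq_inl', Algebra.smul_def, he, div_mul_cancel₀ _ hx]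

variable (bb : Module.Basis (Fin 2) (ResidueField O) ρbar.V)

/-- A basis adapted to the residual one. -/
theorem exists_adapted_basis : ∃ b : Module.Basis (Fin 2) DQ.R DQ.ρ.V,
    ∀ σ i j, piMap DQ (matRep DQ.ρ b σ i j) = mat (glHom ρbar bb) σ i j := by
  obtain ⟨b, hb⟩ := exists_basis_of_residual_isEquiv _ ρbar bb DQ.ρ DQ.residual_isEquiv
  refine ⟨b, fun σ i j => ?_⟩
  apply RingHom.injective (ResidueField.map (algebraMap O DQ.R))
  rw [piMap, map_resMap, ← mapRep_apply, hb]
  rfl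

/-- The chosen basis. -/
def adBasis : Module.Basis (Fin 2) DQ.R DQ.ρ.V := (exists_adapted_basis DQ bb).choose

/-- The matrices in the chosen basis. -/
def univMat : MatRep DQ.R := matRep DQ.ρ (adBasis DQ bb)

theorem piMap_univMat (σ : GalQ) :
    (univMat DQ bb σ).map (piMap DQ) = mat (glHom ρbar bb) σ :=
  Matrix.ext fun i j => (exists_adapted_basis DQ bb).choose_spec σ i j

/-- The matrices of the deformation to the dual numbers. -/
def derLift (D : resDer DQ.residue_surjective) : MatRep (Eps k) :=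
  mapRep (derPoint DQ D : DQ.R →+* Eps k) (univMat DQ bb)

theorem map_fst_derLift (D : resDer DQ.residue_surjective) (σ : GalQ) :
    (derLift DQ bb D σ).map TrivSqZeroExt.fst = mat (glHom ρbar bb) σ := by
  rw [← piMap_univMat DQ bb σ]
  ext i j
  simp [derLift, mapRep_apply]

theorem map_snd_derLift (D : resDer DQ.residue_surjective) (σ : GalQ) :
    (derLift DQ bb D σ).map TrivSqZeroExt.snd = (univMat DQ bb σ).map D.1 := by
  ext i j
  simp [derLift, mapRep_apply]

/-- The class of a derivation. -/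
def derClass : resDer DQ.residue_surjective →ₗ[k] (GalQ → Matrix (Fin 2) (Fin 2) k) where
  toFun D σ := (univMat DQ bb σ).map D.1 * mat (glHom ρbar bb) σ⁻¹
  map_add' D D' := funext fun σ => by
    rw [Pi.add_apply, ← add_mul]
    rfl
  map_smul' a D := funext fun σ => by
    rw [Pi.smul_apply, RingHom.id_apply, ← Matrix.smul_mul]
    rfl

theorem derClass_eq (D : resDer DQ.residue_surjective) :
    derClass DQ bb D = liftClass (glHom ρbar bb) (derLift DQ bb D) :=
  funext fun σ => by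
    rw [liftClass, map_snd_derLift]
    rfl

theorem derLift_fin (D : resDer DQ.residue_surjective) :
    ∃ L : IntermediateField ℚ Qbar, FiniteDimensional ℚ L ∧
      ∀ σ : AbsGal, (∀ x ∈ L, σ x = x) → derLift DQ bb D σ = 1 := by
  obtain ⟨L, hL, h⟩ := matCont_matRep DQ.ρ (adBasis DQ bb) 2
  refine ⟨L, hL, fun σ hσ => ?_⟩
  have hker : maximalIdeal DQ.R ^ 2 ≤ RingHom.ker (derPoint DQ D : DQ.R →+* Eps k) := by
    rw [pow_two, Ideal.mul_le]
    intro x hx y hy
    rw [RingHom.mem_ker, map_mul, RingHom.coe_coe]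
    refine TrivSqZeroExt.ext ?_ ?_ <;>
      simp [piMap, (resMap_eq_zero_iff DQ.residue_surjective x).mpr hx,
        (resMap_eq_zero_iff DQ.residue_surjective y).mpr hy]
  ext i j : 1
  have h1 := hker (h σ hσ i j)
  rw [RingHom.mem_ker, Matrix.sub_apply, map_sub, sub_eq_zero] at h1
  rw [derLift, mapRep_apply]
  refine h1.trans ?_
  by_cases hij : i = j <;> simp [Matrix.one_apply, hij]

variable {DQ bb}

theorem derLift_det {p : ℕ} [Fact p.Prime] [CharP k p] (hdet : DQ.ρ.DetIsCyclotomic p)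
    (D : resDer DQ.residue_surjective) (σ : GalQ) :
    ∃ a : ℕ, (derLift DQ bb D σ).det = (a : Eps k) := by
  have : NeZero p := ⟨(Fact.out : p.Prime).ne_zero⟩
  refine ⟨((cyclo p σ : (ZMod p)ˣ) : ZMod p).val, ?_⟩
  have h := Ideal.mem_map_of_mem (derPoint DQ D : DQ.R →+* Eps k)
    (hdet.2 1 σ ((cyclo p σ : (ZMod p)ˣ) : ZMod p).val (fun μ hμ =>
      cyclo_spec p σ (by rwa [pow_one] at hμ)))
  rw [Ideal.map_span, Set.image_singleton, map_natCast, map_sub, map_natCast,
    show ((p ^ 1 : ℕ) : Eps k) = 0 by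
      refine TrivSqZeroExt.ext ?_ ?_ <;> simp [CharP.cast_eq_zero],
    Ideal.span_singleton_eq_bot.mpr rfl, Ideal.mem_bot, sub_eq_zero] at h
  rw [← h, ← LinearMap.det_toMatrix (adBasis DQ bb), derLift, mapRep_eq_map,
    ← RingHom.mapMatrix_apply,
    ← RingHom.map_det]
  rfl

theorem derLift_eq_one {q : ℕ} (h : DQ.ρ.IsUnramifiedAt q) {P : ValuationSubring Qbar}
    (hP : P.LiesOverPrime q) {σ : GalQ} (hσ : σ ∈ P.inertiaSubgroupIn ℚ)
    (D : resDer DQ.residue_surjective) : derLift DQ bb D σ = 1 := by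
  rw [derLift, mapRep_eq_map, univMat, matRep_apply, h P hP σ hσ, Module.End.one_eq_id,
    LinearMap.toMatrix_id, Matrix.map_one _ (map_zero _) (map_one _)]

theorem derLift_unipotent {q : ℕ} (h : DQ.ρ.IsUnipotentOnInertiaAt q)
    {P : ValuationSubring Qbar} (hP : P.LiesOverPrime q) {σ : GalQ}
    (hσ : σ ∈ P.inertiaSubgroupIn ℚ) (D : resDer DQ.residue_surjective) :
    (derLift DQ bb D σ).trace = 2 ∧ (derLift DQ bb D σ).det = 1 := by
  have h1 : (derLift DQ bb D σ).charpoly = (Polynomial.X - 1) ^ 2 := by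
    rw [derLift, mapRep_eq_map, Matrix.charpoly_map, univMat, matRep_apply,
      LinearMap.charpoly_toMatrix, h P hP σ hσ]
    simp
  rw [Matrix.charpoly_fin_two] at h1
  have e0 := congrArg (fun f : Polynomial (Eps k) => f.coeff 0) h1
  have e1 := congrArg (fun f : Polynomial (Eps k) => f.coeff 1) h1
  simp [sub_sq, Polynomial.coeff_X_pow, Polynomial.coeff_C, Polynomial.coeff_one,
    Polynomial.coeff_mul_X] at e0 e1
  exact ⟨by linear_combination e1, e0⟩

theorem strict_derClass [NeZero (2 : k)] {p : ℕ} [Fact p.Prime] [CharP k p]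
    (hdet : DQ.ρ.DetIsCyclotomic p) (h : DQ.ρ.IsStrictOrdinaryAt p) :
    ∃ g : GL (Fin 2) k, (∀ σ : LocalGal p,
      ((g : Matrix (Fin 2) (Fin 2) k) * mat (locHom p (glHom ρbar bb)) σ *
        (g⁻¹ : GL (Fin 2) k)) 1 0 = 0 ∧
      ((g : Matrix (Fin 2) (Fin 2) k) * mat (locHom p (glHom ρbar bb)) σ *
        (g⁻¹ : GL (Fin 2) k)) 0 0 =
        ZMod.castHom (dvd_refl p) k (ExtCitation.cycloChar p (toGlobal p σ) : ZMod p) *
        ((g : Matrix (Fin 2) (Fin 2) k) * mat (locHom p (glHom ρbar bb)) σ *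
          (g⁻¹ : GL (Fin 2) k)) 1 1) ∧
      ∀ D, IsStrictClass p (glHom ρbar bb) g (resLin p (derClass DQ bb D)) := by
  have : NeZero p := ⟨(Fact.out : p.Prime).ne_zero⟩
  obtain ⟨L, ⟨b', rfl⟩, -, -, hxz⟩ := h.2 _ (padicPlace_liesOverPrime p)
  set b := adBasis DQ bb
  let G : GL (Fin 2) DQ.R :=
    ⟨b'.toMatrix b, b.toMatrix b', Basis.toMatrix_mul_toMatrix_flip b' b,
      Basis.toMatrix_mul_toMatrix_flip b b'⟩
  have hconj : ∀ σ, (G : Matrix (Fin 2) (Fin 2) DQ.R) * univMat DQ bb σ *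
      (G⁻¹ : GL (Fin 2) DQ.R) = LinearMap.toMatrix b' b' (DQ.ρ.ρ σ) := fun σ =>
    basis_toMatrix_mul_linearMap_toMatrix_mul_basis_toMatrix b' b b' b (DQ.ρ.ρ σ)
  set g : GL (Fin 2) k := Matrix.GeneralLinearGroup.map (piMap DQ : DQ.R →+* k) G with hgdef
  have hentries : ∀ σ ∈ (padicPlace p).decompositionSubgroup ℚ,
      LinearMap.toMatrix b' b' (DQ.ρ.ρ σ) 1 0 = 0 ∧
      ∀ a : ℕ, (∀ μ : Qbar, μ ^ p ^ 1 = 1 → σ μ = μ ^ a) →
        LinearMap.toMatrix b' b' (DQ.ρ.ρ σ) 0 0 - a * LinearMap.toMatrix b' b' (DQ.ρ.ρ σ) 1 1 ∈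
          Ideal.span {(p : DQ.R)} := by
    intro σ hσ
    obtain ⟨x, z, hx, hz, hchar⟩ := hxz σ hσ
    have e0 : DQ.ρ.ρ σ (b' 0) = x • b' 0 := hx _ (Submodule.mem_span_singleton_self _)
    obtain ⟨t, ht⟩ := Submodule.mem_span_singleton.mp (hz (b' 1))
    have e1 : DQ.ρ.ρ σ (b' 1) = z • b' 1 + t • b' 0 := by rw [ht]; abel
    refine ⟨by simp [LinearMap.toMatrix_apply, e0], fun a ha => ?_⟩
    have h00 : LinearMap.toMatrix b' b' (DQ.ρ.ρ σ) 0 0 = x := by
      simp [LinearMap.toMatrix_apply, e0]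
    have h11 : LinearMap.toMatrix b' b' (DQ.ρ.ρ σ) 1 1 = z := by
      simp [LinearMap.toMatrix_apply, e1]
    rw [h00, h11]
    simpa using hchar 1 a ha
  have hcyc : ∀ σ : LocalGal p, ∀ μ : Qbar, μ ^ p ^ 1 = 1 →
      toGlobal p σ μ = μ ^ ((cyclo p (toGlobal p σ) : (ZMod p)ˣ) : ZMod p).val :=
    fun σ μ hμ => cyclo_spec p _ (by rwa [pow_one] at hμ)
  have key : ∀ (B : Type) [CommRing B] (f : DQ.R →+* B), (p : B) = 0 → ∀ σ : LocalGal p,
      ((Matrix.GeneralLinearGroup.map f G : Matrix (Fin 2) (Fin 2) B) *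
        (univMat DQ bb (toGlobal p σ)).map f *
        ((Matrix.GeneralLinearGroup.map f G)⁻¹ : GL (Fin 2) B)) 1 0 = 0 ∧
      ((Matrix.GeneralLinearGroup.map f G : Matrix (Fin 2) (Fin 2) B) *
        (univMat DQ bb (toGlobal p σ)).map f *
        ((Matrix.GeneralLinearGroup.map f G)⁻¹ : GL (Fin 2) B)) 0 0 =
        (((cyclo p (toGlobal p σ) : (ZMod p)ˣ) : ZMod p).val : B) *
      ((Matrix.GeneralLinearGroup.map f G : Matrix (Fin 2) (Fin 2) B) *
        (univMat DQ bb (toGlobal p σ)).map f *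
        ((Matrix.GeneralLinearGroup.map f G)⁻¹ : GL (Fin 2) B)) 1 1 := by
    intro B _ f hpB σ
    obtain ⟨h10, h00⟩ := hentries _ (localGaloisToGlobal_mem_decompositionSubgroup p σ)
    have e : (Matrix.GeneralLinearGroup.map f G : Matrix (Fin 2) (Fin 2) B) *
        (univMat DQ bb (toGlobal p σ)).map f *
        ((Matrix.GeneralLinearGroup.map f G)⁻¹ : GL (Fin 2) B) =
        (LinearMap.toMatrix b' b' (DQ.ρ.ρ (toGlobal p σ))).map f := by
      rw [← map_inv, ← hconj, Matrix.map_mul, Matrix.map_mul]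
      rfl
    rw [e]
    refine ⟨by rw [Matrix.map_apply, h10, map_zero], ?_⟩
    have h1 := Ideal.mem_map_of_mem f (h00 _ (hcyc σ))
    rw [Ideal.map_span, Set.image_singleton, map_natCast, map_sub, map_mul, map_natCast, hpB,
      Ideal.span_singleton_eq_bot.mpr rfl, Ideal.mem_bot, sub_eq_zero] at h1
    rw [Matrix.map_apply, Matrix.map_apply, h1]
  refine ⟨g, fun σ => ?_, fun D => ?_⟩
  · have h1 := key k (piMap DQ : DQ.R →+* k) (CharP.cast_eq_zero k p) σ
    have e : (univMat DQ bb (toGlobal p σ)).map (piMap DQ : DQ.R →+* k) =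
        mat (locHom p (glHom ρbar bb)) σ := piMap_univMat DQ bb _
    rw [e, ← hgdef] at h1
    rwa [← cyclo_eq_cycloChar, ZMod.castHom_apply, ZMod.cast_eq_val]
  · have hfst := map_fst_derLift DQ bb D
    obtain ⟨hco, hlev⟩ := isAdCocycleOn_resLin hfst (derLift_det hdet D) (derLift_fin DQ bb D) p
    rw [derClass_eq]
    let GD : GL (Fin 2) (Eps k) :=
      Matrix.GeneralLinearGroup.map (derPoint DQ D : DQ.R →+* Eps k) G
    have hGD : (GD : Matrix (Fin 2) (Fin 2) (Eps k)).map TrivSqZeroExt.fst = g := by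
      ext i j
      simp [GD, hgdef]
    set u := ((g⁻¹ : GL (Fin 2) k) : Matrix (Fin 2) (Fin 2) k) *
      (GD : Matrix (Fin 2) (Fin 2) (Eps k)).map TrivSqZeroExt.snd with hu
    refine ⟨hco, hlev, u + (-(u.trace / 2)) • 1, ?_, fun σ => ?_⟩
    · rw [Matrix.trace_add, Matrix.trace_smul, Matrix.trace_one, smul_eq_mul, Fintype.card_fin,
        Nat.cast_ofNat, neg_mul, div_mul_cancel₀ _ two_ne_zero, add_neg_cancel]
    · have h1 := key (Eps k) (derPoint DQ D : DQ.R →+* Eps k)
        (by refine TrivSqZeroExt.ext ?_ ?_ <;> simp [CharP.cast_eq_zero]) σ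
      show _ ∧ _
      rw [locHom, adAct_comp]
      exact strict_liftClass hfst (hco.1 σ) GD g hGD h1.1 _ h1.2 _ ⟨_, rfl⟩

theorem flat_derClass {p : ℕ} [Fact p.Prime] [CharP k p] (hdet : DQ.ρ.DetIsCyclotomic p)
    (h : DQ.ρ.IsFlatAt p) (D : resDer DQ.residue_surjective) :
    IsFlatClass p (glHom ρbar bb) (derClass DQ bb D) := by
  have hfst := map_fst_derLift DQ bb D
  have hco : IsAdCocycleOn (glHom ρbar bb) (derClass DQ bb D) := by
    rw [derClass_eq]; exact isAdCocycleOn_liftClass hfst (derLift_det hdet D)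
  refine ⟨hco, by rw [derClass_eq]; exact isLevelConstant_liftClass hfst (derLift_fin DQ bb D), ?_⟩
  let J : Ideal DQ.R := RingHom.ker (derPoint DQ D : DQ.R →+* Eps k)
  have : Finite (DQ.R ⧸ J) :=
    Finite.of_injective (RingHom.kerLift (derPoint DQ D : DQ.R →+* Eps k))
      (RingHom.kerLift_injective _)
  let Q := DQ.ρ.V ⧸ (J • (⊤ : Submodule DQ.R DQ.ρ.V))
  have : Finite Q := Module.finite_of_finite (DQ.R ⧸ J)
  have hQ := hasFlatModel_levelEnd h J
  let actP : GalQ →* AddMonoid.End (Q × Q) :=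
    { toFun := fun σ => AddMonoidHom.prodMap (levelEnd DQ.ρ J σ) (levelEnd DQ.ρ J σ)
      map_one' := by rw [map_one]; rfl
      map_mul' := fun σ τ => by rw [map_mul]; rfl }
  have hP : FiniteFlat.HasFlatModel p actP :=
    FiniteFlat.HasFlatModel.of_jointly_injective (ι := Fin 2) (N := fun _ => Q) (fun _ => hQ)
      ![AddMonoidHom.fst Q Q, AddMonoidHom.snd Q Q]
      (fun i σ x => by fin_cases i <;> rfl)
      fun x y hxy => Prod.ext (hxy 0) (hxy 1)
  set b := adBasis DQ bb
  let fπ : DQ.ρ.V →+ (Fin 2 → k) := AddMonoidHom.mk' (fun v i => piMap DQ (b.repr v i))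
    fun u v => funext fun i => by simp
  let fD : DQ.ρ.V →+ (Fin 2 → k) := AddMonoidHom.mk' (fun v i => D.1 (b.repr v i))
    fun u v => funext fun i => by simp
  have hJ : (J • (⊤ : Submodule DQ.R DQ.ρ.V)).toAddSubgroup ≤ fπ.ker ⊓ fD.ker := by
    intro v hv
    refine Submodule.smul_induction_on (p := fun v => fπ v = 0 ∧ fD v = 0) hv
      (fun a ha w _ => ?_) fun u w hu hw =>
        ⟨by rw [map_add, hu.1, hw.1, add_zero], by rw [map_add, hu.2, hw.2, add_zero]⟩
    obtain ⟨h1, h2⟩ := (derPoint_eq_zero_iff DQ D a).mp ha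
    constructor <;> funext i
    · simp [fπ, h1]
    · show D.1 (b.repr (a • w) i) = 0
      rw [map_smul, Finsupp.smul_apply, smul_eq_mul, (mem_resDer_iff _).mp D.2 a,
        show resMap DQ.residue_surjective a = 0 from h1, h2]
      simp
  let Fπ : Q →+ (Fin 2 → k) := QuotientAddGroup.lift _ fπ (hJ.trans inf_le_left)
  let FD : Q →+ (Fin 2 → k) := QuotientAddGroup.lift _ fD (hJ.trans inf_le_right)
  let Φ : Q × Q →+ (Fin 2 → k) × (Fin 2 → k) :=
    AddMonoidHom.prod (Fπ.comp (AddMonoidHom.fst Q Q))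
      (FD.comp (AddMonoidHom.fst Q Q) + Fπ.comp (AddMonoidHom.snd Q Q))
  have : Finite (Q × Q) := inferInstance
  have hrepr : ∀ σ v i, b.repr (DQ.ρ.ρ σ v) i = ∑ j, univMat DQ bb σ i j * b.repr v j :=
    fun σ v i => by
      rw [← LinearMap.toMatrix_mulVec_repr b b (DQ.ρ.ρ σ) v]
      rfl
  have hπσ : ∀ σ v, fπ (DQ.ρ.ρ σ v) = mat (glHom ρbar bb) σ *ᵥ fπ v := fun σ v => funext fun i => by
    show piMap DQ _ = _
    rw [hrepr, map_sum, ← piMap_univMat DQ bb σ]
    simp [Matrix.mulVec, dotProduct, fπ, map_mul]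
  have hDσ : ∀ σ v, fD (DQ.ρ.ρ σ v) = mat (glHom ρbar bb) σ *ᵥ fD v +
      (derClass DQ bb D σ * mat (glHom ρbar bb) σ) *ᵥ fπ v := fun σ v => funext fun i => by
    show D.1 _ = _
    rw [hrepr, map_sum, show derClass DQ bb D σ * mat (glHom ρbar bb) σ =
      (univMat DQ bb σ).map D.1 by
        show (univMat DQ bb σ).map D.1 * _ * _ = _
        rw [mul_assoc, mat_inv_mul, mul_one], ← piMap_univMat DQ bb σ]
    simp only [(mem_resDer_iff _).mp D.2, Pi.add_apply, Matrix.mulVec, dotProduct,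
      Matrix.map_apply, Finset.sum_add_distrib]
    rfl
  refine hP.of_surjective Φ (fun σ x => ?_) fun y => ?_
  · obtain ⟨x₁, x₂⟩ := x
    obtain ⟨v, rfl⟩ := Submodule.mkQ_surjective _ x₁
    obtain ⟨w, rfl⟩ := Submodule.mkQ_surjective _ x₂
    show (fπ (DQ.ρ.ρ σ v), fD (DQ.ρ.ρ σ v) + fπ (DQ.ρ.ρ σ w)) =
      (mat (glHom ρbar bb) σ *ᵥ fπ v, mat (glHom ρbar bb) σ *ᵥ (fD v + fπ w) +
        (derClass DQ bb D σ * mat (glHom ρbar bb) σ) *ᵥ fπ v)
    rw [hπσ, hπσ, hDσ, Matrix.mulVec_add]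
    refine Prod.ext rfl ?_
    show _ + _ + _ = _ + _ + _
    abel
  · have hlift : ∀ z : Fin 2 → k, ∃ v, fπ v = z ∧ fD v = 0 := fun z => by
      choose c hc using fun i => IsLocalRing.residue_surjective (z i)
      refine ⟨b.equivFun.symm fun i => algebraMap O DQ.R (c i), funext fun i => ?_,
        funext fun i => ?_⟩
      · show piMap DQ (b.equivFun (b.equivFun.symm _) i) = _
        rw [LinearEquiv.apply_symm_apply, piMap_algebraMap, hc]
      · show D.1 (b.equivFun (b.equivFun.symm _) i) = _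
        rw [LinearEquiv.apply_symm_apply]
        have := snd_derPoint DQ D (algebraMap O DQ.R (c i))
        rw [AlgHom.commutes] at this
        exact this.symm.trans rfl
    obtain ⟨v, hv, hv'⟩ := hlift y.1
    obtain ⟨w, hw, -⟩ := hlift y.2
    refine ⟨(Submodule.Quotient.mk v, Submodule.Quotient.mk w), ?_⟩
    show (fπ v, fD v + fπ w) = y
    rw [hv, hv', hw, zero_add]

theorem derLift_isEquiv (D : resDer DQ.residue_surjective) :
    (DQ.ρ.baseChangeAlong (derPoint DQ D : DQ.R →+* Eps k)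
      (isLocalHom_derPoint DQ D)).IsEquiv
      (ofMatrix (derLift DQ bb D) ((matCont_matRep DQ.ρ (adBasis DQ bb)).map _
        (isLocalHom_derPoint DQ D))) := by
  obtain ⟨e⟩ := isEquiv_ofMatrix_matRep DQ.ρ (adBasis DQ bb)
  obtain ⟨e'⟩ := isEquiv_baseChangeAlong_ofMatrix (derPoint DQ D : DQ.R →+* Eps k)
    (isLocalHom_derPoint DQ D) _ (matCont_matRep DQ.ρ (adBasis DQ bb))
  exact ⟨(e.baseChangeAlong _ _).trans e'⟩

/-- The classes determine the derivations. -/
theorem derClass_injective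
    (hstable : ∀ D : resDer DQ.residue_surjective, D ≠ 0 →
      𝒟 (DQ.ρ.baseChangeAlong (derPoint DQ D : DQ.R →+* Eps k) (isLocalHom_derPoint DQ D)))
    {D : resDer DQ.residue_surjective}
    (hD : derClass DQ bb D ∈ adCob (glHom ρbar bb)) : D = 0 := by
  by_contra hD0
  -- every multiple of `D` gives the constant deformation
  let const : MatRep (Eps k) :=
    mapRep (TrivSqZeroExt.inlHom k k) (matHom ρbar bb)
  have htriv : ∀ D' : resDer DQ.residue_surjective, derClass DQ bb D' ∈ adCob (glHom ρbar bb) →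
      ∃ P : Matrix (Fin 2) (Fin 2) (Eps k), IsUnit P ∧
        ∀ σ, P * derLift DQ bb D' σ = const σ * P := by
    intro D' hD'
    obtain ⟨m, -, hm⟩ := mem_adCob_iff.mp hD'
    let P : Matrix (Fin 2) (Fin 2) (Eps k) :=
      Matrix.of fun i j => inl ((1 : Matrix (Fin 2) (Fin 2) k) i j) + inr (m i j)
    have hPf : P.map TrivSqZeroExt.fst = 1 := by ext i j; simp [P]
    have hPs : P.map TrivSqZeroExt.snd = m := by ext i j; simp [P]
    refine ⟨P, ?_, fun σ => ?_⟩
    · rw [Matrix.isUnit_iff_isUnit_det, TrivSqZeroExt.isUnit_iff_isUnit_fst]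
      have := congrArg Matrix.det hPf
      rw [Matrix.det_one, show P.map TrivSqZeroExt.fst =
        (TrivSqZeroExt.fstHom k k k).toRingHom.mapMatrix P from rfl, ← RingHom.map_det] at this
      rw [show P.det.fst = 1 from this]
      exact isUnit_one
    · have hcf : (const σ).map TrivSqZeroExt.fst = mat (glHom ρbar bb) σ := by
        ext i j; simp [const, mapRep_apply]; rfl
      have hcs : (const σ).map TrivSqZeroExt.snd = 0 := by
        ext i j; simp [const, mapRep_apply]
      have hs : (P * derLift DQ bb D' σ).map TrivSqZeroExt.snd =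
          (const σ * P).map TrivSqZeroExt.snd := by
        rw [map_snd_mul, map_snd_mul, hPf, hPs, hcf, hcs, map_fst_derLift, zero_mul, add_zero,
          one_mul, map_snd_derLift]
        have h1 : (univMat DQ bb σ).map D'.1 =
            derClass DQ bb D' σ * mat (glHom ρbar bb) σ := by
          show _ = (univMat DQ bb σ).map D'.1 * _ * _
          rw [mul_assoc, mat_inv_mul, mul_one]
        rw [h1, hm σ, adAct, sub_mul, mul_assoc, mat_inv_mul, mul_one]
        abel
      have hf : (P * derLift DQ bb D' σ).map TrivSqZeroExt.fst =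
          (const σ * P).map TrivSqZeroExt.fst := by
        rw [map_fst_mul, map_fst_mul, hPf, hcf, map_fst_derLift, one_mul, mul_one]
      exact Matrix.ext fun i j => TrivSqZeroExt.ext (congr_fun (congr_fun hf i) j)
        (congr_fun (congr_fun hs i) j)
  set D₂ := (2 : k) • D with hD₂
  obtain ⟨P, hP, hPD⟩ := htriv D hD
  obtain ⟨Q, hQ, hQD⟩ := htriv D₂ (by rw [hD₂, map_smul]; exact Submodule.smul_mem _ _ hD)
  obtain ⟨Q', rfl⟩ := hQ
  -- both points give the same deformation
  have hM : ∀ D', MatCont (derLift DQ bb D') := fun D' =>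
    (matCont_matRep DQ.ρ (adBasis DQ bb)).map _ (isLocalHom_derPoint DQ D')
  have hconj : (ofMatrix (derLift DQ bb D₂) (hM D₂)).IsEquiv
      (ofMatrix (derLift DQ bb D) (hM D)) := by
    obtain ⟨P', rfl⟩ := hP
    refine isEquiv_of_conj _ _ ((P'⁻¹ * Q' : (Matrix (Fin 2) (Fin 2) (Eps k))ˣ) :
      Matrix (Fin 2) (Fin 2) (Eps k)) ⟨_, rfl⟩ fun σ => ?_
    calc ((P'⁻¹ * Q' : (Matrix (Fin 2) (Fin 2) (Eps k))ˣ) : Matrix (Fin 2) (Fin 2) (Eps k)) *
          derLift DQ bb D₂ σ
        = (P'⁻¹ : _) * (const σ * (Q' : Matrix (Fin 2) (Fin 2) (Eps k))) := by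
          rw [Units.val_mul, mul_assoc, hQD]
      _ = (P'⁻¹ : _) * ((P' : Matrix (Fin 2) (Fin 2) (Eps k)) * derLift DQ bb D σ *
            ((P'⁻¹ : _) * (Q' : Matrix (Fin 2) (Fin 2) (Eps k)))) := by
          rw [hPD, mul_assoc (const σ), ← mul_assoc (P' : Matrix (Fin 2) (Fin 2) (Eps k)),
            Units.mul_inv, one_mul]
      _ = derLift DQ bb D σ * _ := by
          simp only [mul_assoc, Units.val_mul, Units.inv_mul_cancel_left]
  obtain ⟨e₁⟩ := derLift_isEquiv (bb := bb) D
  obtain ⟨e₂⟩ := derLift_isEquiv (bb := bb) D₂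
  obtain ⟨e⟩ := hconj
  have hres : (ofMatrix (derLift DQ bb D) (hM D)).residual.IsEquiv
      (ρbar.baseChangeAlong (ResidueField.map (algebraMap O (Eps k)))) := by
    refine residual_isEquiv_of_eq _ ρbar bb _ (hM D) ?_
    refine MonoidHom.ext fun σ => Matrix.ext fun i j => ?_
    rw [mapRep_apply, mapRep_apply]
    obtain ⟨c, hc⟩ := IsLocalRing.residue_surjective (resMatRep ρbar bb σ i j)
    rw [← hc, ResidueField.map_residue, ← sub_eq_zero, ← map_sub, residue_eq_zero_iff,
      mem_maximalIdeal_dual]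
    have h1 := congr_fun (congr_fun (map_fst_derLift DQ bb D σ) i) j
    rw [Matrix.map_apply] at h1
    rw [TrivSqZeroExt.fst_sub, h1, show (algebraMap O (Eps k) c).fst = IsLocalRing.residue O c
      from rfl, hc]
    exact sub_self _
  obtain ⟨eres⟩ := hres
  obtain ⟨φ, -, huniq⟩ := DQ.universal (Eps k) dual_residue_surjective _ (hstable D hD0)
    ⟨(GaloisRepAdic.Equiv.residual e₁).trans eres⟩
  have h1 := huniq (derPoint DQ D) ⟨isLocalHom_derPoint DQ D, ⟨GaloisRepAdic.Equiv.refl _⟩⟩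
  have h2 := huniq (derPoint DQ D₂) ⟨isLocalHom_derPoint DQ D₂, ⟨(e₂.trans e).trans e₁.symm⟩⟩
  apply hD0
  refine Subtype.ext (LinearMap.ext fun x => ?_)
  have h3 : D₂.1 x = D.1 x := by rw [← snd_derPoint DQ D₂, h2, ← h1, snd_derPoint]
  rw [hD₂, Submodule.coe_smul, LinearMap.smul_apply, smul_eq_mul, two_mul, add_eq_left] at h3
  exact h3

end FLTAgent.TWPrimes
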