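import Fermat.Agent.TWPrimes.Core
import Fermat.Agent.TWPrimes.Tangent
import Fermat.Agent.TWPrimes.LocalOrdinary
import Fermat.Prelude.Def_GaloisRep_Flat

/-!
# Taylor–Wiles primes: quotients of power series rings

`exists_twPrimes_tangent` assembles prime selection, local bounds and the tangent space: for a
deformation problem with the local bound at `p` the ring is a quotient of a power series ring in
`r` variables, `r` independent of the depth. Used by `Existence`.
-/

set_option autoImplicit false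

open Matrix IsLocalRing Module Polynomial
open ExtCitation (pPrime)

noncomputable section

namespace FLTAgent.TWPrimes

open FLTAgent.DefRing FLTAgent.Density FLTAgent.LocalDuality

local instance fact_natPrimes_assembly (q : Nat.Primes) : Fact (q : ℕ).Prime := ⟨q.2⟩

variable {O : Type} [CommRing O] [IsDomain O] [IsDiscreteValuationRing O]
  [IsAdicComplete (maximalIdeal O) O] [Finite (ResidueField O)]
  {ρbar : ResidualGaloisRep (ResidueField O)}

omit [IsAdicComplete (maximalIdeal O) O] [Finite (ResidueField O)] in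
theorem exists_inertia_ne_one (bb : Module.Basis (Fin 2) (ResidueField O) ρbar.V) {q : ℕ}
    [Fact q.Prime] (h : ¬ ρbar.IsUnramifiedAt q) :
    ∃ σ ∈ (padicPlace q).inertiaSubgroupIn ℚ, glHom ρbar bb σ ≠ 1 := by
  by_contra! hall
  refine h fun A hA σ hσ => ?_
  have h1 := forall_inertia_eq_one_of_one_place Fact.out (padicPlace_liesOverPrime q) hall hA σ hσ
  refine (LinearMap.toMatrix bb bb).injective ?_
  rw [Module.End.one_eq_id, LinearMap.toMatrix_id, ← mat_glHom, mat, h1, Units.val_one]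

/-- Taylor–Wiles primes at every depth with bounded tangent space. -/
theorem exists_twPrimes_tangent (p : ℕ) [Fact p.Prime] [CharP (ResidueField O) p] (hp2 : p ≠ 2)
    (bb : Module.Basis (Fin 2) (ResidueField O) ρbar.V)
    (habs : ρbar.IsAbsolutelyIrreducible)
    (hdet : (GaloisRepAdic.ofResidualGaloisRep ρbar).DetIsCyclotomic p)
    (hsplit : ∀ σ : AlgebraicClosure ℚ ≃ₐ[ℚ] AlgebraicClosure ℚ,
      ∃ α β : ResidueField O, LinearMap.charpoly (ρbar.ρ σ) = (X - C α) * (X - C β))
    (hTW : ∀ (K : Type) [Field K] [Algebra (ResidueField O) K]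
      (G : Subgroup (AlgebraicClosure ℚ ≃ₐ[ℚ] AlgebraicClosure ℚ)), G.index = 2 →
      ∀ V : Submodule K (ρbar.baseChange K).V,
        (∀ σ ∈ G, ∀ x ∈ V, (ρbar.baseChange K).ρ σ x ∈ V) → V = ⊥ ∨ V = ⊤)
    (S Smin : Finset ℕ) (hpSmin : p ∈ Smin) (hSmin : Smin ⊆ S) (hS : ∀ q ∈ S, q.Prime)
    (hmin : ∀ q : ℕ, q.Prime → q ≠ p → (q ∈ Smin ↔ ¬ ρbar.IsUnramifiedAt q)) :
    ∃ r : ℕ, ∀ n : ℕ, ∃ qv : Fin r → ℕ, Function.Injective qv ∧
      (∀ i, (qv i).Prime ∧ qv i ∉ S ∧ p ^ (n + 1) ∣ qv i - 1) ∧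
      (∀ i, ∀ P : ValuationSubring (AlgebraicClosure ℚ), P.LiesOverPrime (qv i) →
        ∀ φ : AlgebraicClosure ℚ ≃ₐ[ℚ] AlgebraicClosure ℚ, P.IsFrobeniusAt φ (qv i) →
          ∃ α β : ResidueField O, α ≠ β ∧
            LinearMap.charpoly (ρbar.ρ φ) = (X - C α) * (X - C β)) ∧
      ∀ {𝒟 : ∀ ⦃A : Type⦄ [CommRing A] [IsLocalRing A] [Algebra O A], GaloisRepAdic A → Prop}
        (DQ : GaloisRep.DeformationRingData O ρbar 𝒟),
        DQ.ρ.DetIsCyclotomic p →
        (∀ q : ℕ, q.Prime → q ∉ Smin ∪ Finset.univ.image qv → DQ.ρ.IsUnramifiedAt q) →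
        (∀ q ∈ Smin, q.Prime → q ≠ p → DQ.ρ.IsUnipotentOnInertiaAt q) →
        (Module.Finite (ResidueField O) (((LinearMap.range (derClass DQ bb)).map (resLin p)).map
            (adCob (locHom p (glHom ρbar bb))).mkQ) ∧
          classDim (locHom p (glHom ρbar bb)) ((LinearMap.range (derClass DQ bb)).map (resLin p)) ≤
            finrank (ResidueField O) (adFixed (locHom p (glHom ρbar bb))) + 1) →
        (∀ D : resDer DQ.residue_surjective, D ≠ 0 →
          @𝒟 _ _ isLocalRing_dual _ (@GaloisRepAdic.baseChangeAlong _ _ _ _ _ isLocalRing_dual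
            (derPoint DQ D : DQ.R →+* TrivSqZeroExt (ResidueField O) (ResidueField O))
            (isLocalHom_derPoint DQ D) DQ.ρ)) →
        ∃ γ : MvPowerSeries (Fin r) O →ₐ[O] DQ.R, Function.Surjective γ := by
  classical
  have hp : p.Prime := Fact.out
  have : NeZero (2 : ResidueField O) := ⟨fun h => hp2 (((Nat.prime_dvd_prime_iff_eq hp
    Nat.prime_two).mp ((CharP.cast_eq_zero_iff (ResidueField O) p 2).mp (by exact_mod_cast h))))⟩
  let : Algebra (ZMod p) (ResidueField O) := ZMod.algebra _ p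
  set g₀ := glHom ρbar bb with hg₀
  have hfin : GaloisFactorsThroughFiniteLevel g₀ := glHom_factorsThroughFiniteLevel ρbar bb
  let S' : Finset Nat.Primes := S.subtype Nat.Prime
  have hmem : ∀ q : Nat.Primes, q ∈ S' ↔ (q : ℕ) ∈ S := fun q => Finset.mem_subtype
  have himg : S'.image (fun q : Nat.Primes => (q : ℕ)) = S := by
    ext q
    simp only [Finset.mem_image, hmem]
    exact ⟨fun ⟨a, ha, e⟩ => e ▸ ha, fun h => ⟨⟨q, hS q h⟩, h, rfl⟩⟩
  have hpS : pPrime p ∈ S' := (hmem (pPrime p)).mpr (hSmin hpSmin)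
  have hunr : ∀ q : Nat.Primes, q ∉ S' → ∀ A : ValuationSubring Qbar,
      A.LiesOverPrime (q : ℕ) → ∀ σ ∈ A.inertiaSubgroupIn ℚ, g₀ σ = 1 := by
    intro q hq A hA σ hσ
    have hqS : (q : ℕ) ∉ Smin := fun h => hq ((hmem q).mpr (hSmin h))
    have h1 := not_not.mp (mt (hmin q q.2 fun e => hqS (e ▸ hpSmin)).mpr hqS) A hA σ hσ
    refine Units.ext ?_
    show mat g₀ σ = 1
    rw [mat_glHom, h1, Module.End.one_eq_id, LinearMap.toMatrix_id]
  obtain ⟨R, hR⟩ := exists_twPrimes_classDim (p := p) (r := g₀) hp2 hfin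
    (noInducedLine ρbar bb habs hsplit hTW) (det_glHom ρbar bb hdet) S' hpS hunr
  refine ⟨R, fun n => ?_⟩
  obtain ⟨qv, hinj, hqv, hbound⟩ := hR n
  rw [himg] at hqv
  refine ⟨qv, hinj, fun i => ⟨(hqv i).prime, (hqv i).notMem, (hqv i).modEq⟩,
    fun i P hP φ hφ => ?_, ?_⟩
  · obtain ⟨α, β, hne, h⟩ := (hqv i).distinct P hP φ hφ
    exact ⟨α, β, hne, by rw [← charpoly_glHom ρbar bb]; exact h⟩
  intro 𝒟 DQ hdetR hunrR hunipR hlocp hstable
  set V := LinearMap.range (derClass DQ bb) with hV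
  have hfst := map_fst_derLift DQ bb
  have hzero : ∀ (D : resDer DQ.residue_surjective) (q : ℕ), q.Prime → q ∉ Smin →
      (∀ i, qv i ≠ q) → ∀ A : ValuationSubring Qbar, A.LiesOverPrime q →
        ∀ σ ∈ A.inertiaSubgroupIn ℚ, derClass DQ bb D σ = 0 := by
    intro D q hq h1 h2 A hA σ hσ
    rw [derClass_eq]
    exact liftClass_eq_zero (hfst D) (derLift_eq_one (hunrR q hq fun h => by
      rcases Finset.mem_union.mp h with h | h
      · exact h1 h
      · obtain ⟨i, -, e⟩ := Finset.mem_image.mp h; exact h2 i e) hA hσ D)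
  have hlocal : ∀ q ∈ S', Module.Finite (ResidueField O)
      ((V.map (resLin (q : ℕ))).map (adCob (locHom (q : ℕ) g₀)).mkQ) ∧
      classDim (locHom (q : ℕ) g₀) (V.map (resLin (q : ℕ))) ≤
        finrank (ResidueField O) (adFixed (locHom (q : ℕ) g₀)) +
          (if q = pPrime p then 1 else 0) := by
    intro q hq
    by_cases hqp : q = pPrime p
    · subst hqp
      rw [if_pos rfl]
      exact hlocp
    rw [if_neg hqp, add_zero]
    have hqp' : (q : ℕ) ≠ p := fun e => hqp (Subtype.ext e)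
    refine classDim_le_of_unramified (q : ℕ) g₀ hfin (V.map (resLin (q : ℕ))) ?_
    rintro _ ⟨_, ⟨D, rfl⟩, rfl⟩
    by_cases hqm : (q : ℕ) ∈ Smin
    · rw [derClass_eq]
      exact unipotent_liftClass (hfst D) (p := p) hqp' (derLift_det hdetR D) (derLift_fin DQ bb D)
        (fun σ hσ => derLift_unipotent (hunipR _ hqm q.2 hqp') (padicPlace_liesOverPrime _) hσ D)
        (exists_inertia_ne_one bb ((hmin q q.2 hqp').mp hqm))
    · obtain ⟨hco, hlev⟩ := isAdCocycleOn_resLin (hfst D) (derLift_det hdetR D)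
        (derLift_fin DQ bb D) (q : ℕ)
      rw [derClass_eq]
      refine ⟨hco, hlev, 0, by simp, fun τ hτ => ?_⟩
      show liftClass g₀ (derLift DQ bb D) (toGlobal (q : ℕ) τ) = _
      have h0 := hzero D q q.2 hqm (fun i e => (hqv i).notMem (e ▸ (hmem q).mp hq)) _
        (padicPlace_liesOverPrime _) _ ((isLocalInertia_iff (q : ℕ) τ).mp hτ)
      rw [derClass_eq] at h0
      rw [hg₀, h0]
      simp [adAct]
  obtain ⟨hVfin, hmain⟩ := hbound V (by
      rintro _ ⟨D, rfl⟩
      refine ⟨?_, ?_, fun q hq hqi => hzero D q q.2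
        (fun h => hq ((hmem q).mpr (hSmin h))) hqi⟩
      · rw [derClass_eq]; exact isAdCocycleOn_liftClass (hfst D) (derLift_det hdetR D)
      · rw [derClass_eq]; exact isLevelConstant_liftClass (hfst D) (derLift_fin DQ bb D))
    (fun q hq => (hlocal q hq).1)
  have hsum := Finset.sum_le_sum (fun q hq => (hlocal q hq).2)
  rw [Finset.sum_add_distrib, Finset.sum_ite_eq' S' (pPrime p) (fun _ => 1), if_pos hpS] at hsum
  have := hVfin
  let ι : resDer DQ.residue_surjective →ₗ[ResidueField O] V.map (adCob g₀).mkQ :=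
    ((adCob g₀).mkQ ∘ₗ derClass DQ bb).codRestrict _
      fun D => Submodule.mem_map_of_mem (LinearMap.mem_range_self _ D)
  refine exists_surjective_mvPowerSeries DQ.residue_surjective R ι ?_ ?_
  · intro D D' h
    have h1 := congrArg Subtype.val h
    change (Submodule.Quotient.mk (derClass DQ bb D) : _ ⧸ adCob g₀) =
      Submodule.Quotient.mk (derClass DQ bb D') at h1
    rw [Submodule.Quotient.eq, ← map_sub] at h1
    exact sub_eq_zero.mp (derClass_injective hstable h1)
  · change classDim g₀ V ≤ R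
    omega

end FLTAgent.TWPrimes
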