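import Fermat.Agent.FiniteFlat.Points
import Fermat.Agent.FiniteFlat.Operations
import Fermat.Prelude.Def_GaloisRep_Flat

/-!
# From a finite flat group scheme to functions on its points

`hasFlatModel_of_hopfAlgebra`, the converse of `HasFlatModel.exists_hopfAlgebra`, and flatness of
an adic representation phrased through flat models (`hasFlatModel_levelEnd`,
`isFlatAt_of_levelEnd`). Used by `BaseChange`.
-/

set_option autoImplicit false

open scoped TensorProduct
open GaloisRep

noncomputable section

namespace FLTAgent.TWPrimes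

open FLTAgent.FiniteFlat

/-- The points of a finite Hopf algebra, with their Galois action, have a flat model. -/
theorem hasFlatModel_of_hopfAlgebra {ℓ : ℕ} {M : Type} [AddCommGroup M]
    {act : (AlgebraicClosure ℚ ≃ₐ[ℚ] AlgebraicClosure ℚ) →* AddMonoid.End M}
    {H : Type} [CommRing H] [HopfAlgebra (ratLocalizedAt ℓ) H]
    [Module.Finite (ratLocalizedAt ℓ) H]
    (e : WithConv (H →ₐ[ratLocalizedAt ℓ] AlgebraicClosure ℚ) ≃ M)
    (hadd : ∀ f g, e (f * g) = e f + e g)
    (heq : ∀ (σ : AlgebraicClosure ℚ ≃ₐ[ℚ] AlgebraicClosure ℚ)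
      (f g : WithConv (H →ₐ[ratLocalizedAt ℓ] AlgebraicClosure ℚ)),
      (∀ a : H, g a = σ (f a)) → e g = act σ (e f)) :
    HasFlatModel ℓ act := by
  let φ : H →ₐ[ratLocalizedAt ℓ] (M → AlgebraicClosure ℚ) :=
    AlgHom.pi fun x => (e.symm x).ofConv
  have hφ : ∀ a x, φ a x = (e.symm x) a := fun a x => rfl
  refine ⟨φ.range, ?_, ?_, ?_, ?_⟩
  · rintro _ ⟨a, rfl⟩ σ x
    let g : WithConv (H →ₐ[ratLocalizedAt ℓ] AlgebraicClosure ℚ) :=
      WithConv.toConv ((σ.toAlgHom.restrictScalars (ratLocalizedAt ℓ)).comp (e.symm x).ofConv)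
    have h := heq σ (e.symm x) g fun _ => rfl
    rw [e.apply_symm_apply, ← Equiv.eq_symm_apply] at h
    show φ a (act σ x) = σ (φ a x)
    rw [hφ, ← h]
    rfl
  · rintro _ ⟨a, rfl⟩ x
    exact (Algebra.IsIntegral.isIntegral a).map (e.symm x).ofConv
  · intro x y h
    refine e.symm.injective (WithConv.ext (AlgHom.ext fun a => ?_))
    exact h (φ a) ⟨a, rfl⟩
  · rintro _ ⟨a, rfl⟩
    set T := φ.range.map (pullback ℓ (Prod.fst : M × M → M)) ⊔
      φ.range.map (pullback ℓ (Prod.snd : M × M → M))
    have h1 : ∀ x y : M, e.symm (x + y) = e.symm x * e.symm y := fun x y => by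
      apply e.injective
      rw [hadd, e.apply_symm_apply, e.apply_symm_apply, e.apply_symm_apply]
    have key : ∀ t : H ⊗[ratLocalizedAt ℓ] H, (fun q : M × M =>
        Algebra.TensorProduct.lift (e.symm q.1).ofConv (e.symm q.2).ofConv
          (fun _ _ => Commute.all _ _) t) ∈ T := by
      intro t
      induction t using TensorProduct.induction_on with
      | zero =>
        convert T.zero_mem using 1
        exact funext fun q => by simp
      | tmul b c =>
        convert T.mul_mem (le_sup_left (a := φ.range.map (pullback ℓ (Prod.fst : M × M → M)))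
          ⟨φ b, ⟨b, rfl⟩, rfl⟩) (le_sup_right (b := φ.range.map (pullback ℓ (Prod.snd : M × M → M)))
          ⟨φ c, ⟨c, rfl⟩, rfl⟩) using 1
        exact funext fun q => by simp [hφ]
      | add u v hu hv =>
        convert T.add_mem hu hv using 1
        exact funext fun q => by simp
    convert key (Coalgebra.comul (R := ratLocalizedAt ℓ) a) using 1
    funext q
    show φ a (q.1 + q.2) = _
    rw [hφ, h1, AlgHom.convMul_apply]

variable {A : Type} [CommRing A] [IsLocalRing A]

/-- The action on a reduction of an adic representation. -/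
def levelEnd (ρ : GaloisRepAdic A) (I : Ideal A) :
    (AlgebraicClosure ℚ ≃ₐ[ℚ] AlgebraicClosure ℚ) →*
      AddMonoid.End (ρ.V ⧸ (I • (⊤ : Submodule A ρ.V))) where
  toFun σ := (ρ.levelAction I σ).toAddMonoidHom
  map_one' := by
    refine DFunLike.ext _ _ fun q => ?_
    obtain ⟨v, rfl⟩ := Submodule.mkQ_surjective _ q
    show Submodule.Quotient.mk (ρ.ρ 1 v) = _
    rw [map_one]; rfl
  map_mul' σ τ := by
    refine DFunLike.ext _ _ fun q => ?_
    obtain ⟨v, rfl⟩ := Submodule.mkQ_surjective _ q
    show Submodule.Quotient.mk (ρ.ρ (σ * τ) v) = _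
    rw [map_mul]; rfl

/-- A flat adic representation has flat models on its finite reductions. -/
theorem hasFlatModel_levelEnd {ρ : GaloisRepAdic A} {p : ℕ} (h : ρ.IsFlatAt p) (I : Ideal A)
    [Finite (A ⧸ I)] : HasFlatModel p (levelEnd ρ I) := by
  obtain ⟨H, _, _, hfin, -, -, e, hadd, heq⟩ := h.2 I inferInstance
  exact hasFlatModel_of_hopfAlgebra (act := levelEnd ρ I) e hadd heq

/-- An adic representation with flat models on its finite reductions is flat. -/
theorem isFlatAt_of_levelEnd {ρ : GaloisRepAdic A} {p : ℕ}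
    [Finite (IsLocalRing.ResidueField A)]
    (h : ∀ I : Ideal A, Finite (A ⧸ I) → HasFlatModel p (levelEnd ρ I)) : ρ.IsFlatAt p := by
  refine ⟨inferInstance, fun I hI => ?_⟩
  have := hI
  have : Finite (ρ.V ⧸ (I • (⊤ : Submodule A ρ.V))) := Module.finite_of_finite (A ⧸ I)
  exact (h I hI).exists_hopfAlgebra

end FLTAgent.TWPrimes
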